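import Fermat.Agent.S05.Defs

/-!
# S44 / GEO / COVER : two general facts on `RVal`          (helper27)

* `rvComap f v` : restriction of a valuation along a field homomorphism;
* `GE_of_isIntegral` : an element integral over a ring of `v`-integral elements is `v`-integral.
-/

set_option autoImplicit false

open Fermat.Agent.S05

namespace Fermat.Agent.S44.Cov

/-- restriction of a valuation along a field homomorphism -/
def rvComap {K L : Type*} [Field K] [Field L] (f : K →+* L) (v : RVal L) : RVal K where
  w x := v.w (f x)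
  map_mul x y hx hy := by
    rw [map_mul]
    exact v.map_mul _ _ ((map_ne_zero f).2 hx) ((map_ne_zero f).2 hy)
  map_add x y hx hy hxy := by
    rw [map_add]
    exact v.map_add _ _ ((map_ne_zero f).2 hx) ((map_ne_zero f).2 hy) (by rw [← map_add]; exact (map_ne_zero f).2 hxy)

section

variable {K L : Type*} [Field K] [Field L] (f : K →+* L) (v : RVal L)

@[simp] theorem rvComap_w (x : K) : (rvComap f v).w x = v.w (f x) := rfl

theorem rvComap_GE {x : K} {a : ℝ} : (rvComap f v).GE x a ↔ v.GE (f x) a := by
  unfold RVal.GE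
  rw [map_eq_zero f]
  rfl

theorem rvComap_GT {x : K} {a : ℝ} : (rvComap f v).GT x a ↔ v.GT (f x) a := by
  unfold RVal.GT
  rw [map_eq_zero f]
  rfl

theorem rvComap_EQ {x : K} {a : ℝ} : (rvComap f v).EQ x a ↔ v.EQ (f x) a := by
  unfold RVal.EQ
  rw [map_ne_zero f]
  rfl

end

theorem GT_sum {L : Type*} [Field L] (v : RVal L) {ι : Type*} (s : Finset ι) (g : ι → L) (a : ℝ)
    (h : ∀ i ∈ s, v.GT (g i) a) : v.GT (∑ i ∈ s, g i) a := by
  classical
  induction s using Finset.induction_on with
  | empty => rw [Finset.sum_empty]; exact RVal.GT_zero a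
  | insert i s hi ih =>
    rw [Finset.sum_insert hi]
    exact (h i (Finset.mem_insert_self i s)).add (ih fun j hj => h j (Finset.mem_insert_of_mem hj))

theorem GE_sum {L : Type*} [Field L] (v : RVal L) {ι : Type*} (s : Finset ι) (g : ι → L) (a : ℝ)
    (h : ∀ i ∈ s, v.GE (g i) a) : v.GE (∑ i ∈ s, g i) a := by
  classical
  induction s using Finset.induction_on with
  | empty => rw [Finset.sum_empty]; exact RVal.GE_zero a
  | insert i s hi ih =>
    rw [Finset.sum_insert hi]
    exact (h i (Finset.mem_insert_self i s)).add (ih fun j hj => h j (Finset.mem_insert_of_mem hj))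

/-- an element integral over a ring of `v`-integral elements is `v`-integral -/
theorem GE_of_isIntegral {R L : Type*} [CommRing R] [Field L] [Algebra R L] (v : RVal L)
    (hR : ∀ r : R, v.GE (algebraMap R L r) 0) {a : L} (ha : IsIntegral R a) : v.GE a 0 := by
  by_contra hcon
  have ha0 : a ≠ 0 := fun h => hcon (Or.inl h)
  have hlt : v.w a < 0 := by
    by_contra h
    exact hcon (Or.inr (not_lt.1 h))
  obtain ⟨P, hP, hPa⟩ := ha
  rw [← Polynomial.aeval_def, Polynomial.aeval_eq_sum_range, Finset.sum_range_succ, hP.coeff_natDegree, one_smul] at hPa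
  have h1 : v.GT (∑ i ∈ Finset.range P.natDegree, P.coeff i • a ^ i) (P.natDegree * v.w a) := by
    refine GT_sum v _ _ _ fun i hi => ?_
    rw [Algebra.smul_def]
    have h2 : v.GE (algebraMap R L (P.coeff i) * a ^ i) (0 + i * v.w a) :=
      (hR _).mul ((RVal.EQ_self ha0).pow i).GE
    refine h2.GT ?_
    have : (i : ℝ) < P.natDegree := by exact_mod_cast Finset.mem_range.1 hi
    nlinarith
  have h3 : a ^ P.natDegree = -∑ i ∈ Finset.range P.natDegree, P.coeff i • a ^ i := by
    linear_combination hPa
  have h4 := h1.neg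
  rw [← h3] at h4
  have := h4.lt_w (pow_ne_zero _ ha0)
  rw [RVal.w_pow ha0] at this
  exact lt_irrefl _ this

end Fermat.Agent.S44.Cov
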