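import Fermat.Agent.S44.Geo.Cov.Kum

/-!
# S44 / GEO / COVER / C1 : the abstract Kummer cover with a semilinear group action    (helper19)

`F ⊆ L` fields, `y₁ ∈ L`, `y₁ ^ p = t ∈ F`, `G` acts on `L` (ring automorphisms) stabilising `F`, `g y₁ = h y₁ ^ c` with `g ζ₀ = ζ₀ ^ c`.
`exists_absCov` : the package (`F'` an OPAQUE type).
-/

set_option autoImplicit false

open IntermediateField

namespace Fermat.Agent.S44.Cov

section Abs

variable {F L : Type*} [Field F] [Field L] [Algebra F L] {G : Type*} [Group G]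

theorem abs_stable (y₁ : L) (s : G →* (L ≃+* L)) (sF : G → F → F)
    (hs : ∀ g x, s g (algebraMap F L x) = algebraMap F L (sF g x))
    (hy : ∀ g, s g y₁ ∈ F⟮y₁⟯) (g : G) {x : L} (hx : x ∈ F⟮y₁⟯) : s g x ∈ F⟮y₁⟯ := by
  induction hx using IntermediateField.adjoin_induction with
  | mem x hx =>
    rw [Set.mem_singleton_iff] at hx
    rw [hx]
    exact hy g
  | algebraMap x =>
    rw [hs]
    exact IntermediateField.algebraMap_mem _ _
  | add x y _ _ h1 h2 =>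
    rw [map_add]
    exact add_mem h1 h2
  | inv x _ h1 =>
    rw [map_inv₀]
    exact inv_mem h1
  | mul x y _ _ h1 h2 =>
    rw [map_mul]
    exact mul_mem h1 h2

/-- the restricted action -/
def absAct (y₁ : L) (s : G →* (L ≃+* L)) (hst : ∀ g x, x ∈ F⟮y₁⟯ → s g x ∈ F⟮y₁⟯) :
    G →* (F⟮y₁⟯ ≃+* F⟮y₁⟯) where
  toFun g :=
    { toFun := fun x => ⟨s g x, hst g x x.2⟩
      invFun := fun x => ⟨s g⁻¹ x, hst g⁻¹ x x.2⟩
      left_inv := fun x => Subtype.ext (by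
        show s g⁻¹ (s g x) = x
        have h : (s g⁻¹ * s g) (x : L) = x := by
          rw [← map_mul, inv_mul_cancel, map_one]
          rfl
        exact h)
      right_inv := fun x => Subtype.ext (by
        show s g (s g⁻¹ x) = x
        have h : (s g * s g⁻¹) (x : L) = x := by
          rw [← map_mul, mul_inv_cancel, map_one]
          rfl
        exact h)
      map_mul' := fun x y => Subtype.ext (map_mul (s g) _ _)
      map_add' := fun x y => Subtype.ext (map_add (s g) _ _) }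
  map_one' := by
    ext x
    show s 1 x = x
    rw [map_one]
    rfl
  map_mul' g h := by
    ext x
    show s (g * h) x = s g (s h x)
    rw [map_mul]
    rfl

theorem coe_absAct (y₁ : L) (s : G →* (L ≃+* L)) (hst : ∀ g x, x ∈ F⟮y₁⟯ → s g x ∈ F⟮y₁⟯) (g : G)
    (x : F⟮y₁⟯) : ((absAct y₁ s hst g x : F⟮y₁⟯) : L) = s g x := rfl

end Abs

/-- **the abstract cover** -/
theorem exists_absCov {F L L' G : Type} [Field F] [Field L] [Field L'] [Algebra F L] [Group G]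
    (p : ℕ) (hp : p.Prime) (ζ₀ : F) (hζ₀ : IsPrimitiveRoot ζ₀ p) (t : F) (ht : t ≠ 0)
    (y₁ : L) (hy₁ : y₁ ^ p = algebraMap F L t)
    (s : G →* (L ≃+* L)) (sF : G → F → F)
    (hs : ∀ g x, s g (algebraMap F L x) = algebraMap F L (sF g x))
    (hy : ∀ g, ∃ (c : ℕ) (h : F), s g y₁ = algebraMap F L h * y₁ ^ c ∧ sF g ζ₀ = ζ₀ ^ c)
    (φ : F →+* L') (y₂ : L') (hy₂ : y₂ ^ p = φ t) (hy₂' : ∀ g : F, algebraMap F L g = y₁ → y₂ = φ g) :
    ∃ (F' : Type) (_ : Field F') (_ : Algebra F F') (y : F') (ι₁ : F' →+* L) (ι₂ : F' →+* L')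
      (act : G →* (F' ≃+* F')) (ζ : F) (δ : F' ≃ₐ[F] F'),
      (ζ = 1 ∨ ζ = ζ₀) ∧ (∀ k : ℕ, ζ ^ k = 1 ↔ ∃ g : F, t ^ k = g ^ p) ∧
      y ^ p = algebraMap F F' t ∧
      (∀ x : F', ∃ c : ℕ → F, x = ∑ i ∈ Finset.range p, algebraMap F F' (c i) * y ^ i) ∧
      (∀ x, ι₁ (algebraMap F F' x) = algebraMap F L x) ∧ ι₁ y = y₁ ∧
      (∀ x, ι₂ (algebraMap F F' x) = φ x) ∧ ι₂ y = y₂ ∧
      (∀ g x, ι₁ (act g x) = s g (ι₁ x)) ∧
      δ y = algebraMap F F' ζ * y ∧ (∀ g x, δ (act g x) = act g (δ x)) := by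
  have hst : ∀ g x, x ∈ F⟮y₁⟯ → s g x ∈ F⟮y₁⟯ := fun g x hx => by
    refine abs_stable y₁ s sF hs (fun g => ?_) g hx
    obtain ⟨c, h, h1, -⟩ := hy g
    rw [h1]
    exact mul_mem (IntermediateField.algebraMap_mem _ _) (pow_mem (mem_adjoin_simple_self F y₁) c)
  obtain ⟨ζ, δ, hζ, hζk, hδ⟩ := kum_delta p hp ζ₀ hζ₀ t ht y₁ hy₁
  obtain ⟨ι₂, hι₂, hι₂y⟩ := kum_lift p hp ζ₀ hζ₀ t y₁ hy₁ φ y₂ hy₂ hy₂'
  have hact : ∀ g x, absAct y₁ s hst g (algebraMap F F⟮y₁⟯ x) = algebraMap F F⟮y₁⟯ (sF g x) :=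
    fun g x => Subtype.ext (hs g x)
  refine ⟨F⟮y₁⟯, inferInstance, inferInstance, AdjoinSimple.gen F y₁, (algebraMap F⟮y₁⟯ L), ι₂,
    absAct y₁ s hst, ζ, δ, hζ, hζk, ?_, kum_gen p hp t y₁ hy₁, fun x => rfl, rfl, hι₂, hι₂y,
    fun g x => rfl, hδ, fun g x => ?_⟩
  · exact Subtype.ext hy₁
  · obtain ⟨c, h, h1, h2⟩ := hy g
    have h3 : absAct y₁ s hst g (AdjoinSimple.gen F y₁) =
        algebraMap F F⟮y₁⟯ h * AdjoinSimple.gen F y₁ ^ c := Subtype.ext h1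
    have h4 : sF g ζ = ζ ^ c := by
      rcases hζ with rfl | rfl
      · apply (algebraMap F L).injective
        rw [← hs, map_one, map_one, one_pow, map_one]
      · exact h2
    have h5 : ((δ : F⟮y₁⟯ →+* F⟮y₁⟯).comp (absAct y₁ s hst g : F⟮y₁⟯ →+* F⟮y₁⟯)) =
        ((absAct y₁ s hst g : F⟮y₁⟯ →+* F⟮y₁⟯).comp (δ : F⟮y₁⟯ →+* F⟮y₁⟯)) := by
      apply kum_ext p hp t y₁ hy₁
      · intro x
        show δ (absAct y₁ s hst g (algebraMap F F⟮y₁⟯ x)) = absAct y₁ s hst g (δ (algebraMap F F⟮y₁⟯ x))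
        rw [hact, δ.commutes, δ.commutes, hact]
      · show δ (absAct y₁ s hst g (AdjoinSimple.gen F y₁)) = absAct y₁ s hst g (δ (AdjoinSimple.gen F y₁))
        rw [h3, map_mul, δ.commutes, map_pow, hδ, map_mul, hact, h3, h4, mul_pow, map_pow]
        ring
    exact DFunLike.congr_fun h5 x

end Fermat.Agent.S44.Cov
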