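import Fermat.Agent.S33.Val.Binom

/-!
# S44 / GEO / COVER : C2a = [S44/COV-EXT]  extension of a real valuation to `F' = F(y)`, `y ^ p = t`, `t ≡ 1 mod p ^ 4`      (helper5; abstract: `S05.RVal` + `S33/Val/Binom`)

`(F, w)`, `w p = 1`, `w (t - 1) ≥ 4`, `F' = F[y]`, `y ^ p = t`, `t` not a `p`-th power in `F`.

* `ext_depth`  : `a, b ≡ 1 (> 1/(p-1))`, `a^p ≡ b^p (≥ B)` ⟹ `a ≡ b (≥ B - 1)`                 [`(1+x)^p - 1` has value `1 + w x` if `w x > 1/(p-1)`]
* `ext_newton` : approximate `p`-th roots of `t` inside any subfield `F0 ∋ t`                      [`s ↦ s (1 + (t / s^p - 1) / p)` : depth `b ↦ 2 b - 2`]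
* `ext_close`  : `W` extends `w`, `W (y - 1) > 1/(p-1)` ⟹ the approximate roots converge to `y` for `W`
* `exists_ext` : existence of `W` (`W (P(y)) :=` eventual value of `w (P(s_n))`; it stabilises because `X^p - t` is irreducible: Bezout)
* `ext_unique` : `W` is the only extension with `W (y - 1) > 1/(p-1)`
* `ext_dense`  : `F0`-rational approximation of `∑ c i y^i`, `c i ∈ F0`
* `exists_ext_of_surjective` : the degenerate case `F' = F`.
-/

set_option autoImplicit false

open Fermat.Agent.S05 Fermat.Agent.S55.B Fermat.Agent.S33 Polynomial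

namespace Fermat.Agent.S44.Cov

variable {p : ℕ}

theorem extAux_e_pos (hp : p.Prime) : 0 < 1 / ((p : ℝ) - 1) := by
  have : (1 : ℝ) < p := by exact_mod_cast hp.one_lt
  have h : (0 : ℝ) < (p : ℝ) - 1 := by linarith
  positivity

theorem extAux_e_le (hp : p.Prime) : 1 / ((p : ℝ) - 1) ≤ 1 := by
  have : (2 : ℝ) ≤ p := by exact_mod_cast hp.two_le
  have h : (1 : ℝ) ≤ (p : ℝ) - 1 := by linarith
  rw [div_le_one (by linarith)]
  exact h

theorem ext_depth {K : Type*} [Field K] {v : RVal K} (hp : p.Prime) (hv : v.EQ (p : K) 1) {a b : K}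
    (ha : v.GT (a - 1) (1 / ((p : ℝ) - 1))) (hb : v.GT (b - 1) (1 / ((p : ℝ) - 1))) {B : ℝ}
    (h : v.GE (a ^ p - b ^ p) B) : v.GE (a - b) (B - 1) := by
  have he := extAux_e_pos hp
  have hp1 : (0 : ℝ) < (p : ℝ) - 1 := by
    have : (1 : ℝ) < p := by exact_mod_cast hp.one_lt
    linarith
  have hb0 : v.EQ b 0 := EQ_zero_of_GT_sub_one (hb.mono he.le)
  by_cases hab : a - b = 0
  · exact Or.inl hab
  have hgt : v.GT (a - b) (1 / ((p : ℝ) - 1)) := by
    have := ha.sub hb
    rwa [sub_sub_sub_cancel_right] at this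
  set s := v.w (a - b) with hs
  have hs1 : 1 / ((p : ℝ) - 1) < s := hgt.lt_w hab
  have hs2 : 1 < ((p : ℝ) - 1) * s := by
    rw [div_lt_iff₀ hp1] at hs1
    linarith
  set x := (a - b) / b with hx
  have hxE : v.EQ x s := by
    have := (RVal.EQ_self (v := v) hab).div hb0
    rwa [sub_zero] at this
  have hx0 : v.GT x 0 := hxE.GT (by linarith)
  have hu : v.EQ (asQ p x) 0 := by
    rw [asQ_eq hp]
    refine (RVal.EQ_one (v := v)).add_GT ?_
    have := hx0.mul_GE (binAux_asQ' (hx0.GE le_rfl) p)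
    rwa [add_zero] at this
  have h1 : v.EQ ((p : K) * x * asQ p x) (1 + s) := by
    have := (hv.mul hxE).mul hu
    rwa [add_zero] at this
  have h2 : v.GT (x ^ p) (1 + s) := (hxE.pow p).GT (by linarith)
  have h3 : v.EQ ((1 + x) ^ p - 1) (1 + s) := by
    have e : (1 + x) ^ p - 1 = (p : K) * x * asQ p x + x ^ p := by rw [one_add_pow_eq hp]; ring
    rw [e]
    exact h1.add_GT h2
  have h4 : a ^ p - b ^ p = b ^ p * ((1 + x) ^ p - 1) := by
    have hb' := hb0.1
    have : 1 + x = a / b := by rw [hx]; field_simp; ring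
    rw [this, div_pow]
    field_simp
  have h5 : v.EQ (a ^ p - b ^ p) (1 + s) := by
    rw [h4]
    have := (hb0.pow p).mul h3
    simpa using this
  have h6 := h.le_w h5.1
  rw [h5.2] at h6
  exact Or.inr (by linarith)

variable {F : Type*} [Field F] {w : RVal F}

theorem ext_newton (hp : p.Prime) (hw : w.EQ (p : F) 1) {t : F} (ht : w.GE (t - 1) 4)
    (F0 : Subfield F) (ht0 : t ∈ F0) (B : ℝ) :
    ∃ s ∈ F0, w.GE (s - 1) 3 ∧ w.GE (s ^ p - t) B := by
  have key : ∀ n : ℕ, ∃ s ∈ F0, w.GE (s - 1) 3 ∧ w.GE (s ^ p - t) (4 + n) := by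
    intro n
    induction n with
    | zero =>
      refine ⟨1, F0.one_mem, by simpa using RVal.GE_zero (v := w) 3, ?_⟩
      have : (1 : F) ^ p - t = -(t - 1) := by ring
      rw [this]
      simpa using ht.neg
    | succ n ih =>
      obtain ⟨s, hs0, hs1, hs2⟩ := ih
      set b : ℝ := 4 + n with hb
      have hbn : (0 : ℝ) ≤ n := Nat.cast_nonneg n
      have hsE : w.EQ s 0 := EQ_zero_of_GT_sub_one (hs1.GT (by norm_num))
      have hsp : w.EQ (s ^ p) 0 := by simpa using hsE.pow p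
      set η : F := (t - s ^ p) / s ^ p / p with hη
      have hηG : w.GE η (b - 1) := by
        have h1 : w.GE (t - s ^ p) b := by
          have := hs2.neg
          rwa [neg_sub] at this
        have h2 : w.GE ((s ^ p)⁻¹) 0 := by simpa using (hsp.inv.GE le_rfl)
        have h3 : w.GE ((p : F)⁻¹) (-1) := hw.inv.GE le_rfl
        have := (h1.mul h2).mul h3
        rw [hη, div_eq_mul_inv, div_eq_mul_inv]
        exact this.mono (by linarith)
      have hη0 : w.GE η 0 := hηG.mono (by linarith)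
      refine ⟨s * (1 + η), ?_, ?_, ?_⟩
      · refine F0.mul_mem hs0 (F0.add_mem F0.one_mem ?_)
        exact F0.div_mem (F0.div_mem (F0.sub_mem ht0 (F0.pow_mem hs0 p)) (F0.pow_mem hs0 p))
          (natCast_mem F0 p)
      · have e : s * (1 + η) - 1 = (s - 1) + s * η := by ring
        rw [e]
        exact hs1.add (((hsE.GE le_rfl).mul hηG).mono (by linarith))
      · have e : (s * (1 + η)) ^ p - t = s ^ p * ((p : F) * (η * η) * asQ' p η + η ^ p) := by
          have hp0 := hw.1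
          have hs0' := hsp.1
          have e1 : s ^ p * (1 + (p : F) * η) = t := by
            rw [hη]; field_simp; ring
          rw [mul_pow, one_add_pow_eq hp, asQ_eq hp]
          linear_combination e1
        rw [e]
        have h1 : w.GE ((p : F) * (η * η) * asQ' p η) (b + 1) :=
          (((hw.GE le_rfl).mul (hηG.mul hηG)).mul (binAux_asQ' hη0 p)).mono (by linarith)
        have h2 : w.GE (η ^ p) (b + 1) := by
          refine (hηG.pow p).mono ?_
          have : (2 : ℝ) ≤ p := by exact_mod_cast hp.two_le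
          nlinarith
        have := (hsp.GE le_rfl).mul (h1.add h2)
        refine this.mono ?_
        push_cast
        linarith
  obtain ⟨n, hn⟩ := exists_nat_ge B
  obtain ⟨s, h0, h1, h2⟩ := key n
  exact ⟨s, h0, h1, h2.mono (by linarith)⟩

variable {F' : Type*} [Field F'] [Algebra F F']

theorem extAux_GE {W : RVal F'} (hext : ∀ f : F, f ≠ 0 → W.w (algebraMap F F' f) = w.w f) {f : F}
    {a : ℝ} (h : w.GE f a) : W.GE (algebraMap F F' f) a := by
  by_cases hf : f = 0
  · left; rw [hf, map_zero]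
  · right; rw [hext f hf]; exact h.le_w hf

theorem extAux_EQ {W : RVal F'} (hext : ∀ f : F, f ≠ 0 → W.w (algebraMap F F' f) = w.w f) {f : F}
    {a : ℝ} (h : w.EQ f a) : W.EQ (algebraMap F F' f) a :=
  ⟨(_root_.map_ne_zero _).2 h.1, by rw [hext f h.1]; exact h.2⟩

theorem ext_close (hp : p.Prime) (hw : w.EQ (p : F) 1) {t : F} {y : F'}
    (hy : y ^ p = algebraMap F F' t) {W : RVal F'}
    (hext : ∀ f : F, f ≠ 0 → W.w (algebraMap F F' f) = w.w f)
    (hy1 : W.GT (y - 1) (1 / ((p : ℝ) - 1))) {s : F} (hs : w.GE (s - 1) 3) {B : ℝ}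
    (hB : w.GE (s ^ p - t) B) : W.GE (y - algebraMap F F' s) (B - 1) := by
  refine ext_depth hp ?_ hy1 ?_ ?_
  · have := extAux_EQ hext hw
    rwa [map_natCast] at this
  · have := extAux_GE hext hs
    rw [map_sub, map_one] at this
    exact this.GT (by have := extAux_e_le hp; linarith)
  · have := (extAux_GE hext hB).neg
    rw [map_sub, map_pow, neg_sub, ← hy] at this
    exact this

/-! ### polynomials and valuations -/

theorem extAux_bound {K : Type*} [Field K] (v : RVal K) (Q : K[X]) :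
    ∃ m : ℝ, ∀ a : K, v.GE a 0 → v.GE (Q.eval a) m := by
  induction Q using Polynomial.induction_on' with
  | add P Q hP hQ =>
    obtain ⟨m1, h1⟩ := hP
    obtain ⟨m2, h2⟩ := hQ
    refine ⟨min m1 m2, fun a ha => ?_⟩
    rw [eval_add]
    exact ((h1 a ha).mono (min_le_left _ _)).add ((h2 a ha).mono (min_le_right _ _))
  | monomial n c =>
    refine ⟨v.w c, fun a ha => ?_⟩
    rw [eval_monomial]
    have h1 : v.GE c (v.w c) := Or.inr le_rfl
    have := h1.mul (ha.pow n)
    simpa using this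

theorem extAux_lip {K : Type*} [Field K] (v : RVal K) (Q : K[X]) :
    ∃ m : ℝ, ∀ a b : K, v.GE a 0 → v.GE b 0 → ∀ B : ℝ, v.GE (a - b) B →
      v.GE (Q.eval a - Q.eval b) (m + B) := by
  induction Q using Polynomial.induction_on' with
  | add P Q hP hQ =>
    obtain ⟨m1, h1⟩ := hP
    obtain ⟨m2, h2⟩ := hQ
    refine ⟨min m1 m2, fun a b ha hb B hB => ?_⟩
    have e : (P + Q).eval a - (P + Q).eval b = (P.eval a - P.eval b) + (Q.eval a - Q.eval b) := by
      rw [eval_add, eval_add]; ring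
    rw [e]
    exact ((h1 a b ha hb B hB).mono (by linarith [min_le_left m1 m2])).add
      ((h2 a b ha hb B hB).mono (by linarith [min_le_right m1 m2]))
  | monomial n c =>
    refine ⟨v.w c, fun a b ha hb B hB => ?_⟩
    rw [eval_monomial, eval_monomial, ← mul_sub]
    have h1 : v.GE c (v.w c) := Or.inr le_rfl
    exact h1.mul (GE_pow_sub_pow v ha hb hB n)

/-! ### the approximating sequence -/

section Seq

open Filter

variable {t : F} {s : ℕ → F}

theorem extAux_small (hs0 : ∀ n, w.GE (s n) 0) (hs2 : ∀ n : ℕ, w.GE (s n ^ p - t) n) {P : F[X]}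
    (hd : (X ^ p - C t) ∣ P) (B : ℝ) : ∀ᶠ n in atTop, w.GE (P.eval (s n)) B := by
  obtain ⟨Q, rfl⟩ := hd
  obtain ⟨m, hm⟩ := extAux_bound w Q
  filter_upwards [tendsto_natCast_atTop_atTop.eventually_ge_atTop (B - m)] with n hn
  rw [eval_mul, eval_sub, eval_pow, eval_X, eval_C]
  exact ((hs2 n).mul (hm _ (hs0 n))).mono (by linarith)

theorem extAux_above (hirr : Irreducible (X ^ p - C t : F[X])) (hs0 : ∀ n, w.GE (s n) 0)
    (hs2 : ∀ n : ℕ, w.GE (s n ^ p - t) n) {P : F[X]} (hd : ¬ (X ^ p - C t) ∣ P) :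
    ∃ M : ℝ, ∀ᶠ n in atTop, w.LE (P.eval (s n)) M := by
  obtain ⟨A1, B1, hAB⟩ := (hirr.coprime_iff_not_dvd).2 hd
  obtain ⟨m, hm⟩ := extAux_bound w B1
  refine ⟨-m, ?_⟩
  filter_upwards [extAux_small hs0 hs2 (Dvd.intro_left A1 rfl) 1] with n hn
  have e : (A1 * (X ^ p - C t)).eval (s n) + B1.eval (s n) * P.eval (s n) = 1 := by
    rw [← eval_mul, ← eval_add, hAB, eval_one]
  have h1 : w.EQ (B1.eval (s n) * P.eval (s n)) 0 := by
    have e' : B1.eval (s n) * P.eval (s n) = 1 - (A1 * (X ^ p - C t)).eval (s n) := by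
      rw [← e]; ring
    rw [e']
    exact (RVal.EQ_one (v := w)).sub_GT (hn.GT (by norm_num))
  have hB0 : B1.eval (s n) ≠ 0 := left_ne_zero_of_mul h1.1
  have hP0 : P.eval (s n) ≠ 0 := right_ne_zero_of_mul h1.1
  have h2 := h1.2
  rw [w.map_mul _ _ hB0 hP0] at h2
  have h3 := (hm _ (hs0 n)).le_w hB0
  exact ⟨hP0, by linarith⟩

theorem extAux_const (hirr : Irreducible (X ^ p - C t : F[X])) (hs0 : ∀ n, w.GE (s n) 0)
    (hs2 : ∀ n : ℕ, w.GE (s n ^ p - t) n)
    (hc : ∀ N n : ℕ, N ≤ n → w.GE (s n - s N) ((N : ℝ) - 1)) {P : F[X]}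
    (hd : ¬ (X ^ p - C t) ∣ P) : ∃ v : ℝ, ∀ᶠ n in atTop, w.EQ (P.eval (s n)) v := by
  obtain ⟨M, hM⟩ := extAux_above hirr hs0 hs2 hd
  obtain ⟨m, hm⟩ := extAux_lip w P
  obtain ⟨N, hN1, hN2⟩ := (hM.and
    (tendsto_natCast_atTop_atTop.eventually_gt_atTop (M - m + 1))).exists
  refine ⟨w.w (P.eval (s N)), ?_⟩
  filter_upwards [eventually_ge_atTop N] with n hn
  have h1 := hm (s n) (s N) (hs0 n) (hs0 N) _ (hc N n hn)
  have e : P.eval (s n) = P.eval (s N) + (P.eval (s n) - P.eval (s N)) := by ring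
  rw [e]
  exact (RVal.EQ_self hN1.1).add_GT (h1.GT (by linarith [hN1.2]))

end Seq

theorem extAux_surj {y : F'}
    (gen : ∀ x : F', ∃ c : ℕ → F, x = ∑ i ∈ Finset.range p, algebraMap F F' (c i) * y ^ i) (x : F') :
    ∃ P : F[X], aeval y P = x := by
  obtain ⟨c, rfl⟩ := gen x
  refine ⟨∑ i ∈ Finset.range p, C (c i) * X ^ i, ?_⟩
  rw [map_sum]
  exact Finset.sum_congr rfl fun i _ => by rw [map_mul, aeval_C, map_pow, aeval_X]

open Filter in
theorem exists_ext (hp : p.Prime) (hw : w.EQ (p : F) 1) {t : F} (ht : w.GE (t - 1) 4)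
    (hirr : ¬ ∃ g : F, t = g ^ p) {y : F'} (hy : y ^ p = algebraMap F F' t)
    (gen : ∀ x : F', ∃ c : ℕ → F, x = ∑ i ∈ Finset.range p, algebraMap F F' (c i) * y ^ i) :
    ∃ W : RVal F', (∀ f : F, f ≠ 0 → W.w (algebraMap F F' f) = w.w f) ∧ W.GE (y - 1) 2 := by
  classical
  have hirr' : Irreducible (X ^ p - C t : F[X]) :=
    X_pow_sub_C_irreducible_of_prime hp (fun b hb => hirr ⟨b, hb.symm⟩)
  choose s hs using fun n : ℕ => ext_newton hp hw ht ⊤ (Subfield.mem_top t) (n : ℝ)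
  have hs1 : ∀ n, w.GE (s n - 1) 3 := fun n => (hs n).2.1
  have hs2 : ∀ n : ℕ, w.GE (s n ^ p - t) n := fun n => (hs n).2.2
  have hs0 : ∀ n, w.GE (s n) 0 := fun n =>
    (EQ_zero_of_GT_sub_one ((hs1 n).GT (by norm_num))).GE le_rfl
  have he1 := extAux_e_le hp
  have hc : ∀ N n : ℕ, N ≤ n → w.GE (s n - s N) ((N : ℝ) - 1) := by
    intro N n hn
    refine ext_depth hp hw ((hs1 n).GT (by linarith)) ((hs1 N).GT (by linarith)) ?_
    have e : s n ^ p - s N ^ p = (s n ^ p - t) - (s N ^ p - t) := by ring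
    rw [e]
    exact ((hs2 n).mono (by exact_mod_cast hn)).sub (hs2 N)
  have hroot : aeval y (X ^ p - C t : F[X]) = 0 := by
    rw [map_sub, map_pow, aeval_X, aeval_C, hy, sub_self]
  have hdvd : ∀ P : F[X], aeval y P = 0 ↔ (X ^ p - C t) ∣ P := by
    intro P
    have hmin : (X ^ p - C t : F[X]) = minpoly F y :=
      minpoly.eq_of_irreducible_of_monic hirr' hroot (monic_X_pow_sub_C t hp.ne_zero)
    rw [hmin]
    exact (minpoly.dvd_iff).symm
  have hsurj := extAux_surj gen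
  have hLim_ex : ∀ x : F', x ≠ 0 → ∃ v : ℝ, ∀ P : F[X], aeval y P = x →
      ∀ᶠ n in atTop, w.EQ (P.eval (s n)) v := by
    intro x hx
    obtain ⟨P, hP⟩ := hsurj x
    have hd : ¬ (X ^ p - C t) ∣ P := fun h => hx (by rw [← hP]; exact (hdvd P).2 h)
    obtain ⟨v, hv⟩ := extAux_const hirr' hs0 hs2 hc hd
    refine ⟨v, fun P' hP' => ?_⟩
    have hd' : (X ^ p - C t) ∣ (P' - P) := (hdvd _).1 (by rw [map_sub, hP, hP', sub_self])
    filter_upwards [hv, extAux_small hs0 hs2 hd' (v + 1)] with n h1 h2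
    have e : P'.eval (s n) = P.eval (s n) + (P' - P).eval (s n) := by rw [eval_sub]; ring
    rw [e]
    exact h1.add_GT (h2.GT (by linarith))
  let Wf : F' → ℝ := fun x => if h : x = 0 then 0 else (hLim_ex x h).choose
  have hWf : ∀ (x : F') (h : x ≠ 0), ∀ P : F[X], aeval y P = x →
      ∀ᶠ n in atTop, w.EQ (P.eval (s n)) (Wf x) := by
    intro x h
    simp only [Wf, dif_neg h]
    exact (hLim_ex x h).choose_spec
  have hval : ∀ (x : F') (_ : x ≠ 0) (v : ℝ) (P : F[X]), aeval y P = x →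
      (∀ᶠ n in atTop, w.EQ (P.eval (s n)) v) → Wf x = v := by
    intro x hx v P hP hv
    obtain ⟨n, h1, h2⟩ := ((hWf x hx P hP).and hv).exists
    exact h1.2.symm.trans h2.2
  let W : RVal F' :=
    { w := Wf
      map_mul := by
        intro x x' hx hx'
        obtain ⟨P, hP⟩ := hsurj x
        obtain ⟨P', hP'⟩ := hsurj x'
        refine hval (x * x') (mul_ne_zero hx hx') _ (P * P') (by rw [map_mul, hP, hP']) ?_
        filter_upwards [hWf x hx P hP, hWf x' hx' P' hP'] with n h1 h2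
        rw [eval_mul]
        exact h1.mul h2
      map_add := by
        intro x x' hx hx' hxx
        obtain ⟨P, hP⟩ := hsurj x
        obtain ⟨P', hP'⟩ := hsurj x'
        obtain ⟨n, h1, h2, h3⟩ := ((hWf x hx P hP).and ((hWf x' hx' P' hP').and
          (hWf (x + x') hxx (P + P') (by rw [map_add, hP, hP'])))).exists
        rw [eval_add] at h3
        rw [← h1.2, ← h2.2, ← h3.2]
        exact w.map_add _ _ h1.1 h2.1 h3.1 }
  refine ⟨W, ?_, ?_⟩
  · intro f hf
    exact hval (algebraMap F F' f) ((_root_.map_ne_zero _).2 hf) (w.w f) (C f) (aeval_C _ _)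
      (Eventually.of_forall fun n => by rw [eval_C]; exact RVal.EQ_self hf)
  · by_cases h1 : y - 1 = 0
    · exact Or.inl h1
    · right
      obtain ⟨n, hn⟩ := (hWf (y - 1) h1 (X - 1) (by rw [map_sub, aeval_X, map_one])).exists
      rw [eval_sub, eval_X, eval_one] at hn
      show 2 ≤ Wf (y - 1)
      rw [← hn.2]
      have := (hs1 n).le_w hn.1
      linarith

theorem extAux_approx (hp : p.Prime) (hw : w.EQ (p : F) 1) {t : F} {y : F'}
    (hy : y ^ p = algebraMap F F' t) {W : RVal F'}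
    (hext : ∀ f : F, f ≠ 0 → W.w (algebraMap F F' f) = w.w f)
    (hy1 : W.GT (y - 1) (1 / ((p : ℝ) - 1))) (P : F[X]) :
    ∃ m : ℝ, ∀ (s : F) (B : ℝ), w.GE (s - 1) 3 → w.GE (s ^ p - t) B →
      W.GE (aeval y P - algebraMap F F' (P.eval s)) (m + (B - 1)) := by
  obtain ⟨m, hm⟩ := extAux_lip W (P.map (algebraMap F F'))
  refine ⟨m, fun s B hs hB => ?_⟩
  have hcl := ext_close hp hw hy hext hy1 hs hB
  have hy0 : W.GE y 0 := (EQ_zero_of_GT_sub_one (hy1.mono (extAux_e_pos hp).le)).GE le_rfl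
  have hs0 : W.GE (algebraMap F F' s) 0 :=
    extAux_GE hext ((EQ_zero_of_GT_sub_one (hs.GT (by norm_num))).GE le_rfl)
  have := hm y (algebraMap F F' s) hy0 hs0 _ hcl
  rwa [eval_map_algebraMap, eval_map, eval₂_at_apply] at this

theorem ext_unique (hp : p.Prime) (hw : w.EQ (p : F) 1) {t : F} (ht : w.GE (t - 1) 4) {y : F'}
    (hy : y ^ p = algebraMap F F' t)
    (gen : ∀ x : F', ∃ c : ℕ → F, x = ∑ i ∈ Finset.range p, algebraMap F F' (c i) * y ^ i)
    {W W' : RVal F'} (hext : ∀ f : F, f ≠ 0 → W.w (algebraMap F F' f) = w.w f)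
    (hext' : ∀ f : F, f ≠ 0 → W'.w (algebraMap F F' f) = w.w f)
    (hy1 : W.GT (y - 1) (1 / ((p : ℝ) - 1))) (hy1' : W'.GT (y - 1) (1 / ((p : ℝ) - 1))) :
    ∀ x : F', x ≠ 0 → W.w x = W'.w x := by
  intro x hx
  obtain ⟨P, rfl⟩ := extAux_surj gen x
  obtain ⟨m, hm⟩ := extAux_approx hp hw hy hext hy1 P
  obtain ⟨m', hm'⟩ := extAux_approx hp hw hy hext' hy1' P
  obtain ⟨s, -, hs1, hs2⟩ := ext_newton hp hw ht ⊤ (Subfield.mem_top t)
    (max (W.w (aeval y P) - m) (W'.w (aeval y P) - m') + 2)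
  have key : ∀ {V : RVal F'} (_ : ∀ f : F, f ≠ 0 → V.w (algebraMap F F' f) = w.w f),
      V.GT (aeval y P - algebraMap F F' (P.eval s)) (V.w (aeval y P)) →
      V.w (aeval y P) = w.w (P.eval s) := by
    intro V hV h
    have h1 := (RVal.EQ_self (v := V) hx).sub_GT h
    rw [sub_sub_cancel] at h1
    have h0 : P.eval s ≠ 0 := fun h0 => h1.1 (by rw [h0, map_zero])
    rw [← h1.2, hV _ h0]
  rw [key hext ((hm s _ hs1 hs2).GT (by
      have := le_max_left (W.w (aeval y P) - m) (W'.w (aeval y P) - m'); linarith)),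
    key hext' ((hm' s _ hs1 hs2).GT (by
      have := le_max_right (W.w (aeval y P) - m) (W'.w (aeval y P) - m'); linarith))]

theorem ext_dense (hp : p.Prime) (hw : w.EQ (p : F) 1) {t : F} (ht : w.GE (t - 1) 4) {y : F'}
    (hy : y ^ p = algebraMap F F' t) {W : RVal F'}
    (hext : ∀ f : F, f ≠ 0 → W.w (algebraMap F F' f) = w.w f)
    (hy1 : W.GT (y - 1) (1 / ((p : ℝ) - 1))) (F0 : Subfield F) (ht0 : t ∈ F0) (c : ℕ → F)
    (hc : ∀ i, c i ∈ F0) (B : ℝ) :
    ∃ f ∈ F0, W.GE (∑ i ∈ Finset.range p, algebraMap F F' (c i) * y ^ i - algebraMap F F' f) B := by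
  set P : F[X] := ∑ i ∈ Finset.range p, C (c i) * X ^ i with hP
  have hPy : aeval y P = ∑ i ∈ Finset.range p, algebraMap F F' (c i) * y ^ i := by
    rw [hP, map_sum]
    exact Finset.sum_congr rfl fun i _ => by rw [map_mul, aeval_C, map_pow, aeval_X]
  obtain ⟨m, hm⟩ := extAux_approx hp hw hy hext hy1 P
  obtain ⟨s, hs0, hs1, hs2⟩ := ext_newton hp hw ht F0 ht0 (B - m + 1)
  refine ⟨P.eval s, ?_, ?_⟩
  · rw [hP, eval_finsetSum]
    refine F0.sum_mem fun i _ => ?_
    rw [eval_mul, eval_C, eval_pow, eval_X]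
    exact F0.mul_mem (hc i) (F0.pow_mem hs0 i)
  · rw [← hPy]
    exact (hm s _ hs1 hs2).mono (by linarith)

/-- the degenerate case `F' = F` -/
theorem exists_ext_of_surjective (w : RVal F) (h : Function.Surjective (algebraMap F F')) :
    ∃ W : RVal F', ∀ f : F, W.w (algebraMap F F' f) = w.w f := by
  let e : F ≃+* F' := RingEquiv.ofBijective (algebraMap F F') ⟨(algebraMap F F').injective, h⟩
  have he : ∀ x : F', x ≠ 0 → e.symm x ≠ 0 := fun x hx h0 => hx (by
    have := congrArg e h0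
    rwa [e.apply_symm_apply, map_zero] at this)
  refine ⟨{ w := fun x => w.w (e.symm x)
            map_mul := fun x x' hx hx' => by
              rw [map_mul]; exact w.map_mul _ _ (he x hx) (he x' hx')
            map_add := fun x x' hx hx' hxx => by
              rw [map_add]
              exact w.map_add _ _ (he x hx) (he x' hx') (by rw [← map_add]; exact he _ hxx) },
    fun f => ?_⟩
  show w.w (e.symm (algebraMap F F' f)) = w.w f
  have : e.symm (algebraMap F F' f) = f := e.symm_apply_apply f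
  rw [this]

end Fermat.Agent.S44.Cov
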