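import Fermat.Agent.S44.Geo.Cov.Defs
import Fermat.Agent.S44.Mod.Ker
import Fermat.Agent.S33.M.F

/-!
# S44 / GEO / COVER : [GLUE]          (helper1)   key `S44/COV-GLUE`

`n` a *node* of the rational chart ring `BB S b` (a proper ideal containing `ker r1` and `ker r2`).

* `glue` : `H ∈ C_b`, `H ≡ a (> d)` for `wG`, `H ≡ a' (> d)` for `wZ`, `a a' : Kb` constants  ⟹  `a ≡ a' (> d)`.
  [otherwise `Z := (H - a') / (a - a') ∈ B0 ∩ VV = C_b` has `ρ1 Z = 1`, `ρ2 Z = 0`; `Mod.exists_rat`: `c' ∈ BB`, `r1 c' = 1`, `r2 c' = 0`: `c' ∈ n`, `1 - c' ∈ n`.]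
* `exists_root_near` (abstract): `w (ζ - 1) = e₁`‑type statement: `H ^ p ≡ 1 (> p e)`, and `ζ` primitive  ⟹  `∃ j < p, H ≡ ζ ^ j (> e)`.
* `glue_root` : `h ^ p * t ^ c = gal σ t` (`σ ∈ I`, `Cyc σ c`, `t` good)  ⟹  `∃ j, h ≡ ζ ^ j (> e₁)` for BOTH `wG` and `wZ`.
-/

set_option autoImplicit false
set_option synthInstance.maxHeartbeats 400000
set_option linter.unusedSectionVars false

open HahnSeries ModularCurve AlgebraicCurve Polynomial Fermat.Agent.S24 Fermat.Agent.S29 Fermat.Agent.S18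
  Fermat.Agent.ES Fermat.Agent.ES.Alg Fermat.Agent.S34.Mod Fermat.Agent.S34.T Fermat.Agent.S05
  Fermat.Agent.S55.B ExtCitation Fermat.Agent.S33 Fermat.Agent.S33.M
open Fermat.Agent.S55 (Dq Iq)

noncomputable section

namespace Fermat.Agent.S44.Cov

variable {q : Nat.Primes} {M1 r : ℕ} [NeZero M1] [NeZero (q : ℕ)] [NeZero r]
variable (S : Setup M1 (q : ℕ) r (AA q))

/-- **[GLUE]**, abstract form: the two components meet at the node `n` -/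
theorem glue (b : Bool) (n : Ideal (Mod.BB S b)) (hn : n ≠ ⊤)
    (h1 : RingHom.ker (Mod.r1 S b) ≤ n) (h2 : RingHom.ker (Mod.r2 S b) ≤ n)
    {H : FN (M1 * (q : ℕ))} (hH : H ∈ KL.C0 (AA q) (S.θM b) (FN (M1 * (q : ℕ))))
    {a a' : Kb} {d : ℝ}
    (hG : (wG q (M1 * (q : ℕ))).GT (H - algebraMap Kb (FN (M1 * (q : ℕ))) a) d)
    (hZ : (wZ q S.hc).GT (H - algebraMap Kb (FN (M1 * (q : ℕ))) a') d) :
    (wq q).GT (a - a') d := by
  rcases RVal.GE_or_LE (v := wq q) (a - a') d with h | h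
  · exact h
  exfalso
  obtain ⟨h0, hle⟩ := h
  have hi : GE2 S.hc (algebraMap Kb (FN (M1 * (q : ℕ))) (a - a')⁻¹) (-d) :=
    GE2_algebraMap (Or.inr (by rw [RVal.w_inv h0]; linarith))
  have hne : algebraMap Kb (FN (M1 * (q : ℕ))) (a - a') ≠ 0 :=
    (_root_.map_ne_zero _).2 h0
  obtain ⟨Z, hZdef⟩ : ∃ Z, Z = (H - algebraMap Kb (FN (M1 * (q : ℕ))) a') *
    algebraMap Kb (FN (M1 * (q : ℕ))) (a - a')⁻¹ := ⟨_, rfl⟩
  have hZ1 : Z - 1 = (H - algebraMap Kb (FN (M1 * (q : ℕ))) a) *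
      algebraMap Kb (FN (M1 * (q : ℕ))) (a - a')⁻¹ := by
    rw [hZdef, map_inv₀]
    rw [map_sub] at hne ⊢
    field_simp
    ring
  have g1 : (wG q (M1 * (q : ℕ))).GT (Z - 1) 0 := by
    rw [hZ1]
    simpa using hG.mul_GE hi.1
  have g2 : (wZ q S.hc).GT Z 0 := by
    rw [hZdef]
    simpa using hZ.mul_GE hi.2
  have k1 : (wG q (M1 * (q : ℕ))).GE Z 0 := by
    have := (g1.GE le_rfl).add ((RVal.EQ_one (v := wG q (M1 * (q : ℕ)))).GE le_rfl)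
    rwa [sub_add_cancel] at this
  have hB : Z ∈ KL.B0 Kb (S.θM b) (FN (M1 * (q : ℕ))) := by
    rw [hZdef]
    exact mul_mem (sub_mem (KL.C0_le_B0 _ hH) (Mod.const_mem_B0 S b _)) (Mod.const_mem_B0 S b _)
  have hC := Mod.mem_C0_of_GE S b hB k1 (g2.GE le_rfl)
  obtain ⟨c', e1, e2⟩ := Mod.exists_rat S b ⟨Z, hC⟩
  have r2z : ρ2 S b ⟨Z, hC⟩ = 0 := (Mod.rho2_eq_zero_iff S b _).mpr g2
  have r1z : ρ1 S b (⟨Z, hC⟩ - 1) = 0 := (Mod.rho1_eq_zero_iff S b _).mpr g1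
  rw [map_sub, map_one, sub_eq_zero] at r1z
  have m2 : c' ∈ n := h2 (by rw [RingHom.mem_ker, e2, r2z])
  have m1 : 1 - c' ∈ n := h1 (by rw [RingHom.mem_ker, map_sub, map_one, e1, r1z, sub_self])
  apply hn
  rw [Ideal.eq_top_iff_one]
  have := n.add_mem m1 m2
  rwa [sub_add_cancel] at this

section AbsRoot

variable {F : Type*} [Field F]

theorem glueAux_LE_prod (w : RVal F) {ι : Type*} (s : Finset ι) (f : ι → F) {e : ℝ}
    (h : ∀ i ∈ s, w.LE (f i) e) : w.LE (∏ i ∈ s, f i) (s.card * e) := by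
  classical
  induction s using Finset.induction_on with
  | empty => simpa using (RVal.EQ_one (v := w)).LE le_rfl
  | insert a s ha ih =>
    rw [Finset.prod_insert ha, Finset.card_insert_of_notMem ha]
    have := (h a (Finset.mem_insert_self a s)).mul (ih fun i hi => h i (Finset.mem_insert_of_mem hi))
    convert this using 1
    push_cast
    ring

/-- `H ^ p ≡ 1 (> p e)` ⟹ `H ≡ ζ ^ j (> e)` for some `j` -/
theorem exists_root_near (w : RVal F) {p : ℕ} (hp : 0 < p) {ζ : F} (hζ : IsPrimitiveRoot ζ p)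
    {e : ℝ} {H : F} (hH : w.GT (H ^ p - 1) (p * e)) : ∃ j < p, w.GT (H - ζ ^ j) e := by
  have : NeZero p := ⟨hp.ne'⟩
  by_contra hcon
  have hcon : ∀ j < p, ¬ w.GT (H - ζ ^ j) e := fun j hj h => hcon ⟨j, hj, h⟩
  have h1 := hζ.pow_sub_pow_eq_prod_sub_mul H 1 hp
  rw [one_pow] at h1
  have h2 : w.LE (∏ μ ∈ nthRootsFinset p (1 : F), (H - μ * 1)) ((nthRootsFinset p (1 : F)).card * e) := by
    apply glueAux_LE_prod
    intro μ hμ
    rw [mem_nthRootsFinset hp] at hμ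
    obtain ⟨j, hj, rfl⟩ := hζ.eq_pow_of_pow_eq_one hμ
    rw [mul_one]
    rcases RVal.GE_or_LE (v := w) (H - ζ ^ j) e with h | h
    · exact absurd h (hcon j hj)
    · exact h
  rw [hζ.card_nthRootsFinset, ← h1] at h2
  exact hH.not_LE h2 le_rfl

end AbsRoot

/-- two `p`-th roots of unity which are congruent `(> e₁)` are equal -/
theorem root_eq_of_GT {a a' : Kb} (ha : a ^ (q : ℕ) = 1) (ha' : a' ^ (q : ℕ) = 1)
    (h : (wq q).GT (a - a') (1 / (((q : ℕ) : ℝ) - 1))) : a = a' := by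
  by_contra hne
  have ha'0 : a' ≠ 0 := fun h0 => by
    rw [h0, zero_pow q.2.ne_zero] at ha'
    exact zero_ne_one ha'
  have hz : (a / a') ^ (q : ℕ) = 1 := by rw [div_pow, ha, ha', div_one]
  have hz1 : a / a' ≠ 1 := fun h1 => hne ((div_eq_one_iff_eq ha'0).1 h1)
  have hprim : IsPrimitiveRoot (a / a') (q : ℕ) :=
    isPrimitiveRoot_of_mem_nthRootsFinset q.2 ((mem_nthRootsFinset q.2.pos _).2 hz) hz1
  have hw := w_pi q hprim
  have hwa' : (wq q).EQ a' 0 := by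
    refine ⟨ha'0, ?_⟩
    have h1 := RVal.w_pow (v := wq q) ha'0 (q : ℕ)
    rw [ha', RVal.w_one] at h1
    have hq : ((q : ℕ) : ℝ) ≠ 0 := by exact_mod_cast q.2.ne_zero
    rcases mul_eq_zero.1 h1.symm with h2 | h2
    · exact absurd h2 hq
    · exact h2
  have h3 := hw.mul hwa'
  have e : (a / a' - 1) * a' = a - a' := by field_simp
  rw [e, add_zero] at h3
  exact h.not_LE (h3.LE le_rfl) le_rfl

/-- **[GLUE]** for the root `h` of `h ^ p * t ^ c = σ t` : the SAME `j` on both components -/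
theorem glue_root (b : Bool) (n : Ideal (Mod.BB S b)) (hn : n ≠ ⊤)
    (h1 : RingHom.ker (Mod.r1 S b) ≤ n) (h2 : RingHom.ker (Mod.r2 S b) ≤ n)
    {t : FN (M1 * (q : ℕ))} (hT : GoodT q M1 S.hc t) {σ : GQ} (hσ : σ ∈ Iq q) {c : ℕ}
    (hc : Cyc (q : ℕ) σ c) {h : FN (M1 * (q : ℕ))}
    (hh : h ^ (q : ℕ) * t ^ c = gal (M1 * (q : ℕ)) σ t) {ζ : Kb}
    (hζ : IsPrimitiveRoot ζ (q : ℕ)) :
    ∃ j < (q : ℕ), GT2 S.hc (h - algebraMap Kb (FN (M1 * (q : ℕ))) (ζ ^ j))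
      (1 / (((q : ℕ) : ℝ) - 1)) := by
  have hq2 : (2 : ℝ) ≤ ((q : ℕ) : ℝ) := by exact_mod_cast q.2.two_le
  have hq1' : (0 : ℝ) < ((q : ℕ) : ℝ) - 1 := by linarith
  have he : 0 < 1 / (((q : ℕ) : ℝ) - 1) := div_pos one_pos hq1'
  have hep4 : ((q : ℕ) : ℝ) / (((q : ℕ) : ℝ) - 1) < 4 := by
    rw [div_lt_iff₀ hq1']
    linarith
  have hep : (0 : ℝ) ≤ ((q : ℕ) : ℝ) / (((q : ℕ) : ℝ) - 1) := (div_pos (by linarith) hq1').le
  have ht0 : t ≠ 0 := hT.pdiv.1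
  have hu1 : GT2 S.hc (t - 1) (((q : ℕ) : ℝ) / (((q : ℕ) : ℝ) - 1)) :=
    ⟨hT.deep₁.GT hep4, hT.deep₂.GT hep4⟩
  obtain ⟨f, hf, hf1⟩ := exists_II_pi S b hT.pdiv hu1.toGE2
  have hm := phi_mem S b ht0 hf hσ c
  have hφ := phi_cong S hu1 hf1 hσ hc
  have hv := v_cong S hep hu1 hσ c
  have hvh : gal (M1 * (q : ℕ)) σ t * t⁻¹ ^ c = h ^ (q : ℕ) := by
    rw [← hh, mul_assoc, ← mul_pow, mul_inv_cancel₀ ht0, one_pow, mul_one]
  rw [hvh] at hv hm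
  obtain ⟨φ, hφdef⟩ : ∃ φ, φ = gal (M1 * (q : ℕ)) σ f * (f ^ ((q : ℕ) - 1) * t) ^ c := ⟨_, rfl⟩
  rw [← hφdef] at hm hφ
  have hHp : (φ * h) ^ (q : ℕ) ∈ KL.C0 (AA q) (S.θM b) (FN (M1 * (q : ℕ))) := by
    rw [mul_pow]
    exact hm
  have hH := mem_C0_of_pow_mem q.2.pos hHp
  have hζF : IsPrimitiveRoot (algebraMap Kb (FN (M1 * (q : ℕ))) ζ) (q : ℕ) :=
    hζ.map_of_injective (algebraMap Kb (FN (M1 * (q : ℕ)))).injective
  have hpe : ((q : ℕ) : ℝ) * (1 / (((q : ℕ) : ℝ) - 1)) = ((q : ℕ) : ℝ) / (((q : ℕ) : ℝ) - 1) := by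
    ring
  obtain ⟨j, hj, hj1⟩ := exists_root_near (wG q (M1 * (q : ℕ))) q.2.pos hζF (H := h)
    (e := 1 / (((q : ℕ) : ℝ) - 1)) (by rw [hpe]; exact hv.1)
  obtain ⟨j', hj', hj2⟩ := exists_root_near (wZ q S.hc) q.2.pos hζF (H := h)
    (e := 1 / (((q : ℕ) : ℝ) - 1)) (by rw [hpe]; exact hv.2)
  rw [← map_pow] at hj1 hj2
  have hcst : ∀ k : ℕ, GE2 S.hc (algebraMap Kb (FN (M1 * (q : ℕ))) (ζ ^ k)) 0 := by
    intro k
    apply GE2_algebraMap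
    have h0 : ζ ^ k ≠ 0 := pow_ne_zero _ (hζ.ne_zero q.2.ne_zero)
    refine Or.inr ?_
    have h1 := RVal.w_pow (v := wq q) h0 (q : ℕ)
    rw [← pow_mul, mul_comm, pow_mul, hζ.pow_eq_one, one_pow, RVal.w_one] at h1
    have hq : ((q : ℕ) : ℝ) ≠ 0 := by exact_mod_cast q.2.ne_zero
    rcases mul_eq_zero.1 h1.symm with h2 | h2
    · exact absurd h2 hq
    · exact h2.ge
  have i1 : (wG q (M1 * (q : ℕ))).GE h 0 := by
    have := (hj1.GE he.le).add (hcst j).1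
    rwa [sub_add_cancel] at this
  have i2 : (wZ q S.hc).GE h 0 := by
    have := (hj2.GE he.le).add (hcst j').2
    rwa [sub_add_cancel] at this
  have H1 : (wG q (M1 * (q : ℕ))).GT (φ * h - algebraMap Kb (FN (M1 * (q : ℕ))) (ζ ^ j))
      (1 / (((q : ℕ) : ℝ) - 1)) := by
    have e : φ * h - algebraMap Kb (FN (M1 * (q : ℕ))) (ζ ^ j) =
        (φ - 1) * h + (h - algebraMap Kb (FN (M1 * (q : ℕ))) (ζ ^ j)) := by ring
    rw [e]
    have := hφ.1.mul_GE i1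
    rw [add_zero] at this
    exact this.add hj1
  have H2 : (wZ q S.hc).GT (φ * h - algebraMap Kb (FN (M1 * (q : ℕ))) (ζ ^ j'))
      (1 / (((q : ℕ) : ℝ) - 1)) := by
    have e : φ * h - algebraMap Kb (FN (M1 * (q : ℕ))) (ζ ^ j') =
        (φ - 1) * h + (h - algebraMap Kb (FN (M1 * (q : ℕ))) (ζ ^ j')) := by ring
    rw [e]
    have := hφ.2.mul_GE i2
    rw [add_zero] at this
    exact this.add hj2
  have hg := glue S b n hn h1 h2 hH H1 H2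
  have hjj : ζ ^ j = ζ ^ j' := root_eq_of_GT
    (by rw [← pow_mul, mul_comm, pow_mul, hζ.pow_eq_one, one_pow])
    (by rw [← pow_mul, mul_comm, pow_mul, hζ.pow_eq_one, one_pow]) hg
  exact ⟨j, hj, hj1, by rw [hjj]; exact hj2⟩

/-- **[GLUE]** : `h ≡ 1 (> e₁)` on the component `∞` iff on the component `0` -/
theorem glue_one (b : Bool) (n : Ideal (Mod.BB S b)) (hn : n ≠ ⊤)
    (h1 : RingHom.ker (Mod.r1 S b) ≤ n) (h2 : RingHom.ker (Mod.r2 S b) ≤ n)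
    {t : FN (M1 * (q : ℕ))} (hT : GoodT q M1 S.hc t) {σ : GQ} (hσ : σ ∈ Iq q) {c : ℕ}
    (hc : Cyc (q : ℕ) σ c) {h : FN (M1 * (q : ℕ))}
    (hh : h ^ (q : ℕ) * t ^ c = gal (M1 * (q : ℕ)) σ t) :
    (wG q (M1 * (q : ℕ))).GT (h - 1) (1 / (((q : ℕ) : ℝ) - 1)) ↔
      (wZ q S.hc).GT (h - 1) (1 / (((q : ℕ) : ℝ) - 1)) := by
  obtain ⟨ζ, hζ⟩ := cycAux_exists_prim q
  obtain ⟨j, -, hj⟩ := glue_root S b n hn h1 h2 hT hσ hc hh hζ
  have hp : (ζ ^ j) ^ (q : ℕ) = 1 := by rw [← pow_mul, mul_comm, pow_mul, hζ.pow_eq_one, one_pow]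
  have key : ∀ v : RVal (FN (M1 * (q : ℕ))),
      (∀ a : Kb, a ≠ 0 → v.w (algebraMap Kb (FN (M1 * (q : ℕ))) a) = (wq q).w a) →
      v.GT (h - algebraMap Kb (FN (M1 * (q : ℕ))) (ζ ^ j)) (1 / (((q : ℕ) : ℝ) - 1)) →
      v.GT (h - 1) (1 / (((q : ℕ) : ℝ) - 1)) → ζ ^ j = 1 := by
    intro v hv k1 k2
    apply root_eq_of_GT hp (one_pow _)
    by_cases h0 : ζ ^ j - 1 = 0
    · exact Or.inl h0
    refine Or.inr ?_
    rw [← hv _ h0]
    have := k2.sub k1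
    have e : h - 1 - (h - algebraMap Kb (FN (M1 * (q : ℕ))) (ζ ^ j)) =
        algebraMap Kb (FN (M1 * (q : ℕ))) (ζ ^ j - 1) := by
      rw [map_sub, map_one]; ring
    rw [e] at this
    exact this.lt_w ((_root_.map_ne_zero _).2 h0)
  constructor
  · intro k
    have := key _ (fun a ha => wG_algebraMap ha) hj.1 k
    have h3 := hj.2
    rwa [this, map_one] at h3
  · intro k
    have := key _ (fun a ha => by rw [wZ_apply, (Wq S.hc).commutes]; exact wG_algebraMap ha) hj.2 k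
    have h3 := hj.1
    rwa [this, map_one] at h3

end Fermat.Agent.S44.Cov
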