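import Fermat.Agent.S33.Rat.Orth

/-!
# S44 / GEO / COVER : common levels          (helper20, key `S44/COV-LEV`)
-/

set_option autoImplicit false

open Fermat.Agent.S33 Fermat.Agent.S05 Fermat.Agent.S55.B ExtCitation
open Fermat.Agent.S55 (Dq Iq GQ Qb)

noncomputable section

namespace Fermat.Agent.S44.Cov

theorem theta_finset {ι : Type*} (s : Finset ι) (θ : ι → Qb) :
    ∃ θ' : Qb, ∀ σ : GQ, σ θ' = θ' → ∀ i ∈ s, σ (θ i) = θ i := by
  classical
  have hfin : FiniteDimensional ℚ (IntermediateField.adjoin ℚ ((s.image θ : Finset Qb) : Set Qb)) :=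
    IntermediateField.finiteDimensional_adjoin (fun x _ => (Algebra.IsAlgebraic.isAlgebraic x).isIntegral)
  obtain ⟨θ', h⟩ := exists_theta (IntermediateField.adjoin ℚ ((s.image θ : Finset Qb) : Set Qb))
  refine ⟨θ', fun σ hσ i hi => h σ hσ _ (IntermediateField.subset_adjoin _ _ ?_)⟩
  exact Finset.mem_coe.2 (Finset.mem_image_of_mem θ hi)

theorem theta_pair (θ₁ θ₂ : Qb) : ∃ θ : Qb, ∀ σ : GQ, σ θ = θ → σ θ₁ = θ₁ ∧ σ θ₂ = θ₂ := by
  obtain ⟨θ, h⟩ := theta_finset (Finset.univ : Finset Bool) (fun b => if b then θ₁ else θ₂)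
  exact ⟨θ, fun σ hσ => ⟨by simpa using h σ hσ true (Finset.mem_univ _),
    by simpa using h σ hσ false (Finset.mem_univ _)⟩⟩

end Fermat.Agent.S44.Cov
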