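import Fermat.Agent.S44.Geo.Cov.Fld
import Fermat.Agent.S44.Geo.Cov.Ext
import Fermat.Agent.S44.Geo.Cov.Glue
import Fermat.Agent.S44.Geo.Cov.Lev
import Fermat.Agent.S44.Geo.Cov.RV

/-!
# S44 / GEO / COVER / C2 : assembly of `Cov` from `CovFld` (C1), `Ext`, `Glue`, `Link`          key `S44/COV-ASM`   (helper29)
-/

set_option autoImplicit false
set_option synthInstance.maxHeartbeats 400000
set_option linter.dupNamespace false

open HahnSeries ModularCurve AlgebraicCurve Fermat.Agent.S24 Fermat.Agent.S29 Fermat.Agent.S18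
  Fermat.Agent.ES Fermat.Agent.ES.Alg Fermat.Agent.S34.Mod Fermat.Agent.S05 Fermat.Agent.S55.B ExtCitation
  Fermat.Agent.S33 Fermat.Agent.S33.M
open Fermat.Agent.S55 (Dq Iq)

noncomputable section

namespace Fermat.Agent.S44.Cov

variable {q : Nat.Primes} {M1 : ℕ} [NeZero M1] [NeZero (q : ℕ)]

/-- the statement of [LINK] -/
def LinkP (q : Nat.Primes) (M1 : ℕ) [NeZero M1] [NeZero (q : ℕ)] (hc : Nat.Coprime (q : ℕ) M1) : Prop :=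
  ∀ (t h : FN (M1 * (q : ℕ))), PDiv Kb (FN (M1 * (q : ℕ))) (q : ℕ) t →
    GT2 hc (t - 1) (((q : ℕ) : ℝ) / (((q : ℕ) : ℝ) - 1)) → ∀ σ ∈ Iq q, ∀ c : ℕ, Cyc (q : ℕ) σ c →
    gal (M1 * (q : ℕ)) σ t = t ^ c * h ^ (q : ℕ) → ∀ b1 : Kb, b1 ^ (q : ℕ) = lcF (M1 * (q : ℕ)) t →
    ∃ μ : Kb, μ ^ (q : ℕ) = 1 ∧
      (wG q (M1 * (q : ℕ))).GT (h - algebraMap Kb (FN (M1 * (q : ℕ))) μ) (1 / (((q : ℕ) : ℝ) - 1)) ∧
      lcF (M1 * (q : ℕ)) h * b1 ^ c = μ * σ b1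

section Abs

variable {K : Type*} [Field K]

theorem asmAux_GT_pow_sub_one {v : RVal K} {x : K} {e : ℝ} (he : 0 ≤ e) (hx : v.GT (x - 1) e) (c : ℕ) :
    v.GT (x ^ c - 1) e := by
  induction c with
  | zero => rw [pow_zero, sub_self]; exact RVal.GT_zero e
  | succ c ih => rw [pow_succ]; exact GT_mul_sub_one he ih hx

theorem asmAux_GT {F F' : Type*} [Field F] [Field F'] [Algebra F F'] {w : RVal F} {W : RVal F'}
    (hext : ∀ f : F, f ≠ 0 → W.w (algebraMap F F' f) = w.w f) {f : F} {a : ℝ} (h : w.GT f a) :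
    W.GT (algebraMap F F' f) a := by
  by_cases hf : f = 0
  · left; rw [hf, map_zero]
  · right; rw [hext f hf]; exact h.lt_w hf

theorem asmAux_leadingCoeff_pow (y : LaurentSeries K) (n : ℕ) :
    (y ^ n).leadingCoeff = y.leadingCoeff ^ n := by
  induction n with
  | zero => rw [pow_zero, pow_zero]; exact HahnSeries.leadingCoeff_one
  | succ n ih => rw [pow_succ, pow_succ, HahnSeries.leadingCoeff_mul, ih]

end Abs

theorem exists_theta_family {N : ℕ} [NeZero N] {ι : Type*} (s : Finset ι) (f : ι → FN N) :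
    ∃ θ : Qb, ∀ H : Subgroup GQ, ∀ i ∈ s, f i ∈ ratF N (stab H θ) := by
  choose L hL hLθ using fun i => exists_theta_fun (f i)
  choose θ hθ using fun i => (haveI := hL i; exists_theta (L i))
  obtain ⟨θ', h⟩ := theta_finset s θ
  exact ⟨θ', fun H i hi => hLθ i θ' (fun σ hσ a ha => hθ i σ (h σ hσ i hi) a ha) H⟩

namespace CovFld

variable {hc : Nat.Coprime (q : ℕ) M1} {t : FN (M1 * (q : ℕ))} {b₁ b₂ : Kb} {F' : Type} [Field F']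
  [Algebra (FN (M1 * (q : ℕ))) F'] (D : CovFld q M1 hc t b₁ b₂ F')

theorem act_alg (σ : ↥(Iq q)) (x : FN (M1 * (q : ℕ))) :
    D.act σ (algebraMap (FN (M1 * (q : ℕ))) F' x) =
      algebraMap (FN (M1 * (q : ℕ))) F' (gal (M1 * (q : ℕ)) (σ : GQ) x) := by
  apply D.ι₁.injective
  rw [D.ι₁_act, D.ι₁_alg, D.ι₁_alg]
  rfl

theorem y_ne_zero (ht0 : t ≠ 0) : D.y ≠ 0 := by
  intro h0
  have := D.y_pow
  rw [h0, zero_pow q.2.ne_zero] at this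
  exact ht0 ((map_eq_zero _).1 this.symm)

/-- semilinearity of the root -/
theorem exists_h (hT : GoodT q M1 hc t) (σ : ↥(Iq q)) :
    ∃ (c : ℕ) (h : FN (M1 * (q : ℕ))), Cyc (q : ℕ) (σ : GQ) c ∧
      h ^ (q : ℕ) * t ^ c = gal (M1 * (q : ℕ)) (σ : GQ) t ∧
      D.act σ D.y = algebraMap (FN (M1 * (q : ℕ))) F' h * D.y ^ c := by
  obtain ⟨ζ, hζ⟩ := cycAux_exists_prim q
  obtain ⟨c, hcyc⟩ := fldAux_exists_cyc (σ : GQ) hζ
  obtain ⟨h₀, hh₀⟩ := hT.act σ σ.2 c hcyc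
  have ht0 : t ≠ 0 := hT.pdiv.1
  have hy0 := D.y_ne_zero ht0
  have hh0 : h₀ ≠ 0 := by
    rintro rfl
    rw [zero_pow q.2.ne_zero, mul_zero] at hh₀
    exact ht0 ((map_eq_zero _).1 hh₀)
  have hz0 : algebraMap (FN (M1 * (q : ℕ))) F' h₀ * D.y ^ c ≠ 0 :=
    mul_ne_zero ((_root_.map_ne_zero _).2 hh0) (pow_ne_zero _ hy0)
  have h1 : (D.act σ D.y) ^ (q : ℕ) = (algebraMap (FN (M1 * (q : ℕ))) F' h₀ * D.y ^ c) ^ (q : ℕ) := by
    rw [← map_pow, D.y_pow, D.act_alg, hh₀, map_mul, map_pow, map_pow, mul_pow, ← pow_mul, mul_comm c,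
      pow_mul, D.y_pow, mul_comm]
  have hζ' : IsPrimitiveRoot (algebraMap (FN (M1 * (q : ℕ))) F' (algebraMap Kb (FN (M1 * (q : ℕ))) ζ))
      (q : ℕ) :=
    (hζ.map_of_injective (algebraMap Kb (FN (M1 * (q : ℕ)))).injective).map_of_injective
      (algebraMap (FN (M1 * (q : ℕ))) F').injective
  have h2 : (D.act σ D.y / (algebraMap (FN (M1 * (q : ℕ))) F' h₀ * D.y ^ c)) ^ (q : ℕ) = 1 := by
    rw [div_pow, h1, div_self (pow_ne_zero _ hz0)]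
  obtain ⟨i, -, hi⟩ := hζ'.eq_pow_of_pow_eq_one h2
  refine ⟨c, algebraMap Kb (FN (M1 * (q : ℕ))) (ζ ^ i) * h₀, hcyc, ?_, ?_⟩
  · rw [mul_pow, ← map_pow, ← pow_mul, mul_comm i, pow_mul, hζ.pow_eq_one, one_pow, map_one, one_mul,
      hh₀]
    exact mul_comm _ _
  · rw [map_mul, map_pow, map_pow, hi, mul_assoc, div_mul_cancel₀ _ hz0]

/-- invariance of the distinguished extension -/
theorem inv_of {w : RVal (FN (M1 * (q : ℕ)))} (hw : w.EQ (((q : ℕ) : ℕ) : FN (M1 * (q : ℕ))) 1)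
    (ht : w.GE (t - 1) 4) (hgal : ∀ σ ∈ Iq q, ∀ f, w.w (gal (M1 * (q : ℕ)) σ f) = w.w f)
    {W : RVal F'} (hext : ∀ f : FN (M1 * (q : ℕ)), f ≠ 0 → W.w (algebraMap (FN (M1 * (q : ℕ))) F' f) = w.w f)
    (hy : W.GE (D.y - 1) 2) (σ : ↥(Iq q)) {c : ℕ} {h : FN (M1 * (q : ℕ))}
    (hact : D.act σ D.y = algebraMap (FN (M1 * (q : ℕ))) F' h * D.y ^ c)
    (hh : w.GT (h - 1) (1 / (((q : ℕ) : ℝ) - 1))) (x : F') : W.w (D.act σ x) = W.w x := by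
  by_cases hx : x = 0
  · rw [hx, map_zero]
  have he := extAux_e_pos q.2
  have he1 := extAux_e_le q.2
  have hy1 : W.GT (D.y - 1) (1 / (((q : ℕ) : ℝ) - 1)) := hy.GT (by linarith)
  have hext' : ∀ f : FN (M1 * (q : ℕ)), f ≠ 0 →
      (rvComap ((D.act σ : F' ≃+* F') : F' →+* F') W).w (algebraMap (FN (M1 * (q : ℕ))) F' f) = w.w f := by
    intro f hf
    show W.w (D.act σ (algebraMap (FN (M1 * (q : ℕ))) F' f)) = _
    rw [D.act_alg, hext _ ((_root_.map_ne_zero _).2 hf), hgal σ σ.2]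
  have hy1' : (rvComap ((D.act σ : F' ≃+* F') : F' →+* F') W).GT (D.y - 1) (1 / (((q : ℕ) : ℝ) - 1)) := by
    rw [rvComap_GT]
    show W.GT (D.act σ (D.y - 1)) _
    rw [map_sub, map_one, hact]
    refine GT_mul_sub_one he.le ?_ (asmAux_GT_pow_sub_one he.le hy1 c)
    have := asmAux_GT hext hh
    rwa [map_sub, map_one] at this
  exact (ext_unique q.2 hw ht D.y_pow D.gen hext hext' hy1 hy1' x hx).symm

/-- integrality of the values on the rational elements -/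
theorem int_of {w : RVal (FN (M1 * (q : ℕ)))} (hw : w.EQ (((q : ℕ) : ℕ) : FN (M1 * (q : ℕ))) 1)
    (ht : w.GE (t - 1) 4)
    {W : RVal F'} (hext : ∀ f : FN (M1 * (q : ℕ)), f ≠ 0 → W.w (algebraMap (FN (M1 * (q : ℕ))) F' f) = w.w f)
    (hy : W.GE (D.y - 1) 2) (hinv : ∀ (σ : ↥(Iq q)) (x : F'), W.w (D.act σ x) = W.w x)
    (hint : ∀ f ∈ Mod.EE q M1, f ≠ 0 → ∃ n : ℤ, w.w f = n) (x : F') (hx0 : x ≠ 0)
    (hx : ∀ σ : ↥(Iq q), D.act σ x = x) : ∃ n : ℤ, W.w x = n := by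
  have he1 := extAux_e_le q.2
  have hy1 : W.GT (D.y - 1) (1 / (((q : ℕ) : ℝ) - 1)) := hy.GT (by linarith)
  obtain ⟨c, hxc⟩ := D.gen x
  obtain ⟨θ, hθ⟩ := exists_theta_family (Finset.range ((q : ℕ) + 1))
    (fun i => Nat.casesOn i t c : ℕ → FN (M1 * (q : ℕ)))
  have htθ : t ∈ ratF (M1 * (q : ℕ)) (stab (Iq q) θ) := hθ (Iq q) 0 (Finset.mem_range.2 (Nat.succ_pos _))
  have hcθ : ∀ i, (if i < (q : ℕ) then c i else 0) ∈ ratF (M1 * (q : ℕ)) (stab (Iq q) θ) := by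
    intro i
    split_ifs with hi
    · exact hθ (Iq q) (i + 1) (Finset.mem_range.2 (Nat.succ_lt_succ hi))
    · exact zero_mem _
  have hxc' : x = ∑ i ∈ Finset.range (q : ℕ),
      algebraMap (FN (M1 * (q : ℕ))) F' (if i < (q : ℕ) then c i else 0) * D.y ^ i := by
    rw [hxc]
    exact Finset.sum_congr rfl fun i hi => by rw [if_pos (Finset.mem_range.1 hi)]
  obtain ⟨R⟩ := exists_retr q (le_refl (Iq q)) (by rw [Subgroup.relIndex_self]; exact one_ne_zero) θ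
  obtain ⟨m, hm⟩ : ∃ m : ℝ, ∀ i, W.GE (algebraMap (FN (M1 * (q : ℕ))) F'
      (algebraMap Kb (FN (M1 * (q : ℕ))) (R.μ i))) m := by
    refine ⟨-∑ i, |W.w (algebraMap (FN (M1 * (q : ℕ))) F' (algebraMap Kb (FN (M1 * (q : ℕ))) (R.μ i)))|,
      fun i => Or.inr ?_⟩
    have h1 := Finset.single_le_sum (f := fun i => |W.w (algebraMap (FN (M1 * (q : ℕ))) F'
      (algebraMap Kb (FN (M1 * (q : ℕ))) (R.μ i)))|) (fun _ _ => abs_nonneg _) (Finset.mem_univ i)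
    have h2 := neg_abs_le (W.w (algebraMap (FN (M1 * (q : ℕ))) F'
      (algebraMap Kb (FN (M1 * (q : ℕ))) (R.μ i))))
    linarith
  obtain ⟨f, hf0, hf⟩ := ext_dense q.2 hw ht D.y_pow hext hy1 (ratF (M1 * (q : ℕ)) (stab (Iq q) θ)) htθ _ hcθ
    (W.w x - m + 1)
  rw [← hxc'] at hf
  have hE : R.E (M1 * (q : ℕ)) f ∈ Mod.EE q M1 := R.E_mem le_rfl hf0
  have key : x - algebraMap (FN (M1 * (q : ℕ))) F' (R.E (M1 * (q : ℕ)) f) =
      ∑ i, algebraMap (FN (M1 * (q : ℕ))) F' (algebraMap Kb (FN (M1 * (q : ℕ))) (R.μ i)) *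
        D.act ⟨R.s i, R.mem i⟩ (x - algebraMap (FN (M1 * (q : ℕ))) F' f) := by
    rw [R.E_apply, map_sum]
    simp_rw [map_sub, hx, D.act_alg, mul_sub, map_mul]
    rw [Finset.sum_sub_distrib, ← Finset.sum_mul, ← map_sum, ← map_sum, R.one, map_one, map_one, one_mul]
  have h1 : W.GE (x - algebraMap (FN (M1 * (q : ℕ))) F' (R.E (M1 * (q : ℕ)) f)) (W.w x + 1) := by
    rw [key]
    refine GE_sum W _ _ _ fun i _ => ?_
    have h2 : W.GE (D.act ⟨R.s i, R.mem i⟩ (x - algebraMap (FN (M1 * (q : ℕ))) F' f)) (W.w x - m + 1) := by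
      rcases hf with h0 | h0
      · left; rw [h0, map_zero]
      · right; rw [hinv]; exact h0
    exact ((hm i).mul h2).mono (by linarith)
  have h3 : W.EQ (algebraMap (FN (M1 * (q : ℕ))) F' (R.E (M1 * (q : ℕ)) f)) (W.w x) := by
    have e : algebraMap (FN (M1 * (q : ℕ))) F' (R.E (M1 * (q : ℕ)) f) =
        x + -(x - algebraMap (FN (M1 * (q : ℕ))) F' (R.E (M1 * (q : ℕ)) f)) := by ring
    rw [e]
    exact (RVal.EQ_self hx0).add_GT (h1.neg.GT (by linarith))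
  have hE0 : R.E (M1 * (q : ℕ)) f ≠ 0 := fun h0 => h3.1 (by rw [h0, map_zero])
  obtain ⟨n, hn⟩ := hint _ hE hE0
  exact ⟨n, by rw [← h3.2, hext _ hE0, hn]⟩

/-- equivariance of the expansion at the cusp `0'` -/
theorem iota2_act (ht0 : t ≠ 0) (σ : ↥(Iq q)) {c : ℕ} {h : FN (M1 * (q : ℕ))}
    (hact : D.act σ D.y = algebraMap (FN (M1 * (q : ℕ))) F' h * D.y ^ c)
    (hlc : lcF (M1 * (q : ℕ)) (Wq hc h) * b₂ ^ c = (σ : GQ) b₂) (x : F') :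
    D.ι₂ (D.act σ x) = coeffMap (((σ : GQ) : Kb ≃ₐ[ℚ] Kb) : Kb →+* Kb) (D.ι₂ x) := by
  have hA : ∀ f : FN (M1 * (q : ℕ)), D.ι₂ (D.act σ (algebraMap (FN (M1 * (q : ℕ))) F' f)) =
      coeffMap (((σ : GQ) : Kb ≃ₐ[ℚ] Kb) : Kb →+* Kb) (D.ι₂ (algebraMap (FN (M1 * (q : ℕ))) F' f)) := by
    intro f
    rw [D.act_alg, D.ι₂_alg, D.ι₂_alg, ← gal_Wq q.2 hc]
    rfl
  have hy0 : D.ι₂ D.y ≠ 0 := (_root_.map_ne_zero _).2 (D.y_ne_zero ht0)
  have hY : D.ι₂ (D.act σ D.y) = coeffMap (((σ : GQ) : Kb ≃ₐ[ℚ] Kb) : Kb →+* Kb) (D.ι₂ D.y) := by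
    obtain ⟨ζ, hζ⟩ := cycAux_exists_prim q
    apply root_unique q.2.pos hζ (coeffMap_ne_zero' _ hy0)
    · rw [← map_pow, ← map_pow, ← map_pow, ← map_pow, D.y_pow, hA]
    · rw [leadingCoeff_coeffMap, D.lc₂, hact, map_mul, map_pow, D.ι₂_alg, HahnSeries.leadingCoeff_mul,
        asmAux_leadingCoeff_pow, D.lc₂]
      exact hlc
  obtain ⟨a, rfl⟩ := D.gen x
  simp only [map_sum, map_mul, map_pow, hA, hY]

variable {r : ℕ} [NeZero r]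

/-- the three congruences: [LINK] at `∞`, [GLUE], [LINK] at `0` -/
theorem h_facts (S : Setup M1 (q : ℕ) r (AA q)) (hL : LinkP q M1 S.hc) (b : Bool) (n : Ideal (Mod.BB S b))
    (hn : n ≠ ⊤) (h1 : RingHom.ker (Mod.r1 S b) ≤ n) (h2 : RingHom.ker (Mod.r2 S b) ≤ n)
    (hT : GoodT q M1 S.hc t) (hb₁ : b₁ ^ (q : ℕ) = (t : LaurentSeries Kb).leadingCoeff)
    (hb₂ : b₂ ^ (q : ℕ) = ((Wq S.hc t : FN (M1 * (q : ℕ))) : LaurentSeries Kb).leadingCoeff)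
    (D : CovFld q M1 S.hc t b₁ b₂ F') (σ : ↥(Iq q)) {c : ℕ} {h : FN (M1 * (q : ℕ))}
    (hcyc : Cyc (q : ℕ) (σ : GQ) c) (hh : h ^ (q : ℕ) * t ^ c = gal (M1 * (q : ℕ)) (σ : GQ) t)
    (hact : D.act σ D.y = algebraMap (FN (M1 * (q : ℕ))) F' h * D.y ^ c) :
    (wG q (M1 * (q : ℕ))).GT (h - 1) (1 / (((q : ℕ) : ℝ) - 1)) ∧
      (wZ q S.hc).GT (h - 1) (1 / (((q : ℕ) : ℝ) - 1)) ∧
      lcF (M1 * (q : ℕ)) (Wq S.hc h) * b₂ ^ c = (σ : GQ) b₂ := by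
  have hq2 : (2 : ℝ) ≤ ((q : ℕ) : ℝ) := by exact_mod_cast q.2.two_le
  have hlt : ((q : ℕ) : ℝ) / (((q : ℕ) : ℝ) - 1) < 4 := by
    rw [div_lt_iff₀ (by linarith)]
    linarith
  have ht0 : t ≠ 0 := hT.pdiv.1
  have hdeep : GT2 S.hc (t - 1) (((q : ℕ) : ℝ) / (((q : ℕ) : ℝ) - 1)) :=
    ⟨hT.deep₁.GT hlt, hT.deep₂.GT hlt⟩
  have hb₁0 : b₁ ≠ 0 := by
    rintro rfl
    rw [zero_pow q.2.ne_zero] at hb₁
    exact ht0 (Subtype.ext (HahnSeries.leadingCoeff_eq_zero.1 hb₁.symm))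
  obtain ⟨μ, hμ, hμG, hμl⟩ := hL t h hT.pdiv hdeep σ σ.2 c hcyc (by rw [← hh]; exact mul_comm _ _) b₁ hb₁
  have hl : lcF (M1 * (q : ℕ)) h * b₁ ^ c = (σ : GQ) b₁ := by
    have h3 : (D.ι₁ (D.act σ D.y)).leadingCoeff =
        (D.ι₁ (algebraMap (FN (M1 * (q : ℕ))) F' h * D.y ^ c)).leadingCoeff := by rw [hact]
    rw [D.ι₁_act, leadingCoeff_coeffMap, D.lc₁, map_mul, map_pow, D.ι₁_alg, HahnSeries.leadingCoeff_mul,
      asmAux_leadingCoeff_pow, D.lc₁] at h3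
    exact h3.symm
  have hσb : (σ : GQ) b₁ ≠ 0 := (_root_.map_ne_zero _).2 hb₁0
  have hμ1 : μ = 1 := by
    rw [hl] at hμl
    exact (mul_right_cancel₀ hσb (by rw [one_mul]; exact hμl)).symm
  rw [hμ1, map_one] at hμG
  have hZ := (glue_one S b n hn h1 h2 hT σ.2 hcyc hh).1 hμG
  refine ⟨hμG, hZ, ?_⟩
  have hdeep' : GT2 S.hc (Wq S.hc t - 1) (((q : ℕ) : ℝ) / (((q : ℕ) : ℝ) - 1)) := by
    constructor
    · have := (wZ_GT_iff S.hc).1 hdeep.2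
      rwa [map_sub, map_one] at this
    · rw [wZ_GT_iff, map_sub, map_one, Wq_Wq]
      exact hdeep.1
  obtain ⟨μ', hμ', hμG', hμl'⟩ := hL (Wq S.hc t) (Wq S.hc h) (PDiv.Wq S.hc hT.pdiv) hdeep' σ σ.2 c hcyc
    (by rw [gal_Wq q.2, ← hh, map_mul, map_pow, map_pow]; exact mul_comm _ _) b₂ hb₂
  have h4 : (wG q (M1 * (q : ℕ))).GT (Wq S.hc h - 1) (1 / (((q : ℕ) : ℝ) - 1)) := by
    have := (wZ_GT_iff S.hc).1 hZ
    rwa [map_sub, map_one] at this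
  have h5 : (wG q (M1 * (q : ℕ))).GT (algebraMap Kb (FN (M1 * (q : ℕ))) (μ' - 1))
      (1 / (((q : ℕ) : ℝ) - 1)) := by
    have := h4.sub hμG'
    rwa [sub_sub_sub_cancel_left, ← map_one (algebraMap Kb (FN (M1 * (q : ℕ)))), ← map_sub] at this
  have h6 : (wq q).GT (μ' - 1) (1 / (((q : ℕ) : ℝ) - 1)) := by
    by_cases h0 : μ' - 1 = 0
    · exact Or.inl h0
    · right
      rw [← wG_algebraMap (N := M1 * (q : ℕ)) h0]
      exact h5.lt_w ((_root_.map_ne_zero _).2 h0)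
  have hμ'1 := root_eq_of_GT hμ' (one_pow _) h6
  rw [hμ'1, one_mul] at hμl'
  exact hμl'

end CovFld

variable {r : ℕ} [NeZero r]

/-- **C2** : the cover, from [LINK] -/
theorem exists_cov_of_link (S : Setup M1 (q : ℕ) r (AA q)) (hL : LinkP q M1 S.hc) (b : Bool)
    (n : Ideal (Mod.BB S b)) (hn : n ≠ ⊤) (h1 : RingHom.ker (Mod.r1 S b) ≤ n)
    (h2 : RingHom.ker (Mod.r2 S b) ≤ n) {t : FN (M1 * (q : ℕ))} (hT : GoodT q M1 S.hc t)
    (hdeg : (∃ g : FN (M1 * (q : ℕ)), t = g ^ (q : ℕ)) → t = 1) :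
    ∃ (F' : Type) (_ : Field F') (_ : Algebra (FN (M1 * (q : ℕ))) F'), Nonempty (Cov q M1 S.hc t F') := by
  obtain ⟨ζ₀, hζ₀⟩ := cycAux_exists_prim q
  have ht0 : t ≠ 0 := hT.pdiv.1
  obtain ⟨b₁, b₂, hb₁, hb₂, hdeg'⟩ : ∃ b₁ b₂ : Kb, b₁ ^ (q : ℕ) = (t : LaurentSeries Kb).leadingCoeff ∧
      b₂ ^ (q : ℕ) = ((Wq S.hc t : FN (M1 * (q : ℕ))) : LaurentSeries Kb).leadingCoeff ∧
      ((∃ g : FN (M1 * (q : ℕ)), t = g ^ (q : ℕ)) → t = 1 ∧ b₁ = 1 ∧ b₂ = 1) := by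
    by_cases hp : ∃ g : FN (M1 * (q : ℕ)), t = g ^ (q : ℕ)
    · have ht1 := hdeg hp
      refine ⟨1, 1, ?_, ?_, fun _ => ⟨ht1, rfl, rfl⟩⟩
      · rw [ht1, one_pow]
        exact HahnSeries.leadingCoeff_one.symm
      · rw [ht1, one_pow, map_one]
        exact HahnSeries.leadingCoeff_one.symm
    · obtain ⟨b₁, hb₁⟩ := IsAlgClosed.exists_pow_nat_eq (t : LaurentSeries Kb).leadingCoeff q.2.pos
      obtain ⟨b₂, hb₂⟩ := IsAlgClosed.exists_pow_nat_eq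
        ((Wq S.hc t : FN (M1 * (q : ℕ))) : LaurentSeries Kb).leadingCoeff q.2.pos
      exact ⟨b₁, b₂, hb₁, hb₂, fun h => absurd h hp⟩
  obtain ⟨F', _, _, ⟨D⟩⟩ := exists_covFld hT b₁ b₂ hb₁ hb₂ hdeg'
  have hW : ∀ w : RVal (FN (M1 * (q : ℕ))), w.EQ (((q : ℕ) : ℕ) : FN (M1 * (q : ℕ))) 1 → w.GE (t - 1) 4 →
      ∃ W : RVal F', (∀ f : FN (M1 * (q : ℕ)), f ≠ 0 → W.w (algebraMap (FN (M1 * (q : ℕ))) F' f) = w.w f) ∧
        W.GE (D.y - 1) 2 := by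
    intro w hw ht
    by_cases hp : ∃ g : FN (M1 * (q : ℕ)), t = g ^ (q : ℕ)
    · obtain ⟨ht1, hb1, -⟩ := hdeg' hp
      have hy1 : D.y = 1 := by
        apply D.ι₁.injective
        rw [map_one]
        refine root_unique q.2.pos hζ₀ one_ne_zero ?_ ?_
        · rw [← map_pow, D.y_pow, D.ι₁_alg, ht1, one_pow]
          rfl
        · rw [D.lc₁, hb1]
          exact HahnSeries.leadingCoeff_one.symm
      have hsurj : Function.Surjective (algebraMap (FN (M1 * (q : ℕ))) F') := by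
        intro x
        obtain ⟨c, rfl⟩ := D.gen x
        refine ⟨∑ i ∈ Finset.range (q : ℕ), c i, ?_⟩
        rw [map_sum]
        exact Finset.sum_congr rfl fun i _ => by rw [hy1, one_pow, mul_one]
      obtain ⟨W, hW⟩ := exists_ext_of_surjective w hsurj
      exact ⟨W, fun f _ => hW f, by rw [hy1, sub_self]; exact RVal.GE_zero 2⟩
    · exact exists_ext q.2 hw ht hp D.y_pow D.gen
  obtain ⟨W₁, hext₁, hy₁⟩ := hW (wG q (M1 * (q : ℕ))) Mod.wG_q hT.deep₁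
  obtain ⟨W₂, hext₂, hy₂⟩ := hW (wZ q S.hc) (Mod.wZ_q S) hT.deep₂
  have he1 := extAux_e_le q.2
  have hgalZ : ∀ σ ∈ Iq q, ∀ f, (wZ q S.hc).w (gal (M1 * (q : ℕ)) σ f) = (wZ q S.hc).w f := by
    intro σ hσ f
    rw [wZ_apply, wZ_apply, ← gal_Wq q.2, wG_gal (Iq_le_Dq q hσ)]
  have hinv₁ : ∀ (σ : ↥(Iq q)) (x : F'), W₁.w (D.act σ x) = W₁.w x := by
    intro σ x
    obtain ⟨c, h, hcyc, hh, hact⟩ := D.exists_h hT σ
    exact D.inv_of Mod.wG_q hT.deep₁ (fun σ hσ f => wG_gal (Iq_le_Dq q hσ) f) hext₁ hy₁ σ hact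
      (CovFld.h_facts S hL b n hn h1 h2 hT hb₁ hb₂ D σ hcyc hh hact).1 x
  have hinv₂ : ∀ (σ : ↥(Iq q)) (x : F'), W₂.w (D.act σ x) = W₂.w x := by
    intro σ x
    obtain ⟨c, h, hcyc, hh, hact⟩ := D.exists_h hT σ
    exact D.inv_of (Mod.wZ_q S) hT.deep₂ hgalZ hext₂ hy₂ σ hact
      (CovFld.h_facts S hL b n hn h1 h2 hT hb₁ hb₂ D σ hcyc hh hact).2.1 x
  refine ⟨F', _, _, ⟨{
    ζ := D.ζ
    ζ_pow := D.ζ_pow
    ζ_iff := D.ζ_iff
    y := D.y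
    y_pow := D.y_pow
    gen := D.gen
    ι₁ := D.ι₁
    ι₂ := D.ι₂
    ι₁_alg := D.ι₁_alg
    ι₂_alg := D.ι₂_alg
    act := D.act
    ι₁_act := D.ι₁_act
    ι₂_act := fun σ x => by
      obtain ⟨c, h, hcyc, hh, hact⟩ := D.exists_h hT σ
      exact D.iota2_act ht0 σ hact (CovFld.h_facts S hL b n hn h1 h2 hT hb₁ hb₂ D σ hcyc hh hact).2.2 x
    lev := D.lev
    δ := D.δ
    δ_y := D.δ_y
    δ_act := D.δ_act
    W₁ := W₁
    W₂ := W₂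
    ext₁ := hext₁
    ext₂ := hext₂
    inv₁ := hinv₁
    inv₂ := hinv₂
    int₁ := D.int_of Mod.wG_q hT.deep₁ hext₁ hy₁ hinv₁ (fun f hf hf0 => Mod.wG_int hf hf0)
    int₂ := D.int_of (Mod.wZ_q S) hT.deep₂ hext₂ hy₂ hinv₂ (fun f hf hf0 => Mod.wZ_int S hf hf0)
    dense₁ := fun x B => by
      obtain ⟨c, rfl⟩ := D.gen x
      obtain ⟨f, -, hf⟩ := ext_dense q.2 Mod.wG_q hT.deep₁ D.y_pow hext₁ (hy₁.GT (by linarith)) ⊤
        (Subfield.mem_top t) c (fun i => Subfield.mem_top _) B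
      exact ⟨f, hf⟩
    dense₂ := fun x B => by
      obtain ⟨c, rfl⟩ := D.gen x
      obtain ⟨f, -, hf⟩ := ext_dense q.2 (Mod.wZ_q S) hT.deep₂ D.y_pow hext₂ (hy₂.GT (by linarith)) ⊤
        (Subfield.mem_top t) c (fun i => Subfield.mem_top _) B
      exact ⟨f, hf⟩
    y₁ := hy₁
    y₂ := hy₂ }⟩⟩

end Fermat.Agent.S44.Cov
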