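import Fermat.Agent.S44.Geo.Cov.Link
import Fermat.Agent.S44.Mod.Cusp

/-!
# S44 / GEO / COVER / C2 : [LINK], unconditional          (helper18)

`cuspH S : CuspH S` from helper14's `Mod/Cusp.lean`; `link_main` = `link` without the hypothesis `CuspH`.
-/

set_option autoImplicit false
set_option synthInstance.maxHeartbeats 400000

open HahnSeries ModularCurve AlgebraicCurve Polynomial Fermat.Agent.S24 Fermat.Agent.S29 Fermat.Agent.S18
  Fermat.Agent.ES Fermat.Agent.ES.Alg Fermat.Agent.S34.Mod Fermat.Agent.S34.T Fermat.Agent.S05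
  Fermat.Agent.S55.B ExtCitation Fermat.Agent.S33 Fermat.Agent.S33.M
open Fermat.Agent.S55 (Dq Iq)

noncomputable section

namespace Fermat.Agent.S44.Cov

variable {q : Nat.Primes} {M1 r : ℕ} [NeZero M1] [NeZero (q : ℕ)] [NeZero r]

theorem cuspH (S : Setup M1 (q : ℕ) r (AA q)) : CuspH S where
  ord := fun _ hx => (Mod.coe_mem_VC S hx).1
  int := fun _ hx => (Mod.coe_mem_VC S hx).2
  exE := Mod.exists_E S

/-- **[LINK]** -/
theorem link_main (S : Setup M1 (q : ℕ) r (AA q)) {t h : FN (M1 * (q : ℕ))}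
    (hpd : PDiv Kb (FN (M1 * (q : ℕ))) (q : ℕ) t)
    (hdeep : GT2 S.hc (t - 1) (((q : ℕ) : ℝ) / (((q : ℕ) : ℝ) - 1))) {σ : GQ} (hσ : σ ∈ Iq q)
    {c : ℕ} (hc : Cyc (q : ℕ) σ c) (hh : gal (M1 * (q : ℕ)) σ t = t ^ c * h ^ (q : ℕ)) (b1 : Kb)
    (hb1 : b1 ^ (q : ℕ) = lcF (M1 * (q : ℕ)) t) :
    ∃ μ : Kb, μ ^ (q : ℕ) = 1 ∧
      (wG q (M1 * (q : ℕ))).GT (h - algebraMap Kb (FN (M1 * (q : ℕ))) μ)
        (1 / (((q : ℕ) : ℝ) - 1)) ∧
      lcF (M1 * (q : ℕ)) h * b1 ^ c = μ * σ b1 :=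
  link (cuspH S) hpd hdeep hσ hc hh b1 hb1

end Fermat.Agent.S44.Cov
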