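import Fermat.Agent.S44.Geo.Cov.Asm
import Fermat.Agent.S44.Geo.Cov.LinkMain

/-!
# S44 / GEO / COVER : C1 + C2 = the cover exists          (helper29)
-/

set_option autoImplicit false
set_option synthInstance.maxHeartbeats 400000

open HahnSeries ModularCurve AlgebraicCurve Fermat.Agent.S24 Fermat.Agent.S29 Fermat.Agent.S18
  Fermat.Agent.ES Fermat.Agent.ES.Alg Fermat.Agent.S34.Mod Fermat.Agent.S05 Fermat.Agent.S55.B ExtCitation
  Fermat.Agent.S33 Fermat.Agent.S33.M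
open Fermat.Agent.S55 (Dq Iq)

noncomputable section

namespace Fermat.Agent.S44.Cov

variable {q : Nat.Primes} {M1 r : ℕ} [NeZero M1] [NeZero (q : ℕ)] [NeZero r]

theorem linkP (S : Setup M1 (q : ℕ) r (AA q)) : LinkP q M1 S.hc :=
  fun _ _ hpd hdeep _ hσ _ hc hh b1 hb1 => link_main S hpd hdeep hσ hc hh b1 hb1

/-- **the cover exists** (C1 + C2); `(b, n)` = any point where the two components meet -/
theorem exists_cov' (S : Setup M1 (q : ℕ) r (AA q)) (b : Bool)
    (n : Ideal (Mod.BB S b)) (hn : n ≠ ⊤) (h1 : RingHom.ker (Mod.r1 S b) ≤ n)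
    (h2 : RingHom.ker (Mod.r2 S b) ≤ n) {t : FN (M1 * (q : ℕ))} (hT : GoodT q M1 S.hc t)
    (hdeg : (∃ g : FN (M1 * (q : ℕ)), t = g ^ (q : ℕ)) → t = 1) :
    ∃ (F' : Type) (_ : Field F') (_ : Algebra (FN (M1 * (q : ℕ))) F'), Nonempty (Cov q M1 S.hc t F') :=
  exists_cov_of_link S (linkP S) b n hn h1 h2 hT hdeg

end Fermat.Agent.S44.Cov
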