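import Mathlib

/-!
# S44 / GEO / COVER : invariants of a semilinear action are finite over the invariants of the base     key `S44/COV-GEN` (F)   (helper19)

`F ⊆ F'` fields, `G` acts on `F'` by ring automorphisms stabilising `F`.   `E = F^G`, `E' = F'^G`.
* `inv_dep` : invariant elements which are linearly dependent over `F` are linearly dependent over `E`;
* `finite_invariants` : if `F'` is spanned over `F` by `1, y, …, y^(p-1)` then `E'` is finite-dimensional over `E`.
-/

set_option autoImplicit false

namespace Fermat.Agent.S44.Cov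

variable {G F F' : Type*} [Group G] [Field F] [Field F'] [Algebra F F']

theorem inv_dep (act : G →* (F' ≃+* F')) (sF : G → F → F)
    (hs : ∀ g x, act g (algebraMap F F' x) = algebraMap F F' (sF g x))
    (t : Finset F') (ht : ∀ e ∈ t, ∀ g, act g e = e) (f : F' → F)
    (hf : ∑ e ∈ t, algebraMap F F' (f e) * e = 0) (hne : ∃ x ∈ t, f x ≠ 0) :
    ∃ f' : F' → F, (∀ e g, sF g (f' e) = f' e) ∧ ∑ e ∈ t, algebraMap F F' (f' e) * e = 0 ∧
      ∃ x ∈ t, f' x ≠ 0 := by
  classical
  have hinj := (algebraMap F F').injective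
  have hs0 : ∀ g, sF g 0 = 0 := fun g => hinj (by rw [← hs, map_zero, map_zero])
  have hs1 : ∀ g, sF g 1 = 1 := fun g => hinj (by rw [← hs, map_one, map_one])
  induction hn : (t.filter fun e => f e ≠ 0).card using Nat.strong_induction_on generalizing f with
  | _ n ih =>
    obtain ⟨x₀, hx₀, hfx₀⟩ := hne
    -- normalise
    set f₁ : F' → F := fun e => (f x₀)⁻¹ * f e with hf₁
    have hf₁0 : ∑ e ∈ t, algebraMap F F' (f₁ e) * e = 0 := by
      have : ∑ e ∈ t, algebraMap F F' (f₁ e) * e =
          algebraMap F F' (f x₀)⁻¹ * ∑ e ∈ t, algebraMap F F' (f e) * e := by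
        rw [Finset.mul_sum]
        exact Finset.sum_congr rfl fun e _ => by rw [hf₁]; simp only [map_mul]; ring
      rw [this, hf, mul_zero]
    have hf₁x : f₁ x₀ = 1 := inv_mul_cancel₀ hfx₀
    by_cases hfix : ∀ e g, e ∈ t → sF g (f₁ e) = f₁ e
    · refine ⟨fun e => if e ∈ t then f₁ e else 0, fun e g => ?_, ?_, x₀, hx₀, ?_⟩
      · by_cases he : e ∈ t
        · simp only [he, if_true]; exact hfix e g he
        · simp only [he, if_false]; exact hs0 g
      · rw [← hf₁0]
        exact Finset.sum_congr rfl fun e he => by simp only [he, if_true]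
      · simp only [hx₀, if_true, hf₁x]; exact one_ne_zero
    · push Not at hfix
      obtain ⟨e₁, g, he₁, hne₁⟩ := hfix
      set f₂ : F' → F := fun e => sF g (f₁ e) - f₁ e with hf₂
      have hf₂0 : ∑ e ∈ t, algebraMap F F' (f₂ e) * e = 0 := by
        have h1 : ∑ e ∈ t, algebraMap F F' (sF g (f₁ e)) * e = 0 := by
          have h2 := congrArg (act g) hf₁0
          rw [map_sum, map_zero] at h2
          rw [← h2]
          exact Finset.sum_congr rfl fun e he => by rw [map_mul, hs, ht e he g]
        have : ∑ e ∈ t, algebraMap F F' (f₂ e) * e =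
            ∑ e ∈ t, algebraMap F F' (sF g (f₁ e)) * e - ∑ e ∈ t, algebraMap F F' (f₁ e) * e := by
          rw [← Finset.sum_sub_distrib]
          exact Finset.sum_congr rfl fun e _ => by rw [hf₂]; simp only [map_sub]; ring
        rw [this, h1, hf₁0, sub_zero]
      have hlt : (t.filter fun e => f₂ e ≠ 0).card < n := by
        rw [← hn]
        apply Finset.card_lt_card
        rw [Finset.ssubset_iff_of_subset]
        · refine ⟨x₀, Finset.mem_filter.2 ⟨hx₀, hfx₀⟩, fun h => ?_⟩
          have := (Finset.mem_filter.1 h).2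
          apply this
          show sF g (f₁ x₀) - f₁ x₀ = 0
          rw [hf₁x, hs1, sub_self]
        · intro e he
          obtain ⟨he1, he2⟩ := Finset.mem_filter.1 he
          refine Finset.mem_filter.2 ⟨he1, fun h0 => he2 ?_⟩
          show sF g (f₁ e) - f₁ e = 0
          have : f₁ e = 0 := by rw [hf₁]; simp only [h0, mul_zero]
          rw [this, hs0, sub_self]
      exact ih _ hlt f₂ hf₂0 ⟨e₁, he₁, sub_ne_zero.2 hne₁⟩ rfl

theorem finite_invariants (act : G →* (F' ≃+* F')) (sF : G → F → F)
    (hs : ∀ g x, act g (algebraMap F F' x) = algebraMap F F' (sF g x))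
    (E : Subfield F) (hE : ∀ x, (∀ g, sF g x = x) → x ∈ E)
    (E' : Subfield F') (hE' : ∀ x ∈ E', ∀ g, act g x = x) [Algebra E E']
    (halg : ∀ x : E, ((algebraMap E E' x : E') : F') = algebraMap F F' (x : F))
    (p : ℕ) (y : F')
    (gen : ∀ x : F', ∃ c : ℕ → F, x = ∑ i ∈ Finset.range p, algebraMap F F' (c i) * y ^ i) :
    FiniteDimensional E E' := by
  classical
  -- `F'` is finite over `F`, of dimension `≤ p`
  have htop : (⊤ : Submodule F F') = Submodule.span F (Set.range fun i : Fin p => y ^ (i : ℕ)) := by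
    refine (eq_top_iff.2 fun x _ => ?_).symm
    obtain ⟨c, rfl⟩ := gen x
    refine Submodule.sum_mem _ fun i hi => ?_
    rw [← Algebra.smul_def]
    exact Submodule.smul_mem _ _ (Submodule.subset_span ⟨⟨i, Finset.mem_range.1 hi⟩, rfl⟩)
  haveI hfin : Module.Finite F F' := ⟨by rw [htop]; exact Submodule.fg_span (Set.finite_range _)⟩
  have hrank : Module.finrank F F' ≤ p := by
    rw [← finrank_top, htop]
    exact (finrank_range_le_card _).trans (by rw [Fintype.card_fin])
  have hle : Module.rank E E' ≤ (p : ℕ) := by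
    apply rank_le
    intro s hs'
    by_contra hcon
    push Not at hcon
    set t : Finset F' := s.image (fun e : E' => (e : F')) with ht
    have hcard : t.card = s.card := Finset.card_image_of_injective _ Subtype.val_injective
    obtain ⟨f, hf, hne⟩ := Module.exists_nontrivial_relation_of_finrank_lt_card (R := F) (t := t)
      (by rw [hcard]; omega)
    have hf' : ∑ e ∈ t, algebraMap F F' (f e) * e = 0 := by
      rw [← hf]
      exact Finset.sum_congr rfl fun e _ => (Algebra.smul_def _ _).symm
    obtain ⟨f', h1, h2, x, hx, hfx⟩ := inv_dep act sF hs t (fun e he g => by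
      obtain ⟨e', -, rfl⟩ := Finset.mem_image.1 he
      exact hE' _ e'.2 g) f hf' hne
    obtain ⟨x', hx', rfl⟩ := Finset.mem_image.1 hx
    rw [linearIndependent_iff'] at hs'
    have h3 := hs' Finset.univ (fun e : s => (⟨f' ((e : E') : F'), hE _ (h1 _)⟩ : E)) (by
      apply Subtype.val_injective
      rw [ht, Finset.sum_image (fun a _ b _ h => Subtype.val_injective h)] at h2
      rw [Finset.sum_coe_sort s (fun e : E' => (⟨f' (e : F'), hE _ (h1 _)⟩ : E) • e)]
      rw [ZeroMemClass.coe_zero, ← h2, AddSubmonoidClass.coe_finsetSum]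
      refine Finset.sum_congr rfl fun e _ => ?_
      rw [Algebra.smul_def]
      show ((algebraMap E E' _ : E') : F') * (e : F') = _
      rw [halg]) ⟨x', hx'⟩ (Finset.mem_univ _)
    exact hfx (congrArg Subtype.val h3)
  exact Module.rank_lt_aleph0_iff.1 (lt_of_le_of_lt hle (Cardinal.natCast_lt_aleph0))

end Fermat.Agent.S44.Cov
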