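import Fermat.Agent.S44.Alg.Unr
import Fermat.Agent.S24.PlacesCore

/-!
# S44 / GEO / COVER : restriction of a place to a subfield        key `S44/COV-GEN` (P)   (helper19)

`K ⊆ F ⊆ F'`.  A place `P` of `F'/K` restricts to `F` either trivially or to a place `v` of `F/K` with `ord_P = e · ord_v` on `F`.
Hence a divisor divisible by `m` on `F` stays divisible by `m` on `F'` (`dvd_ord_up`).
-/

set_option autoImplicit false

open AlgebraicCurve Fermat.Agent.S24

namespace Fermat.Agent.S44.Cov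

variable {K F F' : Type*} [Field K] [Field F] [Field F'] [Algebra K F] [Algebra K F'] [Algebra F F']
  [IsScalarTower K F F']

theorem place_restrict (P : Place K F') :
    (∀ u : F, P.ord (algebraMap F F' u) = 0) ∨
      ∃ (v : Place K F) (e : ℤ), ∀ u : F, P.ord (algebraMap F F' u) = e * v.ord u := by
  classical
  by_cases h0 : ∀ u : F, P.ord (algebraMap F F' u) = 0
  · exact Or.inl h0
  right
  push Not at h0
  obtain ⟨u₀, hu₀⟩ := h0
  have hu₀0 : u₀ ≠ 0 := by
    rintro rfl
    rw [map_zero, Place.ord_zero] at hu₀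
    exact hu₀ rfl
  -- an element of positive order
  have hpos : ∃ n : ℕ, 0 < n ∧ ∃ u : F, u ≠ 0 ∧ P.ord (algebraMap F F' u) = n := by
    rcases lt_or_gt_of_ne hu₀ with h | h
    · refine ⟨(-(P.ord (algebraMap F F' u₀))).toNat, by omega, u₀⁻¹, inv_ne_zero hu₀0, ?_⟩
      rw [map_inv₀, Place.ord_inv]
      omega
    · exact ⟨(P.ord (algebraMap F F' u₀)).toNat, by omega, u₀, hu₀0, by omega⟩
  obtain ⟨he0, h, hh0, hh⟩ := Nat.find_spec hpos
  set e := Nat.find hpos with he
  have hmin : ∀ n : ℕ, 0 < n → (∃ u : F, u ≠ 0 ∧ P.ord (algebraMap F F' u) = n) → e ≤ n :=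
    fun n hn hu => Nat.find_min' hpos ⟨hn, hu⟩
  have hhF : algebraMap F F' h ≠ 0 := (map_ne_zero _).2 hh0
  -- every order is a multiple of `e`
  have hdiv : ∀ y : F, y ≠ 0 → ∃ k : ℤ, P.ord (algebraMap F F' (y * h ^ k)) = 0 := by
    intro y hy
    have hyF : algebraMap F F' y ≠ 0 := (map_ne_zero _).2 hy
    set a := P.ord (algebraMap F F' y) with ha
    have h1 : P.ord (algebraMap F F' (y * h ^ (-(a / e)))) = a % e := by
      rw [map_mul, map_zpow₀, P.ord_mul hyF (zpow_ne_zero _ hhF), P.ord_zpow, hh, ← ha]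
      have := Int.emod_add_mul_ediv a e
      linarith [mul_comm (a / (e : ℤ)) (e : ℤ)]
    refine ⟨-(a / e), ?_⟩
    rw [h1]
    by_contra hne
    have h2 : 0 ≤ a % (e : ℤ) := Int.emod_nonneg _ (by omega)
    have h3 : a % (e : ℤ) < e := Int.emod_lt_of_pos _ (by omega)
    have h4 := hmin (a % (e : ℤ)).toNat (by omega)
      ⟨y * h ^ (-(a / e)), mul_ne_zero hy (zpow_ne_zero _ hh0), by rw [h1]; omega⟩
    omega
  set O : ValuationSubring F := P.toValuationSubring.comap (algebraMap F F') with hO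
  have hmem : ∀ x : F, x ∈ O ↔ 0 ≤ P.ord (algebraMap F F' x) := fun x => by
    rw [hO, ValuationSubring.mem_comap]
    exact mem_iff_ord_nonneg P
  have hhO : h ∈ O := by rw [hmem, hh]; omega
  have hhO' : h⁻¹ ∉ O := by rw [hmem, map_inv₀, Place.ord_inv, hh]; omega
  have key : ∀ y : F, y ≠ 0 → ∃ k : ℤ, y * h ^ k ∈ O ∧ (y * h ^ k)⁻¹ ∈ O := by
    intro y hy
    obtain ⟨k, hk⟩ := hdiv y hy
    exact ⟨k, by rw [hmem, hk], by rw [hmem, map_inv₀, Place.ord_inv, hk, neg_zero]⟩
  haveI := Alg.unrAux_dvr O hhO hhO' key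
  let v : Place K F :=
    { toValuationSubring := O
      algebraMap_mem' := fun a => by
        rw [hO, ValuationSubring.mem_comap, ← IsScalarTower.algebraMap_apply]
        exact P.algebraMap_mem' a
      ne_top' := fun ht => hhO' (by rw [ht]; exact ValuationSubring.mem_top _)
      isPrincipalIdealRing' := inferInstance }
  have hord : v.ord h = 1 := v.ord_coe_irreducible (π := ⟨h, hhO⟩) (Alg.unrAux_irr O hhO hhO' key)
  refine ⟨v, e, fun u => ?_⟩
  rcases eq_or_ne u 0 with rfl | hu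
  · rw [map_zero, Place.ord_zero, Place.ord_zero, mul_zero]
  obtain ⟨k, hk⟩ := hdiv u hu
  have huF : algebraMap F F' u ≠ 0 := (map_ne_zero _).2 hu
  have h1 : v.ord (u * h ^ k) = 0 := by
    have hu1 : IsUnit (⟨u * h ^ k, by rw [hmem, hk]⟩ : O) := by
      refine IsUnit.of_mul_eq_one ⟨(u * h ^ k)⁻¹, by rw [hmem, map_inv₀, Place.ord_inv, hk, neg_zero]⟩
        (Subtype.ext ?_)
      exact mul_inv_cancel₀ (mul_ne_zero hu (zpow_ne_zero _ hh0))
    exact v.ord_coe_unit hu1.unit
  rw [v.ord_mul hu (zpow_ne_zero _ hh0), v.ord_zpow, hord] at h1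
  rw [map_mul, map_zpow₀, P.ord_mul huF (zpow_ne_zero _ hhF), P.ord_zpow, hh] at hk
  have h2 : v.ord u = -k := by omega
  rw [h2]
  linarith

/-- a divisor divisible by `m` stays divisible by `m` in an extension -/
theorem dvd_ord_up {m : ℤ} {u : F} (hu : ∀ v : Place K F, m ∣ v.ord u) (P : Place K F') :
    m ∣ P.ord (algebraMap F F' u) := by
  rcases place_restrict (F := F) P with h | ⟨v, e, h⟩
  · rw [h]; exact dvd_zero _
  · rw [h]; exact Dvd.dvd.mul_left (hu v) e

end Fermat.Agent.S44.Cov
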