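import Fermat.Agent.S44.Geo.Cov.Gen
import Fermat.Agent.S44.Geo.Cov.PlaceRes
import Fermat.Agent.S44.Geo.Cov.FinInv

/-!
# S44 / GEO / COVER : `E'/E` is finite; `unr_pow` for the cover, free of instances        key `S44/COV-GEN`  (helper19)

* `Cov.finiteDimensional_Ep : FiniteDimensional (Mod.EE q M1) C.Ep`;
* `Cov.cstE : Fx (Iq q) →+* C.Ep` (the rational constants);
* `Cov.dvd_ord` : `PDiv Kb F m v` ⟹ `m ∣ ord_P (alg v)` for all places of `F'/Kb` (`Kb`-structure `(cstHom q M1 F').toAlgebra`);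
* `Cov.unr_pow` : `Alg.unr_pow` for `E' = C.Ep ⊆ F'`, `z = alg v * w ^ q`, `PDiv v` : NO algebra instance is left in the statement.
-/

set_option autoImplicit false
set_option synthInstance.maxHeartbeats 400000
set_option linter.dupNamespace false
set_option linter.style.haveILetI false

open HahnSeries ModularCurve AlgebraicCurve Polynomial Fermat.Agent.S24 Fermat.Agent.S29 Fermat.Agent.S18
  Fermat.Agent.ES Fermat.Agent.ES.Alg Fermat.Agent.S34.Mod Fermat.Agent.S05 Fermat.Agent.S55.B ExtCitation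
  Fermat.Agent.S33
open Fermat.Agent.S55 (Dq Iq)

noncomputable section

namespace Fermat.Agent.S44.Cov

variable {q : Nat.Primes} {M1 : ℕ} [NeZero M1] [NeZero (q : ℕ)]
variable {hc : Nat.Coprime (q : ℕ) M1} {t : FN (M1 * (q : ℕ))} {F' : Type} [Field F']
  [Algebra (FN (M1 * (q : ℕ))) F']

namespace Cov

variable (C : Cov q M1 hc t F')

/-- **`E'` is finite over `E`** -/
theorem finiteDimensional_Ep : FiniteDimensional (Mod.EE q M1) C.Ep :=
  finite_invariants C.act (fun σ => gal (M1 * (q : ℕ)) (σ : GQ)) C.act_alg (Mod.EE q M1)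
    (fun _ hx σ hσ => hx ⟨σ, hσ⟩) C.Ep (fun _ hx => hx) (fun _ => rfl) (q : ℕ) C.y C.gen

/-- the rational constants -/
def cstE : Fx (Iq q) →+* C.Ep where
  toFun a := ⟨cstHom q M1 F' (a : Kb), fun σ => by rw [C.act_cst, mem_Fx.1 a.2 σ σ.2]⟩
  map_one' := Subtype.ext (map_one _)
  map_mul' _ _ := Subtype.ext (map_mul _ _ _)
  map_zero' := Subtype.ext (map_zero _)
  map_add' _ _ := Subtype.ext (map_add _ _ _)

theorem coe_cstE (a : Fx (Iq q)) : ((C.cstE a : C.Ep) : F') = cstHom q M1 F' (a : Kb) := rfl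

omit [NeZero M1] [NeZero (q : ℕ)] in
/-- divisibility of divisors goes up -/
theorem dvd_ord [NeZero M1] [NeZero (q : ℕ)] {m : ℕ} {v : FN (M1 * (q : ℕ))}
    (hv : PDiv Kb (FN (M1 * (q : ℕ))) m v) :
    letI : Algebra Kb F' := (cstHom q M1 F').toAlgebra
    ∀ P : Place Kb F', (m : ℤ) ∣ P.ord (algebraMap (FN (M1 * (q : ℕ))) F' v) := by
  letI : Algebra Kb F' := (cstHom q M1 F').toAlgebra
  haveI : IsScalarTower Kb (FN (M1 * (q : ℕ))) F' := IsScalarTower.of_algebraMap_eq' rfl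
  exact fun P => dvd_ord_up hv.2 P

/-- **`unr_pow` for the cover** -/
theorem unr_pow (V : ValuationSubring C.Ep) (h : C.Ep) (hK : ∀ a : Fx (Iq q), C.cstE a ∈ V)
    (hh : h ∈ V) (hh' : h⁻¹ ∉ V)
    (hV : ∀ y : C.Ep, y ≠ 0 → ∃ k : ℤ, y * h ^ k ∈ V ∧ (y * h ^ k)⁻¹ ∈ V)
    (m : ℕ) (z : C.Ep) (hz : z ≠ 0)
    (hdiv : ∃ (v : FN (M1 * (q : ℕ))) (w : F'), PDiv Kb (FN (M1 * (q : ℕ))) m v ∧
      (z : F') = algebraMap (FN (M1 * (q : ℕ))) F' v * w ^ m) :
    ∃ w : C.Ep, w ≠ 0 ∧ z * w ^ m ∈ V ∧ (z * w ^ m)⁻¹ ∈ V := by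
  letI : Algebra Kb F' := (cstHom q M1 F').toAlgebra
  letI : Algebra (Fx (Iq q)) C.Ep := C.cstE.toAlgebra
  letI : Algebra (Fx (Iq q)) F' := ((cstHom q M1 F').comp (algebraMap (Fx (Iq q)) Kb)).toAlgebra
  haveI : @IsScalarTower (Fx (Iq q)) Kb F' Algebra.toSMul Algebra.toSMul Algebra.toSMul :=
    IsScalarTower.of_algebraMap_eq' rfl
  haveI : @IsScalarTower (Fx (Iq q)) C.Ep F' Algebra.toSMul Algebra.toSMul Algebra.toSMul :=
    IsScalarTower.of_algebraMap_eq' rfl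
  haveI : Algebra.IsAlgebraic (Fx (Iq q)) Kb := Algebra.IsAlgebraic.tower_top (K := ℚ) (Fx (Iq q))
  refine Alg.unr_pow (K0 := Fx (Iq q)) (Kb := Kb) (E' := C.Ep) (F' := F') C.hgen V h hK hh hh' hV m z hz
    (fun P => ?_)
  obtain ⟨v, w, hv, hzw⟩ := hdiv
  have hz' : (z : F') ≠ 0 := fun h0 => hz (Subtype.ext h0)
  have hw : w ^ m ≠ 0 := fun h0 => hz' (by rw [hzw, h0, mul_zero])
  have hv' : algebraMap (FN (M1 * (q : ℕ))) F' v ≠ 0 := fun h0 => hz' (by rw [hzw, h0, zero_mul])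
  show (m : ℤ) ∣ P.ord (z : F')
  rw [hzw, P.ord_mul hv' hw, ← zpow_natCast, P.ord_zpow]
  exact dvd_add (dvd_ord hv P) (Dvd.intro _ rfl)

end Cov

end Fermat.Agent.S44.Cov
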