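import Fermat.Agent.S44.Geo.Cov.Loc0

/-!
# S44 / GEO / COVER : the scalar tower `Rn → E → E'` for the `Algebra.toSMul` structures          (helper27)

The anonymous instance of `Loc0.lean` is elaborated with `Subalgebra.instSMulSubtypeMem` as `SMul (Rn ..) C.Ep`; the lemmas on `Alg.Sheet (Rn ..) C.Ep _`
(`D.int_pow`, `D.pdiv_node`, `D.cusp_rel`, ...) need the tower for `(algRnEp ..).toSMul`.
-/

set_option autoImplicit false
set_option synthInstance.maxHeartbeats 400000

open HahnSeries ModularCurve AlgebraicCurve Fermat.Agent.S24 Fermat.Agent.S29 Fermat.Agent.S18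
  Fermat.Agent.ES Fermat.Agent.ES.Alg Fermat.Agent.S34.Mod Fermat.Agent.S05 Fermat.Agent.S55.B ExtCitation
  Fermat.Agent.S33
open Fermat.Agent.S55 (Dq Iq)

noncomputable section

namespace Fermat.Agent.S44.Cov

variable {q : Nat.Primes} {M1 r : ℕ} [NeZero M1] [NeZero (q : ℕ)] [NeZero r]
variable (S0 : Setup M1 (q : ℕ) r (AA q)) (b : Bool) (𝔫 : Ideal (Mod.BB S0 b)) [𝔫.IsPrime]
variable {hc : Nat.Coprime (q : ℕ) M1} {t : FN (M1 * (q : ℕ))} {F' : Type} [Field F']
  [Algebra (FN (M1 * (q : ℕ))) F'] (C : Cov q M1 hc t F')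

instance isScalarTower_RnEp : @IsScalarTower (Rn S0 b 𝔫) (Mod.EE q M1) C.Ep Algebra.toSMul Algebra.toSMul
    (algRnEp S0 b 𝔫 C).toSMul := IsScalarTower.of_algebraMap_eq' rfl

end Fermat.Agent.S44.Cov
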