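import Fermat.Agent.S44.Geo.Cov.Defs
import Fermat.Agent.S33.Rat.H90

/-!
# S44 / GEO / COVER : `F' = Kb · E'`  (Galois descent)        key `S44/COV-GEN`  (helper19)

* `desc_gen` (abstract): a commutative ring `R` with constants `cst : Kb →+* R` and a semilinear action of a subgroup `H ≤ GQ`; every `x` which is fixed by the stabiliser of some `θ`
  is a `Kb`-linear combination of `H`-invariant elements  (proof of `Mod/Gen.lean`).
* `Cov.hgen` : the hypothesis `hgen` of `Alg/Unr.lean` for `F'`, `E' = C.Ep`.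
-/

set_option autoImplicit false
set_option synthInstance.maxHeartbeats 400000

open HahnSeries ModularCurve AlgebraicCurve Polynomial Fermat.Agent.S24 Fermat.Agent.S29 Fermat.Agent.S18
  Fermat.Agent.ES Fermat.Agent.ES.Alg Fermat.Agent.S34.Mod Fermat.Agent.S05 Fermat.Agent.S55.B ExtCitation
  Fermat.Agent.S33
open Fermat.Agent.S55 (Dq Iq)

noncomputable section

namespace Fermat.Agent.S44.Cov

section Desc

variable {H : Subgroup GQ} {R : Type*} [CommRing R] (cst : Kb →+* R) (act : ↥H →* (R ≃+* R))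
  (θ : Kb) (x : R)

open Classical in
/-- the conjugate of `x` attached to a conjugate of `θ` -/
def descX (θ' : Kb) : R := if h : ∃ σ : ↥H, (σ : GQ) θ = θ' then act h.choose x else 0

variable {act θ x}

theorem descX_apply (hx : ∀ σ : ↥H, (σ : GQ) θ = θ → act σ x = x) (σ : ↥H) :
    descX act θ x ((σ : GQ) θ) = act σ x := by
  have h : ∃ τ : ↥H, (τ : GQ) θ = (σ : GQ) θ := ⟨σ, rfl⟩
  rw [descX, dif_pos h]
  have h2 := h.choose_spec
  set τ := h.choose
  have h3 : ((σ⁻¹ * τ : ↥H) : GQ) θ = θ := by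
    show (σ : GQ)⁻¹ ((τ : GQ) θ) = θ
    rw [h2]
    exact (σ : GQ).symm_apply_apply θ
  have h4 := hx _ h3
  have h5 : τ = σ * (σ⁻¹ * τ) := by group
  rw [h5, map_mul]
  show act σ (act (σ⁻¹ * τ) x) = _
  rw [h4]

theorem act_descX (hx : ∀ σ : ↥H, (σ : GQ) θ = θ → act σ x = x) (σ : ↥H) {θ' : Kb}
    (hθ' : ∃ τ ∈ H, τ θ = θ') : act σ (descX act θ x θ') = descX act θ x ((σ : GQ) θ') := by
  obtain ⟨τ, hτ, rfl⟩ := hθ'
  have h1 := descX_apply hx ⟨τ, hτ⟩
  have h2 := descX_apply hx (σ * ⟨τ, hτ⟩)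
  rw [map_mul] at h2
  rw [show τ θ = ((⟨τ, hτ⟩ : ↥H) : GQ) θ from rfl, h1]
  exact h2.symm

variable (act θ x)

/-- the twisted traces -/
def descT (j : ℕ) : R :=
  ∑ θ' ∈ (h90Aux_finite_orbit H θ).toFinset, cst (θ' ^ j) * descX act θ x θ'

variable {cst act θ x}

theorem descT_fixed (hact : ∀ (σ : ↥H) (a : Kb), act σ (cst a) = cst ((σ : GQ) a))
    (hx : ∀ σ : ↥H, (σ : GQ) θ = θ → act σ x = x) (j : ℕ) (σ : ↥H) :
    act σ (descT cst act θ x j) = descT cst act θ x j := by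
  classical
  have himg : (h90Aux_finite_orbit H θ).toFinset.image (fun b => (σ : GQ) b) =
      (h90Aux_finite_orbit H θ).toFinset := by
    refine Finset.eq_of_subset_of_card_le ?_ ?_
    · intro b hb
      obtain ⟨b', hb', rfl⟩ := Finset.mem_image.mp hb
      rw [Set.Finite.mem_toFinset] at hb' ⊢
      obtain ⟨τ, hτ, rfl⟩ := hb'
      exact ⟨σ * τ, mul_mem σ.2 hτ, rfl⟩
    · rw [Finset.card_image_of_injective _ (σ : GQ).injective]
  rw [descT, map_sum]
  conv_rhs => rw [← himg]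
  rw [Finset.sum_image (fun x _ y _ h => (σ : GQ).injective h)]
  refine Finset.sum_congr rfl (fun b hb => ?_)
  rw [Set.Finite.mem_toFinset] at hb
  rw [map_mul, hact, act_descX hx σ hb, map_pow]

/-- **Galois descent** -/
theorem desc_gen (hact : ∀ (σ : ↥H) (a : Kb), act σ (cst a) = cst ((σ : GQ) a))
    (hx : ∀ σ : ↥H, (σ : GQ) θ = θ → act σ x = x) :
    ∃ (n : ℕ) (c : Fin n → Kb) (e : Fin n → R), (∀ i (σ : ↥H), act σ (e i) = e i) ∧
      x = ∑ i, cst (c i) * e i := by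
  classical
  set T := (h90Aux_finite_orbit H θ).toFinset with hT
  have hθT : θ ∈ T := by
    rw [hT, Set.Finite.mem_toFinset]
    exact ⟨1, one_mem _, rfl⟩
  set ℓ : Kb[X] := Lagrange.basis T id θ with hℓ
  refine ⟨ℓ.natDegree + 1, fun i => ℓ.coeff i, fun i => descT cst act θ x i,
    fun i σ => descT_fixed hact hx i σ, ?_⟩
  have h1 : ∑ i : Fin (ℓ.natDegree + 1), cst (ℓ.coeff i) * descT cst act θ x i =
      ∑ θ' ∈ T, cst (ℓ.eval θ') * descX act θ x θ' := by
    rw [← Finset.sum_range (fun i => cst (ℓ.coeff i) * descT cst act θ x i)]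
    simp only [descT, Finset.mul_sum]
    rw [Finset.sum_comm]
    refine Finset.sum_congr rfl (fun θ' _ => ?_)
    rw [Polynomial.eval_eq_sum_range, map_sum, Finset.sum_mul]
    refine Finset.sum_congr rfl (fun i _ => ?_)
    rw [map_mul, mul_assoc]
  rw [h1, Finset.sum_eq_single θ]
  · have e1 : ℓ.eval θ = 1 := Lagrange.eval_basis_self (v := id) (Set.injOn_id _) hθT
    have e2 := descX_apply hx (1 : ↥H)
    rw [map_one] at e2
    rw [e1, map_one, one_mul]
    exact e2.symm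
  · intro b hb hne
    have e1 : ℓ.eval b = 0 := Lagrange.eval_basis_of_ne (v := id) (Ne.symm hne) hb
    rw [e1, map_zero, zero_mul]
  · intro h
    exact absurd hθT h

end Desc

variable {q : Nat.Primes} {M1 : ℕ} [NeZero M1] [NeZero (q : ℕ)]
variable {hc : Nat.Coprime (q : ℕ) M1} {t : FN (M1 * (q : ℕ))} {F' : Type} [Field F']
  [Algebra (FN (M1 * (q : ℕ))) F']

namespace Cov

variable (C : Cov q M1 hc t F')

/-- constants, as a ring hom -/
def cstHom (q : Nat.Primes) (M1 : ℕ) [NeZero M1] [NeZero (q : ℕ)] (F' : Type) [Field F']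
    [Algebra (FN (M1 * (q : ℕ))) F'] : Kb →+* F' :=
  (algebraMap (FN (M1 * (q : ℕ))) F').comp (algebraMap Kb (FN (M1 * (q : ℕ))))

theorem act_cst (σ : ↥(Iq q)) (a : Kb) : C.act σ (cstHom q M1 F' a) = cstHom q M1 F' ((σ : GQ) a) := by
  show C.act σ (algebraMap (FN (M1 * (q : ℕ))) F' (algebraMap Kb (FN (M1 * (q : ℕ))) a)) = _
  rw [C.act_alg, arithmeticRingAut_algebraMap]
  rfl

/-- **`F' = Kb · E'`** -/
theorem hgen (x : F') : ∃ (n : ℕ) (c : Fin n → Kb) (e : Fin n → C.Ep),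
    x = ∑ i, cstHom q M1 F' (c i) * (e i : F') := by
  obtain ⟨θ, hθ⟩ := C.lev x
  obtain ⟨n, c, e, he, hx⟩ := desc_gen (cst := cstHom q M1 F') (act := C.act) C.act_cst hθ
  exact ⟨n, c, fun i => ⟨e i, he i⟩, hx⟩

end Cov

end Fermat.Agent.S44.Cov
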