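import Fermat.Agent.S44.Geo.Cov.Loc0
import Fermat.Agent.S44.Geo.Cov.Gen
import Fermat.Agent.S44.Alg.Unr

/-!
# S44 / GEO / COVER : the hypothesis `H` of `Alg.Sheet.pdiv_node` / `smooth_rel` / `cusp_rel` from `Alg.unr_pow`          (helper2)

`K0 = Fx (Iq q)`, `E' = C.Ep`, `F' = Kb E'` (`Cov.hgen`).  A discrete valuation ring `V` of `E'` containing the integral closure of `R = Rn S0 b 𝔫` and `q⁻¹` contains `K0`
(`K0 = O0[1/q]`, `O0 ⊆ BB`), so it is unramified in `F'`; `q ∣ ord_P z` for all places `P` of `F' / Kb` gives `z w^q ∈ Vˣ`.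
-/

set_option autoImplicit false
set_option synthInstance.maxHeartbeats 400000
set_option linter.style.haveILetI false

open HahnSeries ModularCurve AlgebraicCurve Fermat.Agent.S24 Fermat.Agent.S29 Fermat.Agent.S18
  Fermat.Agent.ES Fermat.Agent.ES.Alg Fermat.Agent.S34.Mod Fermat.Agent.S05 Fermat.Agent.S55.B ExtCitation
  Fermat.Agent.S33
open Fermat.Agent.S55 (Dq Iq)

noncomputable section

namespace Fermat.Agent.S44.Cov

variable {q : Nat.Primes} {M1 r : ℕ} [NeZero M1] [NeZero (q : ℕ)] [NeZero r]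

/-- `Kb → F'` (a def, not an instance) -/
@[reducible] def algKbF (q : Nat.Primes) (M1 : ℕ) [NeZero M1] [NeZero (q : ℕ)] (F' : Type) [Field F']
    [Algebra (FN (M1 * (q : ℕ))) F'] : Algebra Kb F' := (Cov.cstHom q M1 F').toAlgebra

variable {hc : Nat.Coprime (q : ℕ) M1} {t : FN (M1 * (q : ℕ))} {F' : Type} [Field F']
  [Algebra (FN (M1 * (q : ℕ))) F'] (C : Cov q M1 hc t F')

/-- `K0 → E'` -/
def k0Hom : Fx (Iq q) →+* C.Ep where
  toFun a := ⟨Cov.cstHom q M1 F' (a : Kb), fun σ => by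
    rw [C.act_cst, mem_Fx.mp a.2 σ σ.2]⟩
  map_one' := Subtype.ext (map_one _)
  map_mul' _ _ := Subtype.ext (map_mul _ _ _)
  map_zero' := Subtype.ext (map_zero _)
  map_add' _ _ := Subtype.ext (map_add _ _ _)

theorem relH (S0 : Setup M1 (q : ℕ) r (AA q)) {t : FN (M1 * (q : ℕ))} (C : Cov q M1 S0.hc t F') (b : Bool)
    (𝔫 : Ideal (Mod.BB S0 b)) [𝔫.IsPrime] {z : C.Ep} (hz : z ≠ 0)
    (hdiv : ∀ P : @Place Kb F' _ _ (algKbF q M1 F'), ((q : ℕ) : ℤ) ∣ @Place.ord Kb F' _ _ (algKbF q M1 F') P (z : F'))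
    (V : ValuationSubring C.Ep) (h : C.Ep) (hint : ∀ a : C.Ep, IsIntegral (Rn S0 b 𝔫) a → a ∈ V)
    (hq : (algebraMap (Rn S0 b 𝔫) C.Ep ((q : ℕ) : Rn S0 b 𝔫))⁻¹ ∈ V) (hh : h ∈ V) (hh' : h⁻¹ ∉ V)
    (hV : ∀ y : C.Ep, y ≠ 0 → ∃ k : ℤ, y * h ^ k ∈ V ∧ (y * h ^ k)⁻¹ ∈ V) :
    ∃ w : C.Ep, w ≠ 0 ∧ z * w ^ (q : ℕ) ∈ V ∧ (z * w ^ (q : ℕ))⁻¹ ∈ V := by
  letI : Algebra Kb F' := algKbF q M1 F'
  letI : Algebra (Fx (Iq q)) C.Ep := (k0Hom C).toAlgebra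
  letI : Algebra (Fx (Iq q)) F' := ((algebraMap C.Ep F').comp (k0Hom C)).toAlgebra
  haveI : IsScalarTower (Fx (Iq q)) Kb F' := IsScalarTower.of_algebraMap_eq' rfl
  haveI : IsScalarTower (Fx (Iq q)) C.Ep F' := IsScalarTower.of_algebraMap_eq' rfl
  haveI : Algebra.IsAlgebraic (Fx (Iq q)) Kb := Algebra.IsAlgebraic.tower_top (K := ℚ) (Fx (Iq q))
  have hqV : ((q : ℕ) : C.Ep) ∈ V := by
    have := hint (algebraMap (Rn S0 b 𝔫) C.Ep ((q : ℕ) : Rn S0 b 𝔫)) isIntegral_algebraMap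
    rwa [map_natCast] at this
  have hqV' : (((q : ℕ) : C.Ep))⁻¹ ∈ V := by rwa [map_natCast] at hq
  have hK : ∀ a : Fx (Iq q), algebraMap (Fx (Iq q)) C.Ep a ∈ V := by
    intro a
    by_cases ha : a = 0
    · rw [ha, map_zero]; exact V.zero_mem
    have ha' : (a : Qb) ≠ 0 := fun h => ha (Subtype.ext h)
    obtain ⟨k, u, -, hau⟩ := Mod.exists_zpow_mul ha' (mem_Fx.mp a.2)
    -- the unit part
    set ub : Mod.BB S0 b := ⟨Mod.cE q M1 (u : Mod.O0 q), by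
        have := Mod.phi_mem_BB S0 b (Polynomial.C (u : Mod.O0 q))
        rwa [Mod.phi, Polynomial.coe_eval₂RingHom, Polynomial.eval₂_C] at this⟩ with hub
    have h1 : algebraMap (Rn S0 b 𝔫) C.Ep (algebraMap (Mod.BB S0 b) (Rn S0 b 𝔫) ub) ∈ V :=
      hint _ isIntegral_algebraMap
    have h2 : algebraMap (Fx (Iq q)) C.Ep a =
        ((q : ℕ) : C.Ep) ^ k * algebraMap (Rn S0 b 𝔫) C.Ep (algebraMap (Mod.BB S0 b) (Rn S0 b 𝔫) ub) := by
      apply Subtype.ext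
      show Cov.cstHom q M1 F' (a : Kb) = _
      rw [hau, map_mul, map_zpow₀, map_natCast]
      push_cast
      rfl
    rw [h2]
    refine V.mul_mem _ _ ?_ h1
    obtain ⟨n, rfl | rfl⟩ := k.eq_nat_or_neg
    · rw [zpow_natCast]; exact V.pow_mem hqV n
    · rw [zpow_neg, zpow_natCast, ← inv_pow]; exact V.pow_mem hqV' n
  have test1 : IsScalarTower (Fx (Iq q)) Kb F' := inferInstance
  have test2 : IsScalarTower (Fx (Iq q)) C.Ep F' := inferInstance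
  exact @Alg.unr_pow (Fx (Iq q)) Kb C.Ep F' _ _ _ _ _ _ _ _ _ _ _ test1 test2 (fun x => C.hgen x) V h hK hh hh' hV
    (q : ℕ) z hz hdiv

/-- the divisor of `z = u^m g^q h^q` on `F'` is divisible by `q` -/
theorem relH_div {u g : FN (M1 * (q : ℕ))} {h z : F'} {m : ℤ} (hu0 : u ≠ 0) (hg : g ≠ 0) (hh : h ≠ 0)
    (hz : z = algebraMap (FN (M1 * (q : ℕ))) F' (u ^ m * g ^ (q : ℕ)) * h ^ (q : ℕ))
    (P : @Place Kb F' _ _ (algKbF q M1 F'))
    (hu : ((q : ℕ) : ℤ) ∣ @Place.ord Kb F' _ _ (algKbF q M1 F') P (algebraMap (FN (M1 * (q : ℕ))) F' u)) :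
    ((q : ℕ) : ℤ) ∣ @Place.ord Kb F' _ _ (algKbF q M1 F') P z := by
  letI : Algebra Kb F' := algKbF q M1 F'
  have hu' : algebraMap (FN (M1 * (q : ℕ))) F' u ≠ 0 := (map_ne_zero _).2 hu0
  have hg' : algebraMap (FN (M1 * (q : ℕ))) F' g ≠ 0 := (map_ne_zero _).2 hg
  rw [hz, map_mul, map_zpow₀, map_pow, ← zpow_natCast, ← zpow_natCast h,
    P.ord_mul (mul_ne_zero (zpow_ne_zero _ hu') (zpow_ne_zero _ hg')) (zpow_ne_zero _ hh),
    P.ord_mul (zpow_ne_zero _ hu') (zpow_ne_zero _ hg'), P.ord_zpow, P.ord_zpow, P.ord_zpow]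
  exact dvd_add (dvd_add (Dvd.dvd.mul_left hu _) (dvd_mul_right _ _)) (dvd_mul_right _ _)

end Fermat.Agent.S44.Cov
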