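import Mathlib
import Fermat.Prelude.Def_ModularCurve_LaurentCoeff

/-!
# S44 / GEO / COVER : `p`-th roots in `K((q))`      key `S44/COV-FLD` (helper19)

* `exists_root` : `s ≠ 0` of order `0`, `b ^ p = lc s`, `p ≠ 0` in `K`  ⟹  `∃ y, y ^ p = s`, `order y = 0`, `lc y = b`  (Hensel in `K[[q]]`);
* `root_eq_mul` : `y ^ p = y' ^ p` ⟹ `y = C (ζ ^ i) * y'`;  `root_unique` : equal leading coefficients ⟹ `y = y'`;
* `order_coeffMap`, `leadingCoeff_coeffMap` for injective ring homs.
-/

set_option autoImplicit false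

open HahnSeries ModularCurve

noncomputable section

namespace Fermat.Agent.S44.Cov

variable {K : Type*} [Field K]

theorem ps_exists_root (p : ℕ) (hp0 : 0 < p) (hp : (p : K) ≠ 0) (s : PowerSeries K) (b : K)
    (hb0 : b ≠ 0) (hb : b ^ p = PowerSeries.constantCoeff s) :
    ∃ a : PowerSeries K, a ^ p = s ∧ PowerSeries.constantCoeff a = b := by
  have hH : HenselianRing (PowerSeries K) (Ideal.span {PowerSeries.X}) := inferInstance
  have hmem : ∀ z : PowerSeries K, z ∈ Ideal.span {(PowerSeries.X : PowerSeries K)} ↔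
      PowerSeries.constantCoeff z = 0 := by
    intro z
    rw [Ideal.mem_span_singleton, PowerSeries.X_dvd_iff]
  obtain ⟨a, ha, ha0⟩ := hH.is_henselian (Polynomial.X ^ p - Polynomial.C s)
    (Polynomial.monic_X_pow_sub_C s hp0.ne') (PowerSeries.C b) (by
      rw [hmem]
      simp [hb]) (by
      have h1 : (Polynomial.derivative (Polynomial.X ^ p - Polynomial.C s :
          Polynomial (PowerSeries K))).eval (PowerSeries.C b) =
          PowerSeries.C ((p : K) * b ^ (p - 1)) := by
        rw [Polynomial.derivative_sub, Polynomial.derivative_C, sub_zero,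
          Polynomial.derivative_X_pow, Polynomial.eval_mul, Polynomial.eval_pow,
          Polynomial.eval_X, Polynomial.eval_C, map_mul, map_pow, map_natCast]
      rw [h1]
      apply IsUnit.map
      apply IsUnit.map
      exact (mul_ne_zero hp (pow_ne_zero _ hb0)).isUnit)
  refine ⟨a, ?_, ?_⟩
  · have : (Polynomial.X ^ p - Polynomial.C s : Polynomial (PowerSeries K)).eval a = 0 := ha
    simpa [sub_eq_zero] using this
  · rw [hmem, map_sub, sub_eq_zero] at ha0
    simpa using ha0

theorem order_eq_zero_of_coeff {y : LaurentSeries K} (h0 : y.coeff 0 ≠ 0)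
    (hneg : ∀ n : ℤ, n < 0 → y.coeff n = 0) : y.order = 0 := by
  have hy : y ≠ 0 := by
    rintro rfl
    exact h0 rfl
  apply le_antisymm (HahnSeries.order_le_of_coeff_ne_zero h0)
  by_contra hlt
  exact (mt HahnSeries.coeff_order_eq_zero.mp hy) (hneg _ (not_le.1 hlt))

/-- `p`-th roots in `K((q))` -/
theorem exists_root (p : ℕ) (hp0 : 0 < p) (hp : (p : K) ≠ 0) (s : LaurentSeries K) (hs0 : s ≠ 0)
    (hs : s.order = 0) (b : K) (hb : b ^ p = s.leadingCoeff) :
    ∃ y : LaurentSeries K, y ^ p = s ∧ y.order = 0 ∧ y.leadingCoeff = b := by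
  have hlc : s.leadingCoeff ≠ 0 := HahnSeries.leadingCoeff_ne_zero.2 hs0
  have hb0 : b ≠ 0 := by
    rintro rfl
    rw [zero_pow hp0.ne'] at hb
    exact hlc hb.symm
  have hpart : HahnSeries.ofPowerSeries ℤ K s.powerSeriesPart = s := by
    rw [LaurentSeries.ofPowerSeries_powerSeriesPart, hs, neg_zero]
    exact one_mul s
  have hcc : PowerSeries.constantCoeff s.powerSeriesPart = s.leadingCoeff := by
    rw [← PowerSeries.coeff_zero_eq_constantCoeff_apply, LaurentSeries.powerSeriesPart_coeff,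
      HahnSeries.leadingCoeff_eq]
    simp
  obtain ⟨a, ha, ha0⟩ := ps_exists_root p hp0 hp s.powerSeriesPart b hb0 (by rw [hb, hcc])
  have hc0 : (HahnSeries.ofPowerSeries ℤ K a).coeff 0 = b := by
    have := HahnSeries.ofPowerSeries_apply_coeff (Γ := ℤ) a 0
    rw [Nat.cast_zero] at this
    rw [this, PowerSeries.coeff_zero_eq_constantCoeff_apply, ha0]
  have hord : (HahnSeries.ofPowerSeries ℤ K a).order = 0 := by
    apply order_eq_zero_of_coeff (by rw [hc0]; exact hb0)
    intro n hn
    rw [HahnSeries.ofPowerSeries_apply]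
    apply HahnSeries.embDomain_of_notMem_range
    rintro ⟨m, hm⟩
    have : (m : ℤ) = n := hm
    omega
  refine ⟨HahnSeries.ofPowerSeries ℤ K a, ?_, hord, ?_⟩
  · rw [← map_pow, ha, hpart]
  · rw [HahnSeries.leadingCoeff_eq, hord, hc0]

theorem root_eq_mul {p : ℕ} (hp0 : 0 < p) {ζ : K} (hζ : IsPrimitiveRoot ζ p)
    {y y' : LaurentSeries K} (hy' : y' ≠ 0) (h : y ^ p = y' ^ p) :
    ∃ i < p, y = HahnSeries.C (ζ ^ i) * y' := by
  have hζ' : IsPrimitiveRoot (HahnSeries.C ζ : LaurentSeries K) p :=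
    hζ.map_of_injective HahnSeries.C_injective
  have h1 : (y / y') ^ p = 1 := by
    rw [div_pow, h, div_self (pow_ne_zero _ hy')]
  have : NeZero p := ⟨hp0.ne'⟩
  obtain ⟨i, hi, hi'⟩ := hζ'.eq_pow_of_pow_eq_one h1
  refine ⟨i, hi, ?_⟩
  rw [map_pow, hi', div_mul_cancel₀ _ hy']

theorem leadingCoeff_C (a : K) : (HahnSeries.C a : LaurentSeries K).leadingCoeff = a :=
  HahnSeries.leadingCoeff_of_single

theorem root_unique {p : ℕ} (hp0 : 0 < p) {ζ : K} (hζ : IsPrimitiveRoot ζ p)
    {y y' : LaurentSeries K} (hy' : y' ≠ 0) (h : y ^ p = y' ^ p)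
    (hlc : y.leadingCoeff = y'.leadingCoeff) : y = y' := by
  obtain ⟨i, -, hi⟩ := root_eq_mul hp0 hζ hy' h
  have h1 : y.leadingCoeff = ζ ^ i * y'.leadingCoeff := by
    rw [hi, HahnSeries.leadingCoeff_mul, leadingCoeff_C]
  rw [hlc] at h1
  have h2 : ζ ^ i = 1 := by
    have h3 : y'.leadingCoeff ≠ 0 := HahnSeries.leadingCoeff_ne_zero.2 hy'
    exact mul_right_cancel₀ h3 (by rw [← h1, one_mul])
  rw [hi, h2, map_one, one_mul]

section Map

variable {K' : Type*} [Field K'] (φ : K →+* K')

theorem coeffMap_ne_zero' {y : LaurentSeries K} (hy : y ≠ 0) : coeffMap φ y ≠ 0 := by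
  intro h0
  apply hy
  ext k
  have := congrArg (fun z : LaurentSeries K' => z.coeff k) h0
  simpa using this

theorem order_coeffMap (y : LaurentSeries K) : (coeffMap φ y).order = y.order := by
  by_cases hy : y = 0
  · rw [hy, map_zero, HahnSeries.order_zero, HahnSeries.order_zero]
  have hy' := coeffMap_ne_zero' φ hy
  apply le_antisymm
  · apply HahnSeries.order_le_of_coeff_ne_zero
    rw [coeffMap_coeff]
    have := mt HahnSeries.coeff_order_eq_zero.mp hy
    simpa using this
  · apply HahnSeries.order_le_of_coeff_ne_zero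
    have := mt HahnSeries.coeff_order_eq_zero.mp hy'
    rw [coeffMap_coeff] at this
    intro h0
    rw [h0] at this
    simp at this

theorem leadingCoeff_coeffMap (y : LaurentSeries K) :
    (coeffMap φ y).leadingCoeff = φ y.leadingCoeff := by
  rw [HahnSeries.leadingCoeff_eq, HahnSeries.leadingCoeff_eq, order_coeffMap, coeffMap_coeff]

end Map

end Fermat.Agent.S44.Cov
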