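import Fermat.Agent.S44.Geo.Cov.RelVal
import Fermat.Agent.S44.Geo.Cov.Loc1
import Fermat.Agent.S44.Geo.Cov.Root
import Fermat.Agent.S44.Alg.CuspAbs
import Fermat.Agent.S44.Geo.Cov.RelH
import Fermat.Agent.S44.Geo.Cov.Gen2
import Fermat.Agent.S44.Mod.Cusp

/-!
# S44 / GEO / COVER : [CUSP]  leading coefficient at a cusp versus the sheet valuation          [key S44/COV-CUSP]   (helper27)

`cusp_abs` : one statement for the two cusps.  `𝔫` a closed point of the chart `1/t` which lies on ONE component (`q` prime in `R = Rn S0 true 𝔫`, `𝔪 = (q, Y)`),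
`ι : F' → Kb((q))` an `I`-equivariant expansion mapping `BB` into `VC A = {ord ≥ 0, f(0) ∈ A}`, and `BB ∖ 𝔫` to units;  `W` the sheet valuation (`Branch`);
`D` a sheet datum over `R` with `D.δ = δ`.  Then for `z ∈ E'` with divisor divisible by `q`:  `w (lc (ι (δ^k₀ z))) ≡ W z  mod q` for some `k₀`.

Proof: `Alg.Sheet.cusp_rel` with `lam = w ∘ lc ∘ ι ∘ δ^k₂`, `mu = W ∘ δ^k₁`, where `ev (δ^k₂ e) ≠ 0`, `W (δ^k₁ e) = 0`, applied to `δ^j z`, `k₁ + j ≡ 0 mod n`.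
-/

set_option autoImplicit false
set_option synthInstance.maxHeartbeats 400000
set_option linter.unusedSectionVars false
set_option linter.style.haveILetI false

open HahnSeries ModularCurve AlgebraicCurve Fermat.Agent.S24 Fermat.Agent.S29 Fermat.Agent.S18
  Fermat.Agent.ES Fermat.Agent.ES.Alg Fermat.Agent.S34.Mod Fermat.Agent.S05 Fermat.Agent.S55.B ExtCitation
  Fermat.Agent.S33
open Fermat.Agent.S55 (Dq Iq)

noncomputable section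

namespace Fermat.Agent.S44.Cov

variable {q : Nat.Primes} {M1 r : ℕ} [NeZero M1] [NeZero (q : ℕ)] [NeZero r]

theorem evC_surjective (A : ValuationSubring Kb) : Function.Surjective (Mod.evC A) := by
  intro y
  obtain ⟨a, rfl⟩ := IsLocalRing.residue_surjective y
  refine ⟨⟨HahnSeries.C (a : Kb), Mod.C_mem_VC a⟩, ?_⟩
  rw [Mod.evC_apply]
  congr 1
  exact Subtype.ext (by simp [HahnSeries.C_apply])

theorem isUnit_of_evC_ne_zero {A : ValuationSubring Kb} {f : Mod.VC A} (h : Mod.evC A f ≠ 0) : IsUnit f := by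
  by_contra hu
  have hm : f ∈ IsLocalRing.maximalIdeal (Mod.VC A) := hu
  have hker : RingHom.ker (Mod.evC A) = IsLocalRing.maximalIdeal (Mod.VC A) :=
    IsLocalRing.eq_maximalIdeal (RingHom.ker_isMaximal_of_surjective _ (evC_surjective A))
  rw [← hker] at hm
  exact h hm

theorem inv_mem_VC_of_evC_ne_zero {A : ValuationSubring Kb} {f : Mod.VC A} (h : Mod.evC A f ≠ 0) :
    (f : LaurentSeries Kb)⁻¹ ∈ Mod.VC A := by
  obtain ⟨u, hu⟩ := isUnit_of_evC_ne_zero h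
  have h1 : (f : LaurentSeries Kb) * ((u⁻¹ : (Mod.VC A)ˣ) : Mod.VC A) = 1 := by
    rw [← hu]
    exact congrArg Subtype.val (u.mul_inv)
  rw [← eq_inv_of_mul_eq_one_right h1]
  exact ((u⁻¹ : (Mod.VC A)ˣ) : Mod.VC A).2

section Abs

variable {hc : Nat.Coprime (q : ℕ) M1} {t : FN (M1 * (q : ℕ))} {F' : Type} [Field F']
  [Algebra (FN (M1 * (q : ℕ))) F'] (C : Cov q M1 hc t F')

theorem coe_δE_pow (k : ℕ) (x : C.Ep) : (((C.δE ^ k) x : C.Ep) : F') = (C.δ ^ k) (x : F') := by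
  induction k generalizing x with
  | zero => rfl
  | succ k ih =>
    rw [pow_succ, pow_succ, AlgEquiv.mul_apply, AlgEquiv.mul_apply, ih, C.coe_δE]

end Abs

section Main

variable (S0 : Setup M1 (q : ℕ) r (AA q)) (𝔫 : Ideal (Mod.BB S0 true)) [h𝔫 : 𝔫.IsMaximal]
variable {t : FN (M1 * (q : ℕ))} {F' : Type} [Field F'] [Algebra (FN (M1 * (q : ℕ))) F'] (C : Cov q M1 S0.hc t F')

/-- **[CUSP]**, abstract form -/
theorem cusp_abs {W : RVal F'} {w : RVal (FN (M1 * (q : ℕ)))} {ρ : Mod.BB S0 true →+* LaurentSeries (kA (AA q))}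
    (B : Branch S0 true 𝔫 C W w ρ) (ι : F' →+* LaurentSeries Kb)
    (hιact : ∀ (σ : ↥(Iq q)) (x : F'), ι (C.act σ x) = coeffMap (((σ : GQ) : Kb ≃ₐ[ℚ] Kb) : Kb →+* Kb) (ι x))
    (hιB : ∀ β : Mod.BB S0 true,
      ι (algebraMap (FN (M1 * (q : ℕ))) F' ((β : Mod.EE q M1) : FN (M1 * (q : ℕ)))) ∈ Mod.VC (AA q))
    (hιn : ∀ β : Mod.BB S0 true, β ∉ 𝔫 → Mod.evC (AA q) ⟨_, hιB β⟩ ≠ 0)
    (hp : Prime ((q : ℕ) : Rn S0 true 𝔫)) {Y : Rn S0 true 𝔫}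
    (hm : IsLocalRing.maximalIdeal (Rn S0 true 𝔫) = Ideal.span {((q : ℕ) : Rn S0 true 𝔫)} ⊔ Ideal.span {Y})
    (D : Alg.Sheet (E := Mod.EE q M1) (Rn S0 true 𝔫) C.Ep ((q : ℕ) : Rn S0 true 𝔫)) (hD : D.δ = C.δE)
    (z : F') (hz : z ∈ C.Ep) (hz0 : z ≠ 0)
    (hdiv : ∃ (v : FN (M1 * (q : ℕ))) (h : F'), PDiv Kb (FN (M1 * (q : ℕ))) (q : ℕ) v ∧
      z = algebraMap (FN (M1 * (q : ℕ))) F' v * h ^ (q : ℕ)) :
    ∃ (k₀ : ℕ) (n : ℤ), (wq q).w ((ι ((C.δ ^ k₀) z)).leadingCoeff) - W.w z = (q : ℕ) * n := by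
  classical
  haveI := C.finiteDimensional_Ep
  have hcoe : ∀ (k : ℕ) (x : C.Ep), (((D.δ ^ k) x : C.Ep) : F') = (C.δ ^ k) (x : F') := by
    intro k x
    rw [hD]
    exact coe_δE_pow C k x
  -- (1) `ι` maps `R` and the integral elements into `VC`
  have hιR : ∀ x : Rn S0 true 𝔫, ((ι.comp C.Ep.subtype).comp (algebraMap (Rn S0 true 𝔫) C.Ep)) x ∈ Mod.VC (AA q) := by
    intro x
    obtain ⟨a, s, hs, hx⟩ := (mem_Rn true 𝔫).1 x.2
    show ι (algebraMap (FN (M1 * (q : ℕ))) F' ((x : Mod.EE q M1) : FN (M1 * (q : ℕ)))) ∈ _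
    rw [hx]
    show ι (algebraMap (FN (M1 * (q : ℕ))) F' (((a : Mod.EE q M1) : FN (M1 * (q : ℕ))) *
      ((s : Mod.EE q M1) : FN (M1 * (q : ℕ)))⁻¹)) ∈ _
    rw [map_mul, map_mul, map_inv₀, map_inv₀]
    have h1 := inv_mem_VC_of_evC_ne_zero (f := ⟨_, hιB s⟩) (hιn s hs)
    exact (Mod.VC (AA q)).mul_mem _ _ (hιB a) h1
  have hVC : ∀ a : C.Ep, IsIntegral (Rn S0 true 𝔫) a → ι (a : F') ∈ Mod.VC (AA q) := by
    intro a ha
    obtain ⟨p, hp1, hp2⟩ := ha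
    refine Mod.VC_closed _ hιR ⟨p, hp1, ?_⟩
    have := Polynomial.hom_eval₂ p (algebraMap (Rn S0 true 𝔫) C.Ep) (ι.comp C.Ep.subtype) a
    rw [hp2, map_zero] at this
    exact this.symm
  -- (2) the evaluation at the cusp
  let φ : integralClosure (Rn S0 true 𝔫) C.Ep →+* Mod.VC (AA q) :=
    ((ι.comp C.Ep.subtype).comp (algebraMap (integralClosure (Rn S0 true 𝔫) C.Ep) C.Ep)).codRestrict
      (Mod.VC (AA q)) (fun x => hVC x.1 x.2)
  have hne : ∀ x : C.Ep, x ≠ 0 → (ι (x : F')).leadingCoeff ≠ 0 := by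
    intro x hx
    rw [HahnSeries.leadingCoeff_ne_zero, _root_.map_ne_zero]
    exact fun h => hx (Subtype.ext h)
  obtain ⟨v, h, hv, hzv⟩ := hdiv
  have hh0 : h ≠ 0 := by
    rintro rfl
    rw [zero_pow q.2.ne_zero, mul_zero] at hzv
    exact hz0 hzv
  have hz0' : (⟨z, hz⟩ : C.Ep) ≠ 0 := fun h0 => hz0 (congrArg Subtype.val h0)
  have hH : ∀ (j : ℕ) (V : ValuationSubring C.Ep) (π : C.Ep),
      (∀ a : C.Ep, IsIntegral (Rn S0 true 𝔫) a → a ∈ V) →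
      (algebraMap (Rn S0 true 𝔫) C.Ep ((q : ℕ) : Rn S0 true 𝔫))⁻¹ ∈ V → π ∈ V → π⁻¹ ∉ V →
      (∀ y : C.Ep, y ≠ 0 → ∃ k : ℤ, y * π ^ k ∈ V ∧ (y * π ^ k)⁻¹ ∈ V) →
      ∃ w : C.Ep, w ≠ 0 ∧ (D.δ ^ j) ⟨z, hz⟩ * w ^ (q : ℕ) ∈ V ∧ ((D.δ ^ j) ⟨z, hz⟩ * w ^ (q : ℕ))⁻¹ ∈ V := by
    intro j V π h1 h2 h3 h4 h5
    have hz'c : (((D.δ ^ j) ⟨z, hz⟩ : C.Ep) : F') = (C.δ ^ j) z := hcoe j ⟨z, hz⟩
    have hz' : (D.δ ^ j) (⟨z, hz⟩ : C.Ep) ≠ 0 := by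
      rw [Ne, EmbeddingLike.map_eq_zero_iff]
      exact hz0'
    have hz'v : (((D.δ ^ j) ⟨z, hz⟩ : C.Ep) : F') =
        algebraMap (FN (M1 * (q : ℕ))) F' (v ^ (1 : ℤ) * 1 ^ (q : ℕ)) * ((C.δ ^ j) h) ^ (q : ℕ) := by
      rw [hz'c, hzv, map_mul, map_pow, δ_pow_alg, zpow_one, one_pow, mul_one]
    have hdivP : ∀ P : @Place Kb F' _ _ (algKbF q M1 F'),
        ((q : ℕ) : ℤ) ∣ @Place.ord Kb F' _ _ (algKbF q M1 F') P (((D.δ ^ j) ⟨z, hz⟩ : C.Ep) : F') := fun P =>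
      relH_div hv.1 one_ne_zero ((_root_.map_ne_zero _).2 hh0) hz'v P (Cov.dvd_ord hv P)
    exact relH S0 C true 𝔫 hz' hdivP V π h1 h2 h3 h4 h5
  obtain ⟨k₀, n, hk⟩ := D.cusp_val hp hm (q : ℕ) q.2.pos ⟨z, hz⟩ hz0' hH (resV C W 0) (B.hint 0) (B.hϖ 0) (B.hZ 0)
    (fun x => (wq q).w ((ι (x : F')).leadingCoeff))
    (by
      intro x y hx hy
      show (wq q).w ((ι ((x : F') * (y : F'))).leadingCoeff) = _
      rw [map_mul, HahnSeries.leadingCoeff_mul, (wq q).map_mul _ _ (hne x hx) (hne y hy)])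
    (by
      rw [map_natCast]
      show (wq q).w ((ι ((q : ℕ) : F')).leadingCoeff) = 1
      rw [map_natCast, ← map_natCast (HahnSeries.C : Kb →+* LaurentSeries Kb), HahnSeries.C_apply,
        HahnSeries.leadingCoeff_of_single]
      exact wq_q q)
    (by
      intro y hy
      refine w_int_of_fixed q (fun σ hσ => ?_) (hne y hy)
      have h1 := hιact ⟨σ, hσ⟩ (y : F')
      rw [y.2 ⟨σ, hσ⟩] at h1
      have h2 := leadingCoeff_coeffMap ((σ : Kb ≃ₐ[ℚ] Kb) : Kb →+* Kb) (ι (y : F'))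
      rw [← h1] at h2
      exact h2.symm)
    ((Mod.evC (AA q)).comp φ)
    (by
      rw [map_natCast, map_natCast]
      exact Mod.natCast_kA S0)
    (fun a ha => (Mod.order_of_evC_ne_zero (f := φ a) ha).2.w_eq)
  refine ⟨k₀, n, ?_⟩
  rw [← hcoe k₀ ⟨z, hz⟩]
  exact hk

end Main

end Fermat.Agent.S44.Cov
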