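import Fermat.Agent.S44.Mod.Cusp
import Fermat.Agent.S44.Alg.Cover

/-!
# S44 / GEO / COVER / CUSP : the hypothesis `hlamU` of `Alg.Sheet.cusp_rel`, abstractly          (helper22)

`φ : E' →+* Kb((q))` an expansion with `φ R ⊆ VC` (series without pole whose constant term is integral), `ϖ ↦ 0` in the residue field.
Then integral elements go to `VC`; `ψ_k := evC ∘ φ ∘ δ^k`; as `∑ δ^k e ≡ 1`, some `ψ_k e ≠ 0`; if `e (a - r_a) ∈ ϖ R'` then `ψ_k a = ψ_k r_a ≠ 0`.
-/

set_option autoImplicit false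
set_option synthInstance.maxHeartbeats 400000
set_option linter.unusedSectionVars false

open HahnSeries Fermat.Agent.S05 Fermat.Agent.S55.B Fermat.Agent.S33 Fermat.Agent.S44.Mod Fermat.Agent.ES
  Fermat.Agent.S34.Mod Fermat.Agent.S24 Fermat.Agent.S29 Fermat.Agent.S18 ExtCitation

noncomputable section

namespace Fermat.Agent.S44.Cov

variable {q : Nat.Primes} [NeZero (q : ℕ)]

theorem cusp_lam {R : Type*} [CommRing R] {E : Type*} {E' : Type*} [Field E] [Field E'] [Algebra R E]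
    [Algebra E E'] [Algebra R E'] [IsScalarTower R E E'] {ϖ : R} (D : Alg.Sheet (E := E) R E' ϖ)
    (φ : E' →+* LaurentSeries Kb) (hR : ∀ x : R, φ (algebraMap R E' x) ∈ VC (AA q))
    (hϖ : evC (AA q) ⟨φ (algebraMap R E' ϖ), hR ϖ⟩ = 0) :
    ∃ k : ℕ, ∀ (a : E') (ra : R), IsUnit ra → IsIntegral R a →
      D.e * (a - algebraMap R E' ra) ∈ Alg.JJ R E' ϖ →
      a ≠ 0 ∧ (φ ((D.δ ^ k) a)).order = 0 ∧ (wq q).w (φ ((D.δ ^ k) a)).leadingCoeff = 0 := by
  classical
  -- integral elements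
  have hI : ∀ a : E', IsIntegral R a → φ a ∈ VC (AA q) := by
    intro a ha
    refine VC_closed (φ.comp (algebraMap R E')) hR ?_
    obtain ⟨p, hp, hpa⟩ := ha
    refine ⟨p, hp, ?_⟩
    have := congrArg φ hpa
    rwa [Polynomial.hom_eval₂, map_zero] at this
  -- the ring hom `R' → kA`
  let O := integralClosure R E'
  let Ψ : O →+* kA (AA q) := (evC (AA q)).comp
    ((φ.comp (algebraMap O E')).codRestrict (VC (AA q)).toSubring (fun x => hI x.1 x.2))
  have hΨ : ∀ x : O, Ψ x = evC (AA q) ⟨φ x.1, hI x.1 x.2⟩ := fun _ => rfl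
  have hΨϖ : Ψ (algebraMap R O ϖ) = 0 := hϖ
  let eK : ℕ → O := fun k => ⟨(D.δ ^ k) D.e, D.int_pow D.int k⟩
  -- some conjugate of `e` does not vanish
  obtain ⟨c, hc, hs⟩ := D.sum
  have hs' : ∑ k ∈ Finset.range D.n, eK k = 1 + algebraMap R O ϖ * ⟨c, hc⟩ := by
    apply Subtype.ext
    rw [AddSubmonoidClass.coe_finsetSum]
    exact hs
  have hex : ∃ k, Ψ (eK k) ≠ 0 := by
    by_contra hcon
    push Not at hcon
    have h1 := congrArg Ψ hs'
    rw [map_sum, Finset.sum_eq_zero (fun k _ => hcon k), map_add, map_mul, hΨϖ, zero_mul, add_zero,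
      map_one] at h1
    exact zero_ne_one h1
  obtain ⟨k, hk⟩ := hex
  refine ⟨k, fun a ra hra ha hJa => ?_⟩
  obtain ⟨d, hd, hde⟩ := hJa
  have hδR : ∀ x : R, (D.δ ^ k) (algebraMap R E' x) = algebraMap R E' x := by
    intro x
    rw [IsScalarTower.algebraMap_apply R E E']
    exact (D.δ ^ k).commutes _
  have e1 : eK k * ⟨(D.δ ^ k) a, D.int_pow ha k⟩ =
      eK k * algebraMap R O ra + algebraMap R O ϖ * ⟨(D.δ ^ k) d, D.int_pow hd k⟩ := by
    apply Subtype.ext
    show (D.δ ^ k) D.e * (D.δ ^ k) a =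
      (D.δ ^ k) D.e * algebraMap R E' ra + algebraMap R E' ϖ * (D.δ ^ k) d
    have := congrArg (D.δ ^ k) hde
    rw [map_mul, map_mul, map_sub, hδR, hδR] at this
    linear_combination this
  have e2 := congrArg Ψ e1
  rw [map_mul, map_add, map_mul, map_mul, hΨϖ, zero_mul, add_zero] at e2
  have e3 := mul_left_cancel₀ hk e2
  have hu : Ψ (algebraMap R O ra) ≠ 0 := ((hra.map (algebraMap R O)).map Ψ).ne_zero
  rw [← e3, hΨ] at hu
  obtain ⟨ho, hl⟩ := order_of_evC_ne_zero hu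
  refine ⟨?_, ho, hl.2⟩
  rintro rfl
  apply hl.1
  show (φ ((D.δ ^ k) 0)).leadingCoeff = 0
  rw [map_zero, map_zero]
  exact HahnSeries.leadingCoeff_zero

end Fermat.Agent.S44.Cov
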