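import Fermat.Agent.S17.Rat.Inst
import Fermat.Agent.S35.Idem
import Fermat.Agent.S44.Geo.Cov.Root

/-!
# S44 / GEO / COVER : `PDiv m u ⟹ m ∣ ord_q u`;  `p`-th roots in `K((q))` of series whose order is divisible by `p`          (helper22)
-/

set_option autoImplicit false
set_option synthInstance.maxHeartbeats 400000

open HahnSeries ModularCurve AlgebraicCurve Fermat.Agent.S24 Fermat.Agent.S29

noncomputable section

namespace Fermat.Agent.S44.Cov

theorem order_zpow' {K : Type*} [Field K] {x : LaurentSeries K} (hx : x ≠ 0) (n : ℤ) :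
    (x ^ n).order = n * x.order := by
  have hnat : ∀ m : ℕ, (x ^ m).order = (m : ℤ) * x.order := by
    intro m
    induction m with
    | zero => simp
    | succ m ih =>
      rw [pow_succ, HahnSeries.order_mul (pow_ne_zero m hx) hx, ih]; push_cast; ring
  cases n with
  | ofNat m => simpa using hnat m
  | negSucc m =>
    rw [zpow_negSucc, Fermat.Agent.S18.order_inv' (pow_ne_zero _ hx), hnat]
    push_cast [Int.negSucc_eq]; ring

variable {N : ℕ} [NeZero N]

theorem ooN_ord_eq_zero {f : FN N} (hf : f ≠ 0) (h : (f : LaurentSeries Kb).order = 0) :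
    (Fermat.Agent.S17.Rat.ooN N).ord f = 0 := by
  have hf' : (f : LaurentSeries Kb) ≠ 0 := fun h0 => hf (Subtype.ext h0)
  have h1 : f ∈ (Fermat.Agent.S17.Rat.ooN N).toValuationSubring := by
    show 0 ≤ (f : LaurentSeries Kb).order
    rw [h]
  have h2 : f⁻¹ ∈ (Fermat.Agent.S17.Rat.ooN N).toValuationSubring := by
    show 0 ≤ ((f⁻¹ : FN N) : LaurentSeries Kb).order
    have e : ((f⁻¹ : FN N) : LaurentSeries Kb) = (f : LaurentSeries Kb)⁻¹ := rfl
    rw [e, Fermat.Agent.S18.order_inv' hf', h]; simp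
  have h3 := ord_nonneg_of_mem _ h1
  have h4 := ord_nonneg_of_mem _ h2
  rw [Place.ord_inv] at h4
  omega

theorem order_jN : ((jN N : FN N) : LaurentSeries Kb).order = -1 := by
  rw [Fermat.Agent.S35.coe_jN_eq]
  exact P2MW.S_ModularCurve_coeff_jqModC_neg_one.ModularCurve.CharLRows.order_jqModC Kb

theorem ooN_ord (f : FN N) (hf : f ≠ 0) :
    (Fermat.Agent.S17.Rat.ooN N).ord f =
      - ((f : LaurentSeries Kb).order * (Fermat.Agent.S17.Rat.ooN N).ord (jN N)) := by
  have hf' : (f : LaurentSeries Kb) ≠ 0 := fun h0 => hf (Subtype.ext h0)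
  have hJ : (jN N : FN N) ≠ 0 := by
    intro h0
    have := order_jN (N := N)
    rw [h0] at this
    simp at this
  have hJ' : ((jN N : FN N) : LaurentSeries Kb) ≠ 0 := fun h0 => hJ (Subtype.ext h0)
  have hg0 : f * (jN N) ^ ((f : LaurentSeries Kb).order) ≠ 0 := mul_ne_zero hf (zpow_ne_zero _ hJ)
  have e : ((f * (jN N) ^ ((f : LaurentSeries Kb).order) : FN N) : LaurentSeries Kb) =
      (f : LaurentSeries Kb) * ((jN N : FN N) : LaurentSeries Kb) ^ ((f : LaurentSeries Kb).order) := by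
    push_cast
    rfl
  have h1 : ((f * (jN N) ^ ((f : LaurentSeries Kb).order) : FN N) : LaurentSeries Kb).order = 0 := by
    rw [e, HahnSeries.order_mul hf' (zpow_ne_zero _ hJ'), order_zpow' hJ', order_jN]; ring
  have h2 := ooN_ord_eq_zero hg0 h1
  rw [Place.ord_mul _ hf (zpow_ne_zero _ hJ), Place.ord_zpow] at h2
  linarith

/-- `PDiv` at the cusp `∞` -/
theorem dvd_order {m : ℕ} {u : FN N} (hu : PDiv Kb (FN N) m u) : (m : ℤ) ∣ (u : LaurentSeries Kb).order := by
  obtain ⟨π, hπ⟩ := IsDiscreteValuationRing.exists_irreducible (Fermat.Agent.S17.Rat.ooN N).toValuationSubring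
  have hπ0 : (π : FN N) ≠ 0 := by
    simpa [ne_eq, ZeroMemClass.coe_eq_zero] using hπ.ne_zero
  have h1 := ooN_ord (π : FN N) hπ0
  rw [Place.ord_coe_irreducible _ hπ] at h1
  have h2 : IsUnit ((Fermat.Agent.S17.Rat.ooN N).ord (jN N)) :=
    IsUnit.of_mul_eq_one (-(((π : FN N) : LaurentSeries Kb).order)) (by linarith)
  have h3 := ooN_ord u hu.1
  have h4 := hu.2 (Fermat.Agent.S17.Rat.ooN N)
  rw [h3, dvd_neg] at h4
  exact (h2.dvd_mul_right).1 h4

/-- `p`-th roots of series whose order is divisible by `p` -/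
theorem exists_root' {K : Type*} [Field K] (p : ℕ) (hp0 : 0 < p) (hp : (p : K) ≠ 0) (s : LaurentSeries K)
    (hs0 : s ≠ 0) (hs : (p : ℤ) ∣ s.order) (b : K) (hb : b ^ p = s.leadingCoeff) :
    ∃ y : LaurentSeries K, y ^ p = s ∧ y.leadingCoeff = b := by
  obtain ⟨n, hn⟩ := hs
  have hX : (HahnSeries.single (1 : ℤ) (1 : K) : LaurentSeries K) ≠ 0 := by simp
  have hXo : (HahnSeries.single (1 : ℤ) (1 : K) : LaurentSeries K).order = 1 :=
    HahnSeries.order_single one_ne_zero
  have hXl : (HahnSeries.single (1 : ℤ) (1 : K) : LaurentSeries K).leadingCoeff = 1 :=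
    HahnSeries.leadingCoeff_of_single
  set X : LaurentSeries K := HahnSeries.single (1 : ℤ) (1 : K) with hXdef
  have hlz : ∀ k : ℤ, (X ^ k).leadingCoeff = 1 := by
    intro k
    have h1 : ∀ m : ℕ, (X ^ m).leadingCoeff = 1 := by
      intro m
      induction m with
      | zero => simp
      | succ m ih => rw [pow_succ, HahnSeries.leadingCoeff_mul, ih, hXl, one_mul]
    have h2 : (X ^ k).leadingCoeff * (X ^ (-k)).leadingCoeff = 1 := by
      rw [← HahnSeries.leadingCoeff_mul, ← zpow_add₀ hX]; simp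
    cases k with
    | ofNat m => simpa using h1 m
    | negSucc m =>
      have h3 : (X ^ (-(Int.negSucc m))).leadingCoeff = 1 := by
        rw [Int.neg_negSucc]
        exact_mod_cast h1 (m + 1)
      rw [h3, mul_one] at h2
      exact h2
  have hs' : s * X ^ (-s.order) ≠ 0 := mul_ne_zero hs0 (zpow_ne_zero _ hX)
  obtain ⟨y, hy, -, hl⟩ := exists_root p hp0 hp (s * X ^ (-s.order)) hs'
    (by rw [HahnSeries.order_mul hs0 (zpow_ne_zero _ hX), order_zpow' hX, hXo]; ring) b
    (by rw [HahnSeries.leadingCoeff_mul, hlz, mul_one, hb])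
  refine ⟨y * X ^ n, ?_, by rw [HahnSeries.leadingCoeff_mul, hlz, mul_one, hl]⟩
  rw [mul_pow, hy, ← zpow_natCast (X ^ n), ← zpow_mul, mul_assoc, ← zpow_add₀ hX, hn]
  have : -((p : ℤ) * n) + n * (p : ℤ) = 0 := by ring
  rw [this, zpow_zero, mul_one]

end Fermat.Agent.S44.Cov
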