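import Fermat.Agent.S44.Geo.Cov.Defs
import Fermat.Agent.S44.Geo.Cov.Root
import Fermat.Agent.S44.Geo.Cov.Abs
import Fermat.Agent.S44.Geo.Cov.Ord

/-!
# S44 / GEO / COVER / C1 : the field `F' = F(y)`, `y ^ p = t`      key `S44/COV-FLD`  (helper19)

`CovFld q M1 hc t b₁ b₂ F'` = the fields of `Cov` which do not involve valuations (all except `ι₂_act`, `W₁`, `W₂`, `gauss`, `dense`, `y₁`, `y₂`), plus
`(ι_i y).leadingCoeff = b_i`  (no condition on the orders at the cusps: `Ord.lean`, helper22).     `exists_covFld` : it exists.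
-/

set_option autoImplicit false
set_option synthInstance.maxHeartbeats 400000

open HahnSeries ModularCurve AlgebraicCurve Fermat.Agent.S24 Fermat.Agent.S29 Fermat.Agent.S18
  Fermat.Agent.ES Fermat.Agent.ES.Alg Fermat.Agent.S34.Mod Fermat.Agent.S05 Fermat.Agent.S55.B ExtCitation
  Fermat.Agent.S33
open Fermat.Agent.S55 (Dq Iq)

noncomputable section

namespace Fermat.Agent.S44.Cov

/-- the coefficientwise Galois action on `Kb((q))` -/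
def cmEquiv (σ : GQ) : LaurentSeries Kb ≃+* LaurentSeries Kb :=
  RingEquiv.ofRingHom (coeffMap ((σ : Kb ≃ₐ[ℚ] Kb) : Kb →+* Kb))
    (coeffMap ((σ.symm : Kb ≃ₐ[ℚ] Kb) : Kb →+* Kb))
    (by
      ext x n
      show σ (σ.symm (x.coeff n)) = x.coeff n
      exact σ.apply_symm_apply _)
    (by
      ext x n
      show σ.symm (σ (x.coeff n)) = x.coeff n
      exact σ.symm_apply_apply _)

/-- the coefficientwise Galois action on `Kb((q))` -/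
def cmHom : GQ →* (LaurentSeries Kb ≃+* LaurentSeries Kb) where
  toFun := cmEquiv
  map_one' := by
    ext x n
    rfl
  map_mul' σ τ := by
    ext x n
    rfl

theorem cmHom_apply (σ : GQ) (x : LaurentSeries Kb) :
    cmHom σ x = coeffMap ((σ : Kb ≃ₐ[ℚ] Kb) : Kb →+* Kb) x := rfl

variable (q : Nat.Primes) (M1 : ℕ) [NeZero M1] [NeZero (q : ℕ)]

/-- **the cover, field part** -/
structure CovFld (hc : Nat.Coprime (q : ℕ) M1) (t : FN (M1 * (q : ℕ))) (b₁ b₂ : Kb) (F' : Type) [Field F']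
    [Algebra (FN (M1 * (q : ℕ))) F'] where
  ζ : Kb
  ζ_pow : ζ ^ (q : ℕ) = 1
  ζ_iff : ∀ k : ℕ, ζ ^ k = 1 ↔ ∃ g : FN (M1 * (q : ℕ)), t ^ k = g ^ (q : ℕ)
  y : F'
  y_pow : y ^ (q : ℕ) = algebraMap (FN (M1 * (q : ℕ))) F' t
  gen : ∀ x : F', ∃ c : ℕ → FN (M1 * (q : ℕ)),
    x = ∑ i ∈ Finset.range (q : ℕ), algebraMap (FN (M1 * (q : ℕ))) F' (c i) * y ^ i
  ι₁ : F' →+* LaurentSeries Kb
  ι₂ : F' →+* LaurentSeries Kb
  ι₁_alg : ∀ x : FN (M1 * (q : ℕ)), ι₁ (algebraMap (FN (M1 * (q : ℕ))) F' x) = (x : LaurentSeries Kb)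
  ι₂_alg : ∀ x : FN (M1 * (q : ℕ)), ι₂ (algebraMap (FN (M1 * (q : ℕ))) F' x) =
    ((Wq hc x : FN (M1 * (q : ℕ))) : LaurentSeries Kb)
  act : ↥(Iq q) →* (F' ≃+* F')
  ι₁_act : ∀ (σ : ↥(Iq q)) (x : F'), ι₁ (act σ x) = coeffMap (((σ : GQ) : Kb ≃ₐ[ℚ] Kb) : Kb →+* Kb) (ι₁ x)
  lev : ∀ x : F', ∃ θ : Qb, ∀ σ : ↥(Iq q), (σ : GQ) θ = θ → act σ x = x
  δ : F' ≃ₐ[FN (M1 * (q : ℕ))] F'
  δ_y : δ y = algebraMap (FN (M1 * (q : ℕ))) F' (algebraMap Kb (FN (M1 * (q : ℕ))) ζ) * y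
  δ_act : ∀ (σ : ↥(Iq q)) (x : F'), δ (act σ x) = act σ (δ x)
  lc₁ : (ι₁ y).leadingCoeff = b₁
  lc₂ : (ι₂ y).leadingCoeff = b₂

variable {q M1}

theorem fldAux_exists_cyc (σ : GQ) {ζ : Qb} (hζ : IsPrimitiveRoot ζ (q : ℕ)) :
    ∃ c : ℕ, Cyc (q : ℕ) σ c := by
  have h1 : (σ ζ) ^ (q : ℕ) = 1 := by rw [← map_pow, hζ.pow_eq_one, map_one]
  obtain ⟨c, -, hc⟩ := hζ.eq_pow_of_pow_eq_one h1
  refine ⟨c, fun μ hμ => ?_⟩
  obtain ⟨i, -, hi⟩ := hζ.eq_pow_of_pow_eq_one hμ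
  rw [← hi, map_pow, ← hc, ← pow_mul, ← pow_mul, mul_comm]

theorem fldAux_coe_algebraMap {N : ℕ} (a : Kb) :
    ((algebraMap Kb (FN N) a : FN N) : LaurentSeries Kb) = HahnSeries.C a := by
  show algebraMap Kb (LaurentSeries Kb) a = _
  rw [algebraMap_laurentSeries_eq_single]
  rfl

/-- the semilinearity of the root -/
theorem fldAux_hy {hc : Nat.Coprime (q : ℕ) M1} {t : FN (M1 * (q : ℕ))} (hT : GoodT q M1 hc t)
    {ζ : Kb} (hζ : IsPrimitiveRoot ζ (q : ℕ)) {y₁ : LaurentSeries Kb}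
    (hy₁ : y₁ ^ (q : ℕ) = (t : LaurentSeries Kb)) (σ : ↥(Iq q)) :
    ∃ (c : ℕ) (h : FN (M1 * (q : ℕ))),
      coeffMap (((σ : GQ) : Kb ≃ₐ[ℚ] Kb) : Kb →+* Kb) y₁ = (h : LaurentSeries Kb) * y₁ ^ c ∧
      gal (M1 * (q : ℕ)) (σ : GQ) (algebraMap Kb (FN (M1 * (q : ℕ))) ζ) =
        (algebraMap Kb (FN (M1 * (q : ℕ))) ζ) ^ c := by
  obtain ⟨c, hcyc⟩ := fldAux_exists_cyc (σ : GQ) hζ
  obtain ⟨h, hh⟩ := hT.act σ σ.2 c hcyc
  have ht0 : t ≠ 0 := hT.pdiv.1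
  have ht0' : (t : LaurentSeries Kb) ≠ 0 := fun h0 => ht0 (Subtype.ext h0)
  have h1 : (coeffMap (((σ : GQ) : Kb ≃ₐ[ℚ] Kb) : Kb →+* Kb) y₁) ^ (q : ℕ) =
      ((h : LaurentSeries Kb) * y₁ ^ c) ^ (q : ℕ) := by
    rw [← map_pow, hy₁, mul_pow, ← pow_mul, mul_comm c, pow_mul, hy₁]
    have h2 := congrArg (Subtype.val) hh
    rw [coe_arithmeticRingAut_apply] at h2
    rw [h2]
    exact mul_comm _ _
  have h3 : (h : LaurentSeries Kb) * y₁ ^ c ≠ 0 := by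
    intro h0
    rw [h0, zero_pow (NeZero.ne _), ← map_pow, hy₁] at h1
    exact coeffMap_ne_zero' _ ht0' h1
  obtain ⟨i, -, hi⟩ := root_eq_mul (Nat.pos_of_ne_zero (NeZero.ne _)) hζ h3 h1
  refine ⟨c, algebraMap Kb (FN (M1 * (q : ℕ))) (ζ ^ i) * h, ?_, ?_⟩
  · rw [hi, ← mul_assoc, ← fldAux_coe_algebraMap (N := M1 * (q : ℕ))]
    rfl
  · rw [arithmeticRingAut_algebraMap, hcyc ζ hζ.pow_eq_one, map_pow]

/-- `x` is fixed by an open subgroup of `I` -/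
def LevP {F' : Type} [Field F'] (act : ↥(Iq q) →* (F' ≃+* F')) (x : F') : Prop :=
  ∃ L : IntermediateField ℚ Qb, FiniteDimensional ℚ L ∧
    ∀ σ : ↥(Iq q), (∀ a ∈ L, (σ : GQ) a = a) → act σ x = x

section LevP

variable {F' : Type} [Field F'] {act : ↥(Iq q) →* (F' ≃+* F')}

theorem LevP.zero : LevP act 0 := ⟨⊥, inferInstance, fun σ _ => map_zero _⟩

theorem LevP.one : LevP act 1 := ⟨⊥, inferInstance, fun σ _ => map_one _⟩

theorem LevP.add {x y : F'} (hx : LevP act x) (hy : LevP act y) : LevP act (x + y) := by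
  obtain ⟨L, hL, h⟩ := hx
  obtain ⟨L', hL', h'⟩ := hy
  refine ⟨L ⊔ L', IntermediateField.finiteDimensional_sup L L', fun σ hσ => ?_⟩
  rw [map_add, h σ fun a ha => hσ a ((le_sup_left : L ≤ L ⊔ L') ha),
    h' σ fun a ha => hσ a ((le_sup_right : L' ≤ L ⊔ L') ha)]

theorem LevP.mul {x y : F'} (hx : LevP act x) (hy : LevP act y) : LevP act (x * y) := by
  obtain ⟨L, hL, h⟩ := hx
  obtain ⟨L', hL', h'⟩ := hy
  refine ⟨L ⊔ L', IntermediateField.finiteDimensional_sup L L', fun σ hσ => ?_⟩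
  rw [map_mul, h σ fun a ha => hσ a ((le_sup_left : L ≤ L ⊔ L') ha),
    h' σ fun a ha => hσ a ((le_sup_right : L' ≤ L ⊔ L') ha)]

theorem LevP.pow {x : F'} (hx : LevP act x) (n : ℕ) : LevP act (x ^ n) := by
  obtain ⟨L, hL, h⟩ := hx
  exact ⟨L, hL, fun σ hσ => by rw [map_pow, h σ hσ]⟩

theorem LevP.sum {ι : Type*} (s : Finset ι) (f : ι → F') (h : ∀ i ∈ s, LevP act (f i)) :
    LevP act (∑ i ∈ s, f i) := by
  classical
  induction s using Finset.induction_on with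
  | empty => exact LevP.zero
  | insert i s hi ih =>
    rw [Finset.sum_insert hi]
    exact (h i (Finset.mem_insert_self i s)).add (ih fun j hj => h j (Finset.mem_insert_of_mem hj))

theorem LevP.theta {x : F'} (hx : LevP act x) :
    ∃ θ : Qb, ∀ σ : ↥(Iq q), (σ : GQ) θ = θ → act σ x = x := by
  obtain ⟨L, hL, h⟩ := hx
  obtain ⟨θ, hθ⟩ := exists_theta L
  exact ⟨θ, fun σ hσ => h σ (hθ σ hσ)⟩

end LevP

/-- **C1** : the field part of the cover exists -/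
theorem exists_covFld {hc : Nat.Coprime (q : ℕ) M1} {t : FN (M1 * (q : ℕ))} (hT : GoodT q M1 hc t)
    (b₁ b₂ : Kb) (hb₁ : b₁ ^ (q : ℕ) = (t : LaurentSeries Kb).leadingCoeff)
    (hb₂ : b₂ ^ (q : ℕ) = ((Wq hc t : FN (M1 * (q : ℕ))) : LaurentSeries Kb).leadingCoeff)
    (hdeg : (∃ g : FN (M1 * (q : ℕ)), t = g ^ (q : ℕ)) → t = 1 ∧ b₁ = 1 ∧ b₂ = 1) :
    ∃ (F' : Type) (_ : Field F') (_ : Algebra (FN (M1 * (q : ℕ))) F'),
      Nonempty (CovFld q M1 hc t b₁ b₂ F') := by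
  obtain ⟨ζ, hζ⟩ := cycAux_exists_prim q
  have hq0 : 0 < (q : ℕ) := q.2.pos
  have hqK : (((q : ℕ) : ℕ) : Kb) ≠ 0 := Nat.cast_ne_zero.2 q.2.ne_zero
  have ht0 : t ≠ 0 := hT.pdiv.1
  have ht0' : (t : LaurentSeries Kb) ≠ 0 := fun h0 => ht0 (Subtype.ext h0)
  have hW0 : Wq hc t ≠ 0 := (map_ne_zero_iff _ (Wq hc).injective).2 ht0
  have hW0' : ((Wq hc t : FN (M1 * (q : ℕ))) : LaurentSeries Kb) ≠ 0 := fun h0 => hW0 (Subtype.ext h0)
  obtain ⟨y₁, hy₁, hl₁⟩ := exists_root' (q : ℕ) hq0 hqK (t : LaurentSeries Kb) ht0' (dvd_order hT.pdiv) b₁ hb₁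
  obtain ⟨y₂, hy₂, hl₂⟩ := exists_root' (q : ℕ) hq0 hqK
    ((Wq hc t : FN (M1 * (q : ℕ))) : LaurentSeries Kb) hW0' (dvd_order (PDiv.Wq hc hT.pdiv)) b₂ hb₂
  have hy₁0 : y₁ ≠ 0 := fun h0 => by
    rw [h0, zero_pow hq0.ne'] at hy₁
    exact ht0' hy₁.symm
  have hone : ∀ z : LaurentSeries Kb, z ^ (q : ℕ) = 1 → z.leadingCoeff = 1 → z = 1 := fun z h1 h2 =>
    root_unique hq0 hζ one_ne_zero (by rw [h1, one_pow]) (by rw [h2, HahnSeries.leadingCoeff_one])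
  have hA : ∀ g : FN (M1 * (q : ℕ)), algebraMap (FN (M1 * (q : ℕ))) (LaurentSeries Kb) g = y₁ →
      y₂ = ((algebraMap (FN (M1 * (q : ℕ))) (LaurentSeries Kb)).comp
        ((Wq hc : FN (M1 * (q : ℕ)) ≃ₐ[Kb] FN (M1 * (q : ℕ))) : FN (M1 * (q : ℕ)) →+* FN (M1 * (q : ℕ)))) g := by
    intro g hg
    have h1 : t = g ^ (q : ℕ) := by
      apply Subtype.ext
      rw [← hy₁, ← hg]
      rfl
    obtain ⟨h2, h3, h4⟩ := hdeg ⟨g, h1⟩
    have h5 : y₁ = 1 := hone y₁ (by rw [hy₁, h2]; rfl) (by rw [hl₁, h3])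
    have h6 : y₂ = 1 := hone y₂ (by rw [hy₂, h2, map_one]; rfl) (by rw [hl₂, h4])
    have h7 : g = 1 := by
      apply Subtype.ext
      rw [h5] at hg
      exact hg
    rw [h6, h7, map_one]
  obtain ⟨F', iF, iA, y, ι₁, ι₂, act, ζ', δ, hζ', hζk, hyp, hgen, hι₁, hι₁y, hι₂, hι₂y, hact, hδ, hδa⟩ :=
    exists_absCov (F := FN (M1 * (q : ℕ))) (L := LaurentSeries Kb) (L' := LaurentSeries Kb)
      (G := ↥(Iq q)) (q : ℕ) q.2 (algebraMap Kb (FN (M1 * (q : ℕ))) ζ)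
      (hζ.map_of_injective (algebraMap Kb (FN (M1 * (q : ℕ)))).injective) t ht0 y₁ hy₁
      (cmHom.comp (Iq q).subtype) (fun σ => gal (M1 * (q : ℕ)) (σ : GQ)) (fun σ x => rfl)
      (fun σ => fldAux_hy hT hζ hy₁ σ)
      ((algebraMap (FN (M1 * (q : ℕ))) (LaurentSeries Kb)).comp
        ((Wq hc : FN (M1 * (q : ℕ)) ≃ₐ[Kb] FN (M1 * (q : ℕ))) : FN (M1 * (q : ℕ)) →+* FN (M1 * (q : ℕ))))
      y₂ hy₂ hA
  obtain ⟨a, ha, hap⟩ : ∃ a : Kb, ζ' = algebraMap Kb (FN (M1 * (q : ℕ))) a ∧ a ^ (q : ℕ) = 1 := by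
    rcases hζ' with h | h
    · exact ⟨1, by rw [h, map_one], one_pow _⟩
    · exact ⟨ζ, h, hζ.pow_eq_one⟩
  have hF : ∀ f : FN (M1 * (q : ℕ)), LevP act (algebraMap (FN (M1 * (q : ℕ))) F' f) := by
    intro f
    obtain ⟨L, hL, h⟩ := exists_level f
    refine ⟨L, hL, fun σ hσ => ι₁.injective ?_⟩
    rw [hact, hι₁]
    exact congrArg Subtype.val (h σ hσ)
  have hY : LevP act y := by
    obtain ⟨L, hL, h⟩ := exists_level t
    have hb : FiniteDimensional ℚ (IntermediateField.adjoin ℚ {b₁}) :=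
      IntermediateField.adjoin.finiteDimensional (Algebra.IsIntegral.isIntegral b₁)
    refine ⟨L ⊔ IntermediateField.adjoin ℚ {b₁}, IntermediateField.finiteDimensional_sup _ _,
      fun σ hσ => ι₁.injective ?_⟩
    rw [hact, hι₁y]
    apply root_unique hq0 hζ hy₁0
    · rw [← map_pow, hy₁]
      exact congrArg Subtype.val (h σ fun a ha =>
        hσ a ((le_sup_left : L ≤ L ⊔ IntermediateField.adjoin ℚ {b₁}) ha))
    · show (coeffMap (((σ : GQ) : Kb ≃ₐ[ℚ] Kb) : Kb →+* Kb) y₁).leadingCoeff = _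
      rw [leadingCoeff_coeffMap, hl₁]
      exact hσ b₁ ((le_sup_right : IntermediateField.adjoin ℚ {b₁} ≤ L ⊔ IntermediateField.adjoin ℚ {b₁})
        (IntermediateField.mem_adjoin_simple_self ℚ b₁))
  refine ⟨F', iF, iA, ⟨{
    ζ := a
    ζ_pow := hap
    ζ_iff := fun k => by
      rw [← hζk k, ha, ← map_pow]
      exact ((map_eq_one_iff _ (algebraMap Kb (FN (M1 * (q : ℕ)))).injective)).symm
    y := y
    y_pow := hyp
    gen := hgen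
    ι₁ := ι₁
    ι₂ := ι₂
    ι₁_alg := hι₁
    ι₂_alg := hι₂
    act := act
    ι₁_act := hact
    lev := fun x => by
      obtain ⟨c, rfl⟩ := hgen x
      exact (LevP.sum _ _ fun i _ => (hF (c i)).mul (hY.pow i)).theta
    δ := δ
    δ_y := by rw [hδ, ha]
    δ_act := hδa
    lc₁ := by rw [hι₁y, hl₁]
    lc₂ := by rw [hι₂y, hl₂] }⟩⟩

end Fermat.Agent.S44.Cov
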