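import Fermat.Agent.S44.Geo.Cov.Loc0
import Fermat.Agent.S44.Geo.Cov.Sh.Main
import Fermat.Agent.S44.Geo.Defs

/-!
# S44 / GEO / COVER : what `cover_rel` (C5) needs from C3 and C4          (statements: helper2)

* `exists_tr`  [S44/COV-TR, owner helper22 (C4: H90 + TR + EISC + CUSP), uses `exists_cov` (C1 + C2)] :
  a good representative `t'`, the cover `F'`, `C : Cov`, and `z ∈ E' = C.Ep` with `z = u^m g^q h^q` (`q ∤ m`), all `2q` sheet valuations of `z` congruent modulo `q`.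
  (The node `𝔫` is a hypothesis because [GLUE] in `exists_cov` needs one crossing point.)
* `exists_sheet`  [S44/COV-SHEET, owner helper4 (C3)] : at EVERY closed point `𝔫 ∋ q` of the chart `b` (node or smooth point / cusp), `R = Rn S0 b 𝔫`:
  a `Sheet R E' q` whose automorphism is `δ`.
  (The indices `k₁, k₂` of the sheets through the point are NOT part of the statement: `Sheet.exists_idx` below (abstract) finds them.)
-/

set_option autoImplicit false
set_option synthInstance.maxHeartbeats 400000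

open HahnSeries ModularCurve AlgebraicCurve Fermat.Agent.S24 Fermat.Agent.S29 Fermat.Agent.S18
  Fermat.Agent.ES Fermat.Agent.ES.Alg Fermat.Agent.S34.Mod Fermat.Agent.S05 Fermat.Agent.S55.B ExtCitation
  Fermat.Agent.S33
open Fermat.Agent.S55 (Dq Iq)

noncomputable section

namespace Fermat.Agent.S44.Cov

variable {q : Nat.Primes} {M1 r : ℕ} [NeZero M1] [NeZero (q : ℕ)] [NeZero r]

/-- **(C3)**  [S44/COV-SHEET] -/
theorem exists_sheet (S0 : Setup M1 (q : ℕ) r (AA q)) (hq5 : 5 ≤ (q : ℕ)) {t' : FN (M1 * (q : ℕ))}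
    (hT : GoodT q M1 S0.hc t') {F' : Type} [Field F'] [Algebra (FN (M1 * (q : ℕ))) F']
    (C : Cov q M1 S0.hc t' F') (b : Bool) (𝔫 : Ideal (Mod.BB S0 b)) [𝔫.IsMaximal]
    (hq : ((q : ℕ) : Mod.BB S0 b) ∈ 𝔫) :
    ∃ D : Alg.Sheet (E := Mod.EE q M1) (Rn S0 b 𝔫) C.Ep ((q : ℕ) : Rn S0 b 𝔫), D.δ = C.δE :=
  Sh.exists_sheet S0 hT C b 𝔫 hq

end Fermat.Agent.S44.Cov

namespace Fermat.Agent.S44.Alg

theorem Sheet.idxAux_sum {K : Type*} [Field K] (v : RVal K) {ι : Type*} (s : Finset ι) (f : ι → K)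
    (h : ∀ i ∈ s, v.GT (f i) 0) : v.GT (∑ i ∈ s, f i) 0 := by
  classical
  induction s using Finset.induction_on with
  | empty => simpa using RVal.GT_zero 0
  | insert a s ha ih =>
    rw [Finset.sum_insert ha]
    exact (h a (Finset.mem_insert_self a s)).add (ih fun i hi => h i (Finset.mem_insert_of_mem hi))

theorem Sheet.idxAux_orth {R : Type*} [CommRing R] {E : Type*} {E' : Type*} [Field E] [Field E'] [Algebra R E]
    [Algebra E E'] [Algebra R E'] [IsScalarTower R E E'] {ϖ : R} (D : Sheet (E := E) R E' ϖ)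
    {j k : ℕ} (hjk : j < k) (hk : k < D.n) :
    ∃ a : E', IsIntegral R a ∧ (D.δ ^ j) D.e * (D.δ ^ k) D.e = algebraMap R E' ϖ * a := by
  obtain ⟨a, ha, e⟩ := D.orth (k - j) (by omega) (by omega)
  refine ⟨(D.δ ^ j) a, D.int_pow ha j, ?_⟩
  have e1 : (D.δ ^ k) D.e = (D.δ ^ j) ((D.δ ^ (k - j)) D.e) := by
    rw [← AlgEquiv.mul_apply, ← _root_.pow_add]
    congr 2
    omega
  rw [e1, ← map_mul, e, map_mul, D.pow_algebraMap]

/-- [S44/COV-IDX] (abstract; FREE KEY)  every valuation `v ≥ 0` on the integral elements with `v ϖ > 0` lies on exactly one sheet.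
Proof: `e_k := δ^k e`, `k < n`.  `∑ e_k = 1 + ϖ a`, so not all `e_k` have `v > 0`: some `v e_k = 0`.  For `j ≠ k`: `e_k e_j = δ^(min) (e δ^|j-k| e) ∈ ϖ R'`, so `v e_j > 0`.
Hence `e_k - 1 = ϖ a - ∑_{j ≠ k} e_j` has `v > 0`. -/
theorem Sheet.exists_idx {R : Type*} [CommRing R] {E : Type*} {E' : Type*} [Field E] [Field E'] [Algebra R E]
    [Algebra E E'] [Algebra R E'] [IsScalarTower R E E'] {ϖ : R} (D : Sheet (E := E) R E' ϖ) (v : RVal E')
    (hint : ∀ a : E', IsIntegral R a → v.GE a 0) (hϖ : v.GT (algebraMap R E' ϖ) 0) :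
    ∃ k : ℕ, v.GT ((D.δ ^ k) D.e - 1) 0 := by
  classical
  have hJ : ∀ a : E', IsIntegral R a → v.GT (algebraMap R E' ϖ * a) 0 := by
    intro a ha
    have := hϖ.mul_GE (hint a ha)
    rwa [add_zero] at this
  obtain ⟨a, ha, hs⟩ := D.sum
  have h1 : ¬ v.GT (1 : E') 0 := by
    rintro (h | h)
    · exact one_ne_zero h
    · rw [RVal.w_one] at h; exact lt_irrefl _ h
  have hex : ∃ k ∈ Finset.range D.n, ¬ v.GT ((D.δ ^ k) D.e) 0 := by
    by_contra hcon
    push Not at hcon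
    have h2 := Sheet.idxAux_sum v _ _ hcon
    rw [hs] at h2
    have h3 := h2.sub (hJ a ha)
    rw [add_sub_cancel_right] at h3
    exact h1 h3
  obtain ⟨k, hk, hkv⟩ := hex
  have hkn := Finset.mem_range.1 hk
  have hk0 : (D.δ ^ k) D.e ≠ 0 := fun h0 => hkv (Or.inl h0)
  have hkE : v.EQ ((D.δ ^ k) D.e) 0 := by
    refine ⟨hk0, le_antisymm ?_ ((hint _ (D.int_pow D.int k)).le_w hk0)⟩
    by_contra hlt
    exact hkv (Or.inr (not_le.1 hlt))
  have hj : ∀ j ∈ (Finset.range D.n).erase k, v.GT ((D.δ ^ j) D.e) 0 := by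
    intro j hj
    obtain ⟨hne, hjr⟩ := Finset.mem_erase.1 hj
    have hjn := Finset.mem_range.1 hjr
    have hprod : v.GT ((D.δ ^ j) D.e * (D.δ ^ k) D.e) 0 := by
      rcases lt_or_gt_of_ne hne with hlt | hlt
      · obtain ⟨a', ha', e⟩ := Sheet.idxAux_orth D hlt hkn
        rw [e]; exact hJ a' ha'
      · obtain ⟨a', ha', e⟩ := Sheet.idxAux_orth D hlt hjn
        rw [mul_comm, e]; exact hJ a' ha'
    have := RVal.GT.of_mul_eq_left rfl hkE hprod
    simpa using this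
  refine ⟨k, ?_⟩
  have e : (D.δ ^ k) D.e - 1 = algebraMap R E' ϖ * a - ∑ j ∈ (Finset.range D.n).erase k, (D.δ ^ j) D.e := by
    rw [← Finset.add_sum_erase _ _ hk] at hs
    linear_combination hs
  rw [e]
  exact (hJ a ha).sub (Sheet.idxAux_sum v _ _ hj)

end Fermat.Agent.S44.Alg
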