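import Fermat.Agent.S44.Geo.Cov.Cusp
import Fermat.Agent.S44.Geo.Cov.Need

/-!
# S44 / GEO / COVER : [CUSP] at the two cusps          [key S44/COV-CUSP]   (helper27)

`cusp₁_main`, `cusp₂_main` = the statements `cusp₁`, `cusp₂` of `IfCov.lean`, from `cusp_abs` (Cusp.lean), `exists_sheet` (C3) at the closed points `Mod.nc1`, `Mod.nc2`
(helper14's `Mod/Cusp.lean`) and `NodalModel.smooth`.
-/

set_option autoImplicit false
set_option synthInstance.maxHeartbeats 400000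
set_option linter.unusedSectionVars false
set_option linter.style.haveILetI false

open HahnSeries ModularCurve AlgebraicCurve Fermat.Agent.S24 Fermat.Agent.S29 Fermat.Agent.S18
  Fermat.Agent.ES Fermat.Agent.ES.Alg Fermat.Agent.S34.Mod Fermat.Agent.S05 Fermat.Agent.S55.B ExtCitation
  Fermat.Agent.S33
open Fermat.Agent.S55 (Dq Iq)

noncomputable section

namespace Fermat.Agent.S44.Cov

variable {q : Nat.Primes} {M1 r : ℕ} [NeZero M1] [NeZero (q : ℕ)] [NeZero r]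
variable {t : FN (M1 * (q : ℕ))} {F' : Type} [Field F'] [Algebra (FN (M1 * (q : ℕ))) F']

theorem natCast_Rn_ne_zero (S0 : Setup M1 (q : ℕ) r (AA q)) (b : Bool) (𝔫 : Ideal (Mod.BB S0 b)) [𝔫.IsPrime] :
    algebraMap (Mod.BB S0 b) (Rn S0 b 𝔫) ((q : ℕ) : Mod.BB S0 b) ≠ 0 := by
  rw [map_natCast]
  intro h
  have h2 : ((q : ℕ) : Mod.EE q M1) = 0 := by
    have := congrArg (algebraMap (Rn S0 b 𝔫) (Mod.EE q M1)) h
    rwa [map_natCast, map_zero] at this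
  exact (Nat.cast_ne_zero.2 q.2.ne_zero) h2

/-- **CUSP** at `∞'` -/
theorem cusp₁_main (S0 : Setup M1 (q : ℕ) r (AA q)) (hq5 : 5 ≤ (q : ℕ)) (hT : GoodT q M1 S0.hc t)
    (C : Cov q M1 S0.hc t F') (z : F') (hz : z ∈ C.Ep) (hz0 : z ≠ 0)
    (hdiv : ∃ (v : FN (M1 * (q : ℕ))) (h : F'), PDiv Kb (FN (M1 * (q : ℕ))) (q : ℕ) v ∧
      z = algebraMap (FN (M1 * (q : ℕ))) F' v * h ^ (q : ℕ)) :
    ∃ (k₀ : ℕ) (n : ℤ), (wq q).w (C.lc₁ ((C.δ ^ k₀) z)) - C.W₁.w z = (q : ℕ) * n := by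
  obtain ⟨D, hD⟩ := exists_sheet S0 hq5 hT C true (Mod.nc1 S0) (Mod.q_mem_nc1 S0)
  obtain ⟨h1, -, hp, Y, hm⟩ := (Mod.nodalModel S0 true).smooth (Mod.nc1 S0) (Rn S0 true (Mod.nc1 S0))
    (natCast_Rn_ne_zero S0 true _) (Mod.q_mem_nc1 S0) (Mod.not_ker_r2_le_nc1 S0) (Mod.exists_mem_nc1 S0)
  rw [map_natCast] at hp hm
  exact cusp_abs S0 (Mod.nc1 S0) C (branch₁ S0 true (Mod.nc1 S0) C h1) C.ι₁ C.ι₁_act
    (fun β => by rw [C.ι₁_alg]; exact Mod.coe_mem_VC S0 β.2)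
    (fun β hβ h0 => hβ (by
      show Mod.evC _ (Mod.toVC1 S0 β) = 0
      rw [← h0]
      congr 1
      exact Subtype.ext (C.ι₁_alg _).symm)) hp hm D hD z hz hz0 hdiv

/-- **CUSP** at `0'` -/
theorem cusp₂_main (S0 : Setup M1 (q : ℕ) r (AA q)) (hq5 : 5 ≤ (q : ℕ)) (hT : GoodT q M1 S0.hc t)
    (C : Cov q M1 S0.hc t F') (z : F') (hz : z ∈ C.Ep) (hz0 : z ≠ 0)
    (hdiv : ∃ (v : FN (M1 * (q : ℕ))) (h : F'), PDiv Kb (FN (M1 * (q : ℕ))) (q : ℕ) v ∧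
      z = algebraMap (FN (M1 * (q : ℕ))) F' v * h ^ (q : ℕ)) :
    ∃ (k₀ : ℕ) (n : ℤ), (wq q).w (C.lc₂ ((C.δ ^ k₀) z)) - C.W₂.w z = (q : ℕ) * n := by
  obtain ⟨D, hD⟩ := exists_sheet S0 hq5 hT C true (Mod.nc2 S0) (Mod.q_mem_nc2 S0)
  obtain ⟨h1, -, hp, Y, hm⟩ := (Mod.nodalModel S0 true).symm.smooth (Mod.nc2 S0) (Rn S0 true (Mod.nc2 S0))
    (natCast_Rn_ne_zero S0 true _) (Mod.q_mem_nc2 S0) (Mod.not_ker_r1_le_nc2 S0) (Mod.exists_mem_nc2 S0)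
  rw [map_natCast] at hp hm
  exact cusp_abs S0 (Mod.nc2 S0) C (branch₂ S0 true (Mod.nc2 S0) C h1) C.ι₂ C.ι₂_act
    (fun β => by rw [C.ι₂_alg]; exact Mod.coe_Wq_mem_VC S0 β.2)
    (fun β hβ h0 => hβ (by
      show Mod.evC _ (Mod.toVC2 S0 β) = 0
      rw [← h0]
      congr 1
      exact Subtype.ext (C.ι₂_alg _).symm)) hp hm D hD z hz hz0 hdiv

end Fermat.Agent.S44.Cov
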