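import Fermat.Agent.S44.IfTop
import Fermat.Agent.S44.Mod.Defs

/-!
# S44 / GEO / COVER : the package `Cov`          (helper22, architect of the cover)

`p = q`, `N = M1 p`, `F = FN N ⊆ Kb((q))`, `I = Iq q` acting coefficientwise, `t ∈ F` a *good* representative (`GoodT`) of the toric class `y₀`.
`F' = F(y)`, `y ^ p = t`.   `Cov q M1 hc t F'` = everything the consumers (C3 SHEET, C4 H90/TR/EISC, C5 DICT/CUSP) may use about `F'`:

* `ι₁ : F' → Kb((q))` (expansion at the cusp `∞'`), `ι₂ : F' → Kb((q))` (expansion at the cusp `0'`, extends `Wq`), both `I`-equivariant;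
* `act : I →* Aut F'`, `δ ∈ Aut (F'/F)`, `δ y = ζ y`, `δ` commutes with `I`;
  `ζ ^ p = 1` and `ζ ^ k = 1 ↔ t ^ k` is a `p`-th power in `F`  (so `ζ` is primitive if `t` is not a `p`-th power, and `ζ = 1`, `F' = F`, `δ = 1` otherwise);
* `W₁, W₂` = THE extension of `wG` (resp. `wZ`) to `F'` with `W (y - 1) ≥ 2` (the sheets number `0` over the components `∞`, `0`); the other sheets are `Wᵢ ∘ δ ^ k`;
  NO relation between `Wᵢ` and the coefficients of `ιᵢ` is claimed (v1 `IsGauss` was wrong: helper19 #1433, helper5 #1483): `ιᵢ` and `Wᵢ ∘ δ ^ k` only meet at the closed point `cusp` ([CUSP]; the sheet `k` is irrelevant by TR);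
* `F` is dense in `F'` for `W₁` and for `W₂`; the `Wᵢ` are `I`-invariant, with integral values on `E' = F'^I`.

C1 (COV-FLD) + C2 (COV-VAL) construct it: `IfCov.lean : exists_cov`.
-/

set_option autoImplicit false
set_option synthInstance.maxHeartbeats 400000
set_option linter.dupNamespace false

open HahnSeries ModularCurve AlgebraicCurve Fermat.Agent.S24 Fermat.Agent.S29 Fermat.Agent.S18
  Fermat.Agent.ES Fermat.Agent.ES.Alg Fermat.Agent.S34.Mod Fermat.Agent.S05 Fermat.Agent.S55.B ExtCitation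
  Fermat.Agent.S33
open Fermat.Agent.S55 (Dq Iq)

noncomputable section

namespace Fermat.Agent.S44.Cov

variable (q : Nat.Primes) (M1 : ℕ) [NeZero M1] [NeZero (q : ℕ)]

/-- a good representative of the toric class -/
structure GoodT (hc : Nat.Coprime (q : ℕ) M1) (t : FN (M1 * (q : ℕ))) : Prop where
  pdiv : PDiv Kb (FN (M1 * (q : ℕ))) (q : ℕ) t
  deep₁ : (wG q (M1 * (q : ℕ))).GE (t - 1) 4
  deep₂ : (wZ q hc).GE (t - 1) 4
  act : ∀ σ ∈ Iq q, ∀ c : ℕ, Cyc (q : ℕ) σ c → PEq (q : ℕ) (gal (M1 * (q : ℕ)) σ t) (t ^ c)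

/-- **the cover** -/
structure Cov (hc : Nat.Coprime (q : ℕ) M1) (t : FN (M1 * (q : ℕ))) (F' : Type) [Field F']
    [Algebra (FN (M1 * (q : ℕ))) F'] where
  ζ : Kb
  ζ_pow : ζ ^ (q : ℕ) = 1
  ζ_iff : ∀ k : ℕ, ζ ^ k = 1 ↔ ∃ g : FN (M1 * (q : ℕ)), t ^ k = g ^ (q : ℕ)
  y : F'
  y_pow : y ^ (q : ℕ) = algebraMap (FN (M1 * (q : ℕ))) F' t
  gen : ∀ x : F', ∃ c : ℕ → FN (M1 * (q : ℕ)),
    x = ∑ i ∈ Finset.range (q : ℕ), algebraMap (FN (M1 * (q : ℕ))) F' (c i) * y ^ i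
  ι₁ : F' →+* LaurentSeries Kb
  ι₂ : F' →+* LaurentSeries Kb
  ι₁_alg : ∀ x : FN (M1 * (q : ℕ)), ι₁ (algebraMap (FN (M1 * (q : ℕ))) F' x) = (x : LaurentSeries Kb)
  ι₂_alg : ∀ x : FN (M1 * (q : ℕ)), ι₂ (algebraMap (FN (M1 * (q : ℕ))) F' x) =
    ((Wq hc x : FN (M1 * (q : ℕ))) : LaurentSeries Kb)
  act : ↥(Iq q) →* (F' ≃+* F')
  ι₁_act : ∀ (σ : ↥(Iq q)) (x : F'), ι₁ (act σ x) = coeffMap (((σ : GQ) : Kb ≃ₐ[ℚ] Kb) : Kb →+* Kb) (ι₁ x)
  ι₂_act : ∀ (σ : ↥(Iq q)) (x : F'), ι₂ (act σ x) = coeffMap (((σ : GQ) : Kb ≃ₐ[ℚ] Kb) : Kb →+* Kb) (ι₂ x)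
  lev : ∀ x : F', ∃ θ : Qb, ∀ σ : ↥(Iq q), (σ : GQ) θ = θ → act σ x = x
  δ : F' ≃ₐ[FN (M1 * (q : ℕ))] F'
  δ_y : δ y = algebraMap (FN (M1 * (q : ℕ))) F' (algebraMap Kb (FN (M1 * (q : ℕ))) ζ) * y
  δ_act : ∀ (σ : ↥(Iq q)) (x : F'), δ (act σ x) = act σ (δ x)
  W₁ : RVal F'
  W₂ : RVal F'
  /-- `W₁` extends `wG`, `W₂` extends `wZ` -/
  ext₁ : ∀ x : FN (M1 * (q : ℕ)), x ≠ 0 → W₁.w (algebraMap (FN (M1 * (q : ℕ))) F' x) = (wG q (M1 * (q : ℕ))).w x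
  ext₂ : ∀ x : FN (M1 * (q : ℕ)), x ≠ 0 → W₂.w (algebraMap (FN (M1 * (q : ℕ))) F' x) = (wZ q hc).w x
  /-- the sheets are `I`-invariant  (`inv₂` = [GLUE]) -/
  inv₁ : ∀ (σ : ↥(Iq q)) (x : F'), W₁.w (act σ x) = W₁.w x
  inv₂ : ∀ (σ : ↥(Iq q)) (x : F'), W₂.w (act σ x) = W₂.w x
  /-- the rational elements have integral values -/
  int₁ : ∀ x : F', x ≠ 0 → (∀ σ : ↥(Iq q), act σ x = x) → ∃ n : ℤ, W₁.w x = n
  int₂ : ∀ x : F', x ≠ 0 → (∀ σ : ↥(Iq q), act σ x = x) → ∃ n : ℤ, W₂.w x = n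
  dense₁ : ∀ (x : F') (B : ℝ), ∃ f : FN (M1 * (q : ℕ)), W₁.GE (x - algebraMap (FN (M1 * (q : ℕ))) F' f) B
  dense₂ : ∀ (x : F') (B : ℝ), ∃ f : FN (M1 * (q : ℕ)), W₂.GE (x - algebraMap (FN (M1 * (q : ℕ))) F' f) B
  y₁ : W₁.GE (y - 1) 2
  y₂ : W₂.GE (y - 1) 2

variable {q M1}
variable {hc : Nat.Coprime (q : ℕ) M1} {t : FN (M1 * (q : ℕ))} {F' : Type} [Field F']
  [Algebra (FN (M1 * (q : ℕ))) F']

namespace Cov

variable (C : Cov q M1 hc t F')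

/-- constants -/
def cst (a : Kb) : F' := algebraMap (FN (M1 * (q : ℕ))) F' (algebraMap Kb (FN (M1 * (q : ℕ))) a)

/-- leading coefficient at the cusp `∞'` -/
def lc₁ : F' →*₀ Kb where
  toFun x := (C.ι₁ x).leadingCoeff
  map_zero' := by rw [map_zero]; exact HahnSeries.leadingCoeff_zero
  map_one' := by rw [map_one]; exact HahnSeries.leadingCoeff_one
  map_mul' x y := by rw [map_mul]; exact HahnSeries.leadingCoeff_mul _ _

/-- leading coefficient at the cusp `0'` -/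
def lc₂ : F' →*₀ Kb where
  toFun x := (C.ι₂ x).leadingCoeff
  map_zero' := by rw [map_zero]; exact HahnSeries.leadingCoeff_zero
  map_one' := by rw [map_one]; exact HahnSeries.leadingCoeff_one
  map_mul' x y := by rw [map_mul]; exact HahnSeries.leadingCoeff_mul _ _

/-- `E' = F'^I` -/
def Ep : Subfield F' where
  carrier := {x | ∀ σ : ↥(Iq q), C.act σ x = x}
  mul_mem' := fun {a b} ha hb σ => by rw [map_mul, ha σ, hb σ]
  one_mem' := fun σ => map_one _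
  add_mem' := fun {a b} ha hb σ => by rw [map_add, ha σ, hb σ]
  zero_mem' := fun σ => map_zero _
  neg_mem' := fun {a} ha σ => by rw [map_neg, ha σ]
  inv_mem' := fun a ha σ => by rw [map_inv₀, ha σ]

theorem mem_Ep {x : F'} : x ∈ C.Ep ↔ ∀ σ : ↥(Iq q), C.act σ x = x := Iff.rfl

/-- the action extends `gal` -/
theorem act_alg (σ : ↥(Iq q)) (x : FN (M1 * (q : ℕ))) :
    C.act σ (algebraMap (FN (M1 * (q : ℕ))) F' x) =
      algebraMap (FN (M1 * (q : ℕ))) F' (gal (M1 * (q : ℕ)) (σ : GQ) x) := by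
  apply C.ι₁.injective
  rw [C.ι₁_act, C.ι₁_alg, C.ι₁_alg]
  rfl

/-- `E → E'` -/
def incE : Mod.EE q M1 →+* C.Ep where
  toFun x := ⟨algebraMap (FN (M1 * (q : ℕ))) F' x.1, fun σ => by rw [C.act_alg, x.2 σ σ.2]⟩
  map_one' := Subtype.ext (map_one _)
  map_mul' _ _ := Subtype.ext (map_mul _ _ _)
  map_zero' := Subtype.ext (map_zero _)
  map_add' _ _ := Subtype.ext (map_add _ _ _)

instance algE : Algebra (Mod.EE q M1) C.Ep := C.incE.toAlgebra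

theorem coe_algebraMap_E (x : Mod.EE q M1) :
    ((algebraMap (Mod.EE q M1) C.Ep x : C.Ep) : F') = algebraMap (FN (M1 * (q : ℕ))) F' x.1 := rfl

theorem δ_mem_Ep {x : F'} (hx : x ∈ C.Ep) : C.δ x ∈ C.Ep := fun σ => by rw [← C.δ_act, hx σ]

theorem δ_symm_mem_Ep {x : F'} (hx : x ∈ C.Ep) : C.δ.symm x ∈ C.Ep := fun σ => by
  apply C.δ.injective
  rw [C.δ_act, AlgEquiv.apply_symm_apply, hx σ]

/-- `δ` on `E'` -/
def δE : C.Ep ≃ₐ[Mod.EE q M1] C.Ep where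
  toFun x := ⟨C.δ x.1, C.δ_mem_Ep x.2⟩
  invFun x := ⟨C.δ.symm x.1, C.δ_symm_mem_Ep x.2⟩
  left_inv x := Subtype.ext (C.δ.symm_apply_apply _)
  right_inv x := Subtype.ext (C.δ.apply_symm_apply _)
  map_mul' _ _ := Subtype.ext (map_mul _ _ _)
  map_add' _ _ := Subtype.ext (map_add _ _ _)
  commutes' x := Subtype.ext (C.δ.commutes _)

theorem coe_δE (x : C.Ep) : ((C.δE x : C.Ep) : F') = C.δ x.1 := rfl

/-- the sheet number `k` over the component `∞` -/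
def V₁ (k : ℕ) (x : F') : ℝ := C.W₁.w ((C.δ ^ k) x)

/-- the sheet number `k` over the component `0` -/
def V₂ (k : ℕ) (x : F') : ℝ := C.W₂.w ((C.δ ^ k) x)

end Cov

end Fermat.Agent.S44.Cov
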