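import Fermat.Agent.S44.IfTop
import Fermat.Agent.S44.Geo.TlVal
import Fermat.Agent.S29.ESRel
import Fermat.Agent.S35.Idem

/-!
# S44 / COV-EISUP : EIS-UPFRONT          key `S44/COV-EISUP`  (helper11; statement: helper22, `IfCov.eis_up`)

`u₁ := Tl u / u^(ℓ+1)`, `t₁ := Tl t / t^(ℓ+1)`, `m := a ℓ - ℓ - 1`.  `EU.R p x y` = equality modulo nonzero `p`-th powers; `EU.newHyp_zpow` : `NewHyp` is stable under `(u, t) ↦ (u^m, t^m)` mod `p`-th powers, `p ∤ m`.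
-/

set_option autoImplicit false
set_option synthInstance.maxHeartbeats 400000
set_option linter.dupNamespace false

namespace Fermat.Agent.S44.Cov.EU

variable {F : Type*} [Field F] {p : ℕ}

/-- equality modulo nonzero `p`-th powers -/
def R (p : ℕ) (x y : F) : Prop := ∃ h : F, h ≠ 0 ∧ x = y * h ^ p

theorem R.refl (x : F) : R p x x := ⟨1, one_ne_zero, by simp⟩

theorem R.of_eq {x y : F} (h : x = y) : R p x y := h ▸ R.refl x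

theorem R.symm {x y : F} (h : R p x y) : R p y x := by
  obtain ⟨g, hg, rfl⟩ := h
  exact ⟨g⁻¹, inv_ne_zero hg, by
    rw [inv_pow, mul_assoc, mul_inv_cancel₀ (pow_ne_zero _ hg), mul_one]⟩

theorem R.trans {x y z : F} (h1 : R p x y) (h2 : R p y z) : R p x z := by
  obtain ⟨g, hg, rfl⟩ := h1
  obtain ⟨g', hg', rfl⟩ := h2
  exact ⟨g' * g, mul_ne_zero hg' hg, by rw [mul_pow, mul_assoc]⟩

theorem R.mul {x y x' y' : F} (h1 : R p x y) (h2 : R p x' y') : R p (x * x') (y * y') := by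
  obtain ⟨g, hg, rfl⟩ := h1
  obtain ⟨g', hg', rfl⟩ := h2
  exact ⟨g * g', mul_ne_zero hg hg', by rw [mul_pow]; ring⟩

theorem R.zpow {x y : F} (h : R p x y) (m : ℤ) : R p (x ^ m) (y ^ m) := by
  obtain ⟨g, hg, rfl⟩ := h
  refine ⟨g ^ m, zpow_ne_zero _ hg, ?_⟩
  rw [mul_zpow, ← zpow_natCast, ← zpow_natCast, ← zpow_mul, ← zpow_mul, mul_comm (p : ℤ)]

theorem R.pow {x y : F} (h : R p x y) (m : ℕ) : R p (x ^ m) (y ^ m) := by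
  have := h.zpow (m : ℤ)
  rwa [zpow_natCast, zpow_natCast] at this

theorem R.ne_zero {x y : F} (h : R p x y) (hy : y ≠ 0) : x ≠ 0 := by
  obtain ⟨g, hg, rfl⟩ := h
  exact mul_ne_zero hy (pow_ne_zero _ hg)

theorem R_mul_pow (x : F) {g : F} (hg : g ≠ 0) : R p (x * g ^ p) x := ⟨g, hg, rfl⟩

theorem R_of_eq_mul {x y h : F} (hp : p ≠ 0) (hx : x ≠ 0) (e : x = y * h ^ p) : R p x y :=
  ⟨h, by rintro rfl; rw [zero_pow hp, mul_zero] at e; exact hx e, e⟩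

section map
variable {F' : Type*} [Field F'] {G : Type*} [FunLike G F F'] [MonoidHomClass G F F']

theorem map_ne_zero' (f : G) {x : F} (hx : x ≠ 0) : f x ≠ 0 := by
  intro h
  have h1 : f x * f x⁻¹ = 1 := by rw [← map_mul, mul_inv_cancel₀ hx, map_one]
  rw [h, zero_mul] at h1
  exact zero_ne_one h1

theorem map_inv' (f : G) {x : F} (hx : x ≠ 0) : f x⁻¹ = (f x)⁻¹ :=
  eq_inv_of_mul_eq_one_left (by rw [← map_mul, inv_mul_cancel₀ hx, map_one])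

theorem map_zpow' (f : G) {x : F} (hx : x ≠ 0) (m : ℤ) : f (x ^ m) = f x ^ m := by
  obtain ⟨n, rfl | rfl⟩ := m.eq_nat_or_neg
  · rw [zpow_natCast, zpow_natCast, map_pow]
  · rw [zpow_neg, zpow_neg, zpow_natCast, zpow_natCast, map_inv' f (pow_ne_zero _ hx), map_pow]

theorem R.map (f : G) {x y : F} (h : R p x y) : R p (f x) (f y) := by
  obtain ⟨g, hg, rfl⟩ := h
  exact ⟨f g, map_ne_zero' f hg, by rw [map_mul, map_pow]⟩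

end map

theorem R.of_zpow {x y : F} (hx : x ≠ 0) (hy : y ≠ 0) {m : ℤ} (hm : IsCoprime m (p : ℤ))
    (h : R p (x ^ m) (y ^ m)) : R p x y := by
  obtain ⟨a, b, hab⟩ := hm
  have key : ∀ z : F, z ≠ 0 → R p z ((z ^ m) ^ a) := fun z hz => ⟨z ^ b, zpow_ne_zero _ hz, by
    rw [← zpow_natCast, ← zpow_mul, ← zpow_mul, ← zpow_add₀ hz]
    have : m * a + b * (p : ℤ) = 1 := by linarith
    rw [this, zpow_one]⟩
  exact (key x hx).trans ((h.zpow a).trans (key y hy).symm)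

/-- a `p`-th root of unity is a constant -/
theorem root_const {Ω : Type*} [Field Ω] [IsAlgClosed Ω] [CharZero Ω] [Algebra Ω F] (hp : p ≠ 0)
    {x : F} (hx : x ^ p = 1) : ∃ c : Ω, x = algebraMap Ω F c := by
  haveI : NeZero p := ⟨hp⟩
  obtain ⟨ζ, hζ⟩ := HasEnoughRootsOfUnity.exists_primitiveRoot Ω p
  have hζF : IsPrimitiveRoot (algebraMap Ω F ζ) p :=
    hζ.map_of_injective (algebraMap Ω F).injective
  obtain ⟨i, -, hi⟩ := hζF.eq_pow_of_pow_eq_one hx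
  exact ⟨ζ ^ i, by rw [map_pow, hi]⟩

end Fermat.Agent.S44.Cov.EU

open HahnSeries ModularCurve AlgebraicCurve Fermat.Agent.S24 Fermat.Agent.S29 Fermat.Agent.S18
  Fermat.Agent.ES Fermat.Agent.ES.Alg Fermat.Agent.S34.Mod Fermat.Agent.S05 Fermat.Agent.S55.B ExtCitation
  Fermat.Agent.S33
open Fermat.Agent.S55 (Dq Iq)

noncomputable section

namespace Fermat.Agent.S44.Cov

namespace EU

theorem pdiv_zpow {K F : Type*} [Field K] [Field F] [Algebra K F] {n : ℕ} {u : F}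
    (hu : PDiv K F n u) (m : ℤ) : PDiv K F n (u ^ m) := by
  obtain ⟨k, rfl | rfl⟩ := m.eq_nat_or_neg
  · rw [zpow_natCast]; exact PDiv.pow hu k
  · rw [zpow_neg, zpow_natCast]; exact PDiv.inv (PDiv.pow hu k)

theorem pdiv_R {K F : Type*} [Field K] [Field F] [Algebra K F] {n : ℕ} {u v : F}
    (hu : PDiv K F n u) (h : R n v u) : PDiv K F n v := by
  obtain ⟨g, hg, rfl⟩ := h
  exact PDiv.mul hu (Fermat.Agent.S35.PDiv.pow_self hg)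

variable {q : Nat.Primes} {M1 : ℕ} [NeZero M1] [NeZero (q : ℕ)]

theorem newHyp_zpow {hc : Nat.Coprime (q : ℕ) M1} {S : Set ℕ} {a : ℕ → ℤ}
    {u t u₁ t₁ : FN (M1 * (q : ℕ))} (H : NewHyp q M1 hc S a u t) {m : ℤ}
    (hm : IsCoprime m ((q : ℕ) : ℤ)) (hu : R (q : ℕ) u₁ (u ^ m)) (ht : R (q : ℕ) t₁ (t ^ m)) :
    NewHyp q M1 hc S a u₁ t₁ ∧
      ∀ σ : GQ, PEq (q : ℕ) (gal (M1 * (q : ℕ)) σ u₁) u₁ ↔ PEq (q : ℕ) (gal (M1 * (q : ℕ)) σ u) u := by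
  have hq0 : (q : ℕ) ≠ 0 := q.2.ne_zero
  have hu0 : u ≠ 0 := H.pdiv_u.1
  have ht0 : t ≠ 0 := H.pdiv_t.1
  have hu₁0 : u₁ ≠ 0 := hu.ne_zero (zpow_ne_zero _ hu0)
  have ht₁0 : t₁ ≠ 0 := ht.ne_zero (zpow_ne_zero _ ht0)
  have hpow : ∀ (x x₁ : FN (M1 * (q : ℕ))), x ≠ 0 → R (q : ℕ) x₁ (x ^ m) →
      IsPow (q : ℕ) (normAlpha M1 (q : ℕ) x) → IsPow (q : ℕ) (normAlpha M1 (q : ℕ) x₁) := by
    rintro x x₁ hx hR ⟨w, hw⟩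
    have h1 : R (q : ℕ) (normAlpha M1 (q : ℕ) x) 1 :=
      R_of_eq_mul hq0 (map_ne_zero' _ hx) (by rw [hw, one_mul])
    have h3 := ((hR.map (normAlpha M1 (q : ℕ))).trans
      (R.of_eq (map_zpow' (normAlpha M1 (q : ℕ)) hx m))).trans (h1.zpow m)
    rw [one_zpow] at h3
    obtain ⟨g, -, hg⟩ := h3
    exact ⟨g, by rw [hg, one_mul]⟩
  have hW : ∀ (x x₁ : FN (M1 * (q : ℕ))), R (q : ℕ) x₁ (x ^ m) →
      R (q : ℕ) (Wq hc x₁) ((Wq hc x) ^ m) := fun x x₁ hR =>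
    (hR.map (Wq hc)).trans (R.of_eq (map_zpow₀ (Wq hc) x m))
  have hgal : ∀ (σ : GQ) (x x₁ : FN (M1 * (q : ℕ))), R (q : ℕ) x₁ (x ^ m) →
      R (q : ℕ) (gal (M1 * (q : ℕ)) σ x₁) ((gal (M1 * (q : ℕ)) σ x) ^ m) := fun σ x x₁ hR =>
    (hR.map (gal (M1 * (q : ℕ)) σ)).trans (R.of_eq (map_zpow₀ (gal (M1 * (q : ℕ)) σ) x m))
  have heig : ∀ (x x₁ : FN (M1 * (q : ℕ))), x ≠ 0 → R (q : ℕ) x₁ (x ^ m) →
      (∀ (ℓ : ℕ) (hℓ : ℓ.Prime), ¬ ℓ ∣ M1 * (q : ℕ) → ℓ ∈ S →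
        ∃ g : FN (M1 * (q : ℕ)), @Tl (M1 * (q : ℕ)) ℓ _ ⟨hℓ.ne_zero⟩ x = x ^ (a ℓ) * g ^ (q : ℕ)) →
      (∀ (ℓ : ℕ) (hℓ : ℓ.Prime), ¬ ℓ ∣ M1 * (q : ℕ) → ℓ ∈ S →
        ∃ g : FN (M1 * (q : ℕ)), @Tl (M1 * (q : ℕ)) ℓ _ ⟨hℓ.ne_zero⟩ x₁ = x₁ ^ (a ℓ) * g ^ (q : ℕ)) := by
    intro x x₁ hx hR h ℓ hℓ hℓN hℓS
    obtain ⟨g, hg⟩ := h ℓ hℓ hℓN hℓS
    haveI : NeZero ℓ := ⟨hℓ.ne_zero⟩
    have h1 : R (q : ℕ) (Tl (M1 * (q : ℕ)) ℓ x) (x ^ a ℓ) :=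
      R_of_eq_mul hq0 (map_ne_zero' _ hx) hg
    have h2 : R (q : ℕ) (Tl (M1 * (q : ℕ)) ℓ x₁) (x₁ ^ a ℓ) :=
      ((hR.map (Tl (M1 * (q : ℕ)) ℓ)).trans (R.of_eq (map_zpow' _ hx m))).trans
        ((h1.zpow m).trans ((R.of_eq (by rw [← zpow_mul, ← zpow_mul, mul_comm (a ℓ) m])).trans
          (hR.zpow (a ℓ)).symm))
    obtain ⟨g', -, hg'⟩ := h2
    exact ⟨g', hg'⟩
  have hpeq : ∀ σ : GQ, PEq (q : ℕ) (gal (M1 * (q : ℕ)) σ u₁) u₁ ↔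
      PEq (q : ℕ) (gal (M1 * (q : ℕ)) σ u) u := by
    intro σ
    have hσu : gal (M1 * (q : ℕ)) σ u ≠ 0 := (map_ne_zero _).2 hu0
    have hσu₁ : gal (M1 * (q : ℕ)) σ u₁ ≠ 0 := (map_ne_zero _).2 hu₁0
    constructor
    · rintro ⟨g, hg⟩
      have h1 : R (q : ℕ) (gal (M1 * (q : ℕ)) σ u₁) u₁ := R_of_eq_mul hq0 hσu₁ hg
      have h2 : R (q : ℕ) ((gal (M1 * (q : ℕ)) σ u) ^ m) (u ^ m) :=
        (hgal σ u u₁ hu).symm.trans (h1.trans hu)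
      obtain ⟨g', -, hg'⟩ := R.of_zpow hσu hu0 hm h2
      exact ⟨g', hg'⟩
    · rintro ⟨g, hg⟩
      have h1 : R (q : ℕ) (gal (M1 * (q : ℕ)) σ u) u := R_of_eq_mul hq0 hσu hg
      obtain ⟨g', -, hg'⟩ := (hgal σ u u₁ hu).trans ((h1.zpow m).trans hu.symm)
      exact ⟨g', hg'⟩
  refine ⟨?_, hpeq⟩
  exact
  { pdiv_u := pdiv_R (pdiv_zpow H.pdiv_u m) hu
    pdiv_t := pdiv_R (pdiv_zpow H.pdiv_t m) ht
    not_pow := by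
      rintro ⟨g, hg⟩
      have h1 : R (q : ℕ) u₁ 1 := R_of_eq_mul hq0 hu₁0 (by rw [hg, one_mul])
      have h2 : R (q : ℕ) (u ^ m) ((1 : FN (M1 * (q : ℕ))) ^ m) := by
        rw [one_zpow]; exact hu.symm.trans h1
      obtain ⟨g', -, hg'⟩ := R.of_zpow hu0 one_ne_zero hm h2
      exact H.not_pow ⟨g', by rw [hg', one_mul]⟩
    nm_u := hpow u u₁ hu0 hu H.nm_u
    nmW_u := hpow _ _ ((map_ne_zero _).2 hu0) (hW u u₁ hu) H.nmW_u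
    nm_t := hpow t t₁ ht0 ht H.nm_t
    nmW_t := hpow _ _ ((map_ne_zero _).2 ht0) (hW t t₁ ht) H.nmW_t
    eig_u := heig u u₁ hu0 hu H.eig_u
    eig_t := heig t t₁ ht0 ht H.eig_t
    act_u := by
      intro σ hσ
      obtain ⟨k, g, hg⟩ := H.act_u σ hσ
      refine ⟨k, ?_⟩
      have h1 : R (q : ℕ) (gal (M1 * (q : ℕ)) σ u) (u * t ^ k) :=
        R_of_eq_mul hq0 ((map_ne_zero _).2 hu0) hg
      have h2 : R (q : ℕ) (gal (M1 * (q : ℕ)) σ u₁) (u₁ * t₁ ^ k) :=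
        (hgal σ u u₁ hu).trans ((h1.zpow m).trans ((R.of_eq (by
          rw [mul_zpow, ← zpow_natCast t k, ← zpow_natCast (t ^ m) k, ← zpow_mul, ← zpow_mul,
            mul_comm (k : ℤ) m])).trans (hu.mul (ht.pow k)).symm))
      obtain ⟨g', -, hg'⟩ := h2
      exact ⟨g', hg'⟩
    act_t := by
      intro σ hσ c hcyc
      obtain ⟨g, hg⟩ := H.act_t σ hσ c hcyc
      have h1 : R (q : ℕ) (gal (M1 * (q : ℕ)) σ t) (t ^ c) :=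
        R_of_eq_mul hq0 ((map_ne_zero _).2 ht0) hg
      have h2 : R (q : ℕ) (gal (M1 * (q : ℕ)) σ t₁) (t₁ ^ c) :=
        (hgal σ t t₁ ht).trans ((h1.zpow m).trans ((R.of_eq (by
          rw [← zpow_natCast t c, ← zpow_natCast (t ^ m) c, ← zpow_mul, ← zpow_mul,
            mul_comm (c : ℤ) m])).trans (ht.pow c).symm))
      obtain ⟨g', -, hg'⟩ := h2
      exact ⟨g', hg'⟩
    fix := by
      obtain ⟨σ₀, h1, h2, h3⟩ := H.fix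
      exact ⟨σ₀, h1, h2, (hpeq σ₀).2 h3⟩
    ntr := by
      intro ζ c0 hζ hc0 h1 h2
      exact H.ntr ζ c0 hζ hc0 h1 (fun σ hσ hσζ => (h2 σ hσ hσζ).trans (hpeq σ)) }

/-- `x ↦ T_ℓ x / x^(ℓ+1)` -/
def D (N ℓ : ℕ) [NeZero N] [NeZero ℓ] (x : FN N) : FN N := Tl N ℓ x * (x ^ (ℓ + 1))⁻¹

section D
variable {N ℓ : ℕ} [NeZero N] [NeZero ℓ]

theorem D_mul (x y : FN N) : D N ℓ (x * y) = D N ℓ x * D N ℓ y := by
  unfold D; rw [map_mul, mul_pow, mul_inv]; ring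

theorem D_pow (x : FN N) (n : ℕ) : D N ℓ (x ^ n) = D N ℓ x ^ n := by
  unfold D; rw [map_pow, mul_pow, inv_pow, ← pow_mul, ← pow_mul, mul_comm n]

theorem D_ne_zero {x : FN N} (hx : x ≠ 0) : D N ℓ x ≠ 0 :=
  mul_ne_zero (map_ne_zero' _ hx) (inv_ne_zero (pow_ne_zero _ hx))

theorem lcF_D (hl : ℓ.Prime) (hlN : ¬ ℓ ∣ N) {x : FN N} (hx : x ≠ 0) :
    lcF N (D N ℓ x) = 1 ∨ lcF N (D N ℓ x) = -1 := by
  have h0 : lcF N x ≠ 0 := (map_ne_zero _).2 hx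
  unfold D
  rw [map_mul, map_inv₀, map_pow]
  rcases Geo.lcF_Tl hl hlN x with h | h
  · left; rw [h, mul_inv_cancel₀ (pow_ne_zero _ h0)]
  · right; rw [h, neg_mul, mul_inv_cancel₀ (pow_ne_zero _ h0)]

theorem gal_D (σ : GQ) (x : FN N) : gal N σ (D N ℓ x) = D N ℓ (gal N σ x) := by
  unfold D; rw [map_mul, map_inv₀, map_pow, gal_Tl]

theorem lcF_gal_of_sign (σ : GQ) {x : FN N} (h : lcF N x = 1 ∨ lcF N x = -1) :
    lcF N (gal N σ x) = lcF N x := by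
  rw [lcF_gal]
  rcases h with h | h
  · rw [h, map_one]
  · rw [h, map_neg, map_one]

end D

theorem Wq_D {ℓ : ℕ} [NeZero ℓ] (hc : Nat.Coprime (q : ℕ) M1) (hl : ℓ.Prime)
    (hlN : ¬ ℓ ∣ M1 * (q : ℕ)) (x : FN (M1 * (q : ℕ))) :
    Wq hc (D (M1 * (q : ℕ)) ℓ x) = D (M1 * (q : ℕ)) ℓ (Wq hc x) := by
  unfold D; rw [map_mul, map_inv₀, map_pow, Geo.Wq_Tl q.2 hc hl hlN]

end EU

variable {q : Nat.Primes} {M1 : ℕ} [NeZero M1] [NeZero (q : ℕ)]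

open EU in
theorem eis_up_main (hq5 : 5 ≤ (q : ℕ)) (hc : Nat.Coprime (q : ℕ) M1) {S : Set ℕ} {a : ℕ → ℤ}
    {u t : FN (M1 * (q : ℕ))} (H : NewHyp q M1 hc S a u t)
    (hEis : ∃ ℓ : ℕ, ℓ.Prime ∧ ¬ ℓ ∣ 6 * (M1 * (q : ℕ)) ∧ ℓ ∈ S ∧ ¬ ((q : ℕ) : ℤ) ∣ a ℓ - (ℓ + 1)) :
    ∃ (u₁ t₁ g₀ : FN (M1 * (q : ℕ))) (m : ℤ), ¬ ((q : ℕ) : ℤ) ∣ m ∧ g₀ ≠ 0 ∧ u₁ = u ^ m * g₀ ^ (q : ℕ) ∧
      NewHyp q M1 hc S a u₁ t₁ ∧
      (lcF (M1 * (q : ℕ)) (Wq hc u₁) = lcF (M1 * (q : ℕ)) u₁ ∨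
        lcF (M1 * (q : ℕ)) (Wq hc u₁) = - lcF (M1 * (q : ℕ)) u₁) ∧
      ∀ σ ∈ Iq q, ∀ g : FN (M1 * (q : ℕ)), gal (M1 * (q : ℕ)) σ u₁ = u₁ * g ^ (q : ℕ) →
        lcF (M1 * (q : ℕ)) (Wq hc g) = lcF (M1 * (q : ℕ)) g := by
  obtain ⟨ℓ, hℓ, hℓ6, hℓS, hℓa⟩ := hEis
  have hℓN : ¬ ℓ ∣ M1 * (q : ℕ) := fun h => hℓ6 (h.mul_left 6)
  haveI : NeZero ℓ := ⟨hℓ.ne_zero⟩
  have hq0 : (q : ℕ) ≠ 0 := q.2.ne_zero
  have hu0 : u ≠ 0 := H.pdiv_u.1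
  have ht0 : t ≠ 0 := H.pdiv_t.1
  obtain ⟨gu, hgu⟩ := H.eig_u ℓ hℓ hℓN hℓS
  obtain ⟨gt, hgt⟩ := H.eig_t ℓ hℓ hℓN hℓS
  have hm : IsCoprime (a ℓ - (ℓ + 1)) ((q : ℕ) : ℤ) :=
    ((Nat.prime_iff_prime_int.mp q.2).coprime_iff_not_dvd.mpr hℓa).symm
  have hform : ∀ x g : FN (M1 * (q : ℕ)), x ≠ 0 → Tl (M1 * (q : ℕ)) ℓ x = x ^ (a ℓ) * g ^ (q : ℕ) →
      D (M1 * (q : ℕ)) ℓ x = x ^ (a ℓ - (ℓ + 1)) * g ^ (q : ℕ) ∧ g ≠ 0 := by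
    intro x g hx hg
    constructor
    · unfold D
      rw [hg, zpow_sub₀ hx]
      have : x ^ ((ℓ : ℤ) + 1) = x ^ (ℓ + 1) := by
        rw [← zpow_natCast]; push_cast; rfl
      rw [this]
      ring
    · rintro rfl
      rw [zero_pow hq0, mul_zero] at hg
      exact map_ne_zero' (Tl (M1 * (q : ℕ)) ℓ) hx hg
  obtain ⟨eu, hgu0⟩ := hform u gu hu0 hgu
  obtain ⟨et, hgt0⟩ := hform t gt ht0 hgt
  obtain ⟨HN, hpeq⟩ := newHyp_zpow (u₁ := D (M1 * (q : ℕ)) ℓ u) (t₁ := D (M1 * (q : ℕ)) ℓ t) H hm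
    ⟨gu, hgu0, eu⟩ ⟨gt, hgt0, et⟩
  have hWu0 : Wq hc u ≠ 0 := (map_ne_zero _).2 hu0
  have s1 := lcF_D hℓ hℓN hu0
  have s2 := lcF_D hℓ hℓN hWu0
  rw [← Wq_D hc hℓ hℓN] at s2
  have hD0 : D (M1 * (q : ℕ)) ℓ u ≠ 0 := D_ne_zero hu0
  refine ⟨D (M1 * (q : ℕ)) ℓ u, D (M1 * (q : ℕ)) ℓ t, gu, a ℓ - (ℓ + 1), hℓa, hgu0, eu, HN, ?_, ?_⟩
  · rcases s1 with s1 | s1 <;> rcases s2 with s2 | s2 <;> rw [s1, s2] <;> simp
  · intro σ hσ g hg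
    obtain ⟨g', hg'⟩ := (hpeq σ).1 ⟨g, hg⟩
    have hσu : gal (M1 * (q : ℕ)) σ u ≠ 0 := (map_ne_zero _).2 hu0
    have hg'0 : g' ≠ 0 := by
      rintro rfl
      rw [zero_pow hq0, mul_zero] at hg'
      exact hσu hg'
    have h2 : gal (M1 * (q : ℕ)) σ (D (M1 * (q : ℕ)) ℓ u) =
        D (M1 * (q : ℕ)) ℓ u * (D (M1 * (q : ℕ)) ℓ g') ^ (q : ℕ) := by
      rw [gal_D, hg', D_mul, D_pow]
    have h3 : g ^ (q : ℕ) = (D (M1 * (q : ℕ)) ℓ g') ^ (q : ℕ) :=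
      mul_left_cancel₀ hD0 (hg.symm.trans h2)
    have hG0 : D (M1 * (q : ℕ)) ℓ g' ≠ 0 := D_ne_zero hg'0
    obtain ⟨c, hc'⟩ := root_const (Ω := Kb) hq0 (x := g / D (M1 * (q : ℕ)) ℓ g')
      (by rw [div_pow, h3, div_self (pow_ne_zero _ hG0)])
    have hgc : g = algebraMap Kb _ c * D (M1 * (q : ℕ)) ℓ g' := by
      rw [← hc', div_mul_cancel₀ _ hG0]
    have e1 : lcF (M1 * (q : ℕ)) (Wq hc g) = c * lcF (M1 * (q : ℕ)) (Wq hc (D (M1 * (q : ℕ)) ℓ g')) := by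
      rw [hgc, map_mul, AlgEquiv.commutes, map_mul, lcF_algebraMap]
    have e2 : lcF (M1 * (q : ℕ)) g = c * lcF (M1 * (q : ℕ)) (D (M1 * (q : ℕ)) ℓ g') := by
      rw [hgc, map_mul, lcF_algebraMap]
    have t1 := lcF_D hℓ hℓN hg'0
    have t2 := lcF_D hℓ hℓN ((map_ne_zero (Wq hc)).2 hg'0)
    rw [← Wq_D hc hℓ hℓN] at t2
    -- both `q`-th powers are `1`
    have p1 : lcF (M1 * (q : ℕ)) g ^ (q : ℕ) = 1 := by
      have := congrArg (lcF (M1 * (q : ℕ))) hg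
      rw [lcF_gal_of_sign σ s1, map_mul, map_pow] at this
      have h0 : lcF (M1 * (q : ℕ)) (D (M1 * (q : ℕ)) ℓ u) ≠ 0 := (map_ne_zero _).2 hD0
      exact (mul_left_cancel₀ h0 (this.symm.trans (mul_one _).symm))
    have p2 : lcF (M1 * (q : ℕ)) (Wq hc g) ^ (q : ℕ) = 1 := by
      have := congrArg (fun z => lcF (M1 * (q : ℕ)) (Wq hc z)) hg
      rw [← gal_Wq q.2 hc, lcF_gal_of_sign σ s2, map_mul, map_mul, map_pow, map_pow] at this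
      have h0 : lcF (M1 * (q : ℕ)) (Wq hc (D (M1 * (q : ℕ)) ℓ u)) ≠ 0 :=
        (map_ne_zero _).2 ((map_ne_zero _).2 hD0)
      exact (mul_left_cancel₀ h0 (this.symm.trans (mul_one _).symm))
    have hodd : Odd (q : ℕ) := q.2.odd_of_ne_two (by omega)
    have hneg : lcF (M1 * (q : ℕ)) (Wq hc g) ≠ - lcF (M1 * (q : ℕ)) g := by
      intro h
      rw [h, hodd.neg_pow, p1] at p2
      norm_num at p2
    rcases t1 with t1 | t1 <;> rcases t2 with t2 | t2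
    · rw [e1, e2, t1, t2]
    · exact absurd (by rw [e1, e2, t1, t2]; ring) hneg
    · exact absurd (by rw [e1, e2, t1, t2]; ring) hneg
    · rw [e1, e2, t1, t2]

end Fermat.Agent.S44.Cov
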