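import Fermat.Agent.S44.Geo.Cov.Loc0
import Fermat.Agent.S44.Geo.Cov.RV

/-!
# S44 / GEO / COVER : the sheet valuations `resV C W k` on `E'` and the local ring `Rn S0 b 𝔫`          (helper20, key `S44/COV-REL`)

All the valuation hypotheses of `Alg.Sheet.pdiv_node`.
-/

set_option autoImplicit false
set_option synthInstance.maxHeartbeats 400000

open HahnSeries ModularCurve AlgebraicCurve Fermat.Agent.S24 Fermat.Agent.S29 Fermat.Agent.S18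
  Fermat.Agent.ES Fermat.Agent.ES.Alg Fermat.Agent.S34.Mod Fermat.Agent.S05 Fermat.Agent.S55.B ExtCitation
  Fermat.Agent.S33
open Fermat.Agent.S55 (Dq Iq)

noncomputable section

namespace Fermat.Agent.S44.Cov

/-! ### principal units -/

section PU

variable {K : Type*} [Field K] (v : RVal K)

/-- principal units -/
def PU (x : K) : Prop := v.GT (x - 1) 0

variable {v}

theorem PU.EQ {x : K} (h : PU v x) : v.EQ x 0 := by
  have := (RVal.EQ_one (v := v)).add_GT h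
  rwa [add_sub_cancel] at this

theorem PU.one : PU v 1 := by
  unfold PU; rw [sub_self]; exact RVal.GT_zero 0

theorem PU.mul {x y : K} (hx : PU v x) (hy : PU v y) : PU v (x * y) := by
  unfold PU at *
  have h1 : v.GT ((x - 1) * (y - 1)) (0 + 0) := hx.mul_GE hy.GE
  rw [add_zero] at h1
  have : x * y - 1 = (x - 1) * (y - 1) + (x - 1) + (y - 1) := by ring
  rw [this]
  exact (h1.add hx).add hy

theorem PU.inv {x : K} (hx : PU v x) : PU v x⁻¹ := by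
  have h0 := hx.EQ
  have h1 : v.GT ((x - 1) * x⁻¹) (0 + 0) := RVal.GT.mul_GE hx (by
    have := h0.inv
    rw [neg_zero] at this
    exact this.GE)
  rw [add_zero] at h1
  have : x⁻¹ - 1 = -((x - 1) * x⁻¹) := by
    have := h0.ne_zero
    field_simp
    ring
  unfold PU
  rw [this]
  exact h1.neg

theorem PU.pow {x : K} (hx : PU v x) (n : ℕ) : PU v (x ^ n) := by
  induction n with
  | zero => rw [pow_zero]; exact PU.one
  | succ n ih => rw [pow_succ]; exact ih.mul hx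

theorem PU.of_sub {x y : K} {a : ℝ} (hy : v.EQ y a) (h : v.GT (x - y) a) : PU v (x * y⁻¹) := by
  have h1 : v.GT ((x - y) * y⁻¹) (a + -a) := h.mul_GE hy.inv.GE
  rw [add_neg_cancel] at h1
  have : x * y⁻¹ - 1 = (x - y) * y⁻¹ := by
    have := hy.ne_zero
    field_simp
  unfold PU
  rwa [this]

end PU

variable {q : Nat.Primes} {M1 r : ℕ} [NeZero M1] [NeZero (q : ℕ)] [NeZero r]

/-! ### the two valuations on the chart ring -/

section Chart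

variable (S0 : Setup M1 (q : ℕ) r (AA q)) (b : Bool)

theorem wG_GE_BB (β : Mod.BB S0 b) :
    (wG q (M1 * (q : ℕ))).GE ((β : Mod.EE q M1) : FN (M1 * (q : ℕ))) 0 :=
  GE_zero_iff.mpr (mem_Vinf_of_mem_VV S0 (Mod.coe_mem_VV S0 b β))

theorem wZ_GE_BB (β : Mod.BB S0 b) :
    (wZ q S0.hc).GE ((β : Mod.EE q M1) : FN (M1 * (q : ℕ))) 0 :=
  (wZ_GE_iff S0.hc).mpr (GE_zero_iff.mpr (Wq_mem_Vinf_of_mem_VV S0 (Mod.coe_mem_VV S0 b β)))

theorem eq_of_GE_not_GT {K : Type*} [Field K] {v : RVal K} {x : K} (h : v.GE x 0)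
    (h' : ¬ v.GT x 0) : v.EQ x 0 := by
  have hx : x ≠ 0 := fun h0 => h' (Or.inl h0)
  refine ⟨hx, le_antisymm ?_ (h.le_w hx)⟩
  by_contra hlt
  exact h' (Or.inr (not_le.mp hlt))

theorem wG_EQ_BB {β : Mod.BB S0 b} (h : Mod.r1 S0 b β ≠ 0) :
    (wG q (M1 * (q : ℕ))).EQ ((β : Mod.EE q M1) : FN (M1 * (q : ℕ))) 0 :=
  eq_of_GE_not_GT (wG_GE_BB S0 b β) (fun h' => h ((Mod.r1_eq_zero_iff S0 b β).mpr h'))

theorem wZ_EQ_BB {β : Mod.BB S0 b} (h : Mod.r2 S0 b β ≠ 0) :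
    (wZ q S0.hc).EQ ((β : Mod.EE q M1) : FN (M1 * (q : ℕ))) 0 :=
  eq_of_GE_not_GT (wZ_GE_BB S0 b β) (fun h' => h ((Mod.r2_eq_zero_iff S0 b β).mpr h'))

end Chart

/-! ### the sheet valuations -/

section Sheet

variable (S0 : Setup M1 (q : ℕ) r (AA q)) (b : Bool) (𝔫 : Ideal (Mod.BB S0 b)) [h𝔫 : 𝔫.IsMaximal]
variable {hc : Nat.Coprime (q : ℕ) M1} {t : FN (M1 * (q : ℕ))} {F' : Type} [Field F']
  [Algebra (FN (M1 * (q : ℕ))) F'] (C : Cov q M1 hc t F')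

theorem δ_pow_alg (k : ℕ) (x : FN (M1 * (q : ℕ))) :
    (C.δ ^ k) (algebraMap (FN (M1 * (q : ℕ))) F' x) = algebraMap (FN (M1 * (q : ℕ))) F' x :=
  (C.δ ^ k).commutes x

theorem δ_pow_mem_Ep (k : ℕ) {x : F'} (hx : x ∈ C.Ep) : (C.δ ^ k) x ∈ C.Ep := by
  induction k with
  | zero => simpa using hx
  | succ k ih =>
    rw [pow_succ']
    exact C.δ_mem_Ep ih

theorem resV_w (W : RVal F') (k : ℕ) (x : C.Ep) : (resV C W k).w x = W.w ((C.δ ^ k) (x : F')) := rfl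

theorem resV_GE {W : RVal F'} {k : ℕ} {x : C.Ep} {a : ℝ} :
    (resV C W k).GE x a ↔ W.GE ((C.δ ^ k) (x : F')) a := by
  unfold RVal.GE
  rw [EmbeddingLike.map_eq_zero_iff, ← ZeroMemClass.coe_eq_zero]
  rfl

theorem resV_GT {W : RVal F'} {k : ℕ} {x : C.Ep} {a : ℝ} :
    (resV C W k).GT x a ↔ W.GT ((C.δ ^ k) (x : F')) a := by
  unfold RVal.GT
  rw [EmbeddingLike.map_eq_zero_iff, ← ZeroMemClass.coe_eq_zero]
  rfl

theorem resV_EQ {W : RVal F'} {k : ℕ} {x : C.Ep} {a : ℝ} :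
    (resV C W k).EQ x a ↔ W.EQ ((C.δ ^ k) (x : F')) a := by
  unfold RVal.EQ
  rw [Ne, Ne, EmbeddingLike.map_eq_zero_iff, ← ZeroMemClass.coe_eq_zero]
  rfl

/-- the data of one branch: `W` extends `w`, `ρ` is the reduction belonging to `w` -/
structure Branch (W : RVal F') (w : RVal (FN (M1 * (q : ℕ))))
    (ρ : Mod.BB S0 b →+* LaurentSeries (kA (AA q))) : Prop where
  ext : ∀ x : FN (M1 * (q : ℕ)), x ≠ 0 → W.w (algebraMap (FN (M1 * (q : ℕ))) F' x) = w.w x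
  ge : ∀ β : Mod.BB S0 b, w.GE ((β : Mod.EE q M1) : FN (M1 * (q : ℕ))) 0
  eq : ∀ β : Mod.BB S0 b, ρ β ≠ 0 → w.EQ ((β : Mod.EE q M1) : FN (M1 * (q : ℕ))) 0
  ker : RingHom.ker ρ ≤ 𝔫
  hq : w.EQ (((q : ℕ) : FN (M1 * (q : ℕ)))) 1
  int : ∀ x : F', x ≠ 0 → (∀ σ : ↥(Iq q), C.act σ x = x) → ∃ n : ℤ, W.w x = n

variable {S0 b 𝔫 C}
variable {W : RVal F'} {w : RVal (FN (M1 * (q : ℕ)))}
  {ρ : Mod.BB S0 b →+* LaurentSeries (kA (AA q))}

theorem Branch.GE_alg (B : Branch S0 b 𝔫 C W w ρ) {x : FN (M1 * (q : ℕ))} {a : ℝ} :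
    W.GE (algebraMap (FN (M1 * (q : ℕ))) F' x) a ↔ w.GE x a := by
  by_cases hx : x = 0
  · rw [hx, map_zero]; exact ⟨fun _ => RVal.GE_zero a, fun _ => RVal.GE_zero a⟩
  · unfold RVal.GE
    rw [B.ext x hx, map_eq_zero]

theorem Branch.GT_alg (B : Branch S0 b 𝔫 C W w ρ) {x : FN (M1 * (q : ℕ))} {a : ℝ} :
    W.GT (algebraMap (FN (M1 * (q : ℕ))) F' x) a ↔ w.GT x a := by
  by_cases hx : x = 0
  · rw [hx, map_zero]; exact ⟨fun _ => RVal.GT_zero a, fun _ => RVal.GT_zero a⟩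
  · unfold RVal.GT
    rw [B.ext x hx, map_eq_zero]

theorem Branch.EQ_alg (B : Branch S0 b 𝔫 C W w ρ) {x : FN (M1 * (q : ℕ))} {a : ℝ} :
    W.EQ (algebraMap (FN (M1 * (q : ℕ))) F' x) a ↔ w.EQ x a := by
  by_cases hx : x = 0
  · rw [hx, map_zero]; exact ⟨fun h => absurd rfl h.1, fun h => absurd rfl h.1⟩
  · unfold RVal.EQ
    rw [B.ext x hx, Ne, Ne, map_eq_zero]

/-- the image of `f ∈ E` in `E'`, seen in `F'`, moved by `δ^k` -/
theorem δ_pow_algE (k : ℕ) (f : Mod.EE q M1) :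
    (C.δ ^ k) ((algebraMap (Mod.EE q M1) C.Ep f : C.Ep) : F') =
      algebraMap (FN (M1 * (q : ℕ))) F' (f : FN (M1 * (q : ℕ))) := by
  rw [C.coe_algebraMap_E, δ_pow_alg]

theorem Branch.not_mem (B : Branch S0 b 𝔫 C W w ρ) {s : Mod.BB S0 b} (hs : s ∉ 𝔫) : ρ s ≠ 0 :=
  fun h => hs (B.ker h)

/-- elements of `Rn` are integral for the sheet valuation -/
theorem Branch.GE_Rn (B : Branch S0 b 𝔫 C W w ρ) (k : ℕ) (x : Rn S0 b 𝔫) :
    (resV C W k).GE (algebraMap (Rn S0 b 𝔫) C.Ep x) 0 := by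
  obtain ⟨a, s, hs, hx⟩ := (mem_Rn b 𝔫).1 x.2
  rw [resV_GE]
  have e : (algebraMap (Rn S0 b 𝔫) C.Ep x : C.Ep) = algebraMap (Mod.EE q M1) C.Ep (x : Mod.EE q M1) := rfl
  rw [e, δ_pow_algE, B.GE_alg, hx]
  have h1 := B.ge a
  have h2 := (B.eq s (B.not_mem hs)).inv
  rw [neg_zero] at h2
  have h3 : w.GE (((s : Mod.EE q M1) : FN (M1 * (q : ℕ))))⁻¹ 0 := h2.GE le_rfl
  have := h1.mul h3
  rw [add_zero] at this
  exact this

theorem Branch.hint (B : Branch S0 b 𝔫 C W w ρ) (k : ℕ) (a : C.Ep)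
    (ha : IsIntegral (Rn S0 b 𝔫) a) : (resV C W k).GE a 0 :=
  GE_of_isIntegral _ (B.GE_Rn k) ha

theorem Branch.hϖ (B : Branch S0 b 𝔫 C W w ρ) (k : ℕ) :
    (resV C W k).EQ (algebraMap (Rn S0 b 𝔫) C.Ep ((q : ℕ) : Rn S0 b 𝔫)) 1 := by
  rw [resV_EQ, map_natCast]
  have e : (((q : ℕ) : C.Ep) : F') = algebraMap (FN (M1 * (q : ℕ))) F' ((q : ℕ) : FN (M1 * (q : ℕ))) := by
    rw [map_natCast]; rfl
  rw [e, δ_pow_alg, B.EQ_alg]
  exact B.hq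

theorem Branch.hcc (B : Branch S0 b 𝔫 C W w ρ) (k : ℕ) (x : Rn S0 b 𝔫)
    (hx : x ∉ (RingHom.ker ρ).map (algebraMap (Mod.BB S0 b) (Rn S0 b 𝔫))) :
    (resV C W k).EQ (algebraMap (Rn S0 b 𝔫) C.Ep x) 0 := by
  obtain ⟨a, s, hs, hxe⟩ := (mem_Rn b 𝔫).1 x.2
  have hs0 := B.eq s (B.not_mem hs)
  have hsE : algebraMap (Mod.BB S0 b) (Mod.EE q M1) s ≠ 0 := by
    intro h0
    exact hs0.ne_zero (congrArg Subtype.val h0)
  have hmul : x * algebraMap (Mod.BB S0 b) (Rn S0 b 𝔫) s = algebraMap (Mod.BB S0 b) (Rn S0 b 𝔫) a := by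
    apply Subtype.ext
    show (x : Mod.EE q M1) * algebraMap (Mod.BB S0 b) (Mod.EE q M1) s = algebraMap (Mod.BB S0 b) (Mod.EE q M1) a
    rw [hxe, mul_assoc]
    have h1 : ((s : Mod.EE q M1))⁻¹ * algebraMap (Mod.BB S0 b) (Mod.EE q M1) s = 1 := inv_mul_cancel₀ hsE
    rw [h1, mul_one]
    rfl
  have ha : ρ a ≠ 0 := by
    intro h0
    apply hx
    obtain ⟨v, hv⟩ := (IsLocalization.map_units (Rn S0 b 𝔫) (⟨s, hs⟩ : 𝔫.primeCompl)).exists_right_inv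
    have : x = algebraMap (Mod.BB S0 b) (Rn S0 b 𝔫) a * v := by
      rw [← hmul, mul_assoc]
      have hv' : algebraMap (Mod.BB S0 b) (Rn S0 b 𝔫) s * v = 1 := hv
      rw [hv', mul_one]
    rw [this]
    exact Ideal.mul_mem_right _ _ (Ideal.mem_map_of_mem _ h0)
  rw [resV_EQ]
  have e : (algebraMap (Rn S0 b 𝔫) C.Ep x : C.Ep) = algebraMap (Mod.EE q M1) C.Ep (x : Mod.EE q M1) := rfl
  rw [e, δ_pow_algE, B.EQ_alg, hxe]
  have := (B.eq a ha).mul hs0.inv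
  rw [neg_zero, add_zero] at this
  exact this

theorem Branch.hZ (B : Branch S0 b 𝔫 C W w ρ) (k : ℕ) (y : C.Ep) (hy : y ≠ 0) :
    ∃ n : ℤ, (resV C W k).w y = n := by
  refine B.int _ ?_ (δ_pow_mem_Ep C k y.2)
  rw [Ne, EmbeddingLike.map_eq_zero_iff]
  exact fun h => hy (Subtype.ext h)

theorem he_of_PU {k : ℕ} {e : C.Ep} (h : W.GT ((C.δ ^ k) (e : F') - 1) 0) :
    (resV C W k).EQ e 0 := by
  rw [resV_EQ]
  exact PU.EQ h

variable (S0 b 𝔫 C)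

theorem branch₁ {t : FN (M1 * (q : ℕ))} (C : Cov q M1 S0.hc t F')
    (h1 : RingHom.ker (Mod.r1 S0 b) ≤ 𝔫) :
    Branch S0 b 𝔫 C C.W₁ (wG q (M1 * (q : ℕ))) (Mod.r1 S0 b) :=
  ⟨C.ext₁, wG_GE_BB S0 b, fun _ h => wG_EQ_BB S0 b h, h1, Mod.wG_q, C.int₁⟩

theorem branch₂ {t : FN (M1 * (q : ℕ))} (C : Cov q M1 S0.hc t F')
    (h2 : RingHom.ker (Mod.r2 S0 b) ≤ 𝔫) :
    Branch S0 b 𝔫 C C.W₂ (wZ q S0.hc) (Mod.r2 S0 b) :=
  ⟨C.ext₂, wZ_GE_BB S0 b, fun _ h => wZ_EQ_BB S0 b h, h2, Mod.wZ_q S0, C.int₂⟩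

end Sheet

end Fermat.Agent.S44.Cov
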