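import Fermat.Agent.S44.Geo.Cov.Defs
import Fermat.Agent.S33.M.Main
import Fermat.Agent.S44.Geo.Cov.RelVal

/-!
# S44 / GEO / COVER : a good representative of the toric class   [S44/COV-GOODT]          (helper2)

`exists_goodT'` is PROVED below from one key (+ `S33.M.weak_approx`, `S33.M.exists_deep`):

* [S44/GOODT-A] `goodT_unit` : `σ ∈ I` moving `μ_q`, `gal σ t = t^c h^q`  ⟹  `∃ k ≠ 0, wG (t k^q - 1) > 0`.
  Proof.  `valAux_nf` / `exists_unit_scale`: `t = c₀ t₁`, `wG t₁ = 0`; `c₀ = c₁^q` (`Kb` algebraically closed: `IsAlgClosed.exists_pow_nat_eq`).  `gal σ t₁ = t₁^c h₁^q`, `h₁ = h c₁^c / σ c₁`.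
  `q wG h₁ = 0`.  `GT_gal_sub`: `wG (gal σ t₁ - t₁) > 0`; so `x := t₁^(c-1) h₁^q` is a principal unit (`wG (x - 1) > 0`).  `q ∤ c - 1` (as in `S33.M.mainAux_isPow`), Bezout `a (c-1) + b q = 1`:
  `t₁ = x^a (h₁^(-a) t₁^b)^q`; so `t (c₁⁻¹ h₁^a t₁^(-b))^q = x^a`, a principal unit (principal units are a group).
-/

set_option autoImplicit false
set_option synthInstance.maxHeartbeats 400000

open HahnSeries ModularCurve AlgebraicCurve Fermat.Agent.S24 Fermat.Agent.S29 Fermat.Agent.S18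
  Fermat.Agent.ES Fermat.Agent.ES.Alg Fermat.Agent.S34.Mod Fermat.Agent.S05 Fermat.Agent.S55.B ExtCitation
  Fermat.Agent.S33 Fermat.Agent.S33.M
open Fermat.Agent.S55 (Dq Iq)

noncomputable section

namespace Fermat.Agent.S44.Cov

variable {q : Nat.Primes} {M1 r : ℕ} [NeZero M1] [NeZero (q : ℕ)] [NeZero r]

/-- principal units are a group -/
theorem goodTAux_zpow {F : Type*} [Field F] {w : RVal F} {x : F} (hx : w.GT (x - 1) 0) (a : ℤ) :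
    w.GT (x ^ a - 1) 0 := by
  have hn : ∀ n : ℕ, w.GT (x ^ n - 1) 0 := by
    intro n
    induction n with
    | zero => simpa using RVal.GT_zero (v := w) 0
    | succ n ih => rw [pow_succ]; exact GT_mul_sub_one le_rfl ih hx
  cases a with
  | ofNat n => simpa using hn n
  | negSucc n => rw [zpow_negSucc]; exact GT_inv_sub_one le_rfl (hn (n + 1))

/-- [S44/GOODT-A] -/
theorem goodT_unit {N : ℕ} [NeZero N] {t h : FN N} {σ : GQ} (hσ : σ ∈ Iq q) {c : ℕ} (hc : Cyc (q : ℕ) σ c)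
    (hmv : ∃ ζ : Qb, ζ ^ (q : ℕ) = 1 ∧ σ ζ ≠ ζ) (ht : t ≠ 0) (hh : gal N σ t = t ^ c * h ^ (q : ℕ)) :
    ∃ k : FN N, k ≠ 0 ∧ (wG q N).GT (t * k ^ (q : ℕ) - 1) 0 := by
  -- scaling
  obtain ⟨κ, hκ0, hκ⟩ : ∃ κ : FN N, κ ≠ 0 ∧ (wG q N).EQ (t * κ ^ (q : ℕ)) 0 := by
    obtain ⟨c₀, u, hc₀, e, hu, hu', -⟩ := exists_wG_eq (q := q) ht
    have hu0 : u ≠ 0 := by
      rintro rfl
      rw [mul_zero] at e
      exact ht e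
    obtain ⟨c₁, hc₁⟩ := IsAlgClosed.exists_pow_nat_eq (c₀⁻¹ : Kb) q.2.pos
    have hc₁0 : c₁ ≠ 0 := by
      rintro rfl
      rw [zero_pow q.2.ne_zero] at hc₁
      exact inv_ne_zero hc₀ hc₁.symm
    refine ⟨algebraMap Kb (FN N) c₁, (map_ne_zero _).2 hc₁0, ?_⟩
    have e1 : t * algebraMap Kb (FN N) c₁ ^ (q : ℕ) = u := by
      rw [← map_pow, hc₁, e, mul_comm, ← mul_assoc, ← map_mul, inv_mul_cancel₀ hc₀, map_one, one_mul]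
    rw [e1]
    have h1 := (GE_zero_iff.2 hu).le_w hu0
    have h2 := (GE_zero_iff.2 hu').le_w (inv_ne_zero hu0)
    rw [RVal.w_inv hu0] at h2
    exact ⟨hu0, le_antisymm (by linarith) h1⟩
  obtain ⟨t₁, ht₁⟩ : ∃ t₁, t₁ = t * κ ^ (q : ℕ) := ⟨_, rfl⟩
  rw [← ht₁] at hκ
  have ht₁0 : t₁ ≠ 0 := hκ.1
  obtain ⟨h₁, hh₁⟩ : ∃ h₁, h₁ = (κ ^ c)⁻¹ * h * gal N σ κ := ⟨_, rfl⟩
  have hgal : gal N σ t₁ = t₁ ^ c * h₁ ^ (q : ℕ) := by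
    have hκc : κ ^ ((q : ℕ) * c) ≠ 0 := pow_ne_zero _ hκ0
    rw [ht₁, map_mul, map_pow, hh, hh₁, mul_pow, mul_pow, mul_pow, inv_pow, ← pow_mul, ← pow_mul,
      mul_comm c (q : ℕ)]
    field_simp
  have hh₁0 : h₁ ≠ 0 := by
    intro h0
    rw [h0, zero_pow q.2.ne_zero, mul_zero] at hgal
    exact ht₁0 ((map_eq_zero _).1 hgal)
  -- the principal unit
  obtain ⟨x, hx⟩ : ∃ x, x = gal N σ t₁ / t₁ := ⟨_, rfl⟩
  have hx1 : (wG q N).GT (x - 1) 0 := by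
    have e1 : x - 1 = (gal N σ t₁ - t₁) * t₁⁻¹ := by
      rw [hx]
      field_simp
    rw [e1]
    simpa using (GT_gal_sub hσ (hκ.GE le_rfl)).mul_GE (hκ.inv.GE le_rfl)
  have hxe : x = t₁ ^ ((c : ℤ) - 1) * h₁ ^ (q : ℕ) := by
    rw [hx, hgal, zpow_sub₀ ht₁0, zpow_natCast, zpow_one]
    field_simp
  -- Bezout
  obtain ⟨ζ, hζ1, hζ⟩ := hmv
  have hζ0 : ζ ≠ 0 := fun h0 => by
    rw [h0, zero_pow (NeZero.ne _)] at hζ1; exact zero_ne_one hζ1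
  have hnd : ¬ ((q : ℕ) : ℤ) ∣ (c : ℤ) - 1 := by
    rintro ⟨k, hk⟩
    apply hζ
    rw [hc ζ hζ1]
    have h1 : ζ ^ ((c : ℤ) - 1) = 1 := by
      rw [hk, zpow_mul, zpow_natCast, hζ1, one_zpow]
    have h2 : ζ ^ (c : ℤ) = ζ := by
      have : (c : ℤ) = ((c : ℤ) - 1) + 1 := by ring
      rw [this, zpow_add₀ hζ0, h1, one_mul, zpow_one]
    rwa [zpow_natCast] at h2
  have hcop : IsCoprime ((c : ℤ) - 1) ((q : ℕ) : ℤ) := by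
    have hp : Prime (((q : ℕ) : ℤ)) := Nat.prime_iff_prime_int.mp q.2
    exact ((hp.coprime_iff_not_dvd).mpr hnd).symm
  obtain ⟨a, b, hab⟩ := hcop
  refine ⟨κ * h₁ ^ a * t₁ ^ (-b), mul_ne_zero (mul_ne_zero hκ0 (zpow_ne_zero _ hh₁0))
    (zpow_ne_zero _ ht₁0), ?_⟩
  have key : t * (κ * h₁ ^ a * t₁ ^ (-b)) ^ (q : ℕ) = x ^ a := by
    calc t * (κ * h₁ ^ a * t₁ ^ (-b)) ^ (q : ℕ)
        = t₁ * (h₁ ^ a) ^ (q : ℕ) * (t₁ ^ (-b)) ^ (q : ℕ) := by rw [ht₁]; ring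
      _ = (t₁ ^ (1 : ℤ) * t₁ ^ (-b * ((q : ℕ) : ℤ))) * h₁ ^ (a * ((q : ℕ) : ℤ)) := by
          rw [zpow_one, ← zpow_natCast (h₁ ^ a), ← zpow_mul, ← zpow_natCast (t₁ ^ (-b)), ← zpow_mul]
          ring
      _ = t₁ ^ (((c : ℤ) - 1) * a) * h₁ ^ (a * ((q : ℕ) : ℤ)) := by
          rw [← zpow_add₀ ht₁0]
          congr 2
          linarith
      _ = x ^ a := by
          rw [hxe, mul_zpow, ← zpow_mul, ← zpow_natCast h₁, ← zpow_mul, mul_comm a]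
  rw [key]
  exact goodTAux_zpow hx1 a

/-- `GoodT 1` -/
theorem goodT_one (hc : Nat.Coprime (q : ℕ) M1) : GoodT q M1 hc 1 where
  pdiv := PDiv.one
  deep₁ := by rw [sub_self]; exact RVal.GE_zero _
  deep₂ := by rw [sub_self]; exact RVal.GE_zero _
  act := fun σ _ c _ => ⟨1, by rw [map_one, one_pow, one_pow, one_mul]⟩

theorem goodT_alg {F : Type*} [Field F] (t G h' sG : F) (c p : ℕ) (hG : G ≠ 0) :
    t ^ c * h' ^ p * sG ^ p = (t * G ^ p) ^ c * (h' * sG / G ^ c) ^ p := by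
  have h1 : (G ^ c) ^ p ≠ 0 := pow_ne_zero _ (pow_ne_zero _ hG)
  rw [div_pow, mul_pow, mul_pow, ← pow_mul G p c, mul_comm p c, pow_mul G c p]
  field_simp

/-- **GOODT** -/
theorem exists_goodT' (S0 : Setup M1 (q : ℕ) r (AA q)) {S : Set ℕ} {a : ℕ → ℤ}
    {u t : FN (M1 * (q : ℕ))} (H : NewHyp q M1 S0.hc S a u t) :
    ∃ g : FN (M1 * (q : ℕ)), g ≠ 0 ∧ GoodT q M1 S0.hc (t * g ^ (q : ℕ)) ∧
      ((∃ g' : FN (M1 * (q : ℕ)), t * g ^ (q : ℕ) = g' ^ (q : ℕ)) → t * g ^ (q : ℕ) = 1) := by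
  have ht0 : t ≠ 0 := H.pdiv_t.1
  have hq0 : (q : ℕ) ≠ 0 := q.2.ne_zero
  by_cases hpow : ∃ g' : FN (M1 * (q : ℕ)), t = g' ^ (q : ℕ)
  · obtain ⟨g', hg'⟩ := hpow
    have hg0 : g' ≠ 0 := by
      rintro rfl
      rw [zero_pow hq0] at hg'
      exact ht0 hg'
    have e : t * g'⁻¹ ^ (q : ℕ) = 1 := by
      rw [hg', ← mul_pow, mul_inv_cancel₀ hg0, one_pow]
    exact ⟨g'⁻¹, inv_ne_zero hg0, by rw [e]; exact goodT_one S0.hc, fun _ => e⟩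
  -- the main case
  obtain ⟨σ₀, hσ₀, hmv, -⟩ := H.fix
  obtain ⟨c₀, hc₀⟩ := mainAux_exists_cyc (q := q) σ₀
  obtain ⟨h, hh⟩ := H.act_t σ₀ hσ₀ c₀ hc₀
  obtain ⟨k₁, hk₁, hA1⟩ := goodT_unit hσ₀ hc₀ hmv ht0 hh
  have hh' : gal (M1 * (q : ℕ)) σ₀ (Wq S0.hc t) = (Wq S0.hc t) ^ c₀ * (Wq S0.hc h) ^ (q : ℕ) := by
    rw [gal_Wq q.2 S0.hc, hh, map_mul, map_pow, map_pow]
  obtain ⟨k₂', hk₂', hA2⟩ := goodT_unit hσ₀ hc₀ hmv ((map_ne_zero _).2 ht0) hh'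
  set k₂ := Wq S0.hc k₂' with hk₂def
  have hk₂ : k₂ ≠ 0 := (map_ne_zero _).2 hk₂'
  have hA2' : (wZ q S0.hc).GT (t * k₂ ^ (q : ℕ) - 1) 0 := by
    rw [wZ_GT_iff, map_sub, map_mul, map_pow, map_one, hk₂def, Wq_Wq]
    exact hA2
  -- glue
  have hkk : k₂ / k₁ ≠ 0 := div_ne_zero hk₂ hk₁
  obtain ⟨h₀, hw1, hw2⟩ := weak_approx S0 (k₂ / k₁) (1 + |(wZ q S0.hc).w (k₂ / k₁)|)
  have hP1 : PU (wG q (M1 * (q : ℕ))) h₀ := hw1.GT (by linarith [abs_nonneg ((wZ q S0.hc).w (k₂ / k₁))])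
  have hP2 : PU (wZ q S0.hc) (h₀ * (k₂ / k₁)⁻¹) :=
    PU.of_sub (a := (wZ q S0.hc).w (k₂ / k₁)) ⟨hkk, rfl⟩
      (hw2.GT (by linarith [le_abs_self ((wZ q S0.hc).w (k₂ / k₁))]))
  have hh₀ : h₀ ≠ 0 := hP1.EQ.ne_zero
  set g₀ := k₁ * h₀ with hg₀def
  have hg₀ : g₀ ≠ 0 := mul_ne_zero hk₁ hh₀
  have hu1 : GT2 S0.hc (t * g₀ ^ (q : ℕ) - 1) 0 := by
    constructor
    · have e : t * g₀ ^ (q : ℕ) = t * k₁ ^ (q : ℕ) * h₀ ^ (q : ℕ) := by rw [hg₀def]; ring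
      rw [e]
      exact PU.mul (v := wG q (M1 * (q : ℕ))) hA1 (hP1.pow _)
    · have e : t * g₀ ^ (q : ℕ) = t * k₂ ^ (q : ℕ) * (h₀ * (k₂ / k₁)⁻¹) ^ (q : ℕ) := by
        rw [hg₀def, mul_assoc, ← mul_pow]
        congr 2
        field_simp
      rw [e]
      exact PU.mul (v := wZ q S0.hc) hA2' (hP2.pow _)
  obtain ⟨n1, hn1⟩ := H.nm_t
  obtain ⟨n2, hn2⟩ := H.nmW_t
  obtain ⟨h₁, hh₁, hdeep⟩ := exists_deep S0 hu1
    ⟨n1 * normAlpha M1 (q : ℕ) g₀, by rw [map_mul, map_pow, hn1, mul_pow]⟩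
    ⟨n2 * normAlpha M1 (q : ℕ) (Wq S0.hc g₀), by rw [map_mul, map_pow, map_mul, map_pow, hn2, mul_pow]⟩ 4
  set t₂ := t * g₀ ^ (q : ℕ) * h₁ ^ (q : ℕ) with ht₂def
  have ht₂0 : t₂ ≠ 0 := mul_ne_zero (mul_ne_zero ht0 (pow_ne_zero _ hg₀)) (pow_ne_zero _ hh₁)
  have hpd₂ : PDiv Kb (FN (M1 * (q : ℕ))) (q : ℕ) t₂ :=
    (H.pdiv_t.mul (Fermat.Agent.S35.PDiv.pow_self hg₀)).mul (Fermat.Agent.S35.PDiv.pow_self hh₁)
  refine ⟨g₀ * h₁, mul_ne_zero hg₀ hh₁, ?_, ?_⟩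
  · have e : t * (g₀ * h₁) ^ (q : ℕ) = t₂ := by rw [ht₂def]; ring
    rw [e]
    refine ⟨hpd₂, hdeep.1, hdeep.2, ?_⟩
    intro σ hσ c hc
    obtain ⟨h', hh'⟩ := H.act_t σ hσ c hc
    have hG0 : g₀ * h₁ ≠ 0 := mul_ne_zero hg₀ hh₁
    refine ⟨h' * gal (M1 * (q : ℕ)) σ (g₀ * h₁) / (g₀ * h₁) ^ c, ?_⟩
    rw [← e, map_mul, map_pow, hh']
    exact goodT_alg _ _ _ _ _ _ hG0
  · rintro ⟨g', hg'⟩
    exfalso
    apply hpow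
    have hG0 : g₀ * h₁ ≠ 0 := mul_ne_zero hg₀ hh₁
    refine ⟨g' / (g₀ * h₁), ?_⟩
    rw [div_pow, ← hg']
    field_simp

end Fermat.Agent.S44.Cov
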