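import Fermat.Agent.S37.NormQ
import Fermat.Agent.S18.GlueInf
import Fermat.Agent.S29.Defs

/-!
# S44 / GEO / COVER : [S44/GOODT-C]  `PDiv m t ⟹ m ∣ order t`  (the place `Q = 0` of `FN N`)      (helper23)

`OinfC E`, `ooC E` : the valuation ring / place `order ≥ 0` of a subfield `E` of `k((q))` (verbatim construction of
`S17.Rat.ooPlace`, repeated under fresh names to keep the import closure small).  `jN N` has order `-1`, so `ord = order`.
-/

set_option autoImplicit false

noncomputable section

namespace Fermat.Agent.S44.Cov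

open AlgebraicCurve ModularCurve Fermat.Agent.S24 Fermat.Agent.S29 HahnSeries
open Fermat.Agent.S18 (order_inv')

section General

variable {k : Type*} [Field k] (E : IntermediateField k (LaurentSeries k))

theorem coe_ne_zeroC {x : E} (hx : x ≠ 0) : (x : LaurentSeries k) ≠ 0 := fun h =>
  hx (Subtype.ext h)

/-- the valuation ring of the cusp infinity -/
def OinfC : ValuationSubring (E) where
  carrier := {x | 0 ≤ (x : LaurentSeries k).order}
  mul_mem' := by
    intro x y hx hy
    simp only [Set.mem_setOf_eq] at hx hy ⊢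
    by_cases hx0 : (x : LaurentSeries k) = 0
    · simp [hx0]
    by_cases hy0 : (y : LaurentSeries k) = 0
    · simp [hy0]
    rw [MulMemClass.coe_mul, HahnSeries.order_mul hx0 hy0]
    omega
  one_mem' := by simp
  add_mem' := by
    intro x y hx hy
    simp only [Set.mem_setOf_eq] at hx hy ⊢
    by_cases h0 : (x : LaurentSeries k) + y = 0
    · simp [h0]
    have := HahnSeries.min_order_le_order_add h0
    rw [AddMemClass.coe_add]
    exact le_trans (le_min hx hy) this
  zero_mem' := by simp
  neg_mem' := by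
    intro x hx
    simp only [Set.mem_setOf_eq] at hx ⊢
    rw [NegMemClass.coe_neg, HahnSeries.order_neg]
    exact hx
  mem_or_inv_mem' := by
    intro x
    simp only [Set.mem_setOf_eq]
    by_cases hx0 : (x : LaurentSeries k) = 0
    · left; simp [hx0]
    have h : ((x⁻¹ : E) : LaurentSeries k) = (x : LaurentSeries k)⁻¹ := rfl
    rw [h, order_inv' hx0]
    omega

theorem mem_OinfC {x : E} : x ∈ OinfC E ↔ 0 ≤ (x : LaurentSeries k).order := Iff.rfl

theorem isPrincipalIdealRing_OinfC : IsPrincipalIdealRing (OinfC E) := by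
  classical
  refine ⟨fun I => ?_⟩
  by_cases hI : I = ⊥
  · rw [hI]; exact bot_isPrincipal
  obtain ⟨x0, hx0I, hx00⟩ := Submodule.exists_mem_ne_zero_of_ne_bot hI
  -- the set of orders
  let S : Set ℕ := {n | ∃ x ∈ I, x ≠ 0 ∧ ((x : E) : LaurentSeries k).order = n}
  have hS : S.Nonempty := by
    refine ⟨(((x0 : E) : LaurentSeries k).order).toNat, x0, hx0I, hx00, ?_⟩
    exact (Int.toNat_of_nonneg x0.2).symm
  let n0 := sInf S
  obtain ⟨x1, hx1I, hx10, hx1⟩ : n0 ∈ S := Nat.sInf_mem hS
  have hmin : ∀ x ∈ I, x ≠ 0 → (n0 : ℤ) ≤ ((x : E) : LaurentSeries k).order := by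
    intro x hx hx0
    have : (((x : E) : LaurentSeries k).order).toNat ∈ S :=
      ⟨x, hx, hx0, (Int.toNat_of_nonneg x.2).symm⟩
    have h2 := Nat.sInf_le this
    have h3 := Int.toNat_of_nonneg x.2
    have h4 : (n0 : ℤ) ≤ ((((x : E) : LaurentSeries k).order).toNat : ℤ) := by
      exact_mod_cast h2
    omega
  refine ⟨⟨x1, le_antisymm ?_ ?_⟩⟩
  · intro x hx
    by_cases hx0 : x = 0
    · rw [hx0]; exact zero_mem _
    have hx1' : (x1 : E) ≠ 0 := fun h => hx10 (Subtype.ext h)
    have hx' : (x : E) ≠ 0 := fun h => hx0 (Subtype.ext h)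
    have hq : (x : E) * (x1 : E)⁻¹ ∈ OinfC E := by
      rw [mem_OinfC, MulMemClass.coe_mul]
      have h : (((x1 : E)⁻¹ : E) : LaurentSeries k) =
        ((x1 : E) : LaurentSeries k)⁻¹ := rfl
      rw [h, HahnSeries.order_mul (coe_ne_zeroC E hx') (inv_ne_zero (coe_ne_zeroC E hx1')),
        order_inv' (coe_ne_zeroC E hx1'), hx1]
      have := hmin x hx hx0
      omega
    rw [Submodule.mem_span_singleton]
    refine ⟨⟨_, hq⟩, ?_⟩
    apply Subtype.ext
    simp only [smul_eq_mul, MulMemClass.coe_mul]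
    field_simp
  · rw [Submodule.span_singleton_le_iff_mem]
    exact hx1I

/-- the place `order ≥ 0` of a subfield of `k((q))` containing an element of negative order -/
def ooC (hE : ∃ x : E, (x : LaurentSeries k).order < 0) : Place k E where
  toValuationSubring := OinfC E
  algebraMap_mem' := by
    intro a
    rw [mem_OinfC]
    have h : ((algebraMap k E a : E) : LaurentSeries k) =
        algebraMap k (LaurentSeries k) a := rfl
    rw [h, algebraMap_laurentSeries_eq_single]
    by_cases ha : a = 0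
    · simp [ha]
    · rw [HahnSeries.order_single ha]
  ne_top' := by
    intro h
    obtain ⟨x, hx⟩ := hE
    have h1 : x ∈ OinfC E := by rw [h]; exact ValuationSubring.mem_top _
    rw [mem_OinfC] at h1
    omega
  isPrincipalIdealRing' := isPrincipalIdealRing_OinfC E

theorem ooC_nonneg_iff (hE : ∃ x : E, (x : LaurentSeries k).order < 0) {x : E} :
    0 ≤ (ooC E hE).ord x ↔ 0 ≤ (x : LaurentSeries k).order :=
  (mem_iff_ord_nonneg (ooC E hE)).symm

theorem order_eq_zero_of_ooC (hE : ∃ x : E, (x : LaurentSeries k).order < 0) {x : E} (hx : x ≠ 0)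
    (h : (ooC E hE).ord x = 0) : (x : LaurentSeries k).order = 0 := by
  have h1 := (ooC_nonneg_iff E hE (x := x)).mp (by omega)
  have h2 := (ooC_nonneg_iff E hE (x := x⁻¹)).mp (by rw [Place.ord_inv]; omega)
  have h3 : ((x⁻¹ : E) : LaurentSeries k) = (x : LaurentSeries k)⁻¹ := rfl
  rw [h3, order_inv' (coe_ne_zeroC E hx)] at h2
  omega

theorem order_zpowC {x : LaurentSeries k} (hx : x ≠ 0) (n : ℤ) : (x ^ n).order = n * x.order := by
  induction n using Int.induction_on with
  | zero => simp
  | succ n ih =>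
    rw [zpow_add_one₀ hx, HahnSeries.order_mul (zpow_ne_zero _ hx) hx, ih]
    ring
  | pred n ih =>
    rw [zpow_sub_one₀ hx, HahnSeries.order_mul (zpow_ne_zero _ hx) (inv_ne_zero hx), ih,
      order_inv' hx]
    ring

/-- if `E` contains an element of order `-1`, then `ord = order` -/
theorem ooC_ord_eq (j : E) (hj : (j : LaurentSeries k).order = -1) {x : E} (hx : x ≠ 0) :
    (ooC E ⟨j, by omega⟩).ord x = (x : LaurentSeries k).order := by
  set P := ooC E ⟨j, by omega⟩ with hP
  obtain ⟨ϖ, hϖ⟩ := IsDiscreteValuationRing.exists_irreducible P.toValuationSubring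
  have h1 : P.ord (ϖ : E) = 1 := P.ord_coe_irreducible hϖ
  have hϖ0 : (ϖ : E) ≠ 0 := by
    intro h0
    rw [h0, Place.ord_zero] at h1
    omega
  have key : ∀ y : E, y ≠ 0 → (y : LaurentSeries k).order =
      P.ord y * ((ϖ : E) : LaurentSeries k).order := by
    intro y hy
    have h2 : P.ord (y * (ϖ : E) ^ (-P.ord y)) = 0 := by
      rw [P.ord_mul hy (zpow_ne_zero _ hϖ0), P.ord_zpow, h1]
      ring
    have h3 := order_eq_zero_of_ooC E _ (mul_ne_zero hy (zpow_ne_zero _ hϖ0)) h2
    have h4 : ((y * (ϖ : E) ^ (-P.ord y) : E) : LaurentSeries k) =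
        (y : LaurentSeries k) * ((ϖ : E) : LaurentSeries k) ^ (-P.ord y) := by
      push_cast
      rfl
    rw [h4, HahnSeries.order_mul (coe_ne_zeroC E hy) (zpow_ne_zero _ (coe_ne_zeroC E hϖ0)),
      order_zpowC (coe_ne_zeroC E hϖ0)] at h3
    linarith
  have hj0 : j ≠ 0 := by
    rintro rfl
    simp at hj
  have h5 := key j hj0
  rw [hj] at h5
  have h6 : 0 ≤ ((ϖ : E) : LaurentSeries k).order := ϖ.2
  have h7 : ((ϖ : E) : LaurentSeries k).order = 1 := by
    have h8 : ((ϖ : E) : LaurentSeries k).order ∣ 1 := ⟨-P.ord j, by linarith⟩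
    exact Int.eq_one_of_dvd_one h6 h8
  rw [key x hx, h7, mul_one]

end General

theorem order_jNC (N : ℕ) [NeZero N] : ((jN N : FN N) : LaurentSeries Kb).order = -1 := by
  have h1 := S37.coeff_jN_neg_one N
  have h0 : ((jN N : FN N) : LaurentSeries Kb) ≠ 0 := by
    intro h
    rw [h] at h1
    simp at h1
  apply le_antisymm
  · exact HahnSeries.order_le_of_coeff_ne_zero (by rw [h1]; exact one_ne_zero)
  · by_contra hlt
    push Not at hlt
    have h2 : ((jN N : FN N) : LaurentSeries Kb).coeff ((jN N : FN N) : LaurentSeries Kb).order = 0 := by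
      show (coeffEmb Kb (qExpand ℚ 1 jq)).coeff _ = 0
      rw [qExpand_one_apply, coeffEmb_coeff, coeff_jq_of_lt hlt, map_zero]
    exact h0 (HahnSeries.coeff_order_eq_zero.1 h2)

/-- [S44/GOODT-C], any level -/
theorem order_dvd_of_pdiv {N : ℕ} [NeZero N] {m : ℕ} {t : FN N} (h : PDiv Kb (FN N) m t) :
    (m : ℤ) ∣ (t : LaurentSeries Kb).order := by
  rw [← ooC_ord_eq (modularFunctionFieldBar N) (jN N) (order_jNC N) h.1]
  exact h.2 _

end Fermat.Agent.S44.Cov
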