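import Fermat.Agent.S44.Geo.Cov.Defs
import Fermat.Agent.S33.M.Main
import Fermat.Agent.S34.Mod.IndepSer

/-!
# S44 / GEO / COVER : [S44/GOODT-B] functions `≡ 1` with prescribed orders at the two cusps          (helper18)

`φ₁ = tQ / tM^(q-1)` has orders `(-1, q^2-q-1)` at `(∞, 0)`; `g₁ = 1 + c φ₁` has orders `(-1, 0)`, `g₂ = Wq g₁` has orders `(0, -1)`; `g = g₁^(-n₁) g₂^(-n₂)`.
-/

set_option autoImplicit false
set_option synthInstance.maxHeartbeats 400000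
set_option linter.unusedSectionVars false

open HahnSeries ModularCurve AlgebraicCurve Fermat.Agent.S24 Fermat.Agent.S29 Fermat.Agent.S18
  Fermat.Agent.ES Fermat.Agent.ES.Alg Fermat.Agent.S34.Mod Fermat.Agent.S05 Fermat.Agent.S55.B ExtCitation
  Fermat.Agent.S33 Fermat.Agent.S33.M
open Fermat.Agent.S55 (Dq Iq)

noncomputable section

namespace Fermat.Agent.S44.Cov

section Ser

variable {k : Type*} [Field k]

theorem gtoAux_eq {x : LaurentSeries k} {a : ℤ} (h1 : x.coeff a ≠ 0) (h2 : ∀ n < a, x.coeff n = 0) :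
    x.order = a := by
  have hne : x ≠ 0 := by rintro rfl; exact h1 rfl
  exact le_antisymm (HahnSeries.order_le_of_coeff_ne_zero h1)
    ((HahnSeries.le_order_iff_forall hne).2 h2)

theorem gtoAux_one_add_neg {x : LaurentSeries k} (hx : x.order < 0) : (1 + x).order = x.order := by
  have hne : x ≠ 0 := by rintro rfl; rw [HahnSeries.order_zero] at hx; exact lt_irrefl _ hx
  apply gtoAux_eq
  · rw [HahnSeries.coeff_add, HahnSeries.coeff_one, if_neg hx.ne, zero_add]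
    exact HahnSeries.coeff_order_eq_zero.not.2 hne
  · intro n hn
    rw [HahnSeries.coeff_add, HahnSeries.coeff_one, if_neg (hn.trans hx).ne, zero_add]
    exact HahnSeries.coeff_eq_zero_of_lt_order hn

theorem gtoAux_one_add_pos {x : LaurentSeries k} (hx : 0 < x.order) : (1 + x).order = 0 := by
  apply gtoAux_eq
  · rw [HahnSeries.coeff_add, HahnSeries.coeff_one, if_pos rfl,
      HahnSeries.coeff_eq_zero_of_lt_order hx, add_zero]
    exact one_ne_zero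
  · intro n hn
    rw [HahnSeries.coeff_add, HahnSeries.coeff_one, if_neg hn.ne,
      HahnSeries.coeff_eq_zero_of_lt_order (hn.trans hx), add_zero]

theorem gtoAux_inv {x : LaurentSeries k} (hx : x ≠ 0) : (x⁻¹).order = - x.order := by
  have h := HahnSeries.order_mul hx (inv_ne_zero hx)
  rw [mul_inv_cancel₀ hx, HahnSeries.order_one] at h
  linarith

theorem gtoAux_pow {x : LaurentSeries k} (hx : x ≠ 0) (n : ℕ) : (x ^ n).order = n * x.order := by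
  induction n with
  | zero => simp
  | succ n ih =>
    rw [pow_succ, HahnSeries.order_mul (pow_ne_zero _ hx) hx, ih]
    push_cast
    ring

theorem gtoAux_zpow {x : LaurentSeries k} (hx : x ≠ 0) (n : ℤ) : (x ^ n).order = n * x.order := by
  cases n with
  | ofNat n => rw [Int.ofNat_eq_natCast, zpow_natCast, gtoAux_pow hx]
  | negSucc n =>
    rw [zpow_negSucc, gtoAux_inv (pow_ne_zero _ hx), gtoAux_pow hx, Int.negSucc_eq]
    push_cast
    ring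

end Ser

section Val

variable {F : Type*} [Field F] {w : RVal F}

theorem gtoAux_GE_zpow {x : F} {t : ℝ} (ht : 0 < t) (hx : w.GE (x - 1) t) (n : ℤ) :
    w.GE (x ^ n - 1) t := by
  cases n with
  | ofNat n => rw [Int.ofNat_eq_natCast, zpow_natCast]; exact GE_pow_sub_one ht.le hx n
  | negSucc n => rw [zpow_negSucc]; exact GE_inv_sub_one ht (GE_pow_sub_one ht.le hx _)

end Val

section Main

variable {q : Nat.Primes} {M1 r : ℕ} [NeZero M1] [NeZero (q : ℕ)] [NeZero r]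

/-- the order at the cusp `∞` -/
def oF {N : ℕ} (x : FN N) : ℤ := (x : LaurentSeries Kb).order

theorem oF_coe_ne {N : ℕ} {x : FN N} (hx : x ≠ 0) : (x : LaurentSeries Kb) ≠ 0 :=
  fun h => hx (Subtype.ext h)

theorem oF_mul {N : ℕ} {x y : FN N} (hx : x ≠ 0) (hy : y ≠ 0) : oF (x * y) = oF x + oF y :=
  HahnSeries.order_mul (oF_coe_ne hx) (oF_coe_ne hy)

theorem oF_zpow {N : ℕ} {x : FN N} (hx : x ≠ 0) (n : ℤ) : oF (x ^ n) = n * oF x := by
  have e : ((x ^ n : FN N) : LaurentSeries Kb) = (x : LaurentSeries Kb) ^ n :=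
    map_zpow₀ (algebraMap (FN N) (LaurentSeries Kb)) x n
  show ((x ^ n : FN N) : LaurentSeries Kb).order = _
  rw [e]
  exact gtoAux_zpow (oF_coe_ne hx) n

theorem oF_cst_mul {N : ℕ} {c : Kb} (hc : c ≠ 0) {x : FN N} (hx : x ≠ 0) :
    oF (algebraMap Kb (FN N) c * x) = oF x := by
  have hc' : algebraMap Kb (FN N) c ≠ 0 := by rw [Ne, map_eq_zero]; exact hc
  rw [oF_mul hc' hx]
  have : oF (algebraMap Kb (FN N) c) = 0 := by
    show (algebraMap Kb (LaurentSeries Kb) c).order = 0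
    rw [algebraMap_laurentSeries_eq_single]
    exact HahnSeries.order_single hc
  rw [this, zero_add]

theorem oF_one_add_neg {N : ℕ} {x : FN N} (hx : oF x < 0) : oF (1 + x) = oF x :=
  gtoAux_one_add_neg (x := (x : LaurentSeries Kb)) hx

theorem oF_one_add_pos {N : ℕ} {x : FN N} (hx : 0 < oF x) : oF (1 + x) = 0 :=
  gtoAux_one_add_pos (x := (x : LaurentSeries Kb)) hx

theorem oF_tq : (tq Kb r).order = -1 :=
  gtoAux_eq (by rw [coeff_tq_neg_one]; exact one_ne_zero) (fun _ hn => coeff_tq_of_lt _ _ hn)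

theorem tq_ne_zero' : tq Kb r ≠ 0 := by
  intro h
  have := coeff_tq_neg_one Kb r
  rw [h] at this
  exact zero_ne_one this

variable (S0 : Setup M1 (q : ℕ) r (AA q))

theorem oF_tM : oF S0.tM = -1 := by
  show ((S0.tM : FN (M1 * (q : ℕ))) : LaurentSeries Kb).order = -1
  rw [show ((S0.tM : FN (M1 * (q : ℕ))) : LaurentSeries Kb) = tq Kb r from
    coe_tauF (M1 * (q : ℕ)) S0.hr S0.hrM]
  exact oF_tq

theorem oF_tQ : oF S0.tQ = -((q : ℕ) : ℤ) := by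
  show ((heckeBetaBar Kb M1 (q : ℕ) S0.t1 : FN (M1 * (q : ℕ))) : LaurentSeries Kb).order = _
  rw [coe_heckeBetaBar, show ((S0.t1 : FN M1) : LaurentSeries Kb) = tq Kb r from
    coe_tauF M1 S0.hr S0.hr1, Ser.order_qExpand _ tq_ne_zero', oF_tq]
  ring

/-- [S44/GOODT-B] -/
theorem goodT_ord_main (n₁ n₂ : ℤ) (B : ℝ) :
    ∃ g : FN (M1 * (q : ℕ)), g ≠ 0 ∧ GE2 S0.hc (g - 1) B ∧ (g : LaurentSeries Kb).order = n₁ ∧
      ((Wq S0.hc g : FN (M1 * (q : ℕ))) : LaurentSeries Kb).order = n₂ := by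
  have hq2 : (2 : ℤ) ≤ ((q : ℕ) : ℤ) := by exact_mod_cast q.2.two_le
  have htM0 : S0.tM ≠ 0 := by
    intro h
    have := oF_tM S0
    rw [h] at this
    exact absurd this (by show (0 : LaurentSeries Kb).order ≠ -1; rw [HahnSeries.order_zero]; decide)
  have htQ0 : S0.tQ ≠ 0 := by
    rw [← Wq_tM S0, Ne, EmbeddingLike.map_eq_zero_iff]
    exact htM0
  obtain ⟨φ, hφdef⟩ : ∃ φ, φ = S0.tQ * (S0.tM ^ (-(((q : ℕ) : ℤ) - 1))) := ⟨_, rfl⟩
  have hφ0 : φ ≠ 0 := by rw [hφdef]; exact mul_ne_zero htQ0 (zpow_ne_zero _ htM0)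
  have hWφ : Wq S0.hc φ = S0.tM * (S0.tQ ^ (-(((q : ℕ) : ℤ) - 1))) := by
    rw [hφdef, map_mul, map_zpow₀, Wq_tQ, Wq_tM]
  have hWφ0 : Wq S0.hc φ ≠ 0 := by rw [Ne, EmbeddingLike.map_eq_zero_iff]; exact hφ0
  have ho1 : oF φ = -1 := by
    rw [hφdef, oF_mul htQ0 (zpow_ne_zero _ htM0), oF_zpow htM0, oF_tM, oF_tQ]
    ring
  have ho2 : 0 < oF (Wq S0.hc φ) := by
    rw [hWφ, oF_mul htM0 (zpow_ne_zero _ htQ0), oF_zpow htQ0, oF_tM, oF_tQ]
    nlinarith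
  -- the constant
  obtain ⟨B', hB', hB'0⟩ : ∃ B' : ℝ, B ≤ B' ∧ 0 < B' := ⟨max B 1, le_max_left _ _,
    lt_of_lt_of_le one_pos (le_max_right _ _)⟩
  obtain ⟨s, hs⟩ := exists_rat_gt (max (B' - (wG q (M1 * (q : ℕ))).w φ) (B' - (wZ q S0.hc).w φ))
  obtain ⟨c, hc0, hcw⟩ := exists_w_eq q s
  have hs1 : B' - (wG q (M1 * (q : ℕ))).w φ < s := lt_of_le_of_lt (le_max_left _ _) hs
  have hs2 : B' - (wZ q S0.hc).w φ < s := lt_of_le_of_lt (le_max_right _ _) hs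
  have hc' : algebraMap Kb (FN (M1 * (q : ℕ))) c ≠ 0 := by rw [Ne, map_eq_zero]; exact hc0
  have hcφ : GE2 S0.hc (algebraMap Kb (FN (M1 * (q : ℕ))) c * φ) B' := by
    have hcc : GE2 S0.hc (algebraMap Kb (FN (M1 * (q : ℕ))) c) s :=
      GE2_algebraMap (Or.inr hcw.ge)
    refine ⟨?_, ?_⟩
    · exact (hcc.1.mul ((RVal.EQ_self (v := wG q (M1 * (q : ℕ))) hφ0).GE le_rfl)).mono
        (by linarith)
    · exact (hcc.2.mul ((RVal.EQ_self (v := wZ q S0.hc) hφ0).GE le_rfl)).mono (by linarith)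
  obtain ⟨g₁, hg₁def⟩ : ∃ g₁, g₁ = 1 + algebraMap Kb (FN (M1 * (q : ℕ))) c * φ := ⟨_, rfl⟩
  obtain ⟨g₂, hg₂def⟩ : ∃ g₂, g₂ = Wq S0.hc g₁ := ⟨_, rfl⟩
  have hg₂e : g₂ = 1 + algebraMap Kb (FN (M1 * (q : ℕ))) c * Wq S0.hc φ := by
    rw [hg₂def, hg₁def, map_add, map_one, map_mul, AlgEquiv.commutes]
  have hWg₂ : Wq S0.hc g₂ = g₁ := by rw [hg₂def, Wq_Wq]
  have hg₁1 : GE2 S0.hc (g₁ - 1) B' := by rw [hg₁def, add_sub_cancel_left]; exact hcφ
  have hg₂1 : GE2 S0.hc (g₂ - 1) B' := by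
    have := hg₁1.Wq
    rwa [map_sub, map_one, ← hg₂def] at this
  have hog₁ : oF g₁ = -1 := by
    rw [hg₁def, oF_one_add_neg (by rw [oF_cst_mul hc0 hφ0, ho1]; decide), oF_cst_mul hc0 hφ0, ho1]
  have hog₂ : oF g₂ = 0 := by
    rw [hg₂e, oF_one_add_pos (by rw [oF_cst_mul hc0 hWφ0]; exact ho2)]
  have hg₁0 : g₁ ≠ 0 := by
    intro h
    rw [h] at hog₁
    exact absurd hog₁ (by show (0 : LaurentSeries Kb).order ≠ -1; rw [HahnSeries.order_zero]; decide)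
  have hg₂0 : g₂ ≠ 0 := by rw [hg₂def, Ne, EmbeddingLike.map_eq_zero_iff]; exact hg₁0
  refine ⟨g₁ ^ (-n₁) * g₂ ^ (-n₂), mul_ne_zero (zpow_ne_zero _ hg₁0) (zpow_ne_zero _ hg₂0), ?_, ?_, ?_⟩
  · refine GE2.mono ?_ hB'
    exact ⟨GE_mul_sub_one hB'0.le (gtoAux_GE_zpow hB'0 hg₁1.1 _) (gtoAux_GE_zpow hB'0 hg₂1.1 _),
      GE_mul_sub_one hB'0.le (gtoAux_GE_zpow hB'0 hg₁1.2 _) (gtoAux_GE_zpow hB'0 hg₂1.2 _)⟩
  · show oF (g₁ ^ (-n₁) * g₂ ^ (-n₂)) = n₁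
    rw [oF_mul (zpow_ne_zero _ hg₁0) (zpow_ne_zero _ hg₂0), oF_zpow hg₁0, oF_zpow hg₂0, hog₁, hog₂]
    ring
  · show oF (Wq S0.hc (g₁ ^ (-n₁) * g₂ ^ (-n₂))) = n₂
    rw [map_mul, map_zpow₀, map_zpow₀, hWg₂, ← hg₂def,
      oF_mul (zpow_ne_zero _ hg₂0) (zpow_ne_zero _ hg₁0), oF_zpow hg₁0, oF_zpow hg₂0, hog₁, hog₂]
    ring

end Main

end Fermat.Agent.S44.Cov
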