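import Mathlib

/-!
# S44 / COV-H90G : Hilbert 90 for Kummer classes, for a GROUP acting          key `S44/COV-H90G`  (Mathlib only)   (statement: helper22)

Copy of `Fermat.Agent.S33.Rat.h90_abs` (`S33/Rat/H90Abs.lean`, 200 lines): there the whole group `Ω ≃ₐ[K] Ω` acts on `F` and `H` is a subgroup; here an abstract group `G` acts on `Ω` (through `ρ`)
and on `F` (through `γ`).  Same proof: normalise `lc u = 1`; `g_σ` with `lc g_σ = 1` is unique: a cocycle; Poincaré series `P_j = ∑_{y ∈ G θ} g_{s_y} y^j`; Dedekind.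
-/

set_option autoImplicit false

namespace Fermat.Agent.S44.Cov

theorem h90_grp {Ω F G : Type*} [Field Ω] [IsAlgClosed Ω] [CharZero Ω] [Field F] [Algebra Ω F] [Group G]
    (ρ : G →* (Ω ≃+* Ω)) (γ : G →* (F ≃+* F))
    (hγa : ∀ σ c, γ σ (algebraMap Ω F c) = algebraMap Ω F (ρ σ c))
    (lc : F →*₀ Ω) (hlca : ∀ c, lc (algebraMap Ω F c) = c) (hlcγ : ∀ σ x, lc (γ σ x) = ρ σ (lc x))
    (hlev : ∀ x : F, ∃ θ : Ω, (∀ σ : G, ρ σ θ = θ → γ σ x = x) ∧ {y | ∃ σ : G, ρ σ θ = y}.Finite)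
    {p : ℕ} (hp : 0 < p) (u : F) (hu : u ≠ 0)
    (h : ∀ σ : G, ∃ g : F, γ σ u = u * g ^ p) :
    ∃ g : F, g ≠ 0 ∧ ∀ σ : G, γ σ (u * g ^ p) = u * g ^ p := by
  classical
  have hNZ : NeZero p := ⟨hp.ne'⟩
  have hγm : ∀ σ τ x, γ (σ * τ) x = γ σ (γ τ x) := fun σ τ x => by rw [map_mul]; rfl
  have hρm : ∀ σ τ x, ρ (σ * τ) x = ρ σ (ρ τ x) := fun σ τ x => by rw [map_mul]; rfl
  have hρinv : ∀ σ x, ρ σ⁻¹ (ρ σ x) = x := fun σ x => by
    rw [← hρm, inv_mul_cancel, map_one]; rfl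
  have hρinv' : ∀ σ x, ρ σ (ρ σ⁻¹ x) = x := fun σ x => by
    rw [← hρm, mul_inv_cancel, map_one]; rfl
  -- roots of unity
  have hroot : ∀ x : F, x ^ p = 1 → lc x = 1 → x = 1 := by
    intro x hx hl
    obtain ⟨ζ, hζ⟩ := HasEnoughRootsOfUnity.exists_primitiveRoot Ω p
    have hζF : IsPrimitiveRoot (algebraMap Ω F ζ) p :=
      hζ.map_of_injective (algebraMap Ω F).injective
    obtain ⟨i, -, hi⟩ := hζF.eq_pow_of_pow_eq_one hx
    rw [← map_pow] at hi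
    rw [← hi, hlca] at hl
    rw [← hi, hl, map_one]
  obtain ⟨b, hb⟩ := IsAlgClosed.exists_pow_nat_eq (lc u)⁻¹ hp
  have hlu : lc u ≠ 0 := (map_ne_zero lc).mpr hu
  have hb0 : b ≠ 0 := by
    rintro rfl
    rw [zero_pow hp.ne'] at hb
    exact inv_ne_zero hlu hb.symm
  obtain ⟨B, hB⟩ : ∃ B : F, B = algebraMap Ω F b := ⟨_, rfl⟩
  have hB0 : B ≠ 0 := by rw [hB]; exact (map_ne_zero _).mpr hb0
  obtain ⟨u₁, hu₁⟩ : ∃ u₁ : F, u₁ = u * B ^ p := ⟨_, rfl⟩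
  have hu₁0 : u₁ ≠ 0 := hu₁ ▸ mul_ne_zero hu (pow_ne_zero _ hB0)
  have hlu₁ : lc u₁ = 1 := by rw [hu₁, map_mul, map_pow, hB, hlca, hb, mul_inv_cancel₀ hlu]
  have hex : ∀ σ : G, ∃ g, lc g = 1 ∧ γ σ u₁ = u₁ * g ^ p := by
    intro σ
    obtain ⟨g₀, hg₀⟩ := h σ
    obtain ⟨g₁, hg₁⟩ : ∃ g₁ : F, g₁ = g₀ * γ σ B * B⁻¹ := ⟨_, rfl⟩
    have h1 : γ σ u₁ = u₁ * g₁ ^ p := by
      rw [hu₁, map_mul, map_pow, hg₀, hg₁, mul_pow, mul_pow, inv_pow]
      field_simp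
    have h2 : lc g₁ ^ p = 1 := by
      have := congrArg lc h1
      rw [hlcγ, hlu₁, map_one, map_mul, hlu₁, one_mul, map_pow] at this
      exact this.symm
    have he0 : lc g₁ ≠ 0 := by
      intro h0
      rw [h0, zero_pow hp.ne'] at h2
      exact zero_ne_one h2
    refine ⟨g₁ * algebraMap Ω F (lc g₁)⁻¹, ?_, ?_⟩
    · rw [map_mul, hlca, mul_inv_cancel₀ he0]
    · rw [h1, mul_pow, ← map_pow, inv_pow, h2, inv_one, map_one, mul_one]
  have huniq : ∀ σ g g', lc g = 1 → lc g' = 1 → γ σ u₁ = u₁ * g ^ p → γ σ u₁ = u₁ * g' ^ p →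
      g = g' := by
    intro σ g g' h1 h1' h2 h2'
    have hg'0 : g' ≠ 0 := by
      intro h0
      rw [h0, map_zero] at h1'
      exact zero_ne_one h1'
    have h3 : g ^ p = g' ^ p := mul_left_cancel₀ hu₁0 (h2.symm.trans h2')
    have h4 : g / g' = 1 := hroot _ (by rw [div_pow, h3, div_self (pow_ne_zero _ hg'0)])
      (by rw [map_div₀, h1, h1', div_one])
    exact (div_eq_one_iff_eq hg'0).mp h4
  choose Gc hG1 hG2 using hex
  have hcoc : ∀ σ τ : G, Gc (σ * τ) = Gc σ * γ σ (Gc τ) := by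
    intro σ τ
    refine huniq (σ * τ) _ _ (hG1 _) ?_ (hG2 _) ?_
    · rw [map_mul, hG1 σ, hlcγ, hG1 τ, map_one, one_mul]
    · rw [hγm, hG2 τ, map_mul, map_pow, hG2 σ, mul_pow, mul_assoc]
  obtain ⟨θ, hθ, hfin⟩ := hlev u₁
  obtain ⟨O, hO⟩ : ∃ O : Finset Ω, ∀ y, y ∈ O ↔ ∃ σ : G, ρ σ θ = y :=
    ⟨hfin.toFinset, fun y => by rw [Set.Finite.mem_toFinset]; rfl⟩
  obtain ⟨S, hS2⟩ : ∃ S : Ω → G, ∀ y ∈ O, ρ (S y) θ = y := by
    refine ⟨fun y => if hy : ∃ σ : G, ρ σ θ = y then hy.choose else 1, fun y hy => ?_⟩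
    have hy' := (hO y).mp hy
    simp only [dif_pos hy']; exact hy'.choose_spec
  have hstab : ∀ σ : G, ρ σ θ = θ → Gc σ = 1 := by
    intro σ hσθ
    refine huniq σ _ _ (hG1 σ) (map_one lc) (hG2 σ) ?_
    rw [hθ σ hσθ, one_pow, mul_one]
  have hOτ : ∀ τ : G, ∀ y ∈ O, ρ τ y ∈ O := by
    intro τ y hy
    obtain ⟨σ, rfl⟩ := (hO y).mp hy
    exact (hO _).mpr ⟨τ * σ, hρm _ _ _⟩
  have hSinv : ∀ y ∈ O, ρ (S y)⁻¹ y = θ := by
    intro y hy
    have h1 := hρinv (S y) θ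
    rwa [hS2 y hy] at h1
  have hkey : ∀ τ : G, ∀ y ∈ O, Gc τ * γ τ (Gc (S y)) = Gc (S (ρ τ y)) := by
    intro τ y hy
    have hy' := hOτ τ y hy
    rw [← hcoc τ]
    have e : τ * S y = S (ρ τ y) * ((S (ρ τ y))⁻¹ * (τ * S y)) := by group
    have hhθ : ρ ((S (ρ τ y))⁻¹ * (τ * S y)) θ = θ := by
      rw [hρm, hρm, hS2 y hy, hSinv _ hy']
    rw [e, hcoc, hstab _ hhθ, map_one, mul_one]
  have hli : LinearIndependent F
      (fun y : Ω => (powersHom F (algebraMap Ω F y) : Multiplicative ℕ → F)) :=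
    (linearIndependent_monoidHom (Multiplicative ℕ) F).comp
      (fun y : Ω => powersHom F (algebraMap Ω F y))
      (fun y y' hyy => (algebraMap Ω F).injective ((powersHom F).injective hyy))
  have hθO : θ ∈ O := (hO θ).mpr ⟨1, by rw [map_one]; rfl⟩
  obtain ⟨j, hj⟩ : ∃ j : ℕ, ∑ y ∈ O, Gc (S y) * algebraMap Ω F (y ^ j) ≠ 0 := by
    by_contra hcon
    push Not at hcon
    have hsum : ∑ y ∈ O, Gc (S y) • (powersHom F (algebraMap Ω F y) : Multiplicative ℕ → F) = 0 := by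
      funext j
      rw [Finset.sum_apply, Pi.zero_apply, ← hcon (Multiplicative.toAdd j)]
      refine Finset.sum_congr rfl fun y _ => ?_
      rw [Pi.smul_apply, smul_eq_mul, powersHom_apply, map_pow]
    have h0 := linearIndependent_iff'.mp hli O (fun y => Gc (S y)) hsum θ hθO
    have h1 := hG1 (S θ)
    rw [h0, map_zero] at h1
    exact zero_ne_one h1
  obtain ⟨P, hP⟩ : ∃ P : F, P = ∑ y ∈ O, Gc (S y) * algebraMap Ω F (y ^ j) := ⟨_, rfl⟩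
  have hPτ : ∀ τ : G, Gc τ * γ τ P = P := by
    intro τ
    rw [hP, map_sum, Finset.mul_sum]
    refine Finset.sum_nbij' (fun y => ρ τ y) (fun y => ρ τ⁻¹ y) (hOτ τ) (hOτ τ⁻¹) ?_ ?_ ?_
    · intro y _; exact hρinv τ y
    · intro y _; exact hρinv' τ y
    · intro y hy
      rw [map_mul, hγa, ← mul_assoc, hkey τ y hy, map_pow]
  refine ⟨B * P, mul_ne_zero hB0 (hP ▸ hj), fun τ => ?_⟩
  have e : u * (B * P) ^ p = u₁ * P ^ p := by rw [hu₁, mul_pow, mul_assoc]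
  rw [e, map_mul, map_pow, hG2 τ, mul_assoc, ← mul_pow, hPτ τ]

end Fermat.Agent.S44.Cov
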