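import Fermat.Agent.S44.Geo.Cov.Defs
import Fermat.Agent.S44.Geo.Cov.AsmMain
import Fermat.Agent.S44.Geo.TlVal
import Fermat.Agent.S44.Geo.Cov.GoodT
import Fermat.Agent.S44.Geo.Cov.EisUp

/-!
# S44 / GEO / COVER : the interface stubs of the blocks GOODT, C1 + C2 + GLUE (`exists_cov`), EISUP, CUSP          (statements: helper22)

* `eis_up`       [key S44/COV-EISUP]  EIS-UPFRONT.
* `exists_goodT` [key S44/COV-GOODT]  a good representative of the toric class.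
* `exists_cov`   [C1 helper19 + C2 helper29/helper5 + GLUE]  the cover.
* `cusp₁`, `cusp₂` [key S44/COV-CUSP, C5]  leading coefficient at the cusp versus the sheet valuation.
-/

set_option autoImplicit false
set_option synthInstance.maxHeartbeats 400000
set_option linter.dupNamespace false

open HahnSeries ModularCurve AlgebraicCurve Fermat.Agent.S24 Fermat.Agent.S29 Fermat.Agent.S18
  Fermat.Agent.ES Fermat.Agent.ES.Alg Fermat.Agent.S34.Mod Fermat.Agent.S05 Fermat.Agent.S55.B ExtCitation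
  Fermat.Agent.S33
open Fermat.Agent.S55 (Dq Iq)

noncomputable section

namespace Fermat.Agent.S44.Cov

variable {q : Nat.Primes} {M1 r : ℕ} [NeZero M1] [NeZero (q : ℕ)] [NeZero r]

/-- **EIS-UPFRONT** [key S44/COV-EISUP].   `u₁ := Tl u / u^(ℓ+1)`, `t₁ := Tl t / t^(ℓ+1)`, `m := a ℓ - ℓ - 1`.
`eig_u`: `Tl u = u^(a ℓ) g₀^p`, so `u₁ = u^m g₀^p`, `t₁ = t^m g₀'^p`: all fields of `NewHyp` for `(u₁, t₁)` follow from those for `(u, t)` because `p ∤ m`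
(classes multiplied by `m`; `act_u`: `σ u₁ ~ (u t^k)^m ~ u₁ t₁^k`; `not_pow`, `fix`, `ntr`: `PEq (σ u₁) u₁ ↔ PEq (σ u) u` by Bezout; compare `NewHyp.Wq` in `Geo/NodeAux.lean`).
Leading coefficients: `Geo.lcF_Tl`: `lcF u₁ = ± 1`; `Geo.Wq_Tl`: `Wq u₁ = Tl (Wq u) / (Wq u)^(ℓ+1)`, `lcF (Wq u₁) = ± 1`.
Last clause: `σ u₁ = u₁ g^p` ⟹ `σ u = u g'^p` (Bezout) ⟹ `σ u₁ = Tl (σ u) / (σ u)^(ℓ+1) = u₁ G^p`, `G = Tl g' / g'^(ℓ+1)` (`gal` commutes with `Tl`) ⟹ `g = μ G`, `μ^p = 1`, `μ` a constant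
(`p`-th roots of unity of `F ⊆ Kb((q))`; as in `h90_abs.hroot`), `Wq μ = μ`; `lcF G = ± 1`, `lcF (Wq G) = ± 1`: `ε := lcF (Wq g) / lcF g = ± 1`; and `ε^p = lcF (Wq (σ u₁ / u₁)) / lcF (σ u₁ / u₁) = 1`
(`lcF_gal`, `gal_Wq`, `σ (± 1) = ± 1`); `p` odd: `ε = 1`. -/
theorem eis_up (hq5 : 5 ≤ (q : ℕ)) (hc : Nat.Coprime (q : ℕ) M1) {S : Set ℕ} {a : ℕ → ℤ}
    {u t : FN (M1 * (q : ℕ))} (H : NewHyp q M1 hc S a u t)
    (hEis : ∃ ℓ : ℕ, ℓ.Prime ∧ ¬ ℓ ∣ 6 * (M1 * (q : ℕ)) ∧ ℓ ∈ S ∧ ¬ ((q : ℕ) : ℤ) ∣ a ℓ - (ℓ + 1)) :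
    ∃ (u₁ t₁ g₀ : FN (M1 * (q : ℕ))) (m : ℤ), ¬ ((q : ℕ) : ℤ) ∣ m ∧ g₀ ≠ 0 ∧ u₁ = u ^ m * g₀ ^ (q : ℕ) ∧
      NewHyp q M1 hc S a u₁ t₁ ∧
      (lcF (M1 * (q : ℕ)) (Wq hc u₁) = lcF (M1 * (q : ℕ)) u₁ ∨
        lcF (M1 * (q : ℕ)) (Wq hc u₁) = - lcF (M1 * (q : ℕ)) u₁) ∧
      ∀ σ ∈ Iq q, ∀ g : FN (M1 * (q : ℕ)), gal (M1 * (q : ℕ)) σ u₁ = u₁ * g ^ (q : ℕ) →
        lcF (M1 * (q : ℕ)) (Wq hc g) = lcF (M1 * (q : ℕ)) g :=
  eis_up_main hq5 hc H hEis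

/-- **GOODT** [key S44/COV-GOODT].
(1) scale: `wG t = 0 = wZ t` after multiplying by constants... (constants are `p`-th powers; use weak approximation `S33.M` (M1)(c) for the two valuations);
(2) `t̄` is a `p`-th power on both components: take `σ ∈ I`, `Cyc p σ c`, `p ∤ c - 1` (`H.fix` gives `σ₀` moving `μ_p`): `σ t = t^c h^p`, and `red (σ t) = red t` (inertia acts trivially on the residue field): `t̄^(c-1) = h̄^(-p)`, Bezout;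
    lift the roots (weak approximation): `t g^p ≡ 1 (> 0)` for both valuations;
(3) `S33.M` (M1) `deep_of_norm` with `H.nm_t`, `H.nmW_t`: `t g^p ≡ 1 (4)`;
(4) orders at the two cusps: `p ∣ ord_q t`, `p ∣ ord_q (Wq t)` (`PDiv` at the place `q = 0`); `φ₁ := j(pz) / j(z)^(p-1)` has a simple pole at `∞` and a zero at `Wq ∞`; `φ₂ := Wq φ₁`;
    multiply by `((1 + c φ₁)^n (1 + c φ₂)^n')^p`, `w c` large;
(5) if the result is a `p`-th power replace it by `1` (`GoodT 1` is trivial). -/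
theorem exists_goodT (S0 : Setup M1 (q : ℕ) r (AA q)) (hq5 : 5 ≤ (q : ℕ)) {S : Set ℕ} {a : ℕ → ℤ}
    {u t : FN (M1 * (q : ℕ))} (H : NewHyp q M1 S0.hc S a u t) :
    ∃ g : FN (M1 * (q : ℕ)), g ≠ 0 ∧ GoodT q M1 S0.hc (t * g ^ (q : ℕ)) ∧
      ((∃ g' : FN (M1 * (q : ℕ)), t * g ^ (q : ℕ) = g' ^ (q : ℕ)) → t * g ^ (q : ℕ) = 1) :=
  exists_goodT' S0 H

/-- **the cover exists** [C1 + C2 + GLUE]   (the crossing point `𝔫` is needed by [GLUE], helper29 #1503 (4)) -/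
theorem exists_cov (S0 : Setup M1 (q : ℕ) r (AA q)) (hq5 : 5 ≤ (q : ℕ)) {t : FN (M1 * (q : ℕ))}
    (hT : GoodT q M1 S0.hc t) (hdeg : (∃ g : FN (M1 * (q : ℕ)), t = g ^ (q : ℕ)) → t = 1)
    (b : Bool) (𝔫 : Ideal (Mod.BB S0 b)) (hne : 𝔫 ≠ ⊤)
    (h1 : RingHom.ker (Mod.r1 S0 b) ≤ 𝔫) (h2 : RingHom.ker (Mod.r2 S0 b) ≤ 𝔫) :
    ∃ (F' : Type) (_ : Field F') (_ : Algebra (FN (M1 * (q : ℕ))) F'), Nonempty (Cov q M1 S0.hc t F') :=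
  exists_cov' S0 b 𝔫 hne h1 h2 hT hdeg

variable {t : FN (M1 * (q : ℕ))} {F' : Type} [Field F'] [Algebra (FN (M1 * (q : ℕ))) F']

end Fermat.Agent.S44.Cov
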