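import Fermat.Agent.S44.Geo.Cov.Defs
import Fermat.Agent.S44.Geo.Cov.Ext
import Fermat.Agent.S44.Geo.Cov.RV
import Fermat.Agent.S44.Geo.Cov.Lev
import Fermat.Agent.S44.Mod.Ker

/-!
# S44 / GEO / COVER : integrality of the values on `E' = F'^I`          (helper1)

`W` an `I`-invariant extension of `w` (`= wG` or `wZ`) to `F'`, `ratF (stab I θ)` dense near `x`.  Then `x ∈ F'^I`, `x ≠ 0` has `W x ∈ ℤ`:
`E' z := ∑ cst (μ i) * act (s i) z` (`R : Retr q I (stab I θ)`), `E' x = x`, `E' (alg f) = alg (R.E f)`, `R.E f ∈ E`,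
`W (x - alg (R.E f)) = W (E' (x - alg f)) ≥ min w (μ i) + W (x - alg f)`.
-/

set_option autoImplicit false
set_option synthInstance.maxHeartbeats 400000
set_option linter.unusedSectionVars false

open HahnSeries ModularCurve AlgebraicCurve Fermat.Agent.S24 Fermat.Agent.S29 Fermat.Agent.S18
  Fermat.Agent.ES Fermat.Agent.ES.Alg Fermat.Agent.S34.Mod Fermat.Agent.S05 Fermat.Agent.S55.B ExtCitation
  Fermat.Agent.S33
open Fermat.Agent.S55 (Dq Iq)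

noncomputable section

namespace Fermat.Agent.S44.Cov

variable {q : Nat.Primes} {M1 : ℕ} [NeZero M1] [NeZero (q : ℕ)]
variable {F' : Type} [Field F'] [Algebra (FN (M1 * (q : ℕ))) F']

theorem int_of_inv (act : ↥(Iq q) →* (F' ≃+* F'))
    (hact : ∀ (σ : ↥(Iq q)) (f : FN (M1 * (q : ℕ))), act σ (algebraMap (FN (M1 * (q : ℕ))) F' f) =
      algebraMap (FN (M1 * (q : ℕ))) F' (gal (M1 * (q : ℕ)) (σ : GQ) f))
    (w : RVal (FN (M1 * (q : ℕ)))) (W : RVal F')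
    (hext : ∀ f : FN (M1 * (q : ℕ)), f ≠ 0 → W.w (algebraMap (FN (M1 * (q : ℕ))) F' f) = w.w f)
    (hinv : ∀ (σ : ↥(Iq q)) (x : F'), W.w (act σ x) = W.w x)
    (hint : ∀ f ∈ Mod.EE q M1, f ≠ 0 → ∃ k : ℤ, w.w f = k)
    {x : F'} (hx0 : x ≠ 0) (hx : ∀ σ : ↥(Iq q), act σ x = x) (θ : Qb)
    (hd : ∀ B : ℝ, ∃ f ∈ ratF (M1 * (q : ℕ)) (stab (Iq q) θ),
      W.GE (x - algebraMap (FN (M1 * (q : ℕ))) F' f) B) :
    ∃ n : ℤ, W.w x = n := by
  obtain ⟨R⟩ := exists_retr q (H := Iq q) le_rfl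
    (by rw [Subgroup.relIndex_self]; exact one_ne_zero) θ
  obtain ⟨m, hm⟩ := Finite.bddBelow_range fun i : Fin R.n =>
    W.w (algebraMap (FN (M1 * (q : ℕ))) F' (algebraMap Kb (FN (M1 * (q : ℕ))) (R.μ i)))
  have hm' : ∀ i, W.GE (algebraMap (FN (M1 * (q : ℕ))) F'
      (algebraMap Kb (FN (M1 * (q : ℕ))) (R.μ i))) m := fun i => Or.inr (hm ⟨i, rfl⟩)
  obtain ⟨f, hf, hfB⟩ := hd (W.w x - m + 1)
  have hGEact : ∀ (σ : ↥(Iq q)) (z : F') (B : ℝ), W.GE z B → W.GE (act σ z) B := by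
    intro σ z B hz
    rcases hz with rfl | hz
    · rw [map_zero]; exact RVal.GE_zero B
    · exact Or.inr (by rw [hinv]; exact hz)
  have e1 : x - algebraMap (FN (M1 * (q : ℕ))) F' (R.E (M1 * (q : ℕ)) f) =
      ∑ i, algebraMap (FN (M1 * (q : ℕ))) F' (algebraMap Kb (FN (M1 * (q : ℕ))) (R.μ i)) *
        act ⟨R.s i, R.mem i⟩ (x - algebraMap (FN (M1 * (q : ℕ))) F' f) := by
    have a1 : ∑ i, algebraMap (FN (M1 * (q : ℕ))) F' (algebraMap Kb (FN (M1 * (q : ℕ))) (R.μ i)) *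
        x = x := by
      rw [← Finset.sum_mul, ← map_sum, ← map_sum, R.one, map_one, map_one, one_mul]
    rw [R.E_apply, map_sum]
    conv_lhs => rw [← a1]
    rw [← Finset.sum_sub_distrib]
    refine Finset.sum_congr rfl fun i _ => ?_
    rw [map_sub, hx, hact, map_mul, mul_sub]
  have h2 : W.GE (x - algebraMap (FN (M1 * (q : ℕ))) F' (R.E (M1 * (q : ℕ)) f)) (W.w x + 1) := by
    rw [e1]
    refine GE_sum W _ _ _ fun i _ => ?_
    have := (hm' i).mul (hGEact ⟨R.s i, R.mem i⟩ _ _ hfB)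
    refine this.mono (by linarith)
  have h3 : W.EQ (algebraMap (FN (M1 * (q : ℕ))) F' (R.E (M1 * (q : ℕ)) f)) (W.w x) := by
    have := (RVal.EQ_self (v := W) hx0).sub_GT (h2.GT (lt_add_one _))
    rwa [sub_sub_cancel] at this
  have hE0 : R.E (M1 * (q : ℕ)) f ≠ 0 := fun h0 => h3.1 (by rw [h0, map_zero])
  obtain ⟨k, hk⟩ := hint _ (R.E_mem le_rfl hf) hE0
  exact ⟨k, by rw [← h3.2, hext _ hE0, hk]⟩

theorem exists_theta_one {N : ℕ} [NeZero N] (f : FN N) :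
    ∃ θ : Qb, ∀ σ : GQ, σ θ = θ → gal N σ f = f := by
  obtain ⟨L, hL, h⟩ := exists_level f
  obtain ⟨θ, hθ⟩ := exists_theta L
  exact ⟨θ, fun σ hσ => h σ (hθ σ hσ)⟩

/-- a common level of finitely many functions -/
theorem exists_theta_fam {N : ℕ} [NeZero N] {ι : Type*} (s : Finset ι) (g : ι → FN N)
    (H : Subgroup GQ) : ∃ θ : Qb, ∀ i ∈ s, g i ∈ ratF N (stab H θ) := by
  choose θ hθ using fun i => exists_theta_one (g i)
  obtain ⟨θ', h⟩ := theta_finset s θ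
  exact ⟨θ', fun i hi σ hσ => hθ i σ (h σ hσ.2 i hi)⟩

/-- `F₀ = ratF (stab I θ)` is dense near `x`, for a suitable `θ` -/
theorem exists_theta_dense {w : RVal (FN (M1 * (q : ℕ)))} {W : RVal F'}
    (hext : ∀ f : FN (M1 * (q : ℕ)), f ≠ 0 → W.w (algebraMap (FN (M1 * (q : ℕ))) F' f) = w.w f)
    (hw : w.EQ (((q : ℕ) : FN (M1 * (q : ℕ)))) 1) {t : FN (M1 * (q : ℕ))} (ht : w.GE (t - 1) 4)
    {y : F'} (hy : y ^ (q : ℕ) = algebraMap (FN (M1 * (q : ℕ))) F' t)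
    (hy1 : W.GT (y - 1) (1 / (((q : ℕ) : ℝ) - 1)))
    (gen : ∀ x : F', ∃ c : ℕ → FN (M1 * (q : ℕ)),
      x = ∑ i ∈ Finset.range (q : ℕ), algebraMap (FN (M1 * (q : ℕ))) F' (c i) * y ^ i) (x : F') :
    ∃ θ : Qb, ∀ B : ℝ, ∃ f ∈ ratF (M1 * (q : ℕ)) (stab (Iq q) θ),
      W.GE (x - algebraMap (FN (M1 * (q : ℕ))) F' f) B := by
  obtain ⟨c, hc⟩ := gen x
  obtain ⟨θ, hθ⟩ := exists_theta_fam (Finset.range ((q : ℕ) + 1))
    (fun i => if i < (q : ℕ) then c i else t) (Iq q)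
  have ht0 : t ∈ ratF (M1 * (q : ℕ)) (stab (Iq q) θ) := by
    have := hθ (q : ℕ) (Finset.mem_range.2 (Nat.lt_succ_self _))
    rwa [if_neg (lt_irrefl _)] at this
  have hc0 : ∀ i, (if i < (q : ℕ) then c i else 0) ∈ ratF (M1 * (q : ℕ)) (stab (Iq q) θ) := by
    intro i
    by_cases hi : i < (q : ℕ)
    · have := hθ i (Finset.mem_range.2 (Nat.lt_succ_of_lt hi))
      rw [if_pos hi] at this ⊢
      exact this
    · rw [if_neg hi]; exact zero_mem _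
  refine ⟨θ, fun B => ?_⟩
  obtain ⟨f, hf, hfB⟩ := ext_dense q.2 hw ht hy hext hy1 (ratF (M1 * (q : ℕ)) (stab (Iq q) θ)) ht0
    (fun i => if i < (q : ℕ) then c i else 0) hc0 B
  refine ⟨f, hf, ?_⟩
  have e : x = ∑ i ∈ Finset.range (q : ℕ),
      algebraMap (FN (M1 * (q : ℕ))) F' (if i < (q : ℕ) then c i else 0) * y ^ i := by
    rw [hc]
    exact Finset.sum_congr rfl fun i hi => by rw [if_pos (Finset.mem_range.1 hi)]
  rw [e]
  exact hfB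

/-- **int₁ / int₂** -/
theorem int_of_gen (act : ↥(Iq q) →* (F' ≃+* F'))
    (hact : ∀ (σ : ↥(Iq q)) (f : FN (M1 * (q : ℕ))), act σ (algebraMap (FN (M1 * (q : ℕ))) F' f) =
      algebraMap (FN (M1 * (q : ℕ))) F' (gal (M1 * (q : ℕ)) (σ : GQ) f))
    (w : RVal (FN (M1 * (q : ℕ)))) (W : RVal F')
    (hext : ∀ f : FN (M1 * (q : ℕ)), f ≠ 0 → W.w (algebraMap (FN (M1 * (q : ℕ))) F' f) = w.w f)
    (hinv : ∀ (σ : ↥(Iq q)) (x : F'), W.w (act σ x) = W.w x)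
    (hint : ∀ f ∈ Mod.EE q M1, f ≠ 0 → ∃ k : ℤ, w.w f = k)
    (hw : w.EQ (((q : ℕ) : FN (M1 * (q : ℕ)))) 1) {t : FN (M1 * (q : ℕ))} (ht : w.GE (t - 1) 4)
    {y : F'} (hy : y ^ (q : ℕ) = algebraMap (FN (M1 * (q : ℕ))) F' t)
    (hy1 : W.GT (y - 1) (1 / (((q : ℕ) : ℝ) - 1)))
    (gen : ∀ x : F', ∃ c : ℕ → FN (M1 * (q : ℕ)),
      x = ∑ i ∈ Finset.range (q : ℕ), algebraMap (FN (M1 * (q : ℕ))) F' (c i) * y ^ i)
    {x : F'} (hx0 : x ≠ 0) (hx : ∀ σ : ↥(Iq q), act σ x = x) : ∃ n : ℤ, W.w x = n := by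
  obtain ⟨θ, hθ⟩ := exists_theta_dense hext hw ht hy hy1 gen x
  exact int_of_inv act hact w W hext hinv hint hx0 hx θ hθ

end Fermat.Agent.S44.Cov
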