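import Mathlib

/-!
# S44 / GEO / COVER : Kummer extensions of prime degree, generic fields          (helper20, key `S44/COV-KUM`)

`F ⊆ L` fields, `ζ₀ ∈ F` a primitive `p`-th root of unity, `t ∈ F`, `t ≠ 0`, `y₁ ∈ L` with `y₁ ^ p = t`; `F' := F⟮y₁⟯`, `y := gen`.

* `kum_gen`   : `F' = ∑_{i < p} F y ^ i`;
* `kum_delta` : `∃ ζ δ`, `δ y = ζ y`, `ζ ^ k = 1 ↔ t ^ k` is a `p`-th power in `F`;
* `kum_lift`  : extension of a ring homomorphism `φ : F → L'` by `y ↦ y₂`;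
* `kum_ext`   : ring homomorphisms out of `F'` are determined by their values on `F` and on `y`.
-/

set_option autoImplicit false

open Polynomial IntermediateField

noncomputable section

namespace Fermat.Agent.S44.Cov

variable {F L : Type*} [Field F] [Field L] [Algebra F L] (p : ℕ) (hp : p.Prime) (ζ₀ : F)
  (hζ₀ : IsPrimitiveRoot ζ₀ p) (t : F) (ht : t ≠ 0) (y₁ : L) (hy₁ : y₁ ^ p = algebraMap F L t)

include hp hy₁ in
theorem kumAux_isIntegral : IsIntegral F y₁ :=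
  ⟨X ^ p - C t, monic_X_pow_sub_C t hp.ne_zero, by
    rw [eval₂_sub, eval₂_pow, eval₂_X, eval₂_C, hy₁, sub_self]⟩

include hy₁ in
theorem kumAux_gen_pow : (AdjoinSimple.gen F y₁) ^ p = algebraMap F F⟮y₁⟯ t := by
  apply Subtype.ext
  show (y₁ : L) ^ p = algebraMap F L t
  exact hy₁

include hp hy₁ in
theorem kum_gen (x : F⟮y₁⟯) : ∃ c : ℕ → F,
    x = ∑ i ∈ Finset.range p, algebraMap F F⟮y₁⟯ (c i) * (AdjoinSimple.gen F y₁) ^ i := by
  have hint := kumAux_isIntegral p hp t y₁ hy₁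
  obtain ⟨f, hf⟩ := (adjoin.powerBasis hint).exists_eq_aeval' x
  rw [adjoin.powerBasis_gen] at hf
  have hmon : (X ^ p - C t : F[X]).Monic := monic_X_pow_sub_C t hp.ne_zero
  have hroot : aeval (AdjoinSimple.gen F y₁) (X ^ p - C t : F[X]) = 0 := by
    rw [map_sub, map_pow, aeval_X, aeval_C, kumAux_gen_pow p t y₁ hy₁, sub_self]
  have h1 := aeval_modByMonic_eq_self_of_root (p := f) hroot
  have hdeg : (f %ₘ (X ^ p - C t)).natDegree < p := by
    have := natDegree_modByMonic_lt f hmon (by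
      intro h
      have h2 := natDegree_X_pow_sub_C (n := p) (r := t)
      rw [h, natDegree_one] at h2
      exact hp.ne_zero h2.symm)
    rwa [natDegree_X_pow_sub_C] at this
  refine ⟨fun i => (f %ₘ (X ^ p - C t)).coeff i, ?_⟩
  rw [hf, ← h1, aeval_eq_sum_range' hdeg]
  exact Finset.sum_congr rfl fun i _ => by rw [Algebra.smul_def]

include hp hy₁ in
theorem kum_ext {R : Type*} [Semiring R] (f g : F⟮y₁⟯ →+* R)
    (h1 : ∀ x : F, f (algebraMap F F⟮y₁⟯ x) = g (algebraMap F F⟮y₁⟯ x))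
    (h2 : f (AdjoinSimple.gen F y₁) = g (AdjoinSimple.gen F y₁)) : f = g := by
  ext x
  obtain ⟨c, rfl⟩ := kum_gen p hp t y₁ hy₁ x
  simp only [map_sum, map_mul, map_pow, h1, h2]

include hp hζ₀ hy₁ in
/-- if `y₁ ∉ F` then `t` is not a `p`-th power in `F` -/
theorem kumAux_not_pow (hB : ∀ g : F, algebraMap F L g ≠ y₁) (b : F) : b ^ p ≠ t := by
  intro hb
  haveI : NeZero p := ⟨hp.ne_zero⟩
  have hζL : IsPrimitiveRoot (algebraMap F L ζ₀) p := hζ₀.map_of_injective (algebraMap F L).injective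
  by_cases hb0 : b = 0
  · rw [hb0, zero_pow hp.ne_zero] at hb
    rw [← hb, map_zero] at hy₁
    exact hB 0 (by rw [map_zero, eq_zero_of_pow_eq_zero hy₁])
  have hbL : algebraMap F L b ≠ 0 := by rw [Ne, map_eq_zero]; exact hb0
  have h1 : (y₁ / algebraMap F L b) ^ p = 1 := by
    rw [div_pow, hy₁, ← hb, map_pow, div_self (pow_ne_zero _ hbL)]
  obtain ⟨i, -, hi⟩ := hζL.eq_pow_of_pow_eq_one h1
  apply hB (ζ₀ ^ i * b)
  rw [map_mul, map_pow, hi, div_mul_cancel₀ _ hbL]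

include hp hζ₀ hy₁ in
theorem kumAux_minpoly (hB : ∀ g : F, algebraMap F L g ≠ y₁) :
    minpoly F (AdjoinSimple.gen F y₁) = X ^ p - C t := by
  rw [minpoly_gen]
  refine (minpoly.eq_of_irreducible_of_monic
    (X_pow_sub_C_irreducible_of_prime hp (kumAux_not_pow p hp ζ₀ hζ₀ t y₁ hy₁ hB)) ?_
    (monic_X_pow_sub_C t hp.ne_zero)).symm
  rw [map_sub, map_pow, aeval_X, aeval_C, hy₁, sub_self]

include hp hζ₀ hy₁ in
theorem kum_lift {L' : Type*} [Field L'] (φ : F →+* L') (y₂ : L') (h2 : y₂ ^ p = φ t)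
    (hA : ∀ g : F, algebraMap F L g = y₁ → y₂ = φ g) :
    ∃ ι₂ : F⟮y₁⟯ →+* L', (∀ x, ι₂ (algebraMap F F⟮y₁⟯ x) = φ x) ∧
      ι₂ (AdjoinSimple.gen F y₁) = y₂ := by
  have hint := kumAux_isIntegral p hp t y₁ hy₁
  letI : Algebra F L' := φ.toAlgebra
  have hroot : aeval y₂ (minpoly F (adjoin.powerBasis hint).gen) = 0 := by
    rw [adjoin.powerBasis_gen]
    by_cases hB : ∀ g : F, algebraMap F L g ≠ y₁
    · rw [kumAux_minpoly p hp ζ₀ hζ₀ t y₁ hy₁ hB, map_sub, map_pow, aeval_X, aeval_C, h2]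
      exact sub_self _
    · push Not at hB
      obtain ⟨g, hg⟩ := hB
      rw [minpoly_gen, ← hg, minpoly.eq_X_sub_C, map_sub, aeval_X, aeval_C, hA g hg]
      exact sub_self _
  refine ⟨((adjoin.powerBasis hint).lift y₂ hroot : F⟮y₁⟯ →+* L'), fun x => ?_, ?_⟩
  · exact ((adjoin.powerBasis hint).lift y₂ hroot).commutes x
  · have := (adjoin.powerBasis hint).lift_gen y₂ hroot
    rwa [adjoin.powerBasis_gen] at this

include hp hζ₀ ht hy₁ in
theorem kum_delta : ∃ (ζ : F) (δ : F⟮y₁⟯ ≃ₐ[F] F⟮y₁⟯), (ζ = 1 ∨ ζ = ζ₀) ∧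
    (∀ k : ℕ, ζ ^ k = 1 ↔ ∃ g : F, t ^ k = g ^ p) ∧
    δ (AdjoinSimple.gen F y₁) = algebraMap F F⟮y₁⟯ ζ * AdjoinSimple.gen F y₁ := by
  have hint := kumAux_isIntegral p hp t y₁ hy₁
  by_cases hB : ∀ g : F, algebraMap F L g ≠ y₁
  · have hroot : aeval (algebraMap F F⟮y₁⟯ ζ₀ * AdjoinSimple.gen F y₁)
        (minpoly F (adjoin.powerBasis hint).gen) = 0 := by
      rw [adjoin.powerBasis_gen, kumAux_minpoly p hp ζ₀ hζ₀ t y₁ hy₁ hB, map_sub, map_pow, aeval_X,
        aeval_C, mul_pow, ← map_pow, hζ₀.pow_eq_one, map_one, one_mul,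
        kumAux_gen_pow p t y₁ hy₁, sub_self]
    haveI : FiniteDimensional F F⟮y₁⟯ := adjoin.finiteDimensional hint
    refine ⟨ζ₀, AlgEquiv.ofBijective ((adjoin.powerBasis hint).lift _ hroot)
      (AlgHom.bijective _), Or.inr rfl, fun k => ?_, ?_⟩
    · rw [hζ₀.pow_eq_one_iff_dvd]
      constructor
      · rintro ⟨j, rfl⟩
        exact ⟨t ^ j, by rw [← pow_mul, mul_comm]⟩
      · rintro ⟨g, hg⟩
        by_contra hk
        have hcop : IsCoprime (k : ℤ) (p : ℤ) := by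
          rw [Nat.isCoprime_iff_coprime]
          exact ((Nat.Prime.coprime_iff_not_dvd hp).mpr hk).symm
        obtain ⟨a, b, hab⟩ := hcop
        have hg0 : g ≠ 0 := by
          rintro rfl
          rw [zero_pow hp.ne_zero] at hg
          exact pow_ne_zero k ht hg
        apply kumAux_not_pow p hp ζ₀ hζ₀ t y₁ hy₁ hB (g ^ a * t ^ b)
        calc (g ^ a * t ^ b) ^ p = (g ^ p) ^ a * t ^ (b * p) := by
              rw [mul_pow, ← zpow_natCast (g ^ a), ← zpow_mul, ← zpow_natCast (t ^ b), ← zpow_mul,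
                ← zpow_natCast g, ← zpow_mul, mul_comm a]
          _ = t ^ (a * k + b * p) := by
              rw [← hg, ← zpow_natCast t k, ← zpow_mul, zpow_add₀ ht, mul_comm a]
          _ = t := by rw [hab, zpow_one]
    · have := (adjoin.powerBasis hint).lift_gen _ hroot
      rw [adjoin.powerBasis_gen] at this
      exact this
  · push Not at hB
    obtain ⟨g, hg⟩ := hB
    have htg : t = g ^ p := by
      apply (algebraMap F L).injective
      rw [← hy₁, ← hg, map_pow]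
    refine ⟨1, AlgEquiv.refl, Or.inl rfl, fun k => ?_, by rw [map_one, one_mul]; rfl⟩
    rw [one_pow]
    exact ⟨fun _ => ⟨g ^ k, by rw [htg, ← pow_mul, ← pow_mul, mul_comm]⟩, fun _ => rfl⟩

end Fermat.Agent.S44.Cov
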