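import Fermat.Agent.S33.Val.Cyc

/-!
# S44 / COV-KUMVAL : two Kummer generators over `K₀(ζ_p)`          key `S44/COV-KUMVAL`   (statement: helper22)

`I = Iq q`, `p = q`, `w = wq q`.  `c0, d ∈ Qbˣ` with `σ c0 / c0, σ d / d ∈ μ_p` for all `σ ∈ I`, and `σ c0 = c0 ⟹ σ d = d`.  If `w c0 ∈ ℤ` then `w d ∈ ℤ`.

## Proof
`ζ` a primitive `p`-th root of unity (`cycAux_exists_prim`), `J = stab (Iq q) ζ`, `n = J.relIndex (Iq q)`, `1 ≤ n ≤ p - 1` (`relIndex_stab_zeta`).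
(a) `d ^ p` is fixed by `I` (`σ (d^p) = (σ d / d)^p d^p`): `p * w d ∈ ℤ` (`w_int_of_fixed`, `RVal.w_pow`).
(b) CLAIM: there is `i : ℕ` with `d * (c0 ^ i)⁻¹` fixed by `J`.  Then `n * (w d - i * w c0) ∈ ℤ` (`w_of_relIndex`), so `n * w d ∈ ℤ`; `gcd (n, p) = 1` (`p` prime, `0 < n < p`), Bezout: `w d ∈ ℤ`.
    Proof of the claim.  For `σ ∈ J` put `κ σ = σ c0 / c0`, `χ σ = σ d / d`; they are multiplicative on `J` (`σ` fixes `μ_p` pointwise: every `p`-th root of unity is a power of `ζ`).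
    If `κ = 1` on `J`: `χ = 1` on `J` by hypothesis, `i = 0`.
    Otherwise take `τ ∈ J` with `ξ := κ τ ≠ 1`: a primitive `p`-th root of unity (`p` prime), `χ τ = ξ ^ i`.  For `σ ∈ J`: `κ σ = ξ ^ m`; `σ' := σ * (τ ^ m)⁻¹ ∈ J` has `κ σ' = 1`, i.e. `σ' c0 = c0`, so `σ' d = d`, `χ σ = χ (τ ^ m) = ξ ^ (i m) = (κ σ) ^ i`.
    (To avoid inverses: `σ c0 = τ^m c0`  ⟹ `(τ^m)⁻¹ σ` fixes `c0`.)
-/

set_option autoImplicit false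
set_option synthInstance.maxHeartbeats 400000

open Fermat.Agent.S05 Fermat.Agent.S55.B ExtCitation Fermat.Agent.S33
open Fermat.Agent.S55 (Dq Iq GQ Qb)

namespace Fermat.Agent.S44.Cov

theorem kumval_int_of_two {x : ℝ} {n p : ℕ} (hnp : Nat.Coprime n p) (h1 : ∃ k : ℤ, (n : ℝ) * x = k)
    (h2 : ∃ k : ℤ, (p : ℝ) * x = k) : ∃ k : ℤ, x = k := by
  obtain ⟨k1, hk1⟩ := h1
  obtain ⟨k2, hk2⟩ := h2
  obtain ⟨a, b, hab⟩ := (Nat.isCoprime_iff_coprime.mpr hnp)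
  refine ⟨a * k1 + b * k2, ?_⟩
  have h : ((a : ℝ) * n + b * p) = 1 := by exact_mod_cast hab
  push_cast
  rw [← hk1, ← hk2]
  linear_combination (-x) * h

theorem kumval_coprime (q : Nat.Primes) {ζ : Qb} (hζ : IsPrimitiveRoot ζ (q : ℕ)) :
    Nat.Coprime ((stab (Iq q) ζ).relIndex (Iq q)) (q : ℕ) := by
  obtain ⟨h0, h1⟩ := relIndex_stab_zeta q hζ
  have hq := q.2
  apply Nat.Coprime.symm
  rw [Nat.Prime.coprime_iff_not_dvd hq]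
  intro hd
  have := Nat.le_of_dvd (Nat.pos_of_ne_zero h0) hd
  have := hq.two_le
  omega

theorem kumval_pow (q : Nat.Primes) {d : Qb} (hd : d ≠ 0)
    (h : ∀ σ ∈ Iq q, σ (d ^ (q : ℕ)) = d ^ (q : ℕ)) : ∃ k : ℤ, ((q : ℕ) : ℝ) * (wq q).w d = k := by
  obtain ⟨k, hk⟩ := w_int_of_fixed q h (pow_ne_zero _ hd)
  rw [RVal.w_pow hd] at hk
  exact ⟨k, hk⟩

theorem kumval_stab (q : Nat.Primes) {ζ a : Qb} (hζ : IsPrimitiveRoot ζ (q : ℕ)) (ha : a ≠ 0)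
    (h : ∀ σ ∈ Iq q, σ ζ = ζ → σ a = a) :
    ∃ k : ℤ, (((stab (Iq q) ζ).relIndex (Iq q) : ℕ) : ℝ) * (wq q).w a = k :=
  w_of_relIndex q (stab_le _ _) (relIndex_stab_zeta q hζ).1
    (mem_Fx.2 fun σ hσ => h σ hσ.1 hσ.2) ha

/-- the value of an element of `K₀(ζ_p)` whose `p`-th power is in `K₀` (used for `ntr`) -/
theorem w_int_of_pow_fixed (q : Nat.Primes) {ζ c0 y : Qb} (hζ : IsPrimitiveRoot ζ (q : ℕ)) (hc0 : c0 ≠ 0)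
    (hy : y ≠ 0) (h1 : ∀ σ ∈ Iq q, σ (c0 ^ (q : ℕ)) = c0 ^ (q : ℕ)) (h2 : ∀ σ ∈ Iq q, σ ζ = ζ → σ y = y)
    (hw : (wq q).w y = (wq q).w c0) : ∃ n : ℤ, (wq q).w c0 = n := by
  refine kumval_int_of_two (kumval_coprime q hζ) ?_ (kumval_pow q hc0 h1)
  rw [← hw]
  exact kumval_stab q hζ hy h2

theorem kumval_claim (q : Nat.Primes) {ζ c0 d : Qb} (hζ : IsPrimitiveRoot ζ (q : ℕ))
    (hc0 : c0 ≠ 0) (hd : d ≠ 0)
    (h1 : ∀ σ ∈ Iq q, (σ c0 / c0) ^ (q : ℕ) = 1) (h2 : ∀ σ ∈ Iq q, (σ d / d) ^ (q : ℕ) = 1)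
    (h3 : ∀ σ ∈ Iq q, σ c0 = c0 → σ d = d) :
    ∃ i : ℕ, ∀ σ ∈ Iq q, σ ζ = ζ → σ (d * (c0 ^ i)⁻¹) = d * (c0 ^ i)⁻¹ := by
  haveI : Fact (q : ℕ).Prime := ⟨q.2⟩
  have hq0 : 0 < (q : ℕ) := q.2.pos
  by_cases hA : ∀ σ ∈ Iq q, σ ζ = ζ → σ c0 = c0
  · refine ⟨0, fun σ hσ hσζ => ?_⟩
    rw [pow_zero, inv_one, mul_one]
    exact h3 σ hσ (hA σ hσ hσζ)
  · push Not at hA
    obtain ⟨τ, hτ, hτζ, hτc⟩ := hA
    set ξ := τ c0 / c0 with hξ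
    have hξp : ξ ^ (q : ℕ) = 1 := h1 τ hτ
    have hξ1 : ξ ≠ 1 := by
      intro h
      rw [hξ, div_eq_one_iff_eq hc0] at h
      exact hτc h
    have hprim : IsPrimitiveRoot ξ (q : ℕ) := by
      have := IsPrimitiveRoot.orderOf ξ
      rwa [orderOf_eq_prime hξp hξ1] at this
    -- elements of `J` fix the roots of unity
    have hfix : ∀ σ : GQ, σ ζ = ζ → ∀ μ : Qb, μ ^ (q : ℕ) = 1 → σ μ = μ := by
      intro σ hσ μ hμ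
      obtain ⟨j, -, rfl⟩ := hζ.eq_pow_of_pow_eq_one hμ
      rw [map_pow, hσ]
    obtain ⟨i, -, hi⟩ := hprim.eq_pow_of_pow_eq_one (h2 τ hτ)
    have hτc' : τ c0 = ξ * c0 := by rw [hξ, div_mul_cancel₀ _ hc0]
    have hτd' : τ d = ξ ^ i * d := by rw [hi, div_mul_cancel₀ _ hd]
    have hτξ : τ ξ = ξ := hfix τ hτζ ξ hξp
    have hpow : ∀ m : ℕ, (τ ^ m) c0 = ξ ^ m * c0 ∧ (τ ^ m) d = (ξ ^ i) ^ m * d := by
      intro m
      induction m with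
      | zero => simp
      | succ m ih =>
        rw [pow_succ', AlgEquiv.mul_apply, AlgEquiv.mul_apply, ih.1, ih.2, map_mul, map_mul, map_pow,
          map_pow, map_pow, hτξ, hτc', hτd']
        constructor <;> ring
    refine ⟨i, fun σ hσ hσζ => ?_⟩
    obtain ⟨m, -, hm⟩ := hprim.eq_pow_of_pow_eq_one (h1 σ hσ)
    have hσc : σ c0 = ξ ^ m * c0 := by rw [hm, div_mul_cancel₀ _ hc0]
    have hσ' : ((τ ^ m)⁻¹ * σ) c0 = c0 := by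
      rw [AlgEquiv.mul_apply, hσc, ← (hpow m).1, inv_apply_apply]
    have hmem : (τ ^ m)⁻¹ * σ ∈ Iq q := (Iq q).mul_mem ((Iq q).inv_mem ((Iq q).pow_mem hτ m)) hσ
    have hσd' := h3 _ hmem hσ'
    have hσd : σ d = (ξ ^ i) ^ m * d := by
      rw [← (hpow m).2]
      conv_rhs => rw [← hσd']
      rw [← AlgEquiv.mul_apply, mul_inv_cancel_left]
    have hξ0 : ξ ≠ 0 := hprim.ne_zero q.2.ne_zero
    rw [map_mul, map_inv₀, map_pow, hσd, hσc]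
    field_simp
    ring

theorem w_int_of_kummer (q : Nat.Primes) {c0 d : Qb} (hc0 : c0 ≠ 0) (hd : d ≠ 0)
    (h1 : ∀ σ ∈ Iq q, (σ c0 / c0) ^ (q : ℕ) = 1) (h2 : ∀ σ ∈ Iq q, (σ d / d) ^ (q : ℕ) = 1)
    (h3 : ∀ σ ∈ Iq q, σ c0 = c0 → σ d = d) (hw : ∃ n : ℤ, (wq q).w c0 = n) :
    ∃ n : ℤ, (wq q).w d = n := by
  obtain ⟨ζ, hζ⟩ := cycAux_exists_prim q
  obtain ⟨i, hi⟩ := kumval_claim q hζ hc0 hd h1 h2 h3
  refine kumval_int_of_two (kumval_coprime q hζ) ?_ (kumval_pow q hd fun σ hσ => ?_)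
  · obtain ⟨k, hk⟩ := kumval_stab q hζ (mul_ne_zero hd (inv_ne_zero (pow_ne_zero i hc0))) hi
    obtain ⟨N, hN⟩ := hw
    rw [RVal.map_mul _ _ _ hd (inv_ne_zero (pow_ne_zero i hc0)), RVal.w_inv (pow_ne_zero i hc0),
      RVal.w_pow hc0, hN] at hk
    refine ⟨k + ((stab (Iq q) ζ).relIndex (Iq q) : ℕ) * i * N, ?_⟩
    push_cast
    rw [← hk]
    ring
  · have := h2 σ hσ
    rw [div_pow, div_eq_one_iff_eq (pow_ne_zero _ hd)] at this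
    rw [map_pow, this]

end Fermat.Agent.S44.Cov
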