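import Fermat.Agent.S44.Geo.Cov.Defs
import Fermat.Agent.S33.M.F
import Fermat.Agent.S33.Rat.H90
import Fermat.Agent.S44.Mod.Ker

/-!
# S44 / GEO / COVER / C2 : [LINK]          (helper18, key `S44/COV-LINK`; blueprint helper29 #1503)

`p = q`, `F = FN (M1 p)`, `σ ∈ I`, `σ = (·)^c` on `μ_p`, `t ≡ 1 (> p/(p-1))` on both components, `p ∣ div t`, `gal σ t = t^c h^p`, `b₁^p = lc t`.
Then there is ONE `p`-th root of unity `μ` with `h ≡ μ (> 1/(p-1))` for the Gauss valuation at `∞` AND `lc h * b₁^c = μ * σ b₁`.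

Proof.  `f ∈ I_b(t)`, `f ≡ 1 (e₁)` (`exists_II_pi`, chart `b = true` containing the cusp `∞`), `φ = gal σ f (f^(p-1) t)^c ≡ 1 (> e₁)` (`phi_cong`),
`H = φ h ∈ C_b` (`phi_mem`).  `h ≡ μ (> e₁)` at `w_∞`, `h ≡ μ' (> e₁)` at `w_0`; `Z = (H - μ)/ϖ ∈ C_b`, `w_∞ Z > 0`, so `ev Z ∈ 𝔪` (`evcont`): `lc H = ev H ≡ μ (> e₁)`.
`β = b₁ lc f`, `β^p = ev (f^p t) ≡ 1 (≥ e_p)`, so `κ = σ β β^((p-1)c) ≡ 1 (> e₁)` (`phi_cong` for constants); `lc φ σ b₁ = κ b₁^c`;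
`ξ = lc h b₁^c / σ b₁` is a `p`-th root of unity and `κ ξ = lc H ≡ μ (> e₁)`: `ξ = μ`.
-/

set_option autoImplicit false
set_option synthInstance.maxHeartbeats 400000
set_option linter.unusedSectionVars false

open HahnSeries ModularCurve AlgebraicCurve Polynomial Fermat.Agent.S24 Fermat.Agent.S29 Fermat.Agent.S18
  Fermat.Agent.ES Fermat.Agent.ES.Alg Fermat.Agent.S34.Mod Fermat.Agent.S34.T Fermat.Agent.S05
  Fermat.Agent.S55.B ExtCitation Fermat.Agent.S33 Fermat.Agent.S33.M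
open Fermat.Agent.S55 (Dq Iq)

noncomputable section

namespace Fermat.Agent.S44.Cov

/-! ### abstract valuation lemmas -/

section AbsL

variable {F : Type*} [Field F] (w : RVal F)

theorem linkAux_w_prod {ι : Type*} (s : Finset ι) (f : ι → F) (h : ∀ i ∈ s, f i ≠ 0) :
    w.w (∏ i ∈ s, f i) = ∑ i ∈ s, w.w (f i) := by
  classical
  induction s using Finset.induction_on with
  | empty => simp [RVal.w_one]
  | insert a s ha ih =>
    rw [Finset.prod_insert ha, Finset.sum_insert ha,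
      w.map_mul _ _ (h a (Finset.mem_insert_self a s))
        (Finset.prod_ne_zero_iff.2 fun i hi => h i (Finset.mem_insert_of_mem hi)),
      ih fun i hi => h i (Finset.mem_insert_of_mem hi)]

variable {w}

theorem linkAux_prod_eq {p : ℕ} (hp : 0 < p) {ζ : F} (hζ : IsPrimitiveRoot ζ p) (x : F) :
    x ^ p - 1 = ∏ μ ∈ nthRootsFinset p (1 : F), (x - μ) := by
  have := hζ.pow_sub_pow_eq_prod_sub_mul x 1 hp
  simpa using this

theorem linkAux_close_GT {p : ℕ} (hp : 0 < p) {ζ : F} (hζ : IsPrimitiveRoot ζ p) {x : F} {e : ℝ}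
    (hx : w.GT (x ^ p - 1) (p * e)) : ∃ μ : F, μ ^ p = 1 ∧ w.GT (x - μ) e := by
  by_contra hcon
  push Not at hcon
  have hne : ∀ μ ∈ nthRootsFinset p (1 : F), x - μ ≠ 0 ∧ w.w (x - μ) ≤ e := fun μ hμ => by
    have h1 := hcon μ ((mem_nthRootsFinset hp 1).1 hμ)
    unfold RVal.GT at h1
    push Not at h1
    exact h1
  have h0 : x ^ p - 1 ≠ 0 := by
    rw [linkAux_prod_eq hp hζ]
    exact Finset.prod_ne_zero_iff.2 fun μ hμ => (hne μ hμ).1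
  have h1 := hx.lt_w h0
  rw [linkAux_prod_eq hp hζ, linkAux_w_prod w _ _ fun μ hμ => (hne μ hμ).1] at h1
  have h2 := Finset.sum_le_card_nsmul (nthRootsFinset p (1 : F)) (fun μ => w.w (x - μ)) e
    fun μ hμ => (hne μ hμ).2
  rw [hζ.card_nthRootsFinset, nsmul_eq_mul] at h2
  linarith

theorem linkAux_close_GE {p : ℕ} (hp : 0 < p) {ζ : F} (hζ : IsPrimitiveRoot ζ p) {x : F} {e : ℝ}
    (hx : w.GE (x ^ p - 1) (p * e)) : ∃ μ : F, μ ^ p = 1 ∧ w.GE (x - μ) e := by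
  by_contra hcon
  push Not at hcon
  have hne : ∀ μ ∈ nthRootsFinset p (1 : F), x - μ ≠ 0 ∧ w.w (x - μ) < e := fun μ hμ => by
    have h1 := hcon μ ((mem_nthRootsFinset hp 1).1 hμ)
    unfold RVal.GE at h1
    push Not at h1
    exact h1
  have h0 : x ^ p - 1 ≠ 0 := by
    rw [linkAux_prod_eq hp hζ]
    exact Finset.prod_ne_zero_iff.2 fun μ hμ => (hne μ hμ).1
  have h1 := hx.le_w h0
  rw [linkAux_prod_eq hp hζ, linkAux_w_prod w _ _ fun μ hμ => (hne μ hμ).1] at h1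
  have hnon : (nthRootsFinset p (1 : F)).Nonempty :=
    ⟨1, (mem_nthRootsFinset hp 1).2 (one_pow _)⟩
  have h2 := Finset.sum_lt_sum_of_nonempty hnon (f := fun μ => w.w (x - μ)) (g := fun _ => e)
    fun μ hμ => (hne μ hμ).2
  rw [Finset.sum_const, hζ.card_nthRootsFinset, nsmul_eq_mul] at h2
  linarith

end AbsL

/-! ### series -/

section Ser

variable {k : Type*} [Field k]

theorem linkAux_coeff_zero_mul {x y : LaurentSeries k} (hx : ∀ n : ℤ, n < 0 → x.coeff n = 0)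
    (hy : ∀ n : ℤ, n < 0 → y.coeff n = 0) : (x * y).coeff 0 = x.coeff 0 * y.coeff 0 := by
  rw [HahnSeries.coeff_mul, Finset.sum_eq_single (0, 0)]
  · rintro ⟨i, j⟩ hij hne
    rw [Finset.mem_addAntidiagonal] at hij
    obtain ⟨hi, hj, hsum⟩ := hij
    have hi0 : 0 ≤ i := by
      by_contra h
      exact hi (hx i (not_le.1 h))
    have hj0 : 0 ≤ j := by
      by_contra h
      exact hj (hy j (not_le.1 h))
    exfalso
    apply hne
    have hsum' : i + j = 0 := hsum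
    have e1 : i = 0 := by omega
    have e2 : j = 0 := by omega
    rw [e1, e2]
  · intro h
    rw [Finset.mem_addAntidiagonal] at h
    by_contra hne
    exact h ⟨left_ne_zero_of_mul hne, right_ne_zero_of_mul hne, add_zero 0⟩

theorem linkAux_lc {x : LaurentSeries k} (hx : ∀ n : ℤ, n < 0 → x.coeff n = 0)
    (h0 : x.coeff 0 ≠ 0) : x.leadingCoeff = x.coeff 0 := by
  have hne : x ≠ 0 := by rintro rfl; exact h0 rfl
  have h1 : x.order ≤ 0 := HahnSeries.order_le_of_coeff_ne_zero h0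
  have h2 : ¬ x.order < 0 := fun h => by
    have := HahnSeries.leadingCoeff_ne_zero.2 hne
    rw [HahnSeries.leadingCoeff_eq] at this
    exact this (hx _ h)
  have h3 : x.order = 0 := le_antisymm h1 (not_lt.1 h2)
  rw [HahnSeries.leadingCoeff_eq, h3]

end Ser

/-! ### constants -/

section Cst

variable {q : Nat.Primes}

theorem linkAux_root_unit {μ : Kb} (hμ : μ ^ (q : ℕ) = 1) : (wq q).EQ μ 0 := by
  have h0 : μ ≠ 0 := by
    rintro rfl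
    rw [zero_pow q.2.ne_zero] at hμ
    exact zero_ne_one hμ
  refine ⟨h0, ?_⟩
  have h1 := RVal.w_pow (v := wq q) h0 (q : ℕ)
  rw [hμ, RVal.w_one] at h1
  have hq : ((q : ℕ) : ℝ) ≠ 0 := by exact_mod_cast q.2.ne_zero
  exact (mul_eq_zero.1 h1.symm).resolve_left hq

theorem linkAux_roots {μ ν : Kb} (hμ : μ ^ (q : ℕ) = 1) (hν : ν ^ (q : ℕ) = 1) :
    μ = ν ∨ (wq q).EQ (μ - ν) (1 / (((q : ℕ) : ℝ) - 1)) := by
  by_cases h : μ = ν
  · exact Or.inl h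
  right
  have hν0 := (linkAux_root_unit hν).1
  have h1 : (μ * ν⁻¹) ^ (q : ℕ) = 1 := by rw [mul_pow, inv_pow, hμ, hν, inv_one, one_mul]
  have h2 : μ * ν⁻¹ ≠ 1 := by
    intro h3
    apply h
    field_simp at h3
    exact h3
  have : Fact (q : ℕ).Prime := ⟨q.2⟩
  have h3 : IsPrimitiveRoot (μ * ν⁻¹) (q : ℕ) := by
    have := IsPrimitiveRoot.orderOf (μ * ν⁻¹)
    rwa [orderOf_eq_prime h1 h2] at this
  have h4 := (linkAux_root_unit hν).mul (w_pi q h3)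
  have e : ν * (μ * ν⁻¹ - 1) = μ - ν := by field_simp
  rw [e, zero_add] at h4
  exact h4

theorem linkAux_mem_AA {x : Kb} : x ∈ AA q ↔ (wq q).GE x 0 := by
  show x ∈ primeLocalPlace q ↔ _
  rw [← OO_wq, mem_OO]

theorem linkAux_GT_cst {N : ℕ} [NeZero N] {x : Kb} {e : ℝ}
    (h : (wG q N).GT (algebraMap Kb (FN N) x) e) : (wq q).GT x e := by
  by_cases hx : x = 0
  · exact Or.inl hx
  · have hx' : algebraMap Kb (FN N) x ≠ 0 := by rw [Ne, map_eq_zero]; exact hx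
    have := h.lt_w hx'
    rw [wG_algebraMap hx] at this
    exact Or.inr this

end Cst

/-! ### the cusp -/

section Modu

variable {q : Nat.Primes} {M1 r : ℕ} [NeZero M1] [NeZero (q : ℕ)] [NeZero r]

/-- the modular input at the cusp `∞` (chart `true`); supplied by `Mod/Cusp.lean` -/
structure CuspH (S : Setup M1 (q : ℕ) r (AA q)) : Prop where
  ord : ∀ x ∈ KL.C0 (AA q) (S.θM true) (FN (M1 * (q : ℕ))), ∀ n : ℤ, n < 0 →
    (x : LaurentSeries Kb).coeff n = 0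
  int : ∀ x ∈ KL.C0 (AA q) (S.θM true) (FN (M1 * (q : ℕ))), (x : LaurentSeries Kb).coeff 0 ∈ AA q
  exE : ∃ E ∈ KL.C0 (AA q) (S.θM true) (FN (M1 * (q : ℕ))), (wZ q S.hc).GT E 0 ∧
    (wq q).EQ ((E : LaurentSeries Kb).coeff 0) 0

/-- the constant term -/
def ev0 {N : ℕ} (x : FN N) : Kb := (x : LaurentSeries Kb).coeff 0

theorem ev0_sub {N : ℕ} (x y : FN N) : ev0 (x - y) = ev0 x - ev0 y := rfl

theorem ev0_cst {N : ℕ} (a : Kb) : ev0 (algebraMap Kb (FN N) a) = a := by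
  show (algebraMap Kb (LaurentSeries Kb) a).coeff 0 = a
  rw [algebraMap_laurentSeries_eq_single, HahnSeries.coeff_single_same]

theorem ev0_cst_mul {N : ℕ} (a : Kb) (x : FN N) : ev0 (algebraMap Kb (FN N) a * x) = a * ev0 x := by
  show (algebraMap Kb (LaurentSeries Kb) a * (x : LaurentSeries Kb)).coeff 0 = _
  rw [algebraMap_laurentSeries_eq_single, HahnSeries.coeff_single_zero_mul]
  rfl

variable (S : Setup M1 (q : ℕ) r (AA q))

theorem linkAux_GE2_of_mem {x : FN (M1 * (q : ℕ))}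
    (hx : x ∈ KL.C0 (AA q) (S.θM true) (FN (M1 * (q : ℕ)))) : GE2 S.hc x 0 := by
  rw [← mem_VV_iff S, ← l3Aux_VV S true]
  exact KL.C0_le_VV _ _ _ hx

/-- `a y ∈ C_b`, `y` integral, `a ≠ 0`  ⟹  `y ∈ C_b` -/
theorem linkAux_mem_of_mul {a : Kb} (ha0 : a ≠ 0) (ha : (wq q).GE a 0) {y : FN (M1 * (q : ℕ))}
    (h1 : algebraMap Kb (FN (M1 * (q : ℕ))) a * y ∈ KL.C0 (AA q) (S.θM true) (FN (M1 * (q : ℕ))))
    (h2 : GE2 S.hc y 0) : y ∈ KL.C0 (AA q) (S.θM true) (FN (M1 * (q : ℕ))) := by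
  have haA : a ∈ AA q := linkAux_mem_AA.2 ha
  refine mem_C0_of_jj_mul (A := AA q) (L := S.LM) (ch5_transcendental S true)
    (a := ⟨a, haA⟩) (fun h => ha0 (congrArg Subtype.val h)) h1 ?_
  rw [l3Aux_VV S true, mem_VV_iff S]
  exact h2

variable {S}

/-- [EVCONT] -/
theorem evcont (hC : CuspH S) {x : FN (M1 * (q : ℕ))}
    (hx : x ∈ KL.C0 (AA q) (S.θM true) (FN (M1 * (q : ℕ)))) (h : (wG q (M1 * (q : ℕ))).GT x 0) :
    (wq q).GT (ev0 x) 0 := by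
  obtain ⟨E, hE, hEZ, hE0⟩ := hC.exE
  have hx2 := linkAux_GE2_of_mem S hx
  have hE2 := linkAux_GE2_of_mem S hE
  have h1 : GT2 S.hc (x * E) 0 := by
    refine ⟨?_, ?_⟩
    · have := h.mul_GE hE2.1
      rwa [add_zero] at this
    · have := hx2.2.mul_GT hEZ
      rwa [add_zero] at this
  have h2 : KL.SmV (AA q) (S.θM true) (FN (M1 * (q : ℕ))) (x * E) := by
    show KL.SmV (AA q) S.τM⁻¹ (FN (M1 * (q : ℕ))) (x * E)
    rw [KL.SmV_inv _ (transcendental_τM S)]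
    exact (SmV_iff S).2 h1
  obtain ⟨a, ha, y, hy, hxy⟩ := KL.Sm0_of_SmV (AA q) (ch5_transcendental S true) (ch5_isGen S true)
    (mul_mem hx hE) h2
  have e1 : KL.evE (AA q) (S.θM true) (FN (M1 * (q : ℕ))) (C a) =
      algebraMap Kb (FN (M1 * (q : ℕ))) (a : Kb) := evE_C_eq (A := AA q) (L := S.LM) (S.θM true) a
  rw [e1] at hxy
  have e2 : ev0 x * ev0 E = (a : Kb) * ev0 y := by
    rw [← ev0_cst_mul (a : Kb) y, ← hxy]
    exact (linkAux_coeff_zero_mul (hC.ord x hx) (hC.ord E hE)).symm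
  have ha' : (wq q).GT (a : Kb) 0 := by
    rw [GT_zero_iff_mem_nonunits]
    exact (ValuationSubring.mem_nonunits_iff_exists_mem_maximalIdeal).2 ⟨a.2, ha⟩
  have hy' : (wq q).GE (ev0 y) 0 := linkAux_mem_AA.1 (hC.int y hy)
  have h3 := ha'.mul_GE hy'
  have h4 := RVal.GT.of_mul_eq_left e2 hE0 h3
  simpa using h4

theorem ev0_one {N : ℕ} : ev0 (1 : FN N) = 1 := by
  have := ev0_cst (N := N) 1
  rwa [map_one] at this

/-- `phi_cong` for constants -/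
theorem linkAux_kappa (S : Setup M1 (q : ℕ) r (AA q)) {β : Kb}
    (hβ : (wq q).GE (β ^ (q : ℕ) - 1) (((q : ℕ) : ℝ) / (((q : ℕ) : ℝ) - 1))) {σ : GQ}
    (hσ : σ ∈ Iq q) {c : ℕ} (hc : Cyc (q : ℕ) σ c) :
    (wq q).GT (σ β * β ^ (((q : ℕ) - 1) * c) - 1) (1 / (((q : ℕ) : ℝ) - 1)) := by
  obtain ⟨ζ, hζ⟩ := cycAux_exists_prim q
  have e : ((q : ℕ) : ℝ) / (((q : ℕ) : ℝ) - 1) = ((q : ℕ) : ℝ) * (1 / (((q : ℕ) : ℝ) - 1)) := by ring
  rw [e] at hβ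
  obtain ⟨ν, hν, hβν⟩ := linkAux_close_GE q.2.pos hζ hβ
  have hνu := linkAux_root_unit hν
  have hν0 := hνu.1
  obtain ⟨β', hβ'def⟩ : ∃ β', β' = β * ν⁻¹ := ⟨_, rfl⟩
  have hβe : β = ν * β' := by rw [hβ'def]; field_simp
  have hβ' : (wq q).GE (β' - 1) (1 / (((q : ℕ) : ℝ) - 1)) := by
    have e1 : β' - 1 = (β - ν) * ν⁻¹ := by rw [hβ'def]; field_simp
    rw [e1]
    have := hβν.mul (hνu.inv.GE le_rfl)
    simpa using this
  have h1 := phi_cong S (u := 1) (f := algebraMap Kb (FN (M1 * (q : ℕ))) β')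
    (by rw [sub_self]; exact ⟨RVal.GT_zero _, RVal.GT_zero _⟩)
    (by
      rw [← map_one (algebraMap Kb (FN (M1 * (q : ℕ)))), ← map_sub]
      exact GE2_algebraMap hβ') hσ hc
  have e2 : gal (M1 * (q : ℕ)) σ (algebraMap Kb (FN (M1 * (q : ℕ))) β') *
      ((algebraMap Kb (FN (M1 * (q : ℕ))) β') ^ ((q : ℕ) - 1) * 1) ^ c - 1 =
      algebraMap Kb (FN (M1 * (q : ℕ))) (σ β' * β' ^ (((q : ℕ) - 1) * c) - 1) := by
    rw [gal_algebraMap, mul_one, ← pow_mul, map_sub, map_mul, map_pow, map_one]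
  rw [e2] at h1
  have h2 := linkAux_GT_cst h1.1
  have e3 : σ β * β ^ (((q : ℕ) - 1) * c) = σ β' * β' ^ (((q : ℕ) - 1) * c) := by
    have e4 : ν ^ c * ν ^ (((q : ℕ) - 1) * c) = 1 := by
      rw [← _root_.pow_add]
      have : c + ((q : ℕ) - 1) * c = (q : ℕ) * c := by
        obtain ⟨n, hn⟩ : ∃ n, (q : ℕ) = n + 1 := ⟨(q : ℕ) - 1, (Nat.sub_add_cancel q.2.pos).symm⟩
        rw [hn, Nat.add_sub_cancel]
        ring
      rw [this, pow_mul, hν, one_pow]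
    rw [hβe, map_mul, hc ν hν, mul_pow]
    linear_combination (σ β' * β' ^ (((q : ℕ) - 1) * c)) * e4
  rw [e3]
  exact h2

theorem linkAux_id {K : Type*} [Field K] (lf b sb slf : K) (p c : ℕ) (hp : 0 < p) :
    slf * (lf ^ (p - 1) * b ^ p) ^ c * sb = (sb * slf * (b * lf) ^ ((p - 1) * c)) * b ^ c := by
  obtain ⟨n, rfl⟩ : ∃ n, p = n + 1 := ⟨p - 1, (Nat.sub_add_cancel hp).symm⟩
  rw [Nat.add_sub_cancel]
  ring

/-- **[LINK]** -/
theorem link (hC : CuspH S) {t h : FN (M1 * (q : ℕ))}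
    (hpd : PDiv Kb (FN (M1 * (q : ℕ))) (q : ℕ) t)
    (hdeep : GT2 S.hc (t - 1) (((q : ℕ) : ℝ) / (((q : ℕ) : ℝ) - 1))) {σ : GQ} (hσ : σ ∈ Iq q)
    {c : ℕ} (hc : Cyc (q : ℕ) σ c) (hh : gal (M1 * (q : ℕ)) σ t = t ^ c * h ^ (q : ℕ)) (b1 : Kb)
    (hb1 : b1 ^ (q : ℕ) = lcF (M1 * (q : ℕ)) t) :
    ∃ μ : Kb, μ ^ (q : ℕ) = 1 ∧
      (wG q (M1 * (q : ℕ))).GT (h - algebraMap Kb (FN (M1 * (q : ℕ))) μ)
        (1 / (((q : ℕ) : ℝ) - 1)) ∧
      lcF (M1 * (q : ℕ)) h * b1 ^ c = μ * σ b1 := by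
  have hq1 : (1 : ℝ) < ((q : ℕ) : ℝ) := by exact_mod_cast q.2.one_lt
  have hq1' : (0 : ℝ) < ((q : ℕ) : ℝ) - 1 := by linarith
  have he : 0 < 1 / (((q : ℕ) : ℝ) - 1) := div_pos one_pos hq1'
  have hep : ((q : ℕ) : ℝ) / (((q : ℕ) : ℝ) - 1) = ((q : ℕ) : ℝ) * (1 / (((q : ℕ) : ℝ) - 1)) := by
    ring
  have hep0 : (0 : ℝ) < ((q : ℕ) : ℝ) / (((q : ℕ) : ℝ) - 1) := div_pos (by linarith) hq1'
  obtain ⟨ζ, hζ⟩ := cycAux_exists_prim q
  have hϖ := w_pi q hζ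
  have ht0 : t ≠ 0 := hpd.1
  -- `f`, `φ`
  obtain ⟨f, hf, hf1⟩ := exists_II_pi S true hpd hdeep.toGE2
  have hφm := phi_mem S true ht0 hf hσ c
  have hφc := phi_cong S hdeep hf1 hσ hc
  obtain ⟨φ, hφdef⟩ : ∃ φ, φ = gal (M1 * (q : ℕ)) σ f * (f ^ ((q : ℕ) - 1) * t) ^ c := ⟨_, rfl⟩
  rw [← hφdef] at hφm hφc
  -- `H = φ h`
  have hv : gal (M1 * (q : ℕ)) σ t * t⁻¹ ^ c = h ^ (q : ℕ) := by
    rw [hh, inv_pow]
    field_simp
  have hHq : (φ * h) ^ (q : ℕ) ∈ KL.C0 (AA q) (S.θM true) (FN (M1 * (q : ℕ))) := by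
    rw [mul_pow, ← hv]
    exact hφm
  have hH := mem_C0_of_pow_mem q.2.pos hHq
  -- the roots of unity
  have hvc := v_cong S hep0.le hdeep hσ c
  rw [hv, hep] at hvc
  have hζF : IsPrimitiveRoot (algebraMap Kb (FN (M1 * (q : ℕ))) ζ) (q : ℕ) :=
    hζ.map_of_injective (algebraMap Kb (FN (M1 * (q : ℕ)))).injective
  obtain ⟨m1, hm1, hhm1⟩ := linkAux_close_GT q.2.pos hζF hvc.1
  obtain ⟨m2, hm2, hhm2⟩ := linkAux_close_GT q.2.pos hζF hvc.2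
  obtain ⟨i1, -, rfl⟩ := hζF.eq_pow_of_pow_eq_one hm1
  obtain ⟨i2, -, rfl⟩ := hζF.eq_pow_of_pow_eq_one hm2
  rw [← map_pow] at hhm1 hhm2
  obtain ⟨μ1, hμ1def⟩ : ∃ μ1, μ1 = ζ ^ i1 := ⟨_, rfl⟩
  obtain ⟨μ2, hμ2def⟩ : ∃ μ2, μ2 = ζ ^ i2 := ⟨_, rfl⟩
  rw [← hμ1def] at hhm1
  rw [← hμ2def] at hhm2
  have hμ1 : μ1 ^ (q : ℕ) = 1 := by
    rw [hμ1def, ← pow_mul, mul_comm, pow_mul, hζ.pow_eq_one, one_pow]
  have hμ2 : μ2 ^ (q : ℕ) = 1 := by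
    rw [hμ2def, ← pow_mul, mul_comm, pow_mul, hζ.pow_eq_one, one_pow]
  have hμ1u := linkAux_root_unit hμ1
  have hμ2u := linkAux_root_unit hμ2
  have hal1 : GE2 S.hc (algebraMap Kb (FN (M1 * (q : ℕ))) μ1) 0 := GE2_algebraMap (hμ1u.GE le_rfl)
  have hal2 : GE2 S.hc (algebraMap Kb (FN (M1 * (q : ℕ))) μ2) 0 := GE2_algebraMap (hμ2u.GE le_rfl)
  have hh0 : GE2 S.hc h 0 := by
    refine ⟨?_, ?_⟩
    · have := (hhm1.GE he.le).add hal1.1
      rwa [sub_add_cancel] at this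
    · have := (hhm2.GE he.le).add hal2.2
      rwa [sub_add_cancel] at this
  -- `Z`
  have hG : (wG q (M1 * (q : ℕ))).GT (φ * h - algebraMap Kb (FN (M1 * (q : ℕ))) μ1)
      (1 / (((q : ℕ) : ℝ) - 1)) := by
    have e : φ * h - algebraMap Kb (FN (M1 * (q : ℕ))) μ1 =
        (φ - 1) * h + (h - algebraMap Kb (FN (M1 * (q : ℕ))) μ1) := by ring
    rw [e]
    have := hφc.1.mul_GE hh0.1
    rw [add_zero] at this
    exact this.add hhm1
  have hroots : (wq q).GE (μ2 - μ1) (1 / (((q : ℕ) : ℝ) - 1)) := by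
    rcases linkAux_roots hμ2 hμ1 with h | h
    · rw [h, sub_self]; exact RVal.GE_zero _
    · exact h.GE le_rfl
  have hZ' : (wZ q S.hc).GE (φ * h - algebraMap Kb (FN (M1 * (q : ℕ))) μ1)
      (1 / (((q : ℕ) : ℝ) - 1)) := by
    have e : φ * h - algebraMap Kb (FN (M1 * (q : ℕ))) μ1 =
        (φ - 1) * h + (h - algebraMap Kb (FN (M1 * (q : ℕ))) μ2) +
          algebraMap Kb (FN (M1 * (q : ℕ))) (μ2 - μ1) := by
      rw [map_sub]; ring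
    rw [e]
    have := hφc.2.mul_GE hh0.2
    rw [add_zero] at this
    exact ((this.GE le_rfl).add (hhm2.GE le_rfl)).add (GE2_algebraMap (hc := S.hc) hroots).2
  have hGE2 : GE2 S.hc (φ * h - algebraMap Kb (FN (M1 * (q : ℕ))) μ1) ((wq q).w (ζ - 1)) := by
    rw [hϖ.2]; exact ⟨hG.GE le_rfl, hZ'⟩
  obtain ⟨Z, hZ0, hZe⟩ := (GE2_iff S hϖ.1).1 hGE2
  have hZC : Z ∈ KL.C0 (AA q) (S.θM true) (FN (M1 * (q : ℕ))) :=
    linkAux_mem_of_mul S hϖ.1 (hϖ.GE he.le)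
      (by
        rw [← hZe]
        exact sub_mem hH (l3Aux_const_mem S true (linkAux_mem_AA.2 (hμ1u.GE le_rfl)))) hZ0
  have hZG : (wG q (M1 * (q : ℕ))).GT Z 0 := by
    have hϖG : (wG q (M1 * (q : ℕ))).EQ (algebraMap Kb (FN (M1 * (q : ℕ))) (ζ - 1))
        (1 / (((q : ℕ) : ℝ) - 1)) :=
      ⟨by rw [Ne, map_eq_zero]; exact hϖ.1, by rw [wG_algebraMap hϖ.1, hϖ.2]⟩
    have := RVal.GT.of_mul_eq_left (x := Z) (by rw [hZe]; exact mul_comm _ _) hϖG hG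
    simpa using this
  have hevZ := evcont hC hZC hZG
  have hevH : ev0 (φ * h) - μ1 = (ζ - 1) * ev0 Z := by
    rw [← ev0_cst_mul (ζ - 1) Z, ← hZe, ev0_sub, ev0_cst]
  have hevH' : (wq q).GT (ev0 (φ * h) - μ1) (1 / (((q : ℕ) : ℝ) - 1)) := by
    rw [hevH]
    have := (hϖ.GE le_rfl).mul_GT hevZ
    simpa using this
  -- `γ = f ^ p t`
  have hγ : f ^ (q : ℕ) * t ∈ KL.C0 (AA q) (S.θM true) (FN (M1 * (q : ℕ))) := hf
  have hm : ((q : ℕ) : ℝ) / (((q : ℕ) : ℝ) - 1) ≤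
      min (1 + 1 / (((q : ℕ) : ℝ) - 1)) (((q : ℕ) : ℝ) * (1 / (((q : ℕ) : ℝ) - 1))) := by
    rw [le_min_iff]
    refine ⟨le_of_eq ?_, hep.le⟩
    field_simp
    ring
  have hfq : GE2 S.hc (f ^ (q : ℕ) - 1) (((q : ℕ) : ℝ) / (((q : ℕ) : ℝ) - 1)) :=
    ⟨(GE_pow_p_sub_one q.2 l3Aux_wG_p he.le hf1.1).mono hm,
      (GE_pow_p_sub_one q.2 (l3Aux_wZ_p S.hc) he.le hf1.2).mono hm⟩
  have hone : GE2 S.hc (1 : FN (M1 * (q : ℕ))) 0 := (mem_VV_iff S).mp (one_mem _)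
  have ht2 : GE2 S.hc t 0 := by
    have := (hdeep.toGE2.mono hep0.le).add hone
    rwa [sub_add_cancel] at this
  have hγ1 : GE2 S.hc (f ^ (q : ℕ) * t - 1) (((q : ℕ) : ℝ) / (((q : ℕ) : ℝ) - 1)) := by
    have e : f ^ (q : ℕ) * t - 1 = (f ^ (q : ℕ) - 1) * t + (t - 1) := by ring
    rw [e]
    have := hfq.mul ht2
    rw [add_zero] at this
    exact this.add hdeep.toGE2
  have hϖq : (wq q).EQ ((ζ - 1) ^ (q : ℕ)) (((q : ℕ) : ℝ) / (((q : ℕ) : ℝ) - 1)) := by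
    rw [hep]; exact hϖ.pow _
  obtain ⟨Y, hY0, hYe⟩ := (GE2_iff S hϖq.1).1 (by rw [hϖq.2]; exact hγ1)
  have hYC : Y ∈ KL.C0 (AA q) (S.θM true) (FN (M1 * (q : ℕ))) :=
    linkAux_mem_of_mul S hϖq.1 (hϖq.GE hep0.le)
      (by rw [← hYe]; exact sub_mem hγ (one_mem _)) hY0
  have hevγ : ev0 (f ^ (q : ℕ) * t) - 1 = (ζ - 1) ^ (q : ℕ) * ev0 Y := by
    rw [← ev0_cst_mul ((ζ - 1) ^ (q : ℕ)) Y, ← hYe, ev0_sub, ev0_one]
  have hevγ' : (wq q).GE (ev0 (f ^ (q : ℕ) * t) - 1) (((q : ℕ) : ℝ) / (((q : ℕ) : ℝ) - 1)) := by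
    rw [hevγ]
    have := (hϖq.GE le_rfl).mul (linkAux_mem_AA.1 (hC.int Y hYC))
    rw [add_zero] at this
    exact this
  have hevγ0 : ev0 (f ^ (q : ℕ) * t) ≠ 0 := by
    intro h0
    rw [h0, zero_sub] at hevγ'
    have := hevγ'.le_w (neg_ne_zero.2 one_ne_zero)
    rw [RVal.w_neg, RVal.w_one] at this
    linarith
  have hlcγ : lcF (M1 * (q : ℕ)) (f ^ (q : ℕ) * t) = ev0 (f ^ (q : ℕ) * t) :=
    linkAux_lc (hC.ord _ hγ) hevγ0
  -- leading coefficients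
  obtain ⟨β, hβdef⟩ : ∃ β, β = b1 * lcF (M1 * (q : ℕ)) f := ⟨_, rfl⟩
  have hβq : β ^ (q : ℕ) = ev0 (f ^ (q : ℕ) * t) := by
    rw [hβdef, mul_pow, hb1, ← hlcγ, map_mul, map_pow]
    ring
  have hκ := linkAux_kappa S (β := β) (by rw [hβq]; exact hevγ') hσ hc
  have hb10 : b1 ≠ 0 := by
    intro h0
    rw [h0, zero_pow q.2.ne_zero] at hb1
    exact (map_ne_zero (lcF (M1 * (q : ℕ)))).2 ht0 hb1.symm
  have hσb : σ b1 ≠ 0 := by
    rw [Ne, EmbeddingLike.map_eq_zero_iff]; exact hb10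
  have hlcφ : lcF (M1 * (q : ℕ)) φ * σ b1 = (σ β * β ^ (((q : ℕ) - 1) * c)) * b1 ^ c := by
    rw [hφdef, map_mul, map_pow, map_mul, map_pow, lcF_gal, ← hb1, hβdef, map_mul σ]
    exact linkAux_id _ _ _ _ _ c q.2.pos
  obtain ⟨ξ, hξdef⟩ : ∃ ξ, ξ = lcF (M1 * (q : ℕ)) h * b1 ^ c * (σ b1)⁻¹ := ⟨_, rfl⟩
  have hξq : ξ ^ (q : ℕ) = 1 := by
    have h1 : (lcF (M1 * (q : ℕ)) h) ^ (q : ℕ) * (b1 ^ (q : ℕ)) ^ c = (σ b1) ^ (q : ℕ) := by
      rw [hb1, ← map_pow, ← map_pow, ← map_mul, mul_comm (h ^ (q : ℕ)) (t ^ c), ← hh, lcF_gal,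
        ← hb1, map_pow]
    rw [hξdef, mul_pow, mul_pow, inv_pow, ← pow_mul, mul_comm c, pow_mul, h1,
      mul_inv_cancel₀ (pow_ne_zero _ hσb)]
  have hlcH : lcF (M1 * (q : ℕ)) (φ * h) = (σ β * β ^ (((q : ℕ) - 1) * c)) * ξ := by
    have e : lcF (M1 * (q : ℕ)) φ = (σ β * β ^ (((q : ℕ) - 1) * c)) * b1 ^ c * (σ b1)⁻¹ := by
      rw [← hlcφ, mul_assoc, mul_inv_cancel₀ hσb, mul_one]
    rw [map_mul, e, hξdef]
    ring
  have hevH0 : ev0 (φ * h) ≠ 0 := by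
    intro h0
    rw [h0, zero_sub] at hevH'
    have := hevH'.lt_w (neg_ne_zero.2 hμ1u.1)
    rw [RVal.w_neg, hμ1u.2] at this
    linarith
  have hlcH' : lcF (M1 * (q : ℕ)) (φ * h) = ev0 (φ * h) := linkAux_lc (hC.ord _ hH) hevH0
  have hξu := linkAux_root_unit hξq
  have hfin : (wq q).GT (ξ - μ1) (1 / (((q : ℕ) : ℝ) - 1)) := by
    have e : ξ - μ1 = ((σ β * β ^ (((q : ℕ) - 1) * c)) * ξ - μ1) -
        (σ β * β ^ (((q : ℕ) - 1) * c) - 1) * ξ := by ring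
    rw [e, ← hlcH, hlcH']
    have := hκ.mul_GE (hξu.GE le_rfl)
    rw [add_zero] at this
    exact hevH'.sub this
  have hξμ : ξ = μ1 := by
    rcases linkAux_roots hξq hμ1 with h | h
    · exact h
    · exact absurd (hfin.lt_w h.1) (by rw [h.2]; exact lt_irrefl _)
  refine ⟨μ1, hμ1, hhm1, ?_⟩
  rw [← hξμ, hξdef, mul_assoc, inv_mul_cancel₀ hσb, mul_one]

end Modu

end Fermat.Agent.S44.Cov
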