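import Fermat.Agent.S44.Geo.NodeAux
import Fermat.Agent.S44.IfMod
import Fermat.Agent.S44.Alg.LocAlg

/-!
# S44 / GEO / COVER : the closed point of the rational chart defined by a place of the component `∞`, and its local ring   [key S44/COV-DICT]   (helper27)

`S : Setup M1 q r A`, `(Ft, O, red)` a reduction datum of level `M1`, `x` a place of `Ft`.
* `redN S h : Vinf A (M1 q) →+* Ft` : the reduction on the component `∞` with values in `Ft` (via `exists_lift1`);
* `psi S h b : BB S b →+* Ft`, `nx S h b x hb : Ideal (BB S b)` : the closed point; it is maximal and contains `ker r1`, `ker r2` if `x` is a crossing point;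
* `Rn S b 𝔫 : Subalgebra (BB S b) (EE q M1)` : the local ring, with its instances.
-/

set_option autoImplicit false
set_option synthInstance.maxHeartbeats 400000
set_option linter.unusedSectionVars false
set_option linter.style.haveILetI false

open HahnSeries ModularCurve AlgebraicCurve Polynomial Fermat.Agent.S24 Fermat.Agent.S29 Fermat.Agent.S18
  Fermat.Agent.ES Fermat.Agent.ES.Alg Fermat.Agent.S34.Mod Fermat.Agent.S05 Fermat.Agent.S55.B ExtCitation
  Fermat.Agent.S33 Fermat.Agent.S37 Fermat.Agent.S44.Mod Fermat.Agent.S44.Geo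
open Fermat.Agent.S55 (Dq Iq)

noncomputable section

namespace Fermat.Agent.S44.Cov

variable {q : Nat.Primes} {M1 r : ℕ} [NeZero M1] [NeZero (q : ℕ)] [NeZero r]
variable (S : Setup M1 (q : ℕ) r (AA q))
variable {Ft : Type} [Field Ft] [Algebra (KL.kk (AA q)) Ft] {O : Subring (FN M1)} {red : O →+* Ft}
variable (h : RedData (AA q) S.τ1 (FN M1) O red)

include S h in
theorem Vinf_le_O : Vinf (AA q) M1 ≤ O := by
  rw [h.hO, VV1_eq S]

/-- a lift to level `M1` of the reduction of `v` -/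
def lft (v : Vinf (AA q) (M1 * (q : ℕ))) : O :=
  ⟨(exists_lift1 S v).choose, Vinf_le_O S h (exists_lift1 S v).choose.2⟩

theorem rO_lft (v : Vinf (AA q) (M1 * (q : ℕ))) : rO S h (lft S h v) = resInf (AA q) (M1 * (q : ℕ)) v :=
  (exists_lift1 S v).choose_spec

/-- the reduction on the component `∞`, with values in `Ft` -/
def redN : Vinf (AA q) (M1 * (q : ℕ)) →+* Ft where
  toFun v := red (lft S h v)
  map_one' := by
    rw [← map_one red]
    exact red_eq_of_rO_eq S h _ _ (by rw [rO_lft, map_one, map_one])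
  map_mul' a b := by
    rw [← map_mul red]
    exact red_eq_of_rO_eq S h _ _ (by rw [rO_lft, map_mul, map_mul, rO_lft, rO_lft])
  map_zero' := by
    rw [← map_zero red]
    exact red_eq_of_rO_eq S h _ _ (by rw [rO_lft, map_zero, map_zero])
  map_add' a b := by
    rw [← map_add red]
    exact red_eq_of_rO_eq S h _ _ (by rw [rO_lft, map_add, map_add, rO_lft, rO_lft])

theorem redN_eq {v : Vinf (AA q) (M1 * (q : ℕ))} {u1 : O} (e : rO S h u1 = resInf (AA q) (M1 * (q : ℕ)) v) :
    redN S h v = red u1 :=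
  red_eq_of_rO_eq S h _ _ (by rw [rO_lft, e])

theorem redN_eq_zero_iff (v : Vinf (AA q) (M1 * (q : ℕ))) :
    redN S h v = 0 ↔ resInf (AA q) (M1 * (q : ℕ)) v = 0 := by
  show red (lft S h v) = 0 ↔ _
  rw [red_eq_zero_iff S h, rO_lft]

/-- `B → Vinf` -/
def toV (b : Bool) : BB S b →+* Vinf (AA q) (M1 * (q : ℕ)) where
  toFun β := ⟨β.1.1, mem_Vinf_of_mem_VV S (coe_mem_VV S b β)⟩
  map_one' := rfl
  map_mul' _ _ := rfl
  map_zero' := rfl
  map_add' _ _ := rfl

/-- the reduction of the rational chart ring, with values in `Ft` -/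
def psi (b : Bool) : BB S b →+* Ft := (redN S h).comp (toV S b)

theorem resInf_toV (b : Bool) (β : BB S b) : resInf (AA q) (M1 * (q : ℕ)) (toV S b β) = r1 S b β := rfl

theorem psi_eq_zero_iff (b : Bool) (β : BB S b) : psi S h b β = 0 ↔ r1 S b β = 0 :=
  redN_eq_zero_iff S h (toV S b β)

theorem psi_eq (b : Bool) (β : BB S b) {E1 : KL.C0 (AA q) (S.θ1 b) (FN M1)} (e : ρ S b E1 = r1 S b β) :
    psi S h b β = red ⟨E1, C01_le_O S h b E1.2⟩ :=
  redN_eq S h (v := toV S b β) (u1 := ⟨E1, C01_le_O S h b E1.2⟩) e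

variable {S h}

theorem psi_mem {b : Bool} {x : Place (KL.kk (AA q)) Ft} (hb : InChart S h b x) (β : BB S b) :
    psi S h b β ∈ x.toValuationSubring := by
  obtain ⟨E1, hE1⟩ := exists_level1₁ S b (inc S b β)
  rw [psi_eq S h b β (E1 := E1) hE1]
  exact hb E1

variable (S h) in
/-- the closed point of the chart `b` defined by `x` -/
def nx (b : Bool) (x : Place (KL.kk (AA q)) Ft) (hb : InChart S h b x) : Ideal (BB S b) :=
  (IsLocalRing.maximalIdeal x.toValuationSubring).comap
    ((psi S h b).codRestrict x.toValuationSubring.toSubring (psi_mem hb))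

theorem mem_nx {b : Bool} {x : Place (KL.kk (AA q)) Ft} {hb : InChart S h b x} {β : BB S b} :
    β ∈ nx S h b x hb ↔ Glue.Van x (psi S h b β) := by
  rw [nx, Ideal.mem_comap, ValuationSubring.valuation_lt_one_iff]
  rfl

instance isPrime_nx {b : Bool} {x : Place (KL.kk (AA q)) Ft} {hb : InChart S h b x} :
    (nx S h b x hb).IsPrime := Ideal.comap_isPrime _ _

theorem ker_r1_le_nx {b : Bool} {x : Place (KL.kk (AA q)) Ft} {hb : InChart S h b x} :
    RingHom.ker (r1 S b) ≤ nx S h b x hb := by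
  intro β hβ
  rw [mem_nx, (psi_eq_zero_iff S h b β).2 hβ]
  exact Glue.van_zero

theorem ker_r2_le_nx {b : Bool} {x : Place (KL.kk (AA q)) Ft} {hb : InChart S h b x} (hx : IsCross S h x) :
    RingHom.ker (r2 S b) ≤ nx S h b x hb := by
  intro β hβ
  obtain ⟨E1, hE1⟩ := exists_level1₁ S b (inc S b β)
  rw [mem_nx, psi_eq S h b β (E1 := E1) hE1]
  exact hx b hb (inc S b β) E1 hβ hE1.symm

theorem isMaximal_nx {b : Bool} {x : Place (KL.kk (AA q)) Ft} {hb : InChart S h b x} (hx : IsCross S h x) :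
    (nx S h b x hb).IsMaximal := by
  refine (nodalModel S b).dim₁ _ inferInstance (lt_of_le_of_ne ker_r1_le_nx ?_)
  obtain ⟨c, hc2, hc1⟩ := (nodalModel S b).sep
  intro e
  have : c ∈ nx S h b x hb := ker_r2_le_nx hx hc2
  rw [← e] at this
  exact hc1 this

/-- elements outside the closed point are units at `x` -/
theorem psi_inv_mem {b : Bool} {x : Place (KL.kk (AA q)) Ft} {hb : InChart S h b x} {β : BB S b}
    (hβ : β ∉ nx S h b x hb) : psi S h b β ≠ 0 ∧ (psi S h b β)⁻¹ ∈ x.toValuationSubring := by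
  rw [mem_nx, Glue.van_iff] at hβ
  push Not at hβ
  exact hβ

theorem ord_psi {b : Bool} {x : Place (KL.kk (AA q)) Ft} {hb : InChart S h b x} {β : BB S b}
    (hβ : β ∉ nx S h b x hb) : x.ord (psi S h b β) = 0 := by
  have h1 := S24.ord_nonneg_of_mem x (psi_mem hb β)
  have h2 := S24.ord_nonneg_of_mem x (psi_inv_mem hβ).2
  rw [Place.ord_inv] at h2
  omega

/-! ### the local ring -/

variable (S) in
/-- the local ring of the rational chart `b` at the prime `𝔫` -/
def Rn (b : Bool) (𝔫 : Ideal (BB S b)) [𝔫.IsPrime] : Subalgebra (BB S b) (EE q M1) :=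
  haveI := isFractionRing_BB S b
  Localization.subalgebra.ofField (EE q M1) 𝔫.primeCompl (Ideal.primeCompl_le_nonZeroDivisors _)

section Rn

variable (b : Bool) (𝔫 : Ideal (BB S b)) [𝔫.IsPrime]

theorem mem_Rn {y : EE q M1} : y ∈ Rn S b 𝔫 ↔ ∃ β s : BB S b, s ∉ 𝔫 ∧ y = (β : EE q M1) * (s : EE q M1)⁻¹ := by
  constructor
  · rintro ⟨β, s, hs, rfl⟩
    exact ⟨β, s, hs, rfl⟩
  · rintro ⟨β, s, hs, rfl⟩
    exact ⟨β, s, hs, rfl⟩

instance isLocalization_Rn : IsLocalization.AtPrime (Rn S b 𝔫) 𝔫 := by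
  haveI := isFractionRing_BB S b
  exact Localization.subalgebra.isLocalization_ofField (EE q M1) _ _

instance isLocalRing_Rn : IsLocalRing (Rn S b 𝔫) := IsLocalization.AtPrime.isLocalRing _ 𝔫

instance isNoetherianRing_Rn : IsNoetherianRing (Rn S b 𝔫) :=
  IsLocalization.isNoetherianRing 𝔫.primeCompl _ (isNoetherianRing_BB S b)

instance isFractionRing_Rn : IsFractionRing (Rn S b 𝔫) (EE q M1) := by
  haveI := isFractionRing_BB S b
  exact Localization.subalgebra.isFractionRing_ofField (EE q M1) _ _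

instance isIntegrallyClosed_Rn : IsIntegrallyClosed (Rn S b 𝔫) := by
  haveI := isIntegrallyClosed_BB S b
  exact isIntegrallyClosed_of_isLocalization (Rn S b 𝔫) 𝔫.primeCompl (Ideal.primeCompl_le_nonZeroDivisors _)

/-- the elements of `Rn` as fractions -/
theorem exists_frac_Rn (y : Rn S b 𝔫) : ∃ β s : BB S b, s ∉ 𝔫 ∧ y * algebraMap (BB S b) (Rn S b 𝔫) s =
    algebraMap (BB S b) (Rn S b 𝔫) β := by
  obtain ⟨β, s, hs⟩ := IsLocalization.exists_mk'_eq 𝔫.primeCompl y
  exact ⟨β, s.1, s.2, by rw [← hs, IsLocalization.mk'_spec]⟩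

/-- the units of `Rn` as fractions -/
theorem exists_frac_unit_Rn {y : Rn S b 𝔫} (hy : IsUnit y) : ∃ β s : BB S b, β ∉ 𝔫 ∧ s ∉ 𝔫 ∧
    y * algebraMap (BB S b) (Rn S b 𝔫) s = algebraMap (BB S b) (Rn S b 𝔫) β := by
  obtain ⟨β, s, hs, e⟩ := exists_frac_Rn b 𝔫 y
  refine ⟨β, s, fun hβ => ?_, hs, e⟩
  have h1 : IsUnit (algebraMap (BB S b) (Rn S b 𝔫) β) := by
    rw [← e]
    exact hy.mul (IsLocalization.map_units (Rn S b 𝔫) (⟨s, hs⟩ : 𝔫.primeCompl))
  exact ((IsLocalization.AtPrime.isUnit_to_map_iff (Rn S b 𝔫) 𝔫 β).1 h1) hβ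

theorem coe_algebraMap_Rn (β : BB S b) : ((algebraMap (BB S b) (Rn S b 𝔫) β : Rn S b 𝔫) : EE q M1) = (β : EE q M1) := rfl

end Rn

end Fermat.Agent.S44.Cov
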