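import Fermat.Agent.S44.Geo.Cov.Defs
import Fermat.Agent.S44.Geo.Cov.Loc
import Fermat.Agent.S44.IfMod
import Fermat.Agent.S44.Alg.Dict
import Fermat.Agent.S44.Alg.LocAlg

/-!
# S44 / GEO / COVER : the algebra structures `Rn S0 b 𝔫 → E'` (`Rn` and its instances: helper27's `Geo/Cov/Loc.lean`), the sheet valuations on `E'`          (helper2)
-/

set_option autoImplicit false
set_option synthInstance.maxHeartbeats 400000

open HahnSeries ModularCurve AlgebraicCurve Fermat.Agent.S24 Fermat.Agent.S29 Fermat.Agent.S18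
  Fermat.Agent.ES Fermat.Agent.ES.Alg Fermat.Agent.S34.Mod Fermat.Agent.S05 Fermat.Agent.S55.B ExtCitation
  Fermat.Agent.S33
open Fermat.Agent.S55 (Dq Iq)

noncomputable section

namespace Fermat.Agent.S44.Cov

variable {q : Nat.Primes} {M1 r : ℕ} [NeZero M1] [NeZero (q : ℕ)] [NeZero r]

instance instFracBB (S0 : Setup M1 (q : ℕ) r (AA q)) (b : Bool) :
    IsFractionRing (Mod.BB S0 b) (Mod.EE q M1) := Mod.isFractionRing_BB S0 b

variable (S0 : Setup M1 (q : ℕ) r (AA q)) (b : Bool) (𝔫 : Ideal (Mod.BB S0 b)) [𝔫.IsPrime]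

variable {hc : Nat.Coprime (q : ℕ) M1} {t : FN (M1 * (q : ℕ))} {F' : Type} [Field F']
  [Algebra (FN (M1 * (q : ℕ))) F'] (C : Cov q M1 hc t F')

instance algRnEp : Algebra (Rn S0 b 𝔫) C.Ep :=
  ((algebraMap (Mod.EE q M1) C.Ep).comp (algebraMap (Rn S0 b 𝔫) (Mod.EE q M1))).toAlgebra

instance : IsScalarTower (Rn S0 b 𝔫) (Mod.EE q M1) C.Ep := IsScalarTower.of_algebraMap_eq' rfl

/-- the sheet valuation `W ∘ δ^k` restricted to `E'` -/
def resV (W : RVal F') (k : ℕ) : RVal C.Ep where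
  w x := W.w ((C.δ ^ k) (x : F'))
  map_mul x y hx hy := by
    have hx' : (C.δ ^ k) (x : F') ≠ 0 := (map_ne_zero _).2 (fun h => hx (Subtype.ext h))
    have hy' : (C.δ ^ k) (y : F') ≠ 0 := (map_ne_zero _).2 (fun h => hy (Subtype.ext h))
    show W.w ((C.δ ^ k) ((x : F') * (y : F'))) = _
    rw [map_mul, W.map_mul _ _ hx' hy']
  map_add x y hx hy hxy := by
    have hx' : (C.δ ^ k) (x : F') ≠ 0 := (map_ne_zero _).2 (fun h => hx (Subtype.ext h))
    have hy' : (C.δ ^ k) (y : F') ≠ 0 := (map_ne_zero _).2 (fun h => hy (Subtype.ext h))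
    have hxy' : (C.δ ^ k) (x : F') + (C.δ ^ k) (y : F') ≠ 0 := by
      rw [← map_add]
      exact (map_ne_zero _).2 (fun h => hxy (Subtype.ext h))
    show _ ≤ W.w ((C.δ ^ k) ((x : F') + (y : F')))
    rw [map_add]
    exact W.map_add _ _ hx' hy' hxy'

end Fermat.Agent.S44.Cov
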