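import Fermat.Agent.S44.Geo.Cov.RelVal
import Fermat.Agent.S44.Geo.Cov.RelH
import Fermat.Agent.S44.Geo.Cov.Gen2
import Fermat.Agent.S44.Geo.Cov.Need

/-!
# S44 / GEO / COVER : `cover_rel` from C3 (`exists_sheet`), C4 (`exists_tr`), `Sheet.exists_idx`, `relH`          (helper20, key `S44/COV-REL`)
-/

set_option autoImplicit false
set_option synthInstance.maxHeartbeats 400000
set_option linter.style.haveILetI false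

open HahnSeries ModularCurve AlgebraicCurve Fermat.Agent.S24 Fermat.Agent.S29 Fermat.Agent.S18
  Fermat.Agent.ES Fermat.Agent.ES.Alg Fermat.Agent.S34.Mod Fermat.Agent.S05 Fermat.Agent.S55.B ExtCitation
  Fermat.Agent.S33
open Fermat.Agent.S55 (Dq Iq)

noncomputable section

namespace Fermat.Agent.S44.Cov

variable {q : Nat.Primes} {M1 r : ℕ} [NeZero M1] [NeZero (q : ℕ)] [NeZero r]

/-- step 7, abstract -/
theorem rel_fin {F F' : Type*} [Field F] [Field F'] [Algebra F F'] (W : RVal F') (w : RVal F)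
    (ext : ∀ x : F, x ≠ 0 → W.w (algebraMap F F' x) = w.w x)
    (dense : ∀ (y : F') (B : ℝ), ∃ f : F, W.GE (y - algebraMap F F' f) B)
    {p : ℕ} {U Q RA RT : F} {Y A T : F'} {n : ℤ} (hY : Y ≠ 0)
    (hRA : w.EQ RA 0) (hRT : w.EQ RT 0)
    (hA : W.GT (A - algebraMap F F' RA) 0) (hT : W.GT (T - algebraMap F F' RT) 0)
    (hrel : algebraMap F F' U * algebraMap F F' Q ^ n * Y ^ p * T = A) :
    ∃ f ε : F, f ≠ 0 ∧ w.GT (ε - 1) 0 ∧ U * Q ^ n * f ^ p * RT = RA * ε := by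
  have hEQ : ∀ {x : F} {a : ℝ}, w.EQ x a → W.EQ (algebraMap F F' x) a := by
    intro x a hx
    exact ⟨(map_ne_zero _).2 hx.ne_zero, by rw [ext x hx.ne_zero]; exact hx.w_eq⟩
  have pA : PU W (A * (algebraMap F F' RA)⁻¹) := PU.of_sub (hEQ hRA) hA
  have pT : PU W (T * (algebraMap F F' RT)⁻¹) := PU.of_sub (hEQ hRT) hT
  obtain ⟨f, hf⟩ := dense Y (W.w Y + 1)
  have hYE : W.EQ Y (W.w Y) := ⟨hY, rfl⟩
  have hf' : W.GT (algebraMap F F' f - Y) (W.w Y) := by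
    have h1 : W.GE (algebraMap F F' f - Y) (W.w Y + 1) := by
      have := hf.neg
      rwa [neg_sub] at this
    rcases h1 with h0 | h1
    · exact Or.inl h0
    · exact Or.inr (by linarith)
  have pf : PU W (algebraMap F F' f * Y⁻¹) := PU.of_sub hYE hf'
  have hf0 : f ≠ 0 := by
    rintro rfl
    have := pf.EQ.ne_zero
    rw [map_zero, zero_mul] at this
    exact this rfl
  have hRA0 := hRA.ne_zero
  have hRT0 := hRT.ne_zero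
  have hT0 : T ≠ 0 := by
    rintro rfl
    have := pT.EQ.ne_zero
    rw [zero_mul] at this
    exact this rfl
  refine ⟨f, U * Q ^ n * f ^ p * RT * RA⁻¹, hf0, ?_, by field_simp⟩
  have hRA' : algebraMap F F' RA ≠ 0 := (map_ne_zero _).2 hRA0
  have hRT' : algebraMap F F' RT ≠ 0 := (map_ne_zero _).2 hRT0
  have e : algebraMap F F' (U * Q ^ n * f ^ p * RT * RA⁻¹) =
      (A * (algebraMap F F' RA)⁻¹) * (algebraMap F F' f * Y⁻¹) ^ p * (T * (algebraMap F F' RT)⁻¹)⁻¹ := by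
    rw [← hrel]
    simp only [map_mul, map_zpow₀, map_pow, map_inv₀]
    field_simp
    rw [div_pow]
    field_simp
  have hP : PU W (algebraMap F F' (U * Q ^ n * f ^ p * RT * RA⁻¹)) := by
    rw [e]
    exact (pA.mul (pf.pow p)).mul pT.inv
  unfold PU at hP
  rw [← map_one (algebraMap F F'), ← map_sub] at hP
  rcases hP with h0 | h1
  · exact Or.inl ((map_eq_zero _).1 h0)
  · by_cases hx : U * Q ^ n * f ^ p * RT * RA⁻¹ - 1 = 0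
    · exact Or.inl hx
    · rw [ext _ hx] at h1
      exact Or.inr h1

theorem rel_sign {F : Type*} [Field F] (w : RVal F) {p : ℕ} {u c β s f ε : F} {m : ℤ}
    (hu : u ≠ 0) (hf : f ≠ 0) (hc : c ≠ 0) (hε : w.GT (ε - 1) 0)
    (hm : ¬ (p : ℤ) ∣ m) (h : u ^ m * s * f ^ p = c * β * ε) :
    ∃ M : ℕ, ¬ p ∣ M ∧ ∃ f' ε' : F, f' ≠ 0 ∧ w.GT (ε' - 1) 0 ∧
      (u ^ M * s * f' ^ p = c * β * ε' ∨ u ^ M * β * f' ^ p = c⁻¹ * s * ε') := by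
  have hε0 : ε ≠ 0 := (PU.EQ (v := w) hε).ne_zero
  obtain ⟨M, rfl | rfl⟩ := m.eq_nat_or_neg
  · refine ⟨M, fun hd => hm (Int.natCast_dvd_natCast.2 hd), f, ε, hf, hε, Or.inl ?_⟩
    rwa [zpow_natCast] at h
  · refine ⟨M, fun hd => hm ((dvd_neg).2 (Int.natCast_dvd_natCast.2 hd)), f⁻¹, ε⁻¹, inv_ne_zero hf,
      PU.inv (v := w) hε, Or.inr ?_⟩
    rw [zpow_neg, zpow_natCast] at h
    have hM : u ^ M ≠ 0 := pow_ne_zero _ hu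
    have hfp : f ^ p ≠ 0 := pow_ne_zero _ hf
    rw [inv_pow]
    field_simp
    field_simp at h
    linear_combination (-1 : F) * h

section Core

variable (S0 : Setup M1 (q : ℕ) r (AA q)) (b : Bool) (𝔫 : Ideal (Mod.BB S0 b)) [h𝔫 : 𝔫.IsMaximal]
variable {t' : FN (M1 * (q : ℕ))} {F' : Type} [Field F'] [Algebra (FN (M1 * (q : ℕ))) F']
  (C : Cov q M1 S0.hc t' F')

theorem not_dvd_twelve (hq5 : 5 ≤ (q : ℕ)) : ¬ (q : ℕ) ∣ 12 := by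
  intro h
  have hle := Nat.le_of_dvd (by norm_num) h
  have hp := q.2
  generalize (q : ℕ) = p at *
  interval_cases p <;> revert hp h <;> decide

/-- the instance of `Alg.Sheet.pdiv_node` -/
theorem rel_core (hq5 : 5 ≤ (q : ℕ)) (h1 : RingHom.ker (Mod.r1 S0 b) ≤ 𝔫)
    (h2 : RingHom.ker (Mod.r2 S0 b) ≤ 𝔫)
    (D : Alg.Sheet (E := Mod.EE q M1) (Rn S0 b 𝔫) C.Ep ((q : ℕ) : Rn S0 b 𝔫)) (k₁ k₂ : ℕ)
    (hD₁ : C.W₁.GT ((C.δ ^ k₁) (D.e : F') - 1) 0) (hD₂ : C.W₂.GT ((C.δ ^ k₂) (D.e : F') - 1) 0)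
    (z : C.Ep) (hz : z ≠ 0)
    (H : ∀ (V : ValuationSubring C.Ep) (h : C.Ep), (∀ a : C.Ep, IsIntegral (Rn S0 b 𝔫) a → a ∈ V) →
      (algebraMap (Rn S0 b 𝔫) C.Ep ((q : ℕ) : Rn S0 b 𝔫))⁻¹ ∈ V → h ∈ V → h⁻¹ ∉ V →
      (∀ y : C.Ep, y ≠ 0 → ∃ k : ℤ, y * h ^ k ∈ V ∧ (y * h ^ k)⁻¹ ∈ V) →
      ∃ w : C.Ep, w ≠ 0 ∧ z * w ^ (q : ℕ) ∈ V ∧ (z * w ^ (q : ℕ))⁻¹ ∈ V)
    (hcong : ∃ n : ℤ, C.V₂ k₂ (z : F') - C.V₁ k₁ (z : F') = ((q : ℕ) : ℝ) * n) :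
    ∃ (n : ℤ) (g a t : C.Ep) (ra rt : Rn S0 b 𝔫), g ≠ 0 ∧ IsUnit ra ∧ IsUnit rt ∧ t ≠ 0 ∧
      (resV C C.W₁ k₁).GT (a - algebraMap (Rn S0 b 𝔫) C.Ep ra) 0 ∧
      (resV C C.W₁ k₁).GT (t - algebraMap (Rn S0 b 𝔫) C.Ep rt) 0 ∧
      z * algebraMap (Rn S0 b 𝔫) C.Ep ((q : ℕ) : Rn S0 b 𝔫) ^ n * g ^ (q : ℕ) * t = a := by
  have M := Mod.nodalModel S0 b
  have B1 := branch₁ S0 b 𝔫 C h1
  have B2 := branch₂ S0 b 𝔫 C h2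
  haveI := C.finiteDimensional_Ep
  haveI : CharZero (Mod.EE q M1) := inferInstance
  haveI : Algebra.IsSeparable (Mod.EE q M1) C.Ep := inferInstance
  obtain ⟨X, Y, x, x', u, hX, hY, hmX, hmY, hu, hxx, hx1, hx2⟩ := M.node 𝔫 (Rn S0 b 𝔫) h1 h2
  haveI := Alg.isPrime_map_ker 𝔫 (Rn S0 b 𝔫) (Mod.r1 S0 b) h1
  haveI := Alg.isPrime_map_ker 𝔫 (Rn S0 b 𝔫) (Mod.r2 S0 b) h2
  have hinf := M.inf_map 𝔫 (Rn S0 b 𝔫) h1 h2
  rw [map_natCast] at hinf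
  have hq0 : ((q : ℕ) : Rn S0 b 𝔫) ≠ 0 := Nat.cast_ne_zero.mpr q.2.ne_zero
  have tw : IsScalarTower (Rn S0 b 𝔫) (Mod.EE q M1) C.Ep := inferInstance
  have P := @Alg.Sheet.pdiv_node (Rn S0 b 𝔫) _ (Mod.EE q M1) C.Ep _ _ _ _ _ tw _ _ _ _ _ _ _ _ D hq0
  obtain ⟨n, g, a, t, ra, rt, hg, hra, hrt, -, -, hea, het, ht0, hrel⟩ :=
    P hinf
      (X := algebraMap _ (Rn S0 b 𝔫) X) (Y := algebraMap _ (Rn S0 b 𝔫) Y)
      (Ideal.mem_map_of_mem _ hX) (Ideal.mem_map_of_mem _ hY) hmX hmY (m := 12) (by norm_num)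
      (x := algebraMap _ (Rn S0 b 𝔫) x) (x' := algebraMap _ (Rn S0 b 𝔫) x')
      (u := algebraMap _ (Rn S0 b 𝔫) u) (hu.map _)
      (by rw [← map_mul, hxx, map_mul, map_pow, map_natCast])
      (fun h => hx1 ((Alg.mem_map_ker 𝔫 (Rn S0 b 𝔫) (Mod.r1 S0 b) h1 x).1 h))
      (fun h => hx2 ((Alg.mem_map_ker 𝔫 (Rn S0 b 𝔫) (Mod.r2 S0 b) h2 x').1 h))
      q.2 (not_dvd_twelve hq5) z hz H (resV C C.W₁ k₁) (resV C C.W₂ k₂)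
      (B1.hint k₁) (B2.hint k₂) (B1.hϖ k₁) (B2.hϖ k₂) (he_of_PU hD₁) (he_of_PU hD₂)
      (B1.hcc k₁) (B2.hcc k₂) (B1.hZ k₁) (B2.hZ k₂) hcong
  have key : ∀ (a : C.Ep) (ra : Rn S0 b 𝔫),
      D.e * (a - algebraMap (Rn S0 b 𝔫) C.Ep ra) ∈ Alg.JJ (Rn S0 b 𝔫) C.Ep ((q : ℕ) : Rn S0 b 𝔫) →
      (resV C C.W₁ k₁).GT (a - algebraMap (Rn S0 b 𝔫) C.Ep ra) 0 := by
    intro a ra h
    obtain ⟨c, hc, hce⟩ := h
    have e1 : (resV C C.W₁ k₁).GT (D.e * (a - algebraMap (Rn S0 b 𝔫) C.Ep ra)) 0 := by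
      rw [hce]
      have h0 : (resV C C.W₁ k₁).GT (algebraMap (Rn S0 b 𝔫) C.Ep ((q : ℕ) : Rn S0 b 𝔫)) 0 :=
        (B1.hϖ k₁).GT (by norm_num)
      have := h0.mul_GE (B1.hint k₁ c hc)
      rwa [add_zero] at this
    have := RVal.GT.of_mul_eq_left (v := resV C C.W₁ k₁) (x := a - algebraMap (Rn S0 b 𝔫) C.Ep ra)
      (y := D.e) (z := D.e * (a - algebraMap (Rn S0 b 𝔫) C.Ep ra)) (a := 0) (b := 0) (by ring)
      (he_of_PU hD₁) e1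
    simpa using this
  exact ⟨n, g, a, t, ra, rt, hg, hra, hrt, ht0, key a ra hea, key t rt het, hrel⟩

omit [NeZero r] in
theorem δE_pow_coe [NeZero r] (k : ℕ) (x : C.Ep) : (((C.δE ^ k) x : C.Ep) : F') = (C.δ ^ k) (x : F') := by
  induction k generalizing x with
  | zero => rfl
  | succ k ih => rw [pow_succ, pow_succ, AlgEquiv.mul_apply, AlgEquiv.mul_apply, ih, Cov.coe_δE]

theorem unit_Rn_EQ {W : RVal F'} {w : RVal (FN (M1 * (q : ℕ)))}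
    {ρ : Mod.BB S0 b →+* LaurentSeries (kA (AA q))} (B : Branch S0 b 𝔫 C W w ρ)
    {x : Rn S0 b 𝔫} (hx : IsUnit x) :
    ∃ β s : Mod.BB S0 b, β ∉ 𝔫 ∧ s ∉ 𝔫 ∧
      (((x : Mod.EE q M1) : FN (M1 * (q : ℕ)))) * ((s : Mod.EE q M1) : FN (M1 * (q : ℕ))) =
        ((β : Mod.EE q M1) : FN (M1 * (q : ℕ))) ∧
      w.EQ (((x : Mod.EE q M1) : FN (M1 * (q : ℕ)))) 0 := by
  obtain ⟨β, s, hβ, hs, e⟩ := exists_frac_unit_Rn b 𝔫 hx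
  have e' : (((x : Mod.EE q M1) : FN (M1 * (q : ℕ)))) * ((s : Mod.EE q M1) : FN (M1 * (q : ℕ))) =
      ((β : Mod.EE q M1) : FN (M1 * (q : ℕ))) :=
    congrArg (fun y : Rn S0 b 𝔫 => ((y : Mod.EE q M1) : FN (M1 * (q : ℕ)))) e
  refine ⟨β, s, hβ, hs, e', ?_⟩
  have := RVal.EQ.of_mul_eq_left e' (B.eq s (B.not_mem hs)) (B.eq β (B.not_mem hβ))
  simpa using this

/-- `cover_rel` from the outputs of C3 and C4 -/
theorem cover_rel_aux (hq5 : 5 ≤ (q : ℕ)) (h1 : RingHom.ker (Mod.r1 S0 b) ≤ 𝔫)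
    (h2 : RingHom.ker (Mod.r2 S0 b) ≤ 𝔫) {u : FN (M1 * (q : ℕ))}
    (hu : PDiv Kb (FN (M1 * (q : ℕ))) (q : ℕ) u)
    (D : Alg.Sheet (E := Mod.EE q M1) (Rn S0 b 𝔫) C.Ep ((q : ℕ) : Rn S0 b 𝔫)) (hD : D.δ = C.δE)
    {z h : F'} {m : ℤ} {g : FN (M1 * (q : ℕ))} (hzE : z ∈ C.Ep) (hh : h ≠ 0) (hg : g ≠ 0)
    (hm : ¬ ((q : ℕ) : ℤ) ∣ m)
    (hz : z = algebraMap (FN (M1 * (q : ℕ))) F' (u ^ m * g ^ (q : ℕ)) * h ^ (q : ℕ))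
    (hV : ∀ k k' : ℕ, ∃ n : ℤ, C.V₂ k' z - C.V₁ k z = ((q : ℕ) : ℝ) * n) :
    ∃ (M : ℕ) (β s : Mod.BB S0 b) (f ε : FN (M1 * (q : ℕ))) (c : Kb), ¬ (q : ℕ) ∣ M ∧ β ∉ 𝔫 ∧ s ∉ 𝔫 ∧
      f ≠ 0 ∧ c ≠ 0 ∧ (wG q (M1 * (q : ℕ))).GT (ε - 1) 0 ∧
      u ^ M * ((s : Mod.EE q M1) : FN (M1 * (q : ℕ))) * f ^ (q : ℕ) =
        algebraMap Kb (FN (M1 * (q : ℕ))) c * ((β : Mod.EE q M1) : FN (M1 * (q : ℕ))) * ε := by
  have B1 := branch₁ S0 b 𝔫 C h1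
  have B2 := branch₂ S0 b 𝔫 C h2
  have hu0 : u ≠ 0 := hu.1
  have tw : IsScalarTower (Rn S0 b 𝔫) (Mod.EE q M1) C.Ep := inferInstance
  obtain ⟨k₁, hk₁⟩ := @Alg.Sheet.exists_idx (Rn S0 b 𝔫) _ (Mod.EE q M1) C.Ep _ _ _ _ _ tw _ D
    (resV C C.W₁ 0) (B1.hint 0) ((B1.hϖ 0).GT (by norm_num))
  obtain ⟨k₂, hk₂⟩ := @Alg.Sheet.exists_idx (Rn S0 b 𝔫) _ (Mod.EE q M1) C.Ep _ _ _ _ _ tw _ D
    (resV C C.W₂ 0) (B2.hint 0) ((B2.hϖ 0).GT (by norm_num))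
  have hD₁ : C.W₁.GT ((C.δ ^ k₁) (D.e : F') - 1) 0 := by
    rw [hD, resV_GT, pow_zero, AlgEquiv.one_apply] at hk₁
    have e : (((C.δE ^ k₁) D.e - 1 : C.Ep) : F') = (C.δ ^ k₁) (D.e : F') - 1 := by
      rw [← δE_pow_coe S0 C k₁ D.e]; rfl
    rwa [e] at hk₁
  have hD₂ : C.W₂.GT ((C.δ ^ k₂) (D.e : F') - 1) 0 := by
    rw [hD, resV_GT, pow_zero, AlgEquiv.one_apply] at hk₂
    have e : (((C.δE ^ k₂) D.e - 1 : C.Ep) : F') = (C.δ ^ k₂) (D.e : F') - 1 := by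
      rw [← δE_pow_coe S0 C k₂ D.e]; rfl
    rwa [e] at hk₂
  have hz00 : z ≠ 0 := by
    rw [hz]
    exact mul_ne_zero ((map_ne_zero _).2 (mul_ne_zero (zpow_ne_zero _ hu0) (pow_ne_zero _ hg)))
      (pow_ne_zero _ hh)
  have hz0 : (⟨z, hzE⟩ : C.Ep) ≠ 0 := fun h0 => hz00 (congrArg Subtype.val h0)
  have hdiv : ∀ P : @Place Kb F' _ _ (algKbF q M1 F'),
      ((q : ℕ) : ℤ) ∣ @Place.ord Kb F' _ _ (algKbF q M1 F') P z :=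
    fun P => relH_div hu0 hg hh hz P (Cov.dvd_ord hu P)
  obtain ⟨n, g1, a, t, ra, rt, hg1, hra, hrt, ht0, hea, het, hrel⟩ :=
    rel_core S0 b 𝔫 C hq5 h1 h2 D k₁ k₂ hD₁ hD₂ ⟨z, hzE⟩ hz0
      (fun V π x1 x2 x3 x4 x5 => relH S0 C b 𝔫 hz0 hdiv V π x1 x2 x3 x4 x5) (hV k₁ k₂)
  obtain ⟨βa, sa, hβa, hsa, ea, hRA⟩ := unit_Rn_EQ S0 b 𝔫 C B1 hra
  obtain ⟨βt, st, hβt, hst, et, hRT⟩ := unit_Rn_EQ S0 b 𝔫 C B1 hrt
  have hA : C.W₁.GT ((C.δ ^ k₁) (a : F') - algebraMap (FN (M1 * (q : ℕ))) F'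
      (((ra : Mod.EE q M1) : FN (M1 * (q : ℕ))))) 0 := by
    rw [resV_GT] at hea
    have e : (C.δ ^ k₁) ((a - algebraMap (Rn S0 b 𝔫) C.Ep ra : C.Ep) : F') =
        (C.δ ^ k₁) (a : F') - algebraMap (FN (M1 * (q : ℕ))) F'
          (((ra : Mod.EE q M1) : FN (M1 * (q : ℕ)))) := by
      rw [← δ_pow_algE (C := C) k₁ (ra : Mod.EE q M1), ← map_sub]
      rfl
    rwa [e] at hea
  have hT : C.W₁.GT ((C.δ ^ k₁) (t : F') - algebraMap (FN (M1 * (q : ℕ))) F'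
      (((rt : Mod.EE q M1) : FN (M1 * (q : ℕ))))) 0 := by
    rw [resV_GT] at het
    have e : (C.δ ^ k₁) ((t - algebraMap (Rn S0 b 𝔫) C.Ep rt : C.Ep) : F') =
        (C.δ ^ k₁) (t : F') - algebraMap (FN (M1 * (q : ℕ))) F'
          (((rt : Mod.EE q M1) : FN (M1 * (q : ℕ)))) := by
      rw [← δ_pow_algE (C := C) k₁ (rt : Mod.EE q M1), ← map_sub]
      rfl
    rwa [e] at het
  have hg1' : (g1 : F') ≠ 0 := fun h0 => hg1 (Subtype.ext h0)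
  have hY : algebraMap (FN (M1 * (q : ℕ))) F' g * (C.δ ^ k₁) h * (C.δ ^ k₁) (g1 : F') ≠ 0 :=
    mul_ne_zero (mul_ne_zero ((map_ne_zero _).2 hg) ((map_ne_zero _).2 hh)) ((map_ne_zero _).2 hg1')
  have hrel' : algebraMap (FN (M1 * (q : ℕ))) F' (u ^ m) *
      algebraMap (FN (M1 * (q : ℕ))) F' ((q : ℕ) : FN (M1 * (q : ℕ))) ^ n *
      (algebraMap (FN (M1 * (q : ℕ))) F' g * (C.δ ^ k₁) h * (C.δ ^ k₁) (g1 : F')) ^ (q : ℕ) *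
      (C.δ ^ k₁) (t : F') = (C.δ ^ k₁) (a : F') := by
    have e0 := congrArg (fun x : C.Ep => (C.δ ^ k₁) (x : F')) hrel
    have e1 : (((⟨z, hzE⟩ : C.Ep) * algebraMap (Rn S0 b 𝔫) C.Ep ((q : ℕ) : Rn S0 b 𝔫) ^ n *
        g1 ^ (q : ℕ) * t : C.Ep) : F') = z * ((q : ℕ) : F') ^ n * (g1 : F') ^ (q : ℕ) * (t : F') := by
      rw [map_natCast]
      push_cast
      rfl
    simp only [e1] at e0
    rw [← e0, hz]
    simp only [map_mul, map_zpow₀, map_pow, map_natCast, δ_pow_alg]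
    ring
  obtain ⟨f, ε, hf, hε, hfin⟩ := rel_fin C.W₁ (wG q (M1 * (q : ℕ))) C.ext₁ C.dense₁ hY hRA hRT hA hT hrel'
  have hqF : ((q : ℕ) : FN (M1 * (q : ℕ))) ≠ 0 := Nat.cast_ne_zero.mpr q.2.ne_zero
  have hqK : ((q : ℕ) : Kb) ≠ 0 := Nat.cast_ne_zero.mpr q.2.ne_zero
  have hfin2 : u ^ m * (((sa * βt : Mod.BB S0 b) : Mod.EE q M1) : FN (M1 * (q : ℕ))) * f ^ (q : ℕ) =
      algebraMap Kb (FN (M1 * (q : ℕ))) (((q : ℕ) : Kb) ^ (-n)) *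
        (((βa * st : Mod.BB S0 b) : Mod.EE q M1) : FN (M1 * (q : ℕ))) * ε := by
    have c1 : (((sa * βt : Mod.BB S0 b) : Mod.EE q M1) : FN (M1 * (q : ℕ))) =
        ((sa : Mod.EE q M1) : FN (M1 * (q : ℕ))) * ((βt : Mod.EE q M1) : FN (M1 * (q : ℕ))) := rfl
    have c2 : (((βa * st : Mod.BB S0 b) : Mod.EE q M1) : FN (M1 * (q : ℕ))) =
        ((βa : Mod.EE q M1) : FN (M1 * (q : ℕ))) * ((st : Mod.EE q M1) : FN (M1 * (q : ℕ))) := rfl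
    rw [c1, c2, ← ea, ← et, map_zpow₀, map_natCast, zpow_neg]
    have hqn : ((q : ℕ) : FN (M1 * (q : ℕ))) ^ n ≠ 0 := zpow_ne_zero _ hqF
    field_simp
    linear_combination ((sa : Mod.EE q M1) : FN (M1 * (q : ℕ))) * ((st : Mod.EE q M1) : FN (M1 * (q : ℕ))) * hfin
  have hprime := h𝔫.isPrime
  have hs' : sa * βt ∉ 𝔫 := fun h0 => (hprime.mem_or_mem h0).elim hsa hβt
  have hβ' : βa * st ∉ 𝔫 := fun h0 => (hprime.mem_or_mem h0).elim hβa hst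
  have hc0 : ((q : ℕ) : Kb) ^ (-n) ≠ 0 := zpow_ne_zero _ hqK
  obtain ⟨M, hM, f', ε', hf', hε', hor⟩ := rel_sign (wG q (M1 * (q : ℕ))) hu0 hf
    ((map_ne_zero (algebraMap Kb (FN (M1 * (q : ℕ))))).2 hc0) hε hm hfin2
  rcases hor with e | e
  · exact ⟨M, _, _, f', ε', _, hM, hβ', hs', hf', hc0, hε', e⟩
  · refine ⟨M, _, _, f', ε', (((q : ℕ) : Kb) ^ (-n))⁻¹, hM, hs', hβ', hf', inv_ne_zero hc0, hε', ?_⟩
    rw [map_inv₀]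
    exact e

end Core

end Fermat.Agent.S44.Cov
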