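import Fermat.Agent.S44.Geo.Cov.Gen
import Fermat.Agent.S44.Geo.Cov.Root
import Fermat.Agent.S44.Geo.Cov.H90G
import Fermat.Agent.S44.Geo.Cov.KumVal

/-!
# S44 / GEO / COVER : C4 = H90 + TR + EISC, abstractly over `C : Cov`          (helper22)

`tr_main` : `u ∈ F` with `σ u ~ u t^k(σ)`, NOT très ramifiée, leading coefficients at the two cusps normalised (EIS-UPFRONT).  Then there is `h ∈ F'ˣ` with `z = u h^p ∈ E' = F'^I` and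
all the numbers `W₁ (δ^k z)` are congruent mod `p`, all `W₂ (δ^k z)` too, all `w (lc₁ (δ^k z))`, `w (lc₂ (δ^k z))` are congruent mod `p` to each other.
-/

set_option autoImplicit false
set_option synthInstance.maxHeartbeats 400000
set_option linter.dupNamespace false
set_option linter.unusedSectionVars false
set_option linter.unusedVariables false

open HahnSeries ModularCurve AlgebraicCurve Fermat.Agent.S24 Fermat.Agent.S29 Fermat.Agent.S18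
  Fermat.Agent.ES Fermat.Agent.ES.Alg Fermat.Agent.S34.Mod Fermat.Agent.S05 Fermat.Agent.S55.B ExtCitation
  Fermat.Agent.S33
open Fermat.Agent.S55 (Dq Iq)

noncomputable section

namespace Fermat.Agent.S44.Cov

variable {q : Nat.Primes} {M1 : ℕ} [NeZero M1] [NeZero (q : ℕ)]
variable {hc : Nat.Coprime (q : ℕ) M1} {t : FN (M1 * (q : ℕ))} {F' : Type} [Field F']
  [Algebra (FN (M1 * (q : ℕ))) F']

local notation "al" => algebraMap (FN (M1 * (q : ℕ))) F'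
local notation "kc" => Cov.cstHom q M1 F'

/-- the hypotheses on `u` -/
structure UHyp (q : Nat.Primes) (M1 : ℕ) [NeZero M1] [NeZero (q : ℕ)] (hc : Nat.Coprime (q : ℕ) M1)
    (t u : FN (M1 * (q : ℕ))) : Prop where
  ne : u ≠ 0
  t_ne : t ≠ 0
  act : ∀ σ ∈ Iq q, ∃ k : ℕ, PEq (q : ℕ) (gal (M1 * (q : ℕ)) σ u) (u * t ^ k)
  ntr : ∀ ζ c0 : Qb, IsPrimitiveRoot ζ (q : ℕ) → c0 ≠ 0 →
    (∀ σ ∈ Iq q, σ ζ = ζ → σ (c0 ^ (q : ℕ)) = c0 ^ (q : ℕ)) →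
    (∀ σ ∈ Iq q, σ ζ = ζ → (σ c0 = c0 ↔ PEq (q : ℕ) (gal (M1 * (q : ℕ)) σ u) u)) →
    ∃ y : Qb, y ≠ 0 ∧ (∀ σ ∈ Iq q, σ ζ = ζ → σ y = y) ∧ (wq q).w y = (wq q).w c0
  lc0 : lcF (M1 * (q : ℕ)) (Wq hc u) = lcF (M1 * (q : ℕ)) u ∨
    lcF (M1 * (q : ℕ)) (Wq hc u) = - lcF (M1 * (q : ℕ)) u
  lcg : ∀ σ ∈ Iq q, ∀ g : FN (M1 * (q : ℕ)), gal (M1 * (q : ℕ)) σ u = u * g ^ (q : ℕ) →
    lcF (M1 * (q : ℕ)) (Wq hc g) = lcF (M1 * (q : ℕ)) g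

namespace Cov

variable (C : Cov q M1 hc t F')

theorem kc_apply (a : Kb) : kc a = al (algebraMap Kb (FN (M1 * (q : ℕ))) a) := rfl

theorem lc₁_alg (x : FN (M1 * (q : ℕ))) : C.lc₁ (al x) = lcF (M1 * (q : ℕ)) x := by
  show (C.ι₁ (al x)).leadingCoeff = _
  rw [C.ι₁_alg]; rfl

theorem lc₂_alg (x : FN (M1 * (q : ℕ))) : C.lc₂ (al x) = lcF (M1 * (q : ℕ)) (Wq hc x) := by
  show (C.ι₂ (al x)).leadingCoeff = _
  rw [C.ι₂_alg]; rfl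

theorem lc₁_kc (a : Kb) : C.lc₁ (kc a) = a := by
  rw [kc_apply, C.lc₁_alg, lcF_algebraMap]

theorem lc₂_kc (a : Kb) : C.lc₂ (kc a) = a := by
  rw [kc_apply, C.lc₂_alg, (Wq hc).commutes, lcF_algebraMap]

theorem lc₁_act (σ : ↥(Iq q)) (x : F') : C.lc₁ (C.act σ x) = (σ : GQ) (C.lc₁ x) := by
  show (C.ι₁ (C.act σ x)).leadingCoeff = _
  rw [C.ι₁_act, leadingCoeff_coeffMap]; rfl

theorem lc₂_act (σ : ↥(Iq q)) (x : F') : C.lc₂ (C.act σ x) = (σ : GQ) (C.lc₂ x) := by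
  show (C.ι₂ (C.act σ x)).leadingCoeff = _
  rw [C.ι₂_act, leadingCoeff_coeffMap]; rfl

theorem δ_kc (a : Kb) : C.δ (kc a) = kc a := by
  rw [kc_apply, C.δ.commutes]

theorem δ_pow_act (k : ℕ) (σ : ↥(Iq q)) (x : F') : (C.δ ^ k) (C.act σ x) = C.act σ ((C.δ ^ k) x) := by
  induction k generalizing x with
  | zero => simp
  | succ k ih => rw [pow_succ, AlgEquiv.mul_apply, AlgEquiv.mul_apply, C.δ_act, ih]

theorem W₁_kc {a : Kb} (ha : a ≠ 0) : C.W₁.w (kc a) = (wq q).w a := by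
  rw [kc_apply, C.ext₁ _ (by simpa using ha), wG_algebraMap ha]

theorem W₂_kc {a : Kb} (ha : a ≠ 0) : C.W₂.w (kc a) = (wq q).w a := by
  rw [kc_apply, C.ext₂ _ (by simpa using ha), wZ_apply, (Wq hc).commutes, wG_algebraMap ha]

/-- the `p`-th roots of unity of `F'` are constants -/
theorem root_const {x : F'} (hx : x ^ (q : ℕ) = 1) : ∃ μ : Kb, μ ^ (q : ℕ) = 1 ∧ x = kc μ := by
  obtain ⟨ζ, hζ⟩ := cycAux_exists_prim (q := q)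
  have hζF : IsPrimitiveRoot (kc ζ) (q : ℕ) := hζ.map_of_injective (kc).injective
  haveI : NeZero (q : ℕ) := ⟨q.2.ne_zero⟩
  obtain ⟨i, -, hi⟩ := hζF.eq_pow_of_pow_eq_one hx
  refine ⟨ζ ^ i, by rw [← pow_mul, mul_comm, pow_mul, hζ.pow_eq_one, one_pow], ?_⟩
  rw [map_pow, hi]

/-- `x^p = y^p`, `y ≠ 0` -/
theorem eq_const_mul {x y : F'} (hy : y ≠ 0) (h : x ^ (q : ℕ) = y ^ (q : ℕ)) :
    ∃ μ : Kb, μ ^ (q : ℕ) = 1 ∧ x = kc μ * y := by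
  obtain ⟨μ, hμ, e⟩ := root_const (q := q) (M1 := M1) (x := x / y)
    (by rw [div_pow, h, div_self (pow_ne_zero _ hy)])
  exact ⟨μ, hμ, by rw [← e, div_mul_cancel₀ _ hy]⟩

theorem w_int_lc₁ {g : F'} (hg : g ∈ C.Ep) (hg0 : g ≠ 0) : ∃ n : ℤ, (wq q).w (C.lc₁ g) = n :=
  w_int_of_fixed q (fun σ hσ => by
    have := C.lc₁_act ⟨σ, hσ⟩ g
    rw [hg ⟨σ, hσ⟩] at this
    exact this.symm) ((map_ne_zero _).2 hg0)

theorem w_int_lc₂ {g : F'} (hg : g ∈ C.Ep) (hg0 : g ≠ 0) : ∃ n : ℤ, (wq q).w (C.lc₂ g) = n :=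
  w_int_of_fixed q (fun σ hσ => by
    have := C.lc₂_act ⟨σ, hσ⟩ g
    rw [hg ⟨σ, hσ⟩] at this
    exact this.symm) ((map_ne_zero _).2 hg0)


/-- the action of `I` on `Kb` -/
def rhoI (q : Nat.Primes) : ↥(Iq q) →* (Kb ≃+* Kb) where
  toFun σ := ((σ : GQ) : Kb ≃ₐ[ℚ] Kb).toRingEquiv
  map_one' := rfl
  map_mul' _ _ := rfl

variable {u : FN (M1 * (q : ℕ))}

theorem y_ne (ht : t ≠ 0) : C.y ≠ 0 := by
  intro h
  have := C.y_pow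
  rw [h, zero_pow q.2.ne_zero] at this
  exact ht ((map_eq_zero _).1 this.symm)

theorem act_u_eq {σ : ↥(Iq q)} {k : ℕ} {g : FN (M1 * (q : ℕ))}
    (h : gal (M1 * (q : ℕ)) (σ : GQ) u = u * t ^ k * g ^ (q : ℕ)) :
    C.act σ (al u) = al u * (C.y ^ k * al g) ^ (q : ℕ) := by
  rw [C.act_alg, h, map_mul, map_mul, map_pow, map_pow, mul_pow, ← pow_mul, mul_comm k, pow_mul,
    C.y_pow, mul_assoc]

/-- **H90** -/
theorem exists_h (H : UHyp q M1 hc t u) : ∃ h : F', h ≠ 0 ∧ al u * h ^ (q : ℕ) ∈ C.Ep := by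
  letI : Algebra Kb F' := (kc).toAlgebra
  obtain ⟨g, hg, h⟩ := h90_grp (Ω := Kb) (F := F') (rhoI q) C.act (fun σ c => C.act_cst σ c) C.lc₁
    C.lc₁_kc (fun σ x => C.lc₁_act σ x)
    (fun x => by
      obtain ⟨θ, hθ⟩ := C.lev x
      exact ⟨θ, hθ, (h90Aux_finite_orbit (Iq q) θ).subset (by
        rintro _ ⟨σ, rfl⟩; exact ⟨σ, σ.2, rfl⟩)⟩)
    q.2.pos (al u) (by simpa using H.ne)
    (fun σ => by
      obtain ⟨k, g, hg⟩ := H.act σ σ.2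
      exact ⟨_, C.act_u_eq hg⟩)
  exact ⟨g, hg, h⟩

theorem act_h (hu : u ≠ 0) {h : F'} (hh : h ≠ 0) (hz : al u * h ^ (q : ℕ) ∈ C.Ep) {σ : ↥(Iq q)} {k : ℕ}
    {g : FN (M1 * (q : ℕ))} (hg : gal (M1 * (q : ℕ)) (σ : GQ) u = u * t ^ k * g ^ (q : ℕ)) :
    ∃ ν : Kb, ν ^ (q : ℕ) = 1 ∧ C.act σ h * (C.y ^ k * al g) = kc ν * h := by
  apply eq_const_mul hh
  have h1 := hz σ
  rw [map_mul, map_pow, C.act_u_eq hg] at h1
  have hu' : al u ≠ 0 := by simpa using hu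
  apply mul_left_cancel₀ hu'
  rw [← h1]; ring

theorem g_ne (hu : u ≠ 0) {σ : GQ} {k : ℕ} {g : FN (M1 * (q : ℕ))}
    (hg : gal (M1 * (q : ℕ)) σ u = u * t ^ k * g ^ (q : ℕ)) : g ≠ 0 := by
  rintro rfl
  rw [zero_pow q.2.ne_zero, mul_zero] at hg
  exact hu ((map_eq_zero_iff _ (gal (M1 * (q : ℕ)) σ).injective).1 hg)

theorem act_beta (hu : u ≠ 0) (ht : t ≠ 0) {h : F'} (hh : h ≠ 0) (hz : al u * h ^ (q : ℕ) ∈ C.Ep)
    {σ : ↥(Iq q)} {k : ℕ} {g : FN (M1 * (q : ℕ))}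
    (hg : gal (M1 * (q : ℕ)) (σ : GQ) u = u * t ^ k * g ^ (q : ℕ)) :
    C.act σ (C.δ h / h) * kc (C.ζ ^ k) = C.δ h / h := by
  obtain ⟨ν, hν, e1⟩ := C.act_h hu hh hz hg
  have hν0 : kc ν ≠ 0 := by
    rw [Ne, map_eq_zero]
    rintro rfl
    rw [zero_pow q.2.ne_zero] at hν
    exact zero_ne_one hν
  have ha : C.y ^ k * al g ≠ 0 :=
    mul_ne_zero (pow_ne_zero _ (C.y_ne ht)) (by simpa using g_ne hu hg)
  have e2 := congrArg C.δ e1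
  rw [map_mul, map_mul, map_mul, map_pow, C.δ_act, C.δ_y, C.δ.commutes, C.δ_kc, ← kc_apply, mul_pow,
    ← map_pow] at e2
  have hX : C.act σ h ≠ 0 := by simpa using hh
  rw [map_div₀, div_mul_eq_mul_div, div_eq_div_iff hX hh]
  apply mul_right_cancel₀ (mul_ne_zero ha hν0)
  linear_combination (kc ν * h) * e2 - (kc ν * C.δ h) * e1


/-- **TR**, first half : `δ z = z (c₀ g₁)^p`, `g₁ ∈ E'`, `σ c₀ = ζ^(-k(σ)) c₀` -/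
theorem exists_c0 (hu : u ≠ 0) (ht : t ≠ 0) {h : F'} (hh : h ≠ 0) (hz : al u * h ^ (q : ℕ) ∈ C.Ep)
    (hact : ∀ σ ∈ Iq q, ∃ k : ℕ, PEq (q : ℕ) (gal (M1 * (q : ℕ)) σ u) (u * t ^ k)) :
    ∃ (c0 : Kb) (g1 : F'), c0 ≠ 0 ∧ g1 ≠ 0 ∧ g1 ∈ C.Ep ∧
      C.δ (al u * h ^ (q : ℕ)) = al u * h ^ (q : ℕ) * (kc c0 * g1) ^ (q : ℕ) ∧
      ∀ (σ : ↥(Iq q)) (k : ℕ) (g : FN (M1 * (q : ℕ))),
        gal (M1 * (q : ℕ)) (σ : GQ) u = u * t ^ k * g ^ (q : ℕ) → (σ : GQ) c0 * C.ζ ^ k = c0 := by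
  have hδh : C.δ h ≠ 0 := by simpa using hh
  have hβ : C.δ h / h ≠ 0 := div_ne_zero hδh hh
  have hc0 : C.lc₁ (C.δ h / h) ≠ 0 := (map_ne_zero _).2 hβ
  have hkc0 : kc (C.lc₁ (C.δ h / h)) ≠ 0 := by rw [Ne, map_eq_zero]; exact hc0
  have key : ∀ (σ : ↥(Iq q)) (k : ℕ) (g : FN (M1 * (q : ℕ))),
      gal (M1 * (q : ℕ)) (σ : GQ) u = u * t ^ k * g ^ (q : ℕ) →
        (σ : GQ) (C.lc₁ (C.δ h / h)) * C.ζ ^ k = C.lc₁ (C.δ h / h) := by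
    intro σ k g hg
    have := congrArg C.lc₁ (C.act_beta hu ht hh hz hg)
    rwa [map_mul, C.lc₁_act, C.lc₁_kc] at this
  refine ⟨C.lc₁ (C.δ h / h), (C.δ h / h) / kc (C.lc₁ (C.δ h / h)), hc0, div_ne_zero hβ hkc0, ?_, ?_, key⟩
  · intro σ
    obtain ⟨k, g, hg⟩ := hact σ σ.2
    have e1 := C.act_beta hu ht hh hz hg
    have e2 := key σ k g hg
    have hζk : C.ζ ^ k ≠ 0 := by
      intro h0
      rw [h0, mul_zero] at e2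
      exact hc0 e2.symm
    have hσc : kc ((σ : GQ) (C.lc₁ (C.δ h / h))) ≠ 0 := by
      rw [Ne, map_eq_zero, map_eq_zero]; exact hc0
    rw [map_div₀, C.act_cst, div_eq_div_iff hσc hkc0]
    have e2' : kc ((σ : GQ) (C.lc₁ (C.δ h / h))) * kc (C.ζ ^ k) = kc (C.lc₁ (C.δ h / h)) := by
      rw [← map_mul, e2]
    linear_combination (kc ((σ : GQ) (C.lc₁ (C.δ h / h)))) * e1 - (C.act σ (C.δ h / h)) * e2'
  · rw [mul_div_cancel₀ _ hkc0, map_mul, map_pow, C.δ.commutes, div_pow]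
    field_simp

/-- iterating `δ` -/
theorem δ_pow_z {z : F'} {c0 : Kb} {g1 : F'} (hg1 : g1 ∈ C.Ep) (hg10 : g1 ≠ 0)
    (hδ : C.δ z = z * (kc c0 * g1) ^ (q : ℕ)) (k : ℕ) :
    ∃ g : F', g ∈ C.Ep ∧ g ≠ 0 ∧ (C.δ ^ k) z = z * (kc (c0 ^ k) * g) ^ (q : ℕ) := by
  induction k with
  | zero => exact ⟨1, C.Ep.one_mem, one_ne_zero, by simp⟩
  | succ k ih =>
    obtain ⟨g, hg, hg0, e⟩ := ih
    refine ⟨g1 * C.δ g, C.Ep.mul_mem hg1 (C.δ_mem_Ep hg), mul_ne_zero hg10 (by simpa using hg0), ?_⟩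
    rw [pow_succ', AlgEquiv.mul_apply, e, map_mul, map_pow, map_mul, C.δ_kc, hδ, pow_succ, map_mul]
    ring


theorem ζk_of_fixed {c0 : Kb} (hc0 : c0 ≠ 0) {σ : GQ} {k : ℕ} (e : σ c0 * C.ζ ^ k = c0) (h1 : σ c0 = c0) :
    C.ζ ^ k = 1 := by
  rw [h1] at e
  exact mul_left_cancel₀ hc0 (e.trans (mul_one c0).symm)

/-- **TR**, second half : NOT très ramifiée ⟹ `w c₀ ∈ ℤ` -/
theorem w_c0_int (H : UHyp q M1 hc t u) {c0 : Kb} (hc0 : c0 ≠ 0)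
    (key : ∀ (σ : ↥(Iq q)) (k : ℕ) (g : FN (M1 * (q : ℕ))),
      gal (M1 * (q : ℕ)) (σ : GQ) u = u * t ^ k * g ^ (q : ℕ) → (σ : GQ) c0 * C.ζ ^ k = c0) :
    (∀ σ ∈ Iq q, (σ c0 / c0) ^ (q : ℕ) = 1) ∧ ∃ n : ℤ, (wq q).w c0 = n := by
  obtain ⟨ζ', hζ'⟩ := cycAux_exists_prim (q := q)
  have hpow : ∀ σ ∈ Iq q, σ (c0 ^ (q : ℕ)) = c0 ^ (q : ℕ) := by
    intro σ hσ
    obtain ⟨k, g, hg⟩ := H.act σ hσ
    have e : σ c0 * C.ζ ^ k = c0 := key ⟨σ, hσ⟩ k g hg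
    have h2 : (σ c0 * C.ζ ^ k) ^ (q : ℕ) = c0 ^ (q : ℕ) := by rw [e]
    rw [mul_pow, ← pow_mul, mul_comm k, pow_mul, C.ζ_pow, one_pow, mul_one] at h2
    rw [map_pow]; exact h2
  have hiff : ∀ σ ∈ Iq q, (σ c0 = c0 ↔ PEq (q : ℕ) (gal (M1 * (q : ℕ)) σ u) u) := by
    intro σ hσ
    obtain ⟨k, g, hg⟩ := H.act σ hσ
    have e : σ c0 * C.ζ ^ k = c0 := key ⟨σ, hσ⟩ k g hg
    have hg0 := g_ne H.ne hg
    constructor
    · intro h1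
      obtain ⟨g', hg'⟩ := (C.ζ_iff k).1 (C.ζk_of_fixed hc0 e h1)
      exact ⟨g' * g, by rw [hg, hg', mul_pow, mul_assoc]⟩
    · rintro ⟨h', hh'⟩
      have h3 : t ^ k = (h' / g) ^ (q : ℕ) := by
        have h4 : u * t ^ k * g ^ (q : ℕ) = u * h' ^ (q : ℕ) := hg.symm.trans hh'
        rw [div_pow, eq_div_iff (pow_ne_zero _ hg0)]
        exact mul_left_cancel₀ H.ne (by rw [← mul_assoc]; exact h4)
      have h2 := (C.ζ_iff k).2 ⟨_, h3⟩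
      rw [h2, mul_one] at e; exact e
  refine ⟨fun σ hσ => ?_, ?_⟩
  · rw [div_pow, ← map_pow, hpow σ hσ, div_self (pow_ne_zero _ hc0)]
  · obtain ⟨y, hy0, hyf, hyw⟩ := H.ntr ζ' c0 hζ' hc0 (fun σ hσ _ => hpow σ hσ) (fun σ hσ _ => hiff σ hσ)
    exact w_int_of_pow_fixed q hζ' hc0 hy0 hpow hyf hyw

/-- **EISC** -/
theorem w_d_int (H : UHyp q M1 hc t u) {h : F'} (hh : h ≠ 0) (hz : al u * h ^ (q : ℕ) ∈ C.Ep)
    {c0 : Kb} (hc0 : c0 ≠ 0)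
    (key : ∀ (σ : ↥(Iq q)) (k : ℕ) (g : FN (M1 * (q : ℕ))),
      gal (M1 * (q : ℕ)) (σ : GQ) u = u * t ^ k * g ^ (q : ℕ) → (σ : GQ) c0 * C.ζ ^ k = c0) :
    ∃ n : ℤ, (wq q).w (C.lc₂ h / C.lc₁ h) = n := by
  obtain ⟨hc0p, hw⟩ := C.w_c0_int H hc0 key
  have hl1 : C.lc₁ h ≠ 0 := (map_ne_zero _).2 hh
  have hl2 : C.lc₂ h ≠ 0 := (map_ne_zero _).2 hh
  have hu1 : lcF (M1 * (q : ℕ)) u ≠ 0 := (map_ne_zero _).2 H.ne
  have hu2 : lcF (M1 * (q : ℕ)) (Wq hc u) ≠ 0 :=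
    (map_ne_zero _).2 ((map_ne_zero_iff _ (Wq hc).injective).2 H.ne)
  -- the basic relation
  have base : ∀ σ ∈ Iq q, ∀ (k : ℕ) (g : FN (M1 * (q : ℕ))),
      gal (M1 * (q : ℕ)) σ u = u * t ^ k * g ^ (q : ℕ) →
      C.lc₁ (C.y ^ k * al g) ≠ 0 ∧ C.lc₂ (C.y ^ k * al g) ≠ 0 ∧
      σ (C.lc₂ h / C.lc₁ h) / (C.lc₂ h / C.lc₁ h) = C.lc₁ (C.y ^ k * al g) / C.lc₂ (C.y ^ k * al g) := by
    intro σ hσ k g hg
    obtain ⟨ν, hν, e1⟩ := C.act_h (σ := ⟨σ, hσ⟩) H.ne hh hz hg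
    have ha : C.y ^ k * al g ≠ 0 :=
      mul_ne_zero (pow_ne_zero _ (C.y_ne H.t_ne)) (by simpa using g_ne H.ne hg)
    have hA1 : C.lc₁ (C.y ^ k * al g) ≠ 0 := (map_ne_zero _).2 ha
    have hA2 : C.lc₂ (C.y ^ k * al g) ≠ 0 := (map_ne_zero _).2 ha
    have E1 := congrArg C.lc₁ e1
    have E2 := congrArg C.lc₂ e1
    rw [map_mul, C.lc₁_act, map_mul (C.lc₁) (kc ν), C.lc₁_kc] at E1
    rw [map_mul, C.lc₂_act, map_mul (C.lc₂) (kc ν), C.lc₂_kc] at E2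
    refine ⟨hA1, hA2, ?_⟩
    have hs1 : σ (C.lc₁ h) ≠ 0 := by simpa using hl1
    rw [map_div₀, div_div_div_eq, div_eq_div_iff (mul_ne_zero hs1 hl2) hA2]
    change σ (C.lc₁ h) * _ = _ at E1
    change σ (C.lc₂ h) * _ = _ at E2
    linear_combination (C.lc₁ h) * E2 - (C.lc₂ h) * E1
  refine w_int_of_kummer q hc0 (div_ne_zero hl2 hl1) hc0p ?_ ?_ hw
  · intro σ hσ
    obtain ⟨k, g, hg⟩ := H.act σ hσ
    obtain ⟨hA1, hA2, e⟩ := base σ hσ k g hg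
    rw [e, div_pow, ← map_pow, ← map_pow, div_eq_one_iff_eq (by rw [map_pow]; exact pow_ne_zero _ hA2)]
    have e3 : (C.y ^ k * al g) ^ (q : ℕ) = al (t ^ k * g ^ (q : ℕ)) := by
      rw [map_mul, map_pow, map_pow, mul_pow, ← pow_mul, mul_comm k, pow_mul, C.y_pow]
    rw [e3, C.lc₁_alg, C.lc₂_alg]
    have f1 : lcF (M1 * (q : ℕ)) u * lcF (M1 * (q : ℕ)) (t ^ k * g ^ (q : ℕ)) =
        σ (lcF (M1 * (q : ℕ)) u) := by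
      rw [← map_mul, ← mul_assoc, ← hg, lcF_gal]
    have f2 : lcF (M1 * (q : ℕ)) (Wq hc u) * lcF (M1 * (q : ℕ)) (Wq hc (t ^ k * g ^ (q : ℕ))) =
        σ (lcF (M1 * (q : ℕ)) (Wq hc u)) := by
      rw [← map_mul, ← map_mul, ← mul_assoc, ← hg, ← gal_Wq q.2, lcF_gal]
    rcases H.lc0 with h0 | h0
    · rw [h0] at f2
      exact mul_left_cancel₀ hu1 (f1.trans f2.symm)
    · rw [h0, map_neg] at f2
      apply mul_left_cancel₀ hu1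
      linear_combination f1 + f2
  · intro σ hσ h1
    obtain ⟨k, g, hg⟩ := H.act σ hσ
    obtain ⟨hA1, hA2, e⟩ := base σ hσ k g hg
    have e0 : σ c0 * C.ζ ^ k = c0 := key ⟨σ, hσ⟩ k g hg
    obtain ⟨g', hg'⟩ := (C.ζ_iff k).1 (C.ζk_of_fixed hc0 e0 h1)
    have hg'0 : g' ≠ 0 := by
      rintro rfl
      rw [zero_pow q.2.ne_zero] at hg'
      exact pow_ne_zero k H.t_ne hg'
    obtain ⟨μ, hμ, ey⟩ := eq_const_mul (q := q) (M1 := M1) (x := C.y ^ k) (y := al g')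
      (by simpa using hg'0)
      (by rw [← pow_mul, mul_comm k, pow_mul, C.y_pow, ← map_pow, ← map_pow, hg'])
    have e4 : C.lc₁ (C.y ^ k * al g) = C.lc₂ (C.y ^ k * al g) := by
      have e5 : C.y ^ k * al g = kc μ * al (g' * g) := by rw [ey, map_mul, mul_assoc]
      rw [e5, map_mul C.lc₁, map_mul C.lc₂, C.lc₁_kc, C.lc₂_kc, C.lc₁_alg, C.lc₂_alg,
        H.lcg σ hσ (g' * g) (by rw [hg, hg', mul_pow, mul_assoc])]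
    rw [e4, div_self hA2] at e
    exact (div_eq_one_iff_eq (div_ne_zero hl2 hl1)).1 e


theorem lam_pow (lam : F' → ℝ) (hm : ∀ x y : F', x ≠ 0 → y ≠ 0 → lam (x * y) = lam x + lam y) {x : F'}
    (hx : x ≠ 0) (n : ℕ) : lam (x ^ n) = n * lam x := by
  have h1 : lam 1 = 0 := by
    have := hm 1 1 one_ne_zero one_ne_zero
    rw [mul_one] at this
    linarith
  induction n with
  | zero => simp [h1]
  | succ n ih => rw [pow_succ, hm _ _ (pow_ne_zero n hx) hx, ih]; push_cast; ring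

theorem cong_aux (lam : F' → ℝ) (hm : ∀ x y : F', x ≠ 0 → y ≠ 0 → lam (x * y) = lam x + lam y)
    (hk : ∀ a : Kb, a ≠ 0 → lam (kc a) = (wq q).w a)
    (hint : ∀ g ∈ C.Ep, g ≠ 0 → ∃ n : ℤ, lam g = n) {c0 : Kb} (hc0 : c0 ≠ 0)
    (hw : ∃ n : ℤ, (wq q).w c0 = n) {z g : F'} (hz0 : z ≠ 0) (hg : g ∈ C.Ep) (hg0 : g ≠ 0) (k : ℕ) :
    ∃ n : ℤ, lam (z * (kc (c0 ^ k) * g) ^ (q : ℕ)) - lam z = ((q : ℕ) : ℝ) * n := by
  obtain ⟨n1, hn1⟩ := hw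
  obtain ⟨n2, hn2⟩ := hint g hg hg0
  have hck : c0 ^ k ≠ 0 := pow_ne_zero k hc0
  have hkk : kc (c0 ^ k) ≠ 0 := by rw [Ne, map_eq_zero]; exact hck
  refine ⟨k * n1 + n2, ?_⟩
  rw [hm _ _ hz0 (pow_ne_zero _ (mul_ne_zero hkk hg0)), lam_pow lam hm (mul_ne_zero hkk hg0),
    hm _ _ hkk hg0, hk _ hck, RVal.w_pow hc0, hn1, hn2]
  push_cast
  ring

/-- **C4** -/
theorem tr_main (H : UHyp q M1 hc t u) :
    ∃ h : F', h ≠ 0 ∧ al u * h ^ (q : ℕ) ∈ C.Ep ∧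
      (∀ k : ℕ, ∃ n : ℤ, C.V₁ k (al u * h ^ (q : ℕ)) - C.W₁.w (al u * h ^ (q : ℕ)) = ((q : ℕ) : ℝ) * n) ∧
      (∀ k : ℕ, ∃ n : ℤ, C.V₂ k (al u * h ^ (q : ℕ)) - C.W₂.w (al u * h ^ (q : ℕ)) = ((q : ℕ) : ℝ) * n) ∧
      (∀ k : ℕ, ∃ n : ℤ, (wq q).w (C.lc₁ ((C.δ ^ k) (al u * h ^ (q : ℕ)))) -
        (wq q).w (C.lc₁ (al u * h ^ (q : ℕ))) = ((q : ℕ) : ℝ) * n) ∧
      (∀ k : ℕ, ∃ n : ℤ, (wq q).w (C.lc₂ ((C.δ ^ k) (al u * h ^ (q : ℕ)))) -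
        (wq q).w (C.lc₂ (al u * h ^ (q : ℕ))) = ((q : ℕ) : ℝ) * n) ∧
      ∃ n : ℤ, (wq q).w (C.lc₂ (al u * h ^ (q : ℕ))) - (wq q).w (C.lc₁ (al u * h ^ (q : ℕ))) =
        ((q : ℕ) : ℝ) * n := by
  obtain ⟨h, hh, hz⟩ := C.exists_h H
  obtain ⟨c0, g1, hc0, hg10, hg1, hδ, key⟩ := C.exists_c0 H.ne H.t_ne hh hz H.act
  obtain ⟨-, hw⟩ := C.w_c0_int H hc0 key
  obtain ⟨nd, hnd⟩ := C.w_d_int H hh hz hc0 key
  have hu' : al u ≠ 0 := by simpa using H.ne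
  have hz0 : al u * h ^ (q : ℕ) ≠ 0 := mul_ne_zero hu' (pow_ne_zero _ hh)
  have hl1 : C.lc₁ h ≠ 0 := (map_ne_zero _).2 hh
  have hl2 : C.lc₂ h ≠ 0 := (map_ne_zero _).2 hh
  have hu1 : lcF (M1 * (q : ℕ)) u ≠ 0 := (map_ne_zero _).2 H.ne
  refine ⟨h, hh, hz, fun k => ?_, fun k => ?_, fun k => ?_, fun k => ?_, ?_⟩
  · obtain ⟨g, hg, hg0, e⟩ := C.δ_pow_z hg1 hg10 hδ k
    rw [V₁, e]
    exact C.cong_aux C.W₁.w C.W₁.map_mul (fun a ha => C.W₁_kc ha) (fun g hg hg0 => C.int₁ g hg0 hg) hc0 hw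
      hz0 hg hg0 k
  · obtain ⟨g, hg, hg0, e⟩ := C.δ_pow_z hg1 hg10 hδ k
    rw [V₂, e]
    exact C.cong_aux C.W₂.w C.W₂.map_mul (fun a ha => C.W₂_kc ha) (fun g hg hg0 => C.int₂ g hg0 hg) hc0 hw
      hz0 hg hg0 k
  · obtain ⟨g, hg, hg0, e⟩ := C.δ_pow_z hg1 hg10 hδ k
    rw [e]
    exact C.cong_aux (fun x => (wq q).w (C.lc₁ x))
      (fun x y hx hy => by
        show (wq q).w (C.lc₁ (x * y)) = _
        rw [map_mul, (wq q).map_mul _ _ ((map_ne_zero _).2 hx) ((map_ne_zero _).2 hy)])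
      (fun a ha => by show (wq q).w (C.lc₁ (kc a)) = _; rw [C.lc₁_kc])
      (fun g hg hg0 => C.w_int_lc₁ hg hg0) hc0 hw hz0 hg hg0 k
  · obtain ⟨g, hg, hg0, e⟩ := C.δ_pow_z hg1 hg10 hδ k
    rw [e]
    exact C.cong_aux (fun x => (wq q).w (C.lc₂ x))
      (fun x y hx hy => by
        show (wq q).w (C.lc₂ (x * y)) = _
        rw [map_mul, (wq q).map_mul _ _ ((map_ne_zero _).2 hx) ((map_ne_zero _).2 hy)])
      (fun a ha => by show (wq q).w (C.lc₂ (kc a)) = _; rw [C.lc₂_kc])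
      (fun g hg hg0 => C.w_int_lc₂ hg hg0) hc0 hw hz0 hg hg0 k
  · refine ⟨nd, ?_⟩
    rw [RVal.w_div hl2 hl1] at hnd
    have hu2 : (wq q).w (lcF (M1 * (q : ℕ)) (Wq hc u)) = (wq q).w (lcF (M1 * (q : ℕ)) u) := by
      rcases H.lc0 with h0 | h0
      · rw [h0]
      · rw [h0, RVal.w_neg]
    have hu2' : lcF (M1 * (q : ℕ)) (Wq hc u) ≠ 0 :=
      (map_ne_zero _).2 ((map_ne_zero_iff _ (Wq hc).injective).2 H.ne)
    rw [map_mul, map_mul, map_pow, map_pow, C.lc₁_alg, C.lc₂_alg,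
      (wq q).map_mul _ _ hu2' (pow_ne_zero _ hl2), (wq q).map_mul _ _ hu1 (pow_ne_zero _ hl1),
      RVal.w_pow hl2, RVal.w_pow hl1, hu2, ← hnd]
    ring

end Cov

end Fermat.Agent.S44.Cov
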