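import Fermat.Agent.S44.Geo.Cov.Tr
import Fermat.Agent.S44.Geo.Cov.IfCov
import Fermat.Agent.S44.Geo.Cov.CuspMain

/-!
# S44 / GEO / COVER : `exists_tr` (the export of C4, in the shape of `Geo/Cov/Need.lean`) from `eis_up`, `exists_goodT`, `exists_cov`, `tr_main`, `cusp₁`, `cusp₂`          (helper22)
-/

set_option autoImplicit false
set_option synthInstance.maxHeartbeats 400000
set_option linter.dupNamespace false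
set_option linter.unusedVariables false

open HahnSeries ModularCurve AlgebraicCurve Fermat.Agent.S24 Fermat.Agent.S29 Fermat.Agent.S18
  Fermat.Agent.ES Fermat.Agent.ES.Alg Fermat.Agent.S34.Mod Fermat.Agent.S05 Fermat.Agent.S55.B ExtCitation
  Fermat.Agent.S33
open Fermat.Agent.S55 (Dq Iq)

noncomputable section

namespace Fermat.Agent.S44.Cov

variable {q : Nat.Primes} {M1 r : ℕ} [NeZero M1] [NeZero (q : ℕ)] [NeZero r]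

/-- **(C4)** -/
theorem exists_tr_main (S0 : Setup M1 (q : ℕ) r (AA q)) (hq5 : 5 ≤ (q : ℕ)) (S : Set ℕ) (a : ℕ → ℤ)
    (hEis : ∃ ℓ : ℕ, ℓ.Prime ∧ ¬ ℓ ∣ 6 * (M1 * (q : ℕ)) ∧ ℓ ∈ S ∧ ¬ ((q : ℕ) : ℤ) ∣ a ℓ - (ℓ + 1))
    {u t : FN (M1 * (q : ℕ))} (H : NewHyp q M1 S0.hc S a u t)
    (b : Bool) (𝔫 : Ideal (Mod.BB S0 b)) (hmax : 𝔫.IsMaximal)
    (h1 : RingHom.ker (Mod.r1 S0 b) ≤ 𝔫) (h2 : RingHom.ker (Mod.r2 S0 b) ≤ 𝔫) :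
    ∃ (t' : FN (M1 * (q : ℕ))) (F' : Type) (_ : Field F') (_ : Algebra (FN (M1 * (q : ℕ))) F')
      (C : Cov q M1 S0.hc t' F') (z h : F') (m : ℤ) (g : FN (M1 * (q : ℕ))),
      GoodT q M1 S0.hc t' ∧ z ∈ C.Ep ∧ h ≠ 0 ∧ g ≠ 0 ∧ ¬ ((q : ℕ) : ℤ) ∣ m ∧
      z = algebraMap (FN (M1 * (q : ℕ))) F' (u ^ m * g ^ (q : ℕ)) * h ^ (q : ℕ) ∧
      ∀ k k' : ℕ, ∃ n : ℤ, C.V₂ k' z - C.V₁ k z = ((q : ℕ) : ℝ) * n := by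
  obtain ⟨u₁, t₁, g₀, m, hm, hg₀, hu₁, H₁, hlc0, hlcg⟩ := eis_up hq5 S0.hc H hEis
  obtain ⟨g, hg, hT, hdeg⟩ := exists_goodT S0 hq5 H₁
  obtain ⟨F', _, _, ⟨C⟩⟩ := exists_cov S0 hq5 hT hdeg b 𝔫 hmax.ne_top h1 h2
  have hU : UHyp q M1 S0.hc (t₁ * g ^ (q : ℕ)) u₁ :=
    { ne := H₁.pdiv_u.1
      t_ne := hT.pdiv.1
      act := fun σ hσ => by
        obtain ⟨k, h, hh⟩ := H₁.act_u σ hσ
        refine ⟨k, h * (g ^ k)⁻¹, ?_⟩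
        rw [hh, mul_pow, mul_pow, inv_pow]
        have : (g ^ k) ^ (q : ℕ) ≠ 0 := pow_ne_zero _ (pow_ne_zero _ hg)
        field_simp
        rw [← pow_mul, ← pow_mul, mul_comm k]
      ntr := H₁.ntr
      lc0 := hlc0
      lcg := hlcg }
  obtain ⟨h, hh, hz, hV1, hV2, hL1, hL2, hL⟩ := C.tr_main hU
  have hu' : algebraMap (FN (M1 * (q : ℕ))) F' u₁ ≠ 0 := by simpa using H₁.pdiv_u.1
  have hz0 : algebraMap (FN (M1 * (q : ℕ))) F' u₁ * h ^ (q : ℕ) ≠ 0 := mul_ne_zero hu' (pow_ne_zero _ hh)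
  obtain ⟨k₁, n₁, hc1⟩ := cusp₁_main S0 hq5 hT C _ hz hz0 ⟨u₁, h, H₁.pdiv_u, rfl⟩
  obtain ⟨k₂, n₂, hc2⟩ := cusp₂_main S0 hq5 hT C _ hz hz0 ⟨u₁, h, H₁.pdiv_u, rfl⟩
  refine ⟨_, F', _, _, C, _, h, m, g₀, hT, hz, hh, hg₀, hm, by rw [hu₁], fun k k' => ?_⟩
  obtain ⟨a1, e1⟩ := hV1 k
  obtain ⟨a2, e2⟩ := hV2 k'
  obtain ⟨a3, e3⟩ := hL1 k₁
  obtain ⟨a4, e4⟩ := hL2 k₂
  obtain ⟨a5, e5⟩ := hL
  refine ⟨a2 - a1 + a4 - a3 + a5 - n₂ + n₁, ?_⟩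
  push_cast
  linear_combination e2 - e1 + e4 - e3 + e5 - hc2 + hc1

end Fermat.Agent.S44.Cov
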